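import Mathlib
import Fermat.Prelude.Def_AlgebraicCurve_CanonicalDivisor

set_option autoImplicit false

open IsDedekindDomain WithZero AlgebraicCurve

namespace Fermat.Agent.S24

variable {K F : Type*} [Field K] [Field F] [Algebra K F]

theorem ord_nonneg_of_mem (v : Place K F) {f : F} (hf : f ∈ v.toValuationSubring) :
    0 ≤ v.ord f := by
  rcases eq_or_ne f 0 with rfl | hf0
  · simp
  obtain ⟨π, hπ⟩ := IsDiscreteValuationRing.exists_irreducible v.toValuationSubring
  obtain ⟨n, u, hu⟩ :=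
    IsDiscreteValuationRing.eq_unit_mul_pow_irreducible
      (x := (⟨f, hf⟩ : v.toValuationSubring)) (by simpa [Subtype.ext_iff] using hf0) hπ
  have hcoe : f = ((u : v.toValuationSubring) : F) * ((π : F) ^ (n : ℤ)) := by
    have h := congrArg (Subtype.val) hu
    push_cast at h
    rw [zpow_natCast]
    exact h
  rw [hcoe, v.ord_unit_smul_zpow u hπ (n : ℤ)]
  exact Int.natCast_nonneg n

theorem mem_of_ord_nonneg (v : Place K F) {f : F} (hf : f ≠ 0) (h : 0 ≤ v.ord f) :
    f ∈ v.toValuationSubring := by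
  obtain ⟨π, hπ⟩ := IsDiscreteValuationRing.exists_irreducible v.toValuationSubring
  obtain ⟨u, hu⟩ := v.exists_unit_mul_zpow hf hπ
  rw [hu, show v.ord f = (((v.ord f).toNat : ℕ) : ℤ) from (Int.toNat_of_nonneg h).symm,
    zpow_natCast]
  exact mul_mem (u : v.toValuationSubring).2 (pow_mem (π : v.toValuationSubring).2 _)

theorem mem_iff_ord_nonneg (v : Place K F) {f : F} (hf : f ≠ 0) :
    f ∈ v.toValuationSubring ↔ 0 ≤ v.ord f :=
  ⟨ord_nonneg_of_mem v, mem_of_ord_nonneg v hf⟩

/-- A multiplicative `ℤ`-valued function on `Fˣ` whose nonnegative locus is the valuation ring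
is a positive multiple of `ord`. -/
theorem exists_mul_ord_of_hom (v : Place K F) (φ : F → ℤ)
    (hmul : ∀ f g : F, f ≠ 0 → g ≠ 0 → φ (f * g) = φ f + φ g)
    (hmem : ∀ f : F, f ≠ 0 → (f ∈ v.toValuationSubring ↔ 0 ≤ φ f)) :
    ∃ m : ℤ, 0 < m ∧ ∀ f : F, f ≠ 0 → φ f = m * v.ord f := by
  obtain ⟨π, hπ⟩ := IsDiscreteValuationRing.exists_irreducible v.toValuationSubring
  have hπ0 : (π : F) ≠ 0 := by
    simpa [ne_eq, ZeroMemClass.coe_eq_zero] using hπ.ne_zero
  have h1 : φ 1 = 0 := by
    have := hmul 1 1 one_ne_zero one_ne_zero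
    rw [mul_one] at this
    omega
  have hinv : ∀ f : F, f ≠ 0 → φ f⁻¹ = - φ f := by
    intro f hf
    have := hmul f f⁻¹ hf (inv_ne_zero hf)
    rw [mul_inv_cancel₀ hf, h1] at this
    omega
  have hzpow : ∀ (f : F), f ≠ 0 → ∀ n : ℤ, φ (f ^ n) = n * φ f := by
    intro f hf n
    induction n using Int.induction_on with
    | zero => simp [h1]
    | succ n ih =>
      rw [zpow_add_one₀ hf, hmul _ _ (zpow_ne_zero _ hf) hf, ih]; ring
    | pred n ih =>
      rw [zpow_sub_one₀ hf, hmul _ _ (zpow_ne_zero _ hf) (inv_ne_zero hf), ih, hinv f hf]; ring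
  have hunit : ∀ u : v.toValuationSubringˣ, φ ((u : v.toValuationSubring) : F) = 0 := by
    intro u
    have hu0 : ((u : v.toValuationSubring) : F) ≠ 0 := by
      simp [ne_eq, ZeroMemClass.coe_eq_zero]
    have h1' := (hmem _ hu0).mp (u : v.toValuationSubring).2
    have hinv' : (((u⁻¹ : v.toValuationSubringˣ) : v.toValuationSubring) : F)
        = ((u : v.toValuationSubring) : F)⁻¹ := by
      have : ((u : v.toValuationSubring) : F) *
          (((u⁻¹ : v.toValuationSubringˣ) : v.toValuationSubring) : F) = 1 := by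
        have h := congrArg Subtype.val u.mul_inv
        exact h
      exact eq_inv_of_mul_eq_one_right this
    have h2' := (hmem _ (inv_ne_zero hu0)).mp
      (hinv' ▸ ((u⁻¹ : v.toValuationSubringˣ) : v.toValuationSubring).2)
    rw [hinv _ hu0] at h2'
    omega
  refine ⟨φ π, ?_, ?_⟩
  · have h0 : 0 ≤ φ π := (hmem _ hπ0).mp π.2
    rcases eq_or_lt_of_le h0 with h | h
    · exfalso
      have hmem' : (π : F)⁻¹ ∈ v.toValuationSubring :=
        (hmem _ (inv_ne_zero hπ0)).mpr (by rw [hinv _ hπ0]; omega)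
      apply hπ.not_isUnit
      refine ⟨⟨π, ⟨_, hmem'⟩, Subtype.ext (mul_inv_cancel₀ hπ0),
        Subtype.ext (inv_mul_cancel₀ hπ0)⟩, rfl⟩
    · exact h
  · intro f hf
    obtain ⟨u, hu⟩ := v.exists_unit_mul_zpow hf hπ
    have hu0 : ((u : v.toValuationSubring) : F) ≠ 0 := by
      simp [ne_eq, ZeroMemClass.coe_eq_zero]
    conv_lhs => rw [hu]
    rw [hmul _ _ hu0 (zpow_ne_zero _ hπ0), hunit, hzpow _ hπ0]
    ring

theorem ord_add_ge (v : Place K F) {f g : F} (hfg : f + g ≠ 0) (hf : f ≠ 0) (hg : g ≠ 0) :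
    min (v.ord f) (v.ord g) ≤ v.ord (f + g) := by
  have h := v.adicValuation.map_add f g
  have h1 := v.adicValuation_ne_zero hf
  have h2 := v.adicValuation_ne_zero hg
  have h3 := v.adicValuation_ne_zero hfg
  simp only [Place.ord]
  rcases le_max_iff.mp h with h | h
  · have := (WithZero.log_le_log h3 h1).mpr h
    omega
  · have := (WithZero.log_le_log h3 h2).mpr h
    omega

theorem ord_algebraMap (v : Place K F) (a : K) : v.ord (algebraMap K F a) = 0 := by
  rcases eq_or_ne a 0 with rfl | ha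
  · simp
  have h0 : algebraMap K F a ≠ 0 := by simpa using ha
  have h1 := ord_nonneg_of_mem v (v.algebraMap_mem' a)
  have h2 := ord_nonneg_of_mem v (v.algebraMap_mem' a⁻¹)
  rw [map_inv₀, v.ord_inv] at h2
  omega

end Fermat.Agent.S24
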