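import Mathlib
import Fermat.Agent.S24.PlaceBasic

set_option autoImplicit false
set_option linter.unusedSectionVars false

open IsDedekindDomain WithZero AlgebraicCurve

namespace Fermat.Agent.S24

section Dedekind

variable {K F : Type*} [Field K] [Field F] [Algebra K F]
variable {R : Type*} [CommRing R] [IsDedekindDomain R] [Algebra R F] [IsFractionRing R F]
  [Algebra K R] [IsScalarTower K R F]

theorem ofHeightOneSpectrum_ord (w : HeightOneSpectrum R) (f : F) :
    (Place.ofHeightOneSpectrum (K := K) w).ord f = - WithZero.log (w.valuation F f) := by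
  rcases eq_or_ne f 0 with rfl | hf
  · simp
  set v := Place.ofHeightOneSpectrum (K := K) (F := F) w with hv
  obtain ⟨m, hm, hφ⟩ := exists_mul_ord_of_hom v (fun f => - WithZero.log (w.valuation F f))
    (by
      intro f g hf hg
      simp only [map_mul]
      rw [WithZero.log_mul ((Valuation.ne_zero_iff _).mpr hf) ((Valuation.ne_zero_iff _).mpr hg)]
      ring)
    (by
      intro f hf
      rw [hv, Place.ofHeightOneSpectrum_toValuationSubring, Valuation.mem_valuationSubring_iff]
      have h0 : w.valuation F f ≠ 0 := (Valuation.ne_zero_iff _).mpr hf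
      rw [← WithZero.log_le_log h0 one_ne_zero, WithZero.log_one]
      omega)
  obtain ⟨π, hπ⟩ := w.valuation_exists_uniformizer F
  have hπ0 : π ≠ 0 := by
    rintro rfl
    rw [map_zero] at hπ
    exact WithZero.exp_ne_zero hπ.symm
  have h1 := hφ π hπ0
  simp only [hπ, WithZero.log_exp, neg_neg] at h1
  have hm1 : m = 1 := by
    have : m ∣ 1 := ⟨_, h1⟩
    exact Int.eq_one_of_dvd_one hm.le this
  have h2 := hφ f hf
  rw [hm1, one_mul] at h2
  exact h2.symm

/-- The centre on `R` of a place whose valuation ring contains `R`. -/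
noncomputable def centre (v : Place K F) (hv : ∀ b : R, algebraMap R F b ∈ v.toValuationSubring) :
    HeightOneSpectrum R where
  asIdeal := (IsLocalRing.maximalIdeal v.toValuationSubring).comap
    ((algebraMap R F).codRestrict v.toValuationSubring.toSubring hv)
  isPrime := Ideal.comap_isPrime _ _
  ne_bot := by
    intro hbot
    apply v.ne_top'
    refine SetLike.ext fun x => ⟨fun _ => ValuationSubring.mem_top x, fun _ => ?_⟩
    obtain ⟨a, s, hs, rfl⟩ := IsFractionRing.div_surjective (A := R) x
    have hs0 : s ≠ 0 := nonZeroDivisors.ne_zero hs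
    have hsnot : s ∉ (IsLocalRing.maximalIdeal v.toValuationSubring).comap
        ((algebraMap R F).codRestrict v.toValuationSubring.toSubring hv) := by
      rw [hbot]; simpa using hs0
    rw [Ideal.mem_comap, IsLocalRing.mem_maximalIdeal, mem_nonunits_iff, not_not] at hsnot
    obtain ⟨u, hu⟩ := hsnot
    have hu' : ((u : v.toValuationSubring) : F) = algebraMap R F s := by
      rw [hu]; rfl
    have hinv : (((u⁻¹ : v.toValuationSubringˣ) : v.toValuationSubring) : F)
        = (algebraMap R F s)⁻¹ := by
      have h : ((u : v.toValuationSubring) : F) *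
          (((u⁻¹ : v.toValuationSubringˣ) : v.toValuationSubring) : F) = 1 :=
        congrArg Subtype.val u.mul_inv
      rw [← hu']
      exact eq_inv_of_mul_eq_one_right h
    rw [div_eq_mul_inv, ← hinv]
    exact mul_mem (hv a) ((u⁻¹ : v.toValuationSubringˣ) : v.toValuationSubring).2

theorem mem_centre_iff (v : Place K F) (hv : ∀ b : R, algebraMap R F b ∈ v.toValuationSubring)
    (b : R) : b ∈ (centre v hv).asIdeal ↔ b = 0 ∨ 0 < v.ord (algebraMap R F b) := by
  show b ∈ (IsLocalRing.maximalIdeal v.toValuationSubring).comap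
    ((algebraMap R F).codRestrict v.toValuationSubring.toSubring hv) ↔ _
  rw [Ideal.mem_comap, IsLocalRing.mem_maximalIdeal, mem_nonunits_iff]
  rcases eq_or_ne b 0 with rfl | hb
  · simp
  have hb0 : algebraMap R F b ≠ 0 := by
    simpa using (IsFractionRing.injective R F).ne hb
  simp only [hb, false_or]
  have hnn := ord_nonneg_of_mem v (hv b)
  constructor
  · intro hnu
    rcases eq_or_lt_of_le hnn with h | h
    · exfalso
      apply hnu
      have hmem' : (algebraMap R F b)⁻¹ ∈ v.toValuationSubring :=
        mem_of_ord_nonneg v (inv_ne_zero hb0) (by rw [v.ord_inv]; omega)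
      exact ⟨⟨⟨_, hv b⟩, ⟨_, hmem'⟩, Subtype.ext (mul_inv_cancel₀ hb0),
        Subtype.ext (inv_mul_cancel₀ hb0)⟩, rfl⟩
    · exact h
  · intro hpos hu
    obtain ⟨u, hu⟩ := hu
    have := v.ord_coe_unit u
    rw [hu] at this
    have h2 : (((algebraMap R F).codRestrict v.toValuationSubring.toSubring hv b :
      v.toValuationSubring) : F) = algebraMap R F b := rfl
    rw [h2] at this
    omega

theorem ofHeightOneSpectrum_centre (v : Place K F)
    (hv : ∀ b : R, algebraMap R F b ∈ v.toValuationSubring) :
    Place.ofHeightOneSpectrum (K := K) (centre v hv) = v := by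
  apply Place.ext
  rw [Place.ofHeightOneSpectrum_toValuationSubring,
    ← HeightOneSpectrum.valuationSubringAtPrime_eq_valuationSubring]
  refine ValuationSubring.eq_of_le_of_ne_top _ ?_ v.ne_top'
  rw [HeightOneSpectrum.valuationSubringAtPrime_eq_valuationSubring]
  intro x hx
  rw [Valuation.mem_valuationSubring_iff] at hx
  obtain ⟨n, d, hnd⟩ := HeightOneSpectrum.exists_primeCompl_mul_eq_of_integer _ x hx
  have hd : (d : R) ∉ (centre v hv).asIdeal := d.2
  rw [mem_centre_iff, not_or] at hd
  have hd0 : algebraMap R F d ≠ 0 := by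
    simpa using (IsFractionRing.injective R F).ne hd.1
  have hdord : v.ord (algebraMap R F d) = 0 := by
    have := ord_nonneg_of_mem v (hv d)
    omega
  have hx' : x = algebraMap R F n * (algebraMap R F d)⁻¹ := by
    rw [← hnd, mul_assoc, mul_inv_cancel₀ hd0, mul_one]
  rw [hx']
  exact mul_mem (hv n) (mem_of_ord_nonneg v (inv_ne_zero hd0) (by rw [v.ord_inv]; omega))

theorem algebraMap_mem_ofHeightOneSpectrum (w : HeightOneSpectrum R) (b : R) :
    algebraMap R F b ∈ (Place.ofHeightOneSpectrum (K := K) (F := F) w).toValuationSubring := by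
  rw [Place.ofHeightOneSpectrum_toValuationSubring, Valuation.mem_valuationSubring_iff]
  exact w.valuation_le_one b

theorem centre_ofHeightOneSpectrum (w : HeightOneSpectrum R) :
    centre (Place.ofHeightOneSpectrum (K := K) (F := F) w)
      (algebraMap_mem_ofHeightOneSpectrum w) = w := by
  apply HeightOneSpectrum.ext
  ext b
  rw [mem_centre_iff, ofHeightOneSpectrum_ord, ← w.valuation_lt_one_iff_mem (K := F)]
  rcases eq_or_ne b 0 with rfl | hb
  · simp
  have hb0 : algebraMap R F b ≠ 0 := by
    simpa using (IsFractionRing.injective R F).ne hb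
  have h0 : w.valuation F (algebraMap R F b) ≠ 0 := (Valuation.ne_zero_iff _).mpr hb0
  simp only [hb, false_or]
  rw [← WithZero.log_lt_log h0 one_ne_zero, WithZero.log_one]
  omega

end Dedekind

end Fermat.Agent.S24
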