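import Mathlib

set_option autoImplicit false

open PowerSeries

namespace Fermat.Agent.S24.Expansion

noncomputable section

variable {K O : Type*} [Field K] [CommRing O] [IsDomain O] [Algebra K O]

/-- Data: a `K`-point `ρ` of `O` whose kernel is generated by `π ≠ 0`. -/
structure Datum (K O : Type*) [Field K] [CommRing O] [IsDomain O] [Algebra K O] where
  ρ : O →ₐ[K] K
  π : O
  π_ne_zero : π ≠ 0
  ρ_π : ρ π = 0
  dvd_of_ρ_eq_zero : ∀ f : O, ρ f = 0 → π ∣ f

variable (d : Datum K O)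

namespace Datum

theorem dvd_sub (f : O) : d.π ∣ f - algebraMap K O (d.ρ f) :=
  d.dvd_of_ρ_eq_zero _ (by simp)

def quo (f : O) : O := (d.dvd_sub f).choose

theorem quo_spec (f : O) : f - algebraMap K O (d.ρ f) = d.π * d.quo f :=
  (d.dvd_sub f).choose_spec

theorem eq_add (f : O) : f = algebraMap K O (d.ρ f) + d.π * d.quo f := by
  rw [← d.quo_spec f]; ring

theorem quo_unique {f g : O} {a : K} (h : f = algebraMap K O a + d.π * g) :
    d.ρ f = a ∧ d.quo f = g := by
  have h1 : d.ρ f = a := by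
    rw [h, map_add, map_mul, d.ρ_π, zero_mul, add_zero, AlgHom.commutes]
    rfl
  refine ⟨h1, ?_⟩
  have h2 := d.quo_spec f
  rw [h1] at h2
  have h3 : d.π * d.quo f = d.π * g := by rw [← h2, h]; ring
  exact mul_left_cancel₀ d.π_ne_zero h3

def quoₗ : O →ₗ[K] O where
  toFun := d.quo
  map_add' f g := (d.quo_unique (a := d.ρ f + d.ρ g) (by
    rw [map_add]
    nth_rewrite 1 [d.eq_add f, d.eq_add g]
    ring)).2
  map_smul' c f := (d.quo_unique (a := c * d.ρ f) (by
    rw [map_mul, RingHom.id_apply]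
    nth_rewrite 1 [d.eq_add f]
    rw [Algebra.smul_def, Algebra.smul_def]
    ring)).2

@[simp] theorem quoₗ_apply (f : O) : d.quoₗ f = d.quo f := rfl

theorem quo_π_mul (f : O) : d.quo (d.π * f) = f :=
  (d.quo_unique (a := 0) (by simp)).2

/-- the expansion, as a linear map -/
def σₗ : O →ₗ[K] K⟦X⟧ where
  toFun f := PowerSeries.mk fun n => d.ρ ((d.quoₗ ^ n) f)
  map_add' f g := by ext n; simp
  map_smul' c f := by ext n; simp

theorem coeff_σₗ (f : O) (n : ℕ) : coeff n (d.σₗ f) = d.ρ ((d.quoₗ ^ n) f) := by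
  simp [σₗ]

theorem σₗ_eq (f : O) : d.σₗ f = C (d.ρ f) + X * d.σₗ (d.quo f) := by
  ext n
  cases n with
  | zero => simp [coeff_σₗ]
  | succ n =>
    rw [map_add, coeff_succ_X_mul, coeff_σₗ, coeff_σₗ, coeff_C, if_neg (Nat.succ_ne_zero n),
      zero_add, pow_succ]
    rfl

theorem σₗ_π_mul (f : O) : d.σₗ (d.π * f) = X * d.σₗ f := by
  rw [σₗ_eq, quo_π_mul, map_mul, d.ρ_π, zero_mul, map_zero, zero_add]

theorem σₗ_algebraMap (a : K) : d.σₗ (algebraMap K O a) = C a := by
  have h := d.quo_unique (f := algebraMap K O a) (a := a) (g := 0) (by simp)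
  rw [σₗ_eq, h.1, h.2, map_zero, mul_zero, add_zero]

theorem X_pow_dvd_σₗ_mul_sub (n : ℕ) : ∀ f g : O,
    (X : K⟦X⟧) ^ n ∣ d.σₗ (f * g) - d.σₗ f * d.σₗ g := by
  induction n with
  | zero => intro f g; simp
  | succ n ih =>
    intro f g
    have key : d.σₗ (f * g) - d.σₗ f * d.σₗ g =
        X ^ 2 * (d.σₗ (d.quo f * d.quo g) - d.σₗ (d.quo f) * d.σₗ (d.quo g)) := by
      have hfg : f * g = algebraMap K O (d.ρ f * d.ρ g) +
          d.π * (d.ρ f • d.quo g + d.ρ g • d.quo f + d.π * (d.quo f * d.quo g)) := by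
        nth_rewrite 1 [d.eq_add f, d.eq_add g]
        rw [map_mul, Algebra.smul_def, Algebra.smul_def]
        ring
      rw [hfg, map_add, σₗ_algebraMap, σₗ_π_mul, map_add, map_add, map_smul, map_smul, σₗ_π_mul,
        d.σₗ_eq f, d.σₗ_eq g, map_mul, PowerSeries.smul_eq_C_mul, PowerSeries.smul_eq_C_mul]
      ring
    rw [key]
    obtain ⟨w, hw⟩ := ih (d.quo f) (d.quo g)
    rw [hw]
    exact ⟨X * w, by ring⟩

theorem σₗ_mul (f g : O) : d.σₗ (f * g) = d.σₗ f * d.σₗ g := by
  rw [← sub_eq_zero]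
  ext n
  have := (X_pow_dvd_iff.mp (d.X_pow_dvd_σₗ_mul_sub (n + 1) f g)) n (Nat.lt_succ_self n)
  simpa using this

/-- the expansion, as an algebra hom -/
def σ : O →ₐ[K] K⟦X⟧ :=
  AlgHom.ofLinearMap d.σₗ (by
    have := d.σₗ_algebraMap 1
    simpa using this) d.σₗ_mul

theorem σ_π : d.σ d.π = X := by
  have := d.σₗ_π_mul 1
  rw [mul_one] at this
  change d.σₗ d.π = X
  rw [this]
  have h1 := d.σₗ_algebraMap 1
  rw [map_one (algebraMap K O), map_one C] at h1
  rw [h1, mul_one]

theorem constantCoeff_σ (f : O) : constantCoeff (d.σ f) = d.ρ f := by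
  change constantCoeff (d.σₗ f) = _
  rw [σₗ_eq]
  simp

theorem σ_π_pow_mul (n : ℕ) (f : O) : d.σ (d.π ^ n * f) = X ^ n * d.σ f := by
  rw [map_mul, map_pow, σ_π]

theorem isUnit_σ {u : O} (hu : IsUnit u) : IsUnit (d.σ u) := hu.map d.σ

open KaehlerDifferential in
/-- Key relation: a linear relation between `df` and `dπ` over the fraction field is seen by the
formal derivative of the expansions. -/
theorem σ_eq_of_smul_D_eq (hinj : Function.Injective d.σ)
    {F : Type*} [Field F] [Algebra O F] [IsFractionRing O F] [Algebra K F] [IsScalarTower K O F]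
    (f a s : O)
    (h : s • D K F (algebraMap O F f) = a • D K F (algebraMap O F d.π)) :
    d.σ a = d.σ s * PowerSeries.derivative K (d.σ f) := by
  let _ : Algebra O K⟦X⟧ := d.σ.toRingHom.toAlgebra
  have : IsScalarTower K O K⟦X⟧ := IsScalarTower.of_algebraMap_eq fun c => (d.σ.commutes c).symm
  let δ : Derivation K O K⟦X⟧ := (PowerSeries.derivative K).compAlgebraMap O
  let φ : Ω[O⁄K] →ₗ[O] K⟦X⟧ := δ.liftKaehlerDifferential
  have hφ : ∀ g : O, φ (D K O g) = PowerSeries.derivative K (d.σ g) := fun g => by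
    simp only [φ, Derivation.liftKaehlerDifferential_comp_D]
    rfl
  have hsm : ∀ (c : O) (p : K⟦X⟧), c • p = d.σ c * p := fun c p => rfl
  set m : Ω[O⁄K] := s • D K O f - a • D K O d.π with hm
  have hmap : KaehlerDifferential.map K K O F m = 0 := by
    rw [hm, map_sub, map_smul, map_smul, KaehlerDifferential.map_D, KaehlerDifferential.map_D, h,
      sub_self]
  have := KaehlerDifferential.isLocalizedModule_map K O F (nonZeroDivisors O)
  obtain ⟨t, ht⟩ := (IsLocalizedModule.eq_zero_iff (nonZeroDivisors O)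
    (KaehlerDifferential.map K K O F)).mp hmap
  have h2 : φ (t • m) = 0 := by rw [ht, map_zero]
  rw [Submonoid.smul_def, map_smul, hm, map_sub, map_smul, map_smul, hφ, hφ, σ_π,
    PowerSeries.derivative_X, hsm, hsm, hsm, mul_one] at h2
  have ht0 : d.σ (t : O) ≠ 0 := by
    intro h0
    have : (t : O) = 0 := hinj (by rw [h0, map_zero])
    exact nonZeroDivisors.coe_ne_zero t this
  have h3 := (mul_eq_zero.mp h2).resolve_left ht0
  exact (sub_eq_zero.mp h3).symm

end Datum

end

end Fermat.Agent.S24.Expansion
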