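import Mathlib
import Fermat.Prelude.Def_AlgebraicCurve_CanonicalDivisor
import Fermat.Agent.S24.Expansion

set_option autoImplicit false

open KaehlerDifferential AlgebraicCurve Polynomial TensorProduct

namespace Fermat.Agent.S24.Differential

noncomputable section

universe u v

variable {K : Type u} {F : Type v} [Field K] [Field F] [Algebra K F]

theorem isAlgebraic_adjoin_of_transcendental (htr : Algebra.trdeg K F = 1) {x : F}
    (hx : Transcendental K x) : Algebra.IsAlgebraic (Algebra.adjoin K {x}) F := by
  have hind : AlgebraicIndependent K (fun _ : PUnit.{v + 1} => x) :=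
    algebraicIndependent_unique_type_iff.mpr hx
  have hb := hind.isTranscendenceBasis_of_trdeg_le_of_finite (by rw [htr]; simp)
  have := hb.isAlgebraic
  rwa [Set.range_const] at this

section Kaehler

variable [CharZero K]

/-- `F` is formally etale over `K[X]` along `X ↦ x`. -/
theorem formallyEtale_aeval (x : F) (hx : Transcendental K x)
    (halg : Algebra.IsAlgebraic (Algebra.adjoin K {x}) F) :
    letI : Algebra K[X] F := (aeval x).toAlgebra
    Algebra.FormallyEtale K[X] F := by
  let _ : Algebra K[X] F := (aeval x).toAlgebra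
  have hinj : Function.Injective (algebraMap K[X] F) := transcendental_iff_injective.mp hx
  have : FaithfulSMul K[X] F := (faithfulSMul_iff_algebraMap_injective _ _).mpr hinj
  let _ : Algebra (FractionRing K[X]) F := FractionRing.liftAlgebra K[X] F
  have : IsScalarTower K[X] (FractionRing K[X]) F := FractionRing.isScalarTower_liftAlgebra _ _
  have h1 : Algebra.FormallyEtale K[X] (FractionRing K[X]) :=
    Algebra.FormallyEtale.of_isLocalization (nonZeroDivisors K[X])
  have halg' : Algebra.IsAlgebraic K[X] F := by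
    let f : K[X] →+* Algebra.adjoin K {x} :=
      (aeval (⟨x, Algebra.self_mem_adjoin_singleton K x⟩ : Algebra.adjoin K {x})).toRingHom
    refine Algebra.IsAlgebraic.of_ringHom_of_comp_eq (S := Algebra.adjoin K {x}) (B := F) f
      (RingHom.id F) ?_ Function.injective_id ?_
    · rintro ⟨y, hy⟩
      rw [Algebra.adjoin_singleton_eq_range_aeval] at hy
      obtain ⟨p, rfl⟩ := hy
      refine ⟨p, Subtype.ext ?_⟩
      change ((aeval (⟨x, Algebra.self_mem_adjoin_singleton K x⟩ : Algebra.adjoin K {x}) p :
        Algebra.adjoin K {x}) : F) = _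
      rw [← Subalgebra.coe_val, ← aeval_algHom_apply]
      rfl
    · ext p
      · simp only [f, AlgHom.toRingHom_eq_coe, RingHom.coe_comp, RingHom.coe_coe,
          Function.comp_apply, aeval_C]
        change _ = aeval x (C p)
        rw [aeval_C]
        rfl
      · simp only [f, AlgHom.toRingHom_eq_coe, RingHom.coe_comp, RingHom.coe_coe,
          Function.comp_apply, aeval_X]
        change _ = aeval x X
        rw [aeval_X]
        rfl
  have : Algebra.IsAlgebraic (FractionRing K[X]) F :=
    IsFractionRing.comap_isAlgebraic_iff.mp halg'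
  have : CharZero (FractionRing K[X]) :=
    charZero_of_injective_algebraMap (IsFractionRing.injective K[X] (FractionRing K[X]))
  have : Algebra.IsSeparable (FractionRing K[X]) F :=
    Algebra.IsAlgebraic.isSeparable_of_perfectField
  have h2 : Algebra.FormallyEtale (FractionRing K[X]) F :=
    Algebra.FormallyEtale.of_isSeparable _ _
  exact Algebra.FormallyEtale.comp K[X] (FractionRing K[X]) F

theorem exists_linearEquiv_kaehler (x : F) (hx : Transcendental K x)
    (halg : Algebra.IsAlgebraic (Algebra.adjoin K {x}) F) :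
    ∃ e : F ≃ₗ[F] Ω[F⁄K], e 1 = D K F x := by
  let _ : Algebra K[X] F := (aeval x).toAlgebra
  have : IsScalarTower K K[X] F := IsScalarTower.of_algebraMap_eq fun a => by
    change _ = aeval x (C a)
    rw [aeval_C]
  have : Algebra.FormallyEtale K[X] F := formallyEtale_aeval x hx halg
  let e1 := tensorKaehlerEquivOfFormallyEtale K K[X] F
  let e2 : F ⊗[K[X]] Ω[K[X]⁄K] ≃ₗ[F] F ⊗[K[X]] K[X] :=
    TensorProduct.AlgebraTensorModule.congr (LinearEquiv.refl F F) (polynomialEquiv K)
  let e3 : F ⊗[K[X]] K[X] ≃ₗ[F] F := TensorProduct.AlgebraTensorModule.rid K[X] F F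
  refine ⟨(e3.symm.trans e2.symm).trans e1, ?_⟩
  have h3 : e3.symm 1 = (1 : F) ⊗ₜ[K[X]] (1 : K[X]) := by
    rw [LinearEquiv.symm_apply_eq]
    simp [e3]
  have h2 : e2.symm ((1 : F) ⊗ₜ[K[X]] (1 : K[X])) = (1 : F) ⊗ₜ[K[X]] (D K K[X] X) := by
    rw [LinearEquiv.symm_apply_eq]
    simp [e2]
  have h1 : e1 ((1 : F) ⊗ₜ[K[X]] (D K K[X] X)) = D K F x := by
    simp only [e1, tensorKaehlerEquivOfFormallyEtale_apply, mapBaseChange_tmul, one_smul, map_D]
    congr 1
    change aeval x X = x
    rw [aeval_X]
  simp only [LinearEquiv.trans_apply, h3, h2, h1]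

theorem span_D_eq_top (x : F) (hx : Transcendental K x)
    (halg : Algebra.IsAlgebraic (Algebra.adjoin K {x}) F) :
    Submodule.span F {D K F x} = ⊤ := by
  obtain ⟨e, he⟩ := exists_linearEquiv_kaehler x hx halg
  rw [eq_top_iff]
  intro ω _
  rw [Submodule.mem_span_singleton]
  refine ⟨e.symm ω, ?_⟩
  rw [← he, ← map_smul, smul_eq_mul, mul_one, LinearEquiv.apply_symm_apply]

theorem D_ne_zero (x : F) (hx : Transcendental K x)
    (halg : Algebra.IsAlgebraic (Algebra.adjoin K {x}) F) :
    D K F x ≠ 0 := by
  obtain ⟨e, he⟩ := exists_linearEquiv_kaehler x hx halg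
  rw [← he]
  intro h
  exact one_ne_zero (e.map_eq_zero_iff.mp h)

end Kaehler

section Places

variable (v : Place K F)

theorem exists_irreducible_dCoord :
    ∃ π : v.toValuationSubring, Irreducible π ∧ v.dCoord = D K F (π : F) :=
  ⟨(IsDiscreteValuationRing.exists_irreducible v.toValuationSubring).choose,
    (IsDiscreteValuationRing.exists_irreducible v.toValuationSubring).choose_spec, rfl⟩

theorem mem_of_isAlgebraic {f : F} (hf : IsAlgebraic K f) : f ∈ v.toValuationSubring := by
  have h1 : IsIntegral v.toValuationSubring f := hf.isIntegral.tower_top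
  obtain ⟨y, hy⟩ := IsIntegrallyClosed.algebraMap_eq_of_integral h1
  rw [← hy]
  exact y.2

theorem ord_eq_zero_of_isAlgebraic {f : F} (hf : IsAlgebraic K f) : v.ord f = 0 := by
  rcases eq_or_ne f 0 with rfl | h0
  · simp
  have h1 := mem_of_isAlgebraic v hf
  have h2 := mem_of_isAlgebraic v hf.inv
  let u : v.toValuationSubringˣ :=
    ⟨⟨f, h1⟩, ⟨f⁻¹, h2⟩, Subtype.ext (mul_inv_cancel₀ h0), Subtype.ext (inv_mul_cancel₀ h0)⟩
  exact v.ord_coe_unit u

theorem transcendental_of_ord_ne_zero {f : F} (hf : v.ord f ≠ 0) : Transcendental K f :=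
  fun h => hf (ord_eq_zero_of_isAlgebraic v h)

theorem dCoordGenerates [CharZero K] (htr : Algebra.trdeg K F = 1) : v.DCoordGenerates := by
  obtain ⟨π, hπ, hd⟩ := exists_irreducible_dCoord v
  have ht : Transcendental K (π : F) :=
    transcendental_of_ord_ne_zero v (by rw [v.ord_coe_irreducible hπ]; exact one_ne_zero)
  exact ⟨by rw [hd]; exact span_D_eq_top _ ht (isAlgebraic_adjoin_of_transcendental htr ht)⟩

omit v in
theorem exists_transcendental (htr : Algebra.trdeg K F = 1) : ∃ x : F, Transcendental K x := by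
  have h : Algebra.Transcendental K F := trdeg_ne_zero_iff.mp (by rw [htr]; exact one_ne_zero)
  exact h.transcendental

omit v in
theorem nontrivial_kaehler [CharZero K] (htr : Algebra.trdeg K F = 1) : Nontrivial Ω[F⁄K] := by
  obtain ⟨x, ht⟩ := exists_transcendental htr
  exact ⟨⟨_, _, D_ne_zero _ ht (isAlgebraic_adjoin_of_transcendental htr ht)⟩⟩

/-- the residue map to `K` when the residue field is `K` -/
def residueAlgHom (hres : Function.Surjective (algebraMap K v.ResidueField)) :
    v.toValuationSubring →ₐ[K] K :=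
  ((AlgEquiv.ofBijective (Algebra.ofId K v.ResidueField)
    ⟨(algebraMap K v.ResidueField).injective, hres⟩).symm : v.ResidueField →ₐ[K] K).comp
    (IsScalarTower.toAlgHom K v.toValuationSubring v.ResidueField)

theorem residueAlgHom_eq_zero_iff (hres : Function.Surjective (algebraMap K v.ResidueField))
    (f : v.toValuationSubring) :
    residueAlgHom v hres f = 0 ↔ f ∈ IsLocalRing.maximalIdeal v.toValuationSubring := by
  rw [← IsLocalRing.residue_eq_zero_iff]
  simp only [residueAlgHom, AlgHom.comp_apply]
  exact EmbeddingLike.map_eq_zero_iff (f := (AlgEquiv.ofBijective (Algebra.ofId K v.ResidueField)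
    ⟨(algebraMap K v.ResidueField).injective, hres⟩).symm)

/-- the expansion datum attached to a place with residue field `K` and a uniformizer -/
def datum (hres : Function.Surjective (algebraMap K v.ResidueField))
    {π : v.toValuationSubring} (hπ : Irreducible π) : Expansion.Datum K v.toValuationSubring where
  ρ := residueAlgHom v hres
  π := π
  π_ne_zero := hπ.ne_zero
  ρ_π := by
    rw [residueAlgHom_eq_zero_iff, hπ.maximalIdeal_eq]
    exact Ideal.mem_span_singleton_self π
  dvd_of_ρ_eq_zero f hf := by
    rw [residueAlgHom_eq_zero_iff, hπ.maximalIdeal_eq, Ideal.mem_span_singleton] at hf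
    exact hf

theorem exists_ord_order (hres : Function.Surjective (algebraMap K v.ResidueField))
    {π : v.toValuationSubring} (hπ : Irreducible π) {g : v.toValuationSubring} (hg : g ≠ 0) :
    ∃ n : ℕ, v.ord (g : F) = n ∧ ((datum v hres hπ).σ g).order = n := by
  obtain ⟨n, u, hu⟩ := IsDiscreteValuationRing.eq_unit_mul_pow_irreducible hg hπ
  refine ⟨n, ?_, ?_⟩
  · have := v.ord_unit_smul_zpow u hπ n
    rw [hu]
    simpa using this
  · rw [hu, map_mul, map_pow]
    have h1 : (datum v hres hπ).σ π = PowerSeries.X := (datum v hres hπ).σ_π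
    rw [h1, PowerSeries.order_mul, PowerSeries.order_X_pow,
      PowerSeries.order_zero_of_unit ((datum v hres hπ).isUnit_σ u.isUnit), zero_add]

theorem σ_injective (hres : Function.Surjective (algebraMap K v.ResidueField))
    {π : v.toValuationSubring} (hπ : Irreducible π) :
    Function.Injective (datum v hres hπ).σ := by
  rw [injective_iff_map_eq_zero]
  intro g hg
  by_contra h0
  obtain ⟨n, -, hn⟩ := exists_ord_order v hres hπ h0
  rw [hg, PowerSeries.order_zero] at hn
  exact ENat.top_ne_natCast n hn

omit v in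
theorem order_derivative [CharZero K] {p : PowerSeries K} {e : ℕ} (hp : p.order = (e + 1 : ℕ)) :
    (PowerSeries.derivative K p).order = e := by
  rw [PowerSeries.order_eq_nat] at hp ⊢
  refine ⟨?_, fun i hi => ?_⟩
  · rw [PowerSeries.coeff_derivative]
    exact mul_ne_zero hp.1 (by exact_mod_cast Nat.succ_ne_zero e)
  · rw [PowerSeries.coeff_derivative, hp.2 (i + 1) (by omega), zero_mul]

theorem ord_coeff_of_pos [CharZero K]
    (hres : Function.Surjective (algebraMap K v.ResidueField))
    {π : v.toValuationSubring} (hπ : Irreducible π) (f : v.toValuationSubring) {e : ℕ}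
    (hf : v.ord (f : F) = (e + 1 : ℕ)) {f' : F} (h : D K F (f : F) = f' • D K F (π : F)) :
    v.ord f' = e := by
  obtain ⟨a, s, hs, rfl⟩ := IsFractionRing.div_surjective v.toValuationSubring f'
  have hs0 : s ≠ 0 := nonZeroDivisors.ne_zero hs
  have hsF : algebraMap v.toValuationSubring F s ≠ 0 := by
    simpa using hs0
  have hrel : s • D K F (algebraMap v.toValuationSubring F f) =
      a • D K F (algebraMap v.toValuationSubring F (datum v hres hπ).π) := by
    change s • D K F (f : F) = a • D K F (π : F)
    rw [h, ← algebraMap_smul F s, ← algebraMap_smul F a, smul_smul, mul_div_cancel₀ _ hsF]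
  have key := (datum v hres hπ).σ_eq_of_smul_D_eq (σ_injective v hres hπ) f a s hrel
  have hf0 : f ≠ 0 := by
    rintro rfl
    simp at hf
    omega
  obtain ⟨n, hn1, hn2⟩ := exists_ord_order v hres hπ hf0
  have hne : n = e + 1 := by
    rw [hf] at hn1
    exact_mod_cast hn1.symm
  rw [hne] at hn2
  have hder := order_derivative hn2
  obtain ⟨ns, hs1, hs2⟩ := exists_ord_order v hres hπ hs0
  have ha0 : a ≠ 0 := by
    rintro rfl
    have := congrArg PowerSeries.order key
    rw [map_zero, PowerSeries.order_zero, PowerSeries.order_mul, hs2, hder] at this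
    exact ENat.top_ne_natCast (ns + e) (by rw [this]; push_cast; rfl)
  obtain ⟨na, ha1, ha2⟩ := exists_ord_order v hres hπ ha0
  have hord := congrArg PowerSeries.order key
  rw [PowerSeries.order_mul, hs2, hder, ha2] at hord
  have hnat : na = ns + e := by exact_mod_cast hord
  have haF : algebraMap v.toValuationSubring F a ≠ 0 := by
    simpa using ha0
  rw [div_eq_mul_inv, v.ord_mul haF (inv_ne_zero hsF), v.ord_inv]
  change v.ord (a : F) + -v.ord (s : F) = e
  rw [ha1, hs1, hnat]
  push_cast
  ring

theorem mem_of_ord_nonneg {f : F} (hf : 0 ≤ v.ord f) : f ∈ v.toValuationSubring := by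
  rcases eq_or_ne f 0 with rfl | h0
  · exact zero_mem _
  obtain ⟨π, hπ⟩ := IsDiscreteValuationRing.exists_irreducible v.toValuationSubring
  obtain ⟨u, hu⟩ := v.exists_unit_mul_zpow h0 hπ
  obtain ⟨n, hn⟩ := Int.eq_ofNat_of_zero_le hf
  rw [hu, hn, zpow_natCast]
  exact mul_mem (u : v.toValuationSubring).2 (pow_mem π.2 n)

theorem ord_neg (f : F) : v.ord (-f) = v.ord f := by
  simp [Place.ord]

theorem surjective_algebraMap_of_deg_eq_one (h : v.deg = 1) :
    Function.Surjective (algebraMap K v.ResidueField) := by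
  rw [Algebra.surjective_algebraMap_iff]
  exact (Subalgebra.bot_eq_top_of_finrank_eq_one h).symm

theorem differentialCoeff_ne_zero [CharZero K] (htr : Algebra.trdeg K F = 1) {ω : Ω[F⁄K]}
    (hω : ω ≠ 0) : v.differentialCoeff ω ≠ 0 := by
  have := dCoordGenerates v htr
  intro h
  apply hω
  rw [← v.differentialCoeff_smul_dCoord ω, h, zero_smul]

theorem ordDifferential_smul [CharZero K] (htr : Algebra.trdeg K F = 1) {c : F} (hc : c ≠ 0)
    {ω : Ω[F⁄K]} (hω : ω ≠ 0) :
    v.ordDifferential (c • ω) = v.ord c + v.ordDifferential ω := by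
  have := dCoordGenerates v htr
  have := nontrivial_kaehler (K := K) (F := F) htr
  exact v.ordDifferential_smul hc (differentialCoeff_ne_zero v htr hω)

/-- `ord_v(dy) = ord_v(y - c) - 1` at a zero of `y - c`. -/
theorem ordDifferential_D_of_pos [CharZero K] (htr : Algebra.trdeg K F = 1)
    (hres : Function.Surjective (algebraMap K v.ResidueField)) (y : F) (c : K)
    (h : 0 < v.ord (y - algebraMap K F c)) :
    v.ordDifferential (D K F y) = v.ord (y - algebraMap K F c) - 1 := by
  have := dCoordGenerates v htr
  obtain ⟨π, hπ, hd⟩ := exists_irreducible_dCoord v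
  obtain ⟨n, hn⟩ := Int.eq_ofNat_of_zero_le h.le
  obtain ⟨e, rfl⟩ : ∃ e, n = e + 1 := ⟨n - 1, by omega⟩
  have hmem := mem_of_ord_nonneg v h.le
  have hD : D K F y = D K F (y - algebraMap K F c) := by
    rw [map_sub, Derivation.map_algebraMap, sub_zero]
  have h1 := v.differentialCoeff_smul_dCoord (D K F y)
  rw [hd] at h1
  have h2 := ord_coeff_of_pos v hres hπ ⟨_, hmem⟩ (e := e) hn
    (f' := v.differentialCoeff (D K F y)) (by rw [h1, hD])
  rw [Place.ordDifferential, h2, hn]
  push_cast
  ring

/-- `ord_v(dy) = ord_v(y) - 1` at a pole of `y`. -/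
theorem ordDifferential_D_of_neg [CharZero K] (htr : Algebra.trdeg K F = 1)
    (hres : Function.Surjective (algebraMap K v.ResidueField)) (y : F) (h : v.ord y < 0) :
    v.ordDifferential (D K F y) = v.ord y - 1 := by
  have hy0 : y ≠ 0 := by
    rintro rfl
    simp at h
  have hinv : v.ord y⁻¹ = -v.ord y := v.ord_inv y
  have h1 := ordDifferential_D_of_pos v htr hres y⁻¹ 0 (by rw [map_zero, sub_zero, hinv]; omega)
  rw [map_zero, sub_zero, hinv] at h1
  have ht : Transcendental K y⁻¹ := transcendental_of_ord_ne_zero v (by rw [hinv]; omega)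
  have hne : D K F y⁻¹ ≠ 0 := D_ne_zero _ ht (isAlgebraic_adjoin_of_transcendental htr ht)
  have h2 : D K F y = (-(y ^ 2)) • D K F y⁻¹ := by
    have := Derivation.leibniz_inv (D K F) y⁻¹
    rw [inv_inv] at this
    rw [this]
  rw [h2, ordDifferential_smul v htr (neg_ne_zero.mpr (pow_ne_zero 2 hy0)) hne, h1, ord_neg, pow_two,
    v.ord_mul hy0 hy0]
  ring

end Places

end

end Fermat.Agent.S24.Differential
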