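import Mathlib
import Fermat.Agent.S24.PlaceDedekind

set_option autoImplicit false
set_option linter.unusedSectionVars false
set_option linter.deprecated false
set_option linter.style.haveILetI false
set_option linter.overlappingInstances false

open IsDedekindDomain WithZero AlgebraicCurve Module

namespace Fermat.Agent.S24

section SumFormula

variable {k A E F B : Type*} [Field k] [IsAlgClosed k] [CommRing A] [IsDomain A]
  [IsDedekindDomain A] [Field E] [Field F]
  [Algebra k A] [Algebra A E] [IsFractionRing A E] [Algebra E F] [Algebra A F]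
  [IsScalarTower A E F] [Algebra k F] [IsScalarTower k A F]
  [CommRing B] [IsDedekindDomain B] [Algebra A B] [Algebra B F] [IsScalarTower A B F]
  [IsIntegralClosure B A F] [IsFractionRing B F] [Module.Finite A B] [Algebra k B]
  [IsScalarTower k B F] [IsScalarTower k A B] [FaithfulSMul A F]

omit [IsAlgClosed k] in
theorem integralClosure_le_place (v : Place k F)
    (hv : ∀ a : A, algebraMap A F a ∈ v.toValuationSubring) (b : B) :
    algebraMap B F b ∈ v.toValuationSubring := by
  letI : Algebra A v.toValuationSubring :=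
    ((algebraMap A F).codRestrict v.toValuationSubring.toSubring hv).toAlgebra
  letI : IsScalarTower A v.toValuationSubring F :=
    IsScalarTower.of_algebraMap_eq fun f => rfl
  have hb : IsIntegral A (algebraMap B F b) := (IsIntegralClosure.isIntegral A F b).algebraMap
  have hx : IsIntegral v.toValuationSubring (algebraMap B F b) := hb.tower_top
  obtain ⟨y, hy⟩ := IsIntegrallyClosed.isIntegral_iff.mp hx
  rw [← hy]
  exact y.2

theorem inertiaDeg_eq_one (F : Type*) [Field F] [Algebra A F] [Algebra B F] [IsScalarTower A B F]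
    [IsIntegralClosure B A F] (p : Ideal A) [hp : p.IsMaximal]
    (hres : Function.Surjective (algebraMap k (A ⧸ p)))
    (P : Ideal B) [P.IsPrime] [P.LiesOver p] :
    p.inertiaDeg' P = 1 := by
  rw [Ideal.inertiaDeg'_algebraMap]
  have : Algebra.IsIntegral k (A ⧸ p) := Algebra.isIntegral_of_surjective hres
  have : Algebra.IsIntegral k (B ⧸ P) := by
    constructor
    intro x
    obtain ⟨b, rfl⟩ := Ideal.Quotient.mk_surjective x
    have hb : IsIntegral A b := IsIntegralClosure.isIntegral A F b
    have h1 : IsIntegral (A ⧸ p) (Ideal.Quotient.mk P b) :=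
      hb.map_of_comp_eq (Ideal.Quotient.mk p) (Ideal.Quotient.mk P) rfl
    exact isIntegral_trans _ h1
  have hsurj : Function.Surjective (algebraMap k (B ⧸ P)) :=
    (IsAlgClosed.algebraMap_bijective_of_isIntegral (k := k)).2
  have hbij : Function.Bijective (Algebra.linearMap (A ⧸ p) (B ⧸ P)) := by
    constructor
    · exact FaithfulSMul.algebraMap_injective (A ⧸ p) (B ⧸ P)
    · intro w
      obtain ⟨c, hc⟩ := hsurj w
      refine ⟨algebraMap k (A ⧸ p) c, ?_⟩
      rw [Algebra.linearMap_apply, ← hc, ← IsScalarTower.algebraMap_apply]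
  rw [← (LinearEquiv.ofBijective _ hbij).finrank_eq, Module.finrank_self]

omit [IsAlgClosed k] in
theorem ramificationIdx_eq_ord (t : A) (ht : t ≠ 0) (w : HeightOneSpectrum B) :
    ((Ideal.span {t}).ramificationIdx' w.asIdeal : ℤ)
      = (Place.ofHeightOneSpectrum (K := k) (F := F) w).ord (algebraMap A F t) := by
  rw [ofHeightOneSpectrum_ord, IsScalarTower.algebraMap_apply A B F, w.valuation_of_algebraMap]
  have hinj : Function.Injective (algebraMap A B) := by
    have h1 : Function.Injective (algebraMap A F) := FaithfulSMul.algebraMap_injective A F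
    rw [IsScalarTower.algebraMap_eq A B F] at h1
    exact Function.Injective.of_comp h1
  have hb0 : algebraMap A B t ≠ 0 := by
    simpa using hinj.ne ht
  set b := algebraMap A B t with hb
  have hv0 : w.intValuation b ≠ 0 := w.intValuation_ne_zero b hb0
  have hle : w.intValuation b ≤ 1 := w.intValuation_le_one b
  have hlog : (w.intValuation b).log ≤ 0 := by
    rw [← WithZero.log_one]
    exact (WithZero.log_le_log hv0 one_ne_zero).mpr hle
  obtain ⟨n, hn⟩ : ∃ n : ℕ, (w.intValuation b).log = -(n : ℤ) :=
    ⟨(-(w.intValuation b).log).toNat, by omega⟩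
  have hval : w.intValuation b = exp (-(n : ℤ)) := by
    rw [← hn, WithZero.exp_log hv0]
  rw [hn, neg_neg]
  congr 1
  apply Ideal.ramificationIdx'_spec
  · rw [Ideal.map_span, Set.image_singleton, Ideal.span_singleton_le_iff_mem,
      ← w.intValuation_le_pow_iff_mem, hval]
  · rw [Ideal.map_span, Set.image_singleton, Ideal.span_singleton_le_iff_mem,
      ← w.intValuation_le_pow_iff_mem, ← hb, hval, WithZero.exp_le_exp]
    push_cast
    omega

theorem exists_finset_sum_ord (E : Type*) [Field E] [Algebra A E] [IsFractionRing A E]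
    [Algebra E F] [IsScalarTower A E F]
    (B : Type*) [CommRing B] [IsDedekindDomain B] [Algebra A B] [Algebra B F] [IsScalarTower A B F]
    [IsIntegralClosure B A F] [IsFractionRing B F] [Module.Finite A B] [Algebra k B]
    [IsScalarTower k B F] [IsScalarTower k A B]
    (t : A) (ht0 : t ≠ 0) [hmax : (Ideal.span {t}).IsMaximal]
    (hres : Function.Surjective (algebraMap k (A ⧸ Ideal.span {t}))) :
    ∃ Z : Finset (Place k F),
      (∀ v, v ∈ Z ↔ (∀ a : A, algebraMap A F a ∈ v.toValuationSubring) ∧
        0 < v.ord (algebraMap A F t)) ∧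
      ∑ v ∈ Z, v.ord (algebraMap A F t) = finrank E F := by
  classical
  set p : Ideal A := Ideal.span {t} with hp
  have hp0 : p ≠ ⊥ := by
    rw [hp, Ne, Ideal.span_singleton_eq_bot]; exact ht0
  have hinjF : Function.Injective (algebraMap A F) := FaithfulSMul.algebraMap_injective A F
  have hinj : Function.Injective (algebraMap A B) := by
    have h1 := hinjF
    rw [IsScalarTower.algebraMap_eq A B F] at h1
    exact Function.Injective.of_comp h1
  have : Module.IsTorsionFree A B := by
    have : FaithfulSMul A B := (faithfulSMul_iff_algebraMap_injective A B).mpr hinj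
    infer_instance
  have hsum := Ideal.sum_ramification_inertia B E F hp0
  have hmem : ∀ P : Ideal B, P ∈ IsDedekindDomain.primesOverFinset p B ↔ P.IsPrime ∧ P.LiesOver p := by
    intro P
    rw [IsDedekindDomain.mem_primesOverFinset_iff hp0 B]
    exact Iff.rfl
  have hne : ∀ P : Ideal B, P.LiesOver p → P ≠ ⊥ := by
    intro P hP hbot
    have h1 : t ∈ p := Ideal.mem_span_singleton_self t
    rw [hP.over, Ideal.mem_comap, hbot, Ideal.mem_bot] at h1
    exact ht0 (hinj (by rw [h1, map_zero]))
  let g : {P // P ∈ IsDedekindDomain.primesOverFinset p B} → Place k F := fun P =>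
    Place.ofHeightOneSpectrum (K := k) (F := F)
      ⟨P.1, ((hmem P.1).mp P.2).1, hne P.1 ((hmem P.1).mp P.2).2⟩
  have hg : Function.Injective g := by
    intro P Q hPQ
    have h1 := centre_ofHeightOneSpectrum (K := k) (F := F)
      (⟨P.1, ((hmem P.1).mp P.2).1, hne P.1 ((hmem P.1).mp P.2).2⟩ : HeightOneSpectrum B)
    have h2 := centre_ofHeightOneSpectrum (K := k) (F := F)
      (⟨Q.1, ((hmem Q.1).mp Q.2).1, hne Q.1 ((hmem Q.1).mp Q.2).2⟩ : HeightOneSpectrum B)
    have h3 : (⟨P.1, ((hmem P.1).mp P.2).1, hne P.1 ((hmem P.1).mp P.2).2⟩ : HeightOneSpectrum B)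
        = ⟨Q.1, ((hmem Q.1).mp Q.2).1, hne Q.1 ((hmem Q.1).mp Q.2).2⟩ := by
      rw [← h1, ← h2]
      congr 1
    exact Subtype.ext (congrArg HeightOneSpectrum.asIdeal h3)
  refine ⟨(IsDedekindDomain.primesOverFinset p B).attach.image g, ?_, ?_⟩
  · intro v
    simp only [Finset.mem_image, Finset.mem_attach, true_and]
    constructor
    · rintro ⟨P, rfl⟩
      refine ⟨fun a => ?_, ?_⟩
      · rw [IsScalarTower.algebraMap_apply A B F]
        exact algebraMap_mem_ofHeightOneSpectrum _ _
      · have h1 := ramificationIdx_eq_ord (k := k) (F := F) t ht0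
          (⟨P.1, ((hmem P.1).mp P.2).1, hne P.1 ((hmem P.1).mp P.2).2⟩ : HeightOneSpectrum B)
        have h2 : p.ramificationIdx' P.1 ≠ 0 := by
          have := ((hmem P.1).mp P.2).1
          have := ((hmem P.1).mp P.2).2
          exact Ideal.IsDedekindDomain.ramificationIdx'_ne_zero_of_liesOver P.1 hp0
        show 0 < (Place.ofHeightOneSpectrum (K := k) (F := F) _).ord _
        rw [← h1]
        exact_mod_cast Nat.pos_of_ne_zero h2
    · rintro ⟨hv, hpos⟩
      have hvB : ∀ b : B, algebraMap B F b ∈ v.toValuationSubring :=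
        integralClosure_le_place v hv
      have hc := ofHeightOneSpectrum_centre v hvB
      have hlies : (centre v hvB).asIdeal.LiesOver p := by
        constructor
        have hle : p ≤ (centre v hvB).asIdeal.comap (algebraMap A B) := by
          rw [hp, Ideal.span_singleton_le_iff_mem, Ideal.mem_comap, mem_centre_iff]
          right
          rw [← IsScalarTower.algebraMap_apply A B F]
          exact hpos
        exact hmax.eq_of_le (Ideal.comap_ne_top _ (centre v hvB).isPrime.ne_top) hle
      refine ⟨⟨(centre v hvB).asIdeal, (hmem _).mpr ⟨(centre v hvB).isPrime, hlies⟩⟩, ?_⟩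
      exact hc
  · rw [Finset.sum_image (fun a _ b _ h => hg h)]
    rw [← hsum, ← Finset.sum_attach (IsDedekindDomain.primesOverFinset p B)]
    push_cast
    refine Finset.sum_congr rfl fun P _ => ?_
    have := ((hmem P.1).mp P.2).1
    have := ((hmem P.1).mp P.2).2
    rw [inertiaDeg_eq_one (k := k) F p hres P.1]
    have h1 := ramificationIdx_eq_ord (k := k) (F := F) t ht0
      (⟨P.1, ((hmem P.1).mp P.2).1, hne P.1 ((hmem P.1).mp P.2).2⟩ : HeightOneSpectrum B)
    show (Place.ofHeightOneSpectrum (K := k) (F := F) _).ord _ = _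
    rw [← h1]
    simp [hp]

end SumFormula

end Fermat.Agent.S24
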