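import Mathlib
import Fermat.Agent.S24.SumFormula

set_option autoImplicit false
set_option linter.unusedSectionVars false
set_option linter.deprecated false
set_option linter.style.haveILetI false
set_option linter.overlappingInstances false

open IsDedekindDomain WithZero AlgebraicCurve Module IntermediateField Polynomial

namespace Fermat.Agent.S24

section Zeros

open IntermediateField.algebraAdjoinAdjoin

variable {k F : Type*} [Field k] [IsAlgClosed k] [CharZero k] [Field F] [Algebra k F]

theorem adjoin_le_place (v : Place k F) (x : F) (hx : x ∈ v.toValuationSubring)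
    (a : Algebra.adjoin k {x}) : (a : F) ∈ v.toValuationSubring := by
  obtain ⟨a, ha⟩ := a
  show a ∈ v.toValuationSubring
  induction ha using Algebra.adjoin_induction with
  | mem y hy => rw [Set.mem_singleton_iff.mp hy]; exact hx
  | algebraMap r => exact v.algebraMap_mem' r
  | add y z _ _ hy hz => exact add_mem hy hz
  | mul y z _ _ hy hz => exact mul_mem hy hz

theorem exists_finset_zeros (x : F) (hx : Transcendental k x) [FiniteDimensional k⟮x⟯ F] :
    ∃ Z : Finset (Place k F), (∀ v, v ∈ Z ↔ 0 < v.ord x) ∧
      ∑ v ∈ Z, v.ord x = finrank k⟮x⟯ F := by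
  let A := Algebra.adjoin k {x}
  let e : k[X] ≃ₐ[k] A := Polynomial.algEquivOfTranscendental k x hx
  have hPID : IsPrincipalIdealRing A :=
    IsPrincipalIdealRing.of_surjective e.toRingEquiv.toRingHom e.surjective
  let t : A := ⟨x, Algebra.self_mem_adjoin_singleton k x⟩
  have het : e X = t := Polynomial.algEquivOfTranscendental_apply_X k x hx
  have hx0 : x ≠ 0 := by
    rintro rfl
    exact hx isAlgebraic_zero
  have ht0 : t ≠ 0 := by
    intro h
    have : x = 0 := congrArg Subtype.val h
    exact hx0 this
  have hspan : Ideal.span {t} = Ideal.map e.toRingEquiv.toRingHom (Ideal.span {X}) := by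
    rw [Ideal.map_span, Set.image_singleton]
    congr 2
    exact het.symm
  have hmax : (Ideal.span {t}).IsMaximal := by
    rw [hspan]
    exact Ideal.IsMaximal.map_bijective _ e.bijective
      (PrincipalIdealRing.isMaximal_of_irreducible Polynomial.irreducible_X)
  have hres : Function.Surjective (algebraMap k (A ⧸ Ideal.span {t})) := by
    intro y
    obtain ⟨a, rfl⟩ := Ideal.Quotient.mk_surjective y
    obtain ⟨q, rfl⟩ := e.surjective a
    refine ⟨q.coeff 0, ?_⟩
    rw [IsScalarTower.algebraMap_apply k A (A ⧸ Ideal.span {t})]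
    rw [Ideal.Quotient.algebraMap_eq, Ideal.Quotient.eq, Ideal.mem_span_singleton]
    obtain ⟨r, hr⟩ := Polynomial.X_dvd_sub_C (p := q)
    refine ⟨- e r, ?_⟩
    have h1 : e q - algebraMap k A (q.coeff 0) = t * e r := by
      rw [← het, ← map_mul, ← hr, map_sub]
      congr 1
      exact (e.commutes _).symm
    rw [mul_neg, ← h1]; ring
  have : IsDedekindDomain (integralClosure A F) := integralClosure.isDedekindDomain A k⟮x⟯ F
  have : IsFractionRing (integralClosure A F) F :=
    integralClosure.isFractionRing_of_finite_extension k⟮x⟯ F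
  have : Module.Finite A (integralClosure A F) :=
    IsIntegralClosure.finite A k⟮x⟯ F (integralClosure A F)
  obtain ⟨Z, hZ, hsum⟩ := exists_finset_sum_ord (k := k) (A := A) (F := F) k⟮x⟯
    (integralClosure A F) t ht0 hres
  refine ⟨Z, fun v => ?_, hsum⟩
  rw [hZ v]
  constructor
  · rintro ⟨_, h⟩; exact h
  · intro h
    refine ⟨fun a => adjoin_le_place v x ?_ a, h⟩
    exact mem_of_ord_nonneg v hx0 h.le

end Zeros

end Fermat.Agent.S24
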