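import Mathlib
import Fermat.Agent.S24.Zeros

set_option autoImplicit false
set_option linter.unusedSectionVars false
set_option linter.deprecated false
set_option linter.style.haveILetI false
set_option linter.overlappingInstances false

open IsDedekindDomain WithZero AlgebraicCurve Module IntermediateField Polynomial

namespace Fermat.Agent.S24

section General

variable {K F : Type*} [Field K] [Field F] [Algebra K F]

theorem mem_maximalIdeal_iff (v : Place K F) (y : v.toValuationSubring) :
    y ∈ IsLocalRing.maximalIdeal v.toValuationSubring ↔ (y : F) = 0 ∨ 0 < v.ord (y : F) := by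
  rw [IsLocalRing.mem_maximalIdeal, mem_nonunits_iff]
  rcases eq_or_ne (y : F) 0 with hy | hy
  · have : y = 0 := Subtype.ext hy
    simp [this]
  simp only [hy, false_or]
  have hnn := ord_nonneg_of_mem v y.2
  constructor
  · intro hnu
    rcases eq_or_lt_of_le hnn with h | h
    · exfalso
      apply hnu
      have hmem' : (y : F)⁻¹ ∈ v.toValuationSubring :=
        mem_of_ord_nonneg v (inv_ne_zero hy) (by rw [v.ord_inv]; omega)
      exact ⟨⟨y, ⟨_, hmem'⟩, Subtype.ext (mul_inv_cancel₀ hy),
        Subtype.ext (inv_mul_cancel₀ hy)⟩, rfl⟩
    · exact h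
  · intro hpos hu
    obtain ⟨u, hu⟩ := hu
    have := v.ord_coe_unit u
    rw [hu] at this
    omega

/-- If every element of the valuation ring is congruent to a constant, the place has degree 1. -/
theorem deg_eq_one_of_forall_exists_const (v : Place K F)
    (h : ∀ a : F, a ∈ v.toValuationSubring →
      ∃ c : K, a = algebraMap K F c ∨ 0 < v.ord (a - algebraMap K F c)) :
    v.deg = 1 := by
  have hbij : Function.Bijective (Algebra.linearMap K v.ResidueField) := by
    constructor
    · exact (algebraMap K v.ResidueField).injective
    · intro y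
      obtain ⟨a, rfl⟩ := IsLocalRing.residue_surjective y
      obtain ⟨c, hc⟩ := h a a.2
      refine ⟨c, ?_⟩
      rw [Algebra.linearMap_apply]
      show IsLocalRing.residue _ (algebraMap K v.toValuationSubring c) = IsLocalRing.residue _ a
      rw [← sub_eq_zero, ← map_sub, IsLocalRing.residue_eq_zero_iff, mem_maximalIdeal_iff]
      have hcoe : ((algebraMap K v.toValuationSubring c - a : v.toValuationSubring) : F)
          = -((a : F) - algebraMap K F c) := by
        push_cast
        rw [Place.coe_algebraMap]; ring
      rw [hcoe]
      rcases hc with hc | hc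
      · left; rw [hc]; ring
      · right
        have hneg : ∀ z : F, v.ord (-z) = v.ord z := by
          intro z
          simp [Place.ord]
        rw [hneg]; exact hc
  rw [Place.deg, ← (LinearEquiv.ofBijective _ hbij).finrank_eq, Module.finrank_self]

end General

section Dedekind

variable {k F : Type*} [Field k] [IsAlgClosed k] [Field F] [Algebra k F]
variable {R : Type*} [CommRing R] [IsDedekindDomain R] [Algebra R F] [IsFractionRing R F]
  [Algebra k R] [IsScalarTower k R F] [Algebra.FiniteType k R]

theorem exists_const_of_mem_of_dedekind (v : Place k F)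
    (hv : ∀ b : R, algebraMap R F b ∈ v.toValuationSubring) (a : F)
    (ha : a ∈ v.toValuationSubring) :
    ∃ c : k, a = algebraMap k F c ∨ 0 < v.ord (a - algebraMap k F c) := by
  set w := centre v hv with hw
  have hvw : Place.ofHeightOneSpectrum (K := k) (F := F) w = v := ofHeightOneSpectrum_centre v hv
  have ha' : w.valuation F a ≤ 1 := by
    rw [← hvw, Place.ofHeightOneSpectrum_toValuationSubring,
      Valuation.mem_valuationSubring_iff] at ha
    exact ha
  obtain ⟨b, hb⟩ := w.exists_valuation_sub_lt_of_integer ha' 1
  have : w.asIdeal.IsMaximal := w.isMaximal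
  let _ : Field (R ⧸ w.asIdeal) := Ideal.Quotient.field w.asIdeal
  have : Module.Finite k (R ⧸ w.asIdeal) := finite_of_finite_type_of_isJacobsonRing k _
  have hsurj : Function.Surjective (algebraMap k (R ⧸ w.asIdeal)) :=
    (IsAlgClosed.algebraMap_bijective_of_isIntegral (k := k)).2
  obtain ⟨c, hc⟩ := hsurj (Ideal.Quotient.mk _ b)
  refine ⟨c, ?_⟩
  rw [IsScalarTower.algebraMap_apply k R (R ⧸ w.asIdeal), Ideal.Quotient.algebraMap_eq,
    Ideal.Quotient.eq, ← w.valuation_lt_one_iff_mem (K := F)] at hc
  by_cases h0 : a = algebraMap k F c
  · exact Or.inl h0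
  right
  have h1 : a - algebraMap k F c ≠ 0 := sub_ne_zero.mpr h0
  have hlt : w.valuation F (a - algebraMap k F c) < 1 := by
    have heq : a - algebraMap k F c
        = -(algebraMap R F (algebraMap k R c - b)) + -(algebraMap R F b - a) := by
      rw [map_sub, ← IsScalarTower.algebraMap_apply k R F]; ring
    rw [heq]
    refine lt_of_le_of_lt (Valuation.map_add _ _ _) (max_lt ?_ ?_)
    · rw [Valuation.map_neg]; exact hc
    · rw [Valuation.map_neg]; simpa using hb
  rw [← hvw, ofHeightOneSpectrum_ord]
  have h2 : w.valuation F (a - algebraMap k F c) ≠ 0 := (Valuation.ne_zero_iff _).mpr h1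
  have := (WithZero.log_lt_log h2 one_ne_zero).mpr hlt
  rw [WithZero.log_one] at this
  omega

end Dedekind

section FunctionField

open IntermediateField.algebraAdjoinAdjoin

variable {k F : Type*} [Field k] [IsAlgClosed k] [CharZero k] [Field F] [Algebra k F]

omit [IsAlgClosed k] [CharZero k] in
theorem adjoin_inv_eq (x : F) : k⟮x⁻¹⟯ = k⟮x⟯ := by
  apply le_antisymm
  · rw [adjoin_simple_le_iff]
    exact inv_mem (mem_adjoin_simple_self k x)
  · rw [adjoin_simple_le_iff]
    have := inv_mem (mem_adjoin_simple_self k x⁻¹)
    rwa [inv_inv] at this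

omit [IsAlgClosed k] [CharZero k] in
theorem transcendental_inv {x : F} (hx : Transcendental k x) : Transcendental k x⁻¹ := by
  intro h
  apply hx
  have := h.inv
  rwa [inv_inv] at this

theorem exists_const_of_mem_aux (x : F) (hx : Transcendental k x) [FiniteDimensional k⟮x⟯ F]
    (v : Place k F) (hxv : x ∈ v.toValuationSubring) (a : F) (ha : a ∈ v.toValuationSubring) :
    ∃ c : k, a = algebraMap k F c ∨ 0 < v.ord (a - algebraMap k F c) := by
  let A := Algebra.adjoin k {x}
  let e : k[X] ≃ₐ[k] A := Polynomial.algEquivOfTranscendental k x hx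
  have hPID : IsPrincipalIdealRing A :=
    IsPrincipalIdealRing.of_surjective e.toRingEquiv.toRingHom e.surjective
  have : IsDedekindDomain (integralClosure A F) := integralClosure.isDedekindDomain A k⟮x⟯ F
  have : IsFractionRing (integralClosure A F) F :=
    integralClosure.isFractionRing_of_finite_extension k⟮x⟯ F
  have : Module.Finite A (integralClosure A F) :=
    IsIntegralClosure.finite A k⟮x⟯ F (integralClosure A F)
  have : Algebra.FiniteType k A := Algebra.FiniteType.of_surjective e.toAlgHom e.surjective
  have : Algebra.FiniteType k (integralClosure A F) :=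
    Algebra.FiniteType.trans (S := A) inferInstance inferInstance
  exact exists_const_of_mem_of_dedekind (R := integralClosure A F) v
    (integralClosure_le_place (A := A) v (fun a => adjoin_le_place v x hxv a)) a ha

theorem exists_const_of_mem (x : F) (hx : Transcendental k x) [FiniteDimensional k⟮x⟯ F]
    (v : Place k F) (a : F) (ha : a ∈ v.toValuationSubring) :
    ∃ c : k, a = algebraMap k F c ∨ 0 < v.ord (a - algebraMap k F c) := by
  rcases v.toValuationSubring.mem_or_inv_mem x with h | h
  · exact exists_const_of_mem_aux x hx v h a ha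
  · have : FiniteDimensional k⟮x⁻¹⟯ F := by
      rw [adjoin_inv_eq]; infer_instance
    exact exists_const_of_mem_aux x⁻¹ (transcendental_inv hx) v h a ha

theorem place_deg_eq_one (x : F) (hx : Transcendental k x) [FiniteDimensional k⟮x⟯ F]
    (v : Place k F) : v.deg = 1 :=
  deg_eq_one_of_forall_exists_const v (exists_const_of_mem x hx v)

end FunctionField

end Fermat.Agent.S24
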