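import Mathlib
import Fermat.Agent.S24.PlaceDeg

set_option autoImplicit false
set_option linter.unusedSectionVars false
set_option linter.deprecated false
set_option linter.style.haveILetI false
set_option linter.overlappingInstances false

open IsDedekindDomain WithZero AlgebraicCurve Module IntermediateField Polynomial

namespace Fermat.Agent.S24

section Exchange

open IntermediateField.algebraAdjoinAdjoin Cardinal

variable {k F : Type*} [Field k] [Field F] [Algebra k F]

/-- In a function field of one variable every transcendental element is a separating variable. -/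
theorem finiteDimensional_adjoin_of_transcendental (x : F) [FiniteDimensional k⟮x⟯ F]
    (f : F) (hf : Transcendental k f) : FiniteDimensional k⟮f⟯ F := by
  have halg : Algebra.IsAlgebraic (Algebra.adjoin k {x}) F := by
    have h1 : Algebra.IsAlgebraic (Algebra.adjoin k {x}) k⟮x⟯ := inferInstance
    have h2 : Algebra.IsAlgebraic k⟮x⟯ F := inferInstance
    exact Algebra.IsAlgebraic.trans (Algebra.adjoin k {x}) k⟮x⟯ F
  have htr : Algebra.trdeg k F ≤ 1 := by
    have := Algebra.IsAlgebraic.trdeg_le_cardinalMk k ({x} : Set F)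
    simpa using this
  have hind : AlgebraicIndependent k (fun _ : Unit => f) :=
    algebraicIndependent_unique_type_iff.mpr hf
  have hbasis : IsTranscendenceBasis k (fun _ : Unit => f) := by
    apply hind.isTranscendenceBasis_of_lift_trdeg_le_of_finite
    simpa using htr
  have halg' := hbasis.isAlgebraic_field
  have hrange : Set.range (fun _ : Unit => f) = {f} := by
    ext y; simp [eq_comm]
  rw [hrange] at halg'
  have h1 : Algebra.EssFiniteType k k⟮x⟯ :=
    IntermediateField.essFiniteType_iff.mpr (fg_adjoin_of_finite (Set.finite_singleton x))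
  have h2 : Algebra.EssFiniteType k F := Algebra.EssFiniteType.comp k k⟮x⟯ F
  have h3 : Algebra.EssFiniteType k⟮f⟯ F := Algebra.EssFiniteType.of_comp k k⟮f⟯ F
  exact Algebra.finite_of_essFiniteType_of_isAlgebraic

end Exchange

section Principal

variable {k F : Type*} [Field k] [IsAlgClosed k] [CharZero k] [Field F] [Algebra k F]

omit [CharZero k] in
theorem exists_algebraMap_eq_of_isAlgebraic {f : F} (hf : IsAlgebraic k f) :
    ∃ c : k, algebraMap k F c = f := by
  have : Algebra.IsAlgebraic k k⟮f⟯ := IntermediateField.isAlgebraic_adjoin_simple hf.isIntegral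
  have h := IntermediateField.eq_bot_of_isAlgClosed_of_isAlgebraic k⟮f⟯
  have hmem : f ∈ k⟮f⟯ := mem_adjoin_simple_self k f
  rw [h, IntermediateField.mem_bot] at hmem
  exact hmem

omit [IsAlgClosed k] [CharZero k] in
theorem degree_eq_sum_of_deg_one (hdeg : ∀ v : Place k F, v.deg = 1) (D : Divisor k F)
    (s : Finset (Place k F)) (hs : D.support ⊆ s) :
    Divisor.degree D = ∑ v ∈ s, D v := by
  have h1 : Divisor.degree D = D.sum fun v n => n * (v.deg : ℤ) := by
    simp [Divisor.degree, Finsupp.liftAddHom_apply]
  rw [h1, Finsupp.sum_of_support_subset D hs _ (by simp)]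
  refine Finset.sum_congr rfl fun v _ => ?_
  rw [hdeg v]; simp

theorem exists_principal_divisor (x : F) (hx : Transcendental k x) [FiniteDimensional k⟮x⟯ F]
    (f : F) (hf : f ≠ 0) :
    ∃ D : Divisor k F, (∀ v : Place k F, D v = v.ord f) ∧ Divisor.degree D = 0 := by
  classical
  by_cases halg : IsAlgebraic k f
  · obtain ⟨c, rfl⟩ := exists_algebraMap_eq_of_isAlgebraic halg
    exact ⟨0, fun v => by rw [ord_algebraMap]; rfl, map_zero _⟩
  · have htr : Transcendental k f := halg
    have : FiniteDimensional k⟮f⟯ F := finiteDimensional_adjoin_of_transcendental x f htr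
    have : FiniteDimensional k⟮f⁻¹⟯ F := by rw [adjoin_inv_eq]; infer_instance
    obtain ⟨Z0, hZ0, hs0⟩ := exists_finset_zeros f htr
    obtain ⟨Z1, hZ1, hs1⟩ := exists_finset_zeros f⁻¹ (transcendental_inv htr)
    let D : Divisor k F := Finsupp.onFinset (Z0 ∪ Z1) (fun v => v.ord f) (by
      intro v hv
      rw [Finset.mem_union, hZ0, hZ1, v.ord_inv]
      omega)
    have hD : ∀ v, D v = v.ord f := fun v => rfl
    refine ⟨D, hD, ?_⟩
    rw [degree_eq_sum_of_deg_one (place_deg_eq_one x hx) D (Z0 ∪ Z1) Finsupp.support_onFinset_subset]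
    have hdisj : Disjoint Z0 Z1 := by
      rw [Finset.disjoint_left]
      intro v h0 h1
      rw [hZ0] at h0
      rw [hZ1, v.ord_inv] at h1
      omega
    rw [Finset.sum_union hdisj]
    simp only [hD]
    rw [hs0]
    have h2 : ∑ v ∈ Z1, v.ord f = - ∑ v ∈ Z1, v.ord f⁻¹ := by
      rw [← Finset.sum_neg_distrib]
      exact Finset.sum_congr rfl fun v _ => by rw [v.ord_inv]; ring
    rw [h2, hs1, adjoin_inv_eq]
    ring

theorem hasPrincipalDivisors (x : F) (hx : Transcendental k x) [FiniteDimensional k⟮x⟯ F] :
    HasPrincipalDivisors k F :=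
  ⟨fun f hf => exists_principal_divisor x hx f hf⟩

end Principal

end Fermat.Agent.S24
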