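import Mathlib
import Fermat.Agent.S24.PrincipalDegree

set_option autoImplicit false
set_option linter.unusedSectionVars false
set_option linter.deprecated false
set_option linter.style.haveILetI false
set_option linter.overlappingInstances false

open IsDedekindDomain WithZero AlgebraicCurve Module IntermediateField Polynomial KaehlerDifferential

namespace Fermat.Agent.S24

section RH

variable {k F : Type*} [Field k] [IsAlgClosed k] [CharZero k] [Field F] [Algebra k F]

omit [IsAlgClosed k] [CharZero k] in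
theorem adjoin_sub_const_eq (x : F) (c : k) : k⟮x - algebraMap k F c⟯ = k⟮x⟯ := by
  apply le_antisymm
  · rw [adjoin_simple_le_iff]
    exact sub_mem (mem_adjoin_simple_self k x) (IntermediateField.algebraMap_mem _ c)
  · rw [adjoin_simple_le_iff]
    have := add_mem (mem_adjoin_simple_self k (x - algebraMap k F c))
      (IntermediateField.algebraMap_mem k⟮x - algebraMap k F c⟯ c)
    rwa [sub_add_cancel] at this

omit [IsAlgClosed k] [CharZero k] in
theorem transcendental_sub_const {x : F} (hx : Transcendental k x) (c : k) :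
    Transcendental k (x - algebraMap k F c) := by
  intro h
  apply hx
  have := h.add (isAlgebraic_algebraMap (A := F) c)
  rwa [sub_add_cancel] at this

theorem sum_ord_sub_const (x : F) (hx : Transcendental k x) [FiniteDimensional k⟮x⟯ F] (c : k)
    (Z : Finset (Place k F)) (hZ : ∀ v, v ∈ Z ↔ 0 < v.ord (x - algebraMap k F c)) :
    ∑ v ∈ Z, v.ord (x - algebraMap k F c) = finrank k⟮x⟯ F := by
  have : FiniteDimensional k⟮x - algebraMap k F c⟯ F := by
    rw [adjoin_sub_const_eq]; infer_instance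
  obtain ⟨Z', hZ', hs⟩ := exists_finset_zeros (x - algebraMap k F c) (transcendental_sub_const hx c)
  have : Z = Z' := by
    ext v; rw [hZ, hZ']
  rw [this, hs, adjoin_sub_const_eq]

theorem sum_ord_poles (x : F) (hx : Transcendental k x) [FiniteDimensional k⟮x⟯ F]
    (Z : Finset (Place k F)) (hZ : ∀ v, v ∈ Z ↔ v.ord x < 0) :
    ∑ v ∈ Z, v.ord x = - (finrank k⟮x⟯ F : ℤ) := by
  have : FiniteDimensional k⟮x⁻¹⟯ F := by
    rw [adjoin_inv_eq]; infer_instance
  obtain ⟨Z', hZ', hs⟩ := exists_finset_zeros x⁻¹ (transcendental_inv hx)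
  have : Z = Z' := by
    ext v; rw [hZ, hZ', v.ord_inv]; omega
  rw [this, ← adjoin_inv_eq, ← hs, ← Finset.sum_neg_distrib]
  exact Finset.sum_congr rfl fun v _ => by rw [v.ord_inv]; ring

/-- Riemann–Hurwitz assembly. -/
theorem degree_eq_of_ordDifferential (x : F) (hx : Transcendental k x) [FiniteDimensional k⟮x⟯ F]
    (hgen : ∀ ω : Ω[F⁄k], ∃ g : F, ω = g • D k F x)
    (hsmul : ∀ (v : Place k F) (g : F), g ≠ 0 →
      v.ordDifferential (g • D k F x) = v.ord g + v.ordDifferential (D k F x))
    (hfin : ∀ (v : Place k F) (c : k), 0 < v.ord (x - algebraMap k F c) →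
      v.ordDifferential (D k F x) = v.ord (x - algebraMap k F c) - 1)
    (hinf : ∀ v : Place k F, v.ord x < 0 → v.ordDifferential (D k F x) = v.ord x - 1)
    (S : Finset k)
    (hS : ∀ c, c ∉ S → ∀ v : Place k F, 0 < v.ord (x - algebraMap k F c) →
      v.ord (x - algebraMap k F c) = 1)
    (Z : k → Finset (Place k F)) (hZ : ∀ c v, v ∈ Z c ↔ 0 < v.ord (x - algebraMap k F c))
    (Zinf : Finset (Place k F)) (hZinf : ∀ v, v ∈ Zinf ↔ v.ord x < 0)
    (Dv : Divisor k F) (ω : Ω[F⁄k]) (hω : ω ≠ 0) (hD : ∀ v, Dv v = v.ordDifferential ω) :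
    Divisor.degree Dv = ∑ c ∈ S, ((finrank k⟮x⟯ F : ℤ) - (Z c).card)
      - (finrank k⟮x⟯ F : ℤ) - Zinf.card := by
  classical
  obtain ⟨g, rfl⟩ := hgen ω
  have hg : g ≠ 0 := by
    rintro rfl
    exact hω (zero_smul _ _)
  obtain ⟨Dg, hDg, hdeg⟩ := exists_principal_divisor x hx g hg
  set E : Divisor k F := Dv - Dg with hE
  have hEv : ∀ v, E v = v.ordDifferential (D k F x) := by
    intro v
    rw [hE, Finsupp.sub_apply, hD, hDg, hsmul v g hg]; ring
  have hdegE : Divisor.degree Dv = Divisor.degree E := by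
    rw [hE, map_sub, hdeg, sub_zero]
  have hx0 : x ≠ 0 := by
    rintro rfl
    exact hx isAlgebraic_zero
  have hcases : ∀ v : Place k F, v.ord x < 0 ∨ ∃ c : k, 0 < v.ord (x - algebraMap k F c) := by
    intro v
    by_cases h : v.ord x < 0
    · exact Or.inl h
    · right
      obtain ⟨c, hc⟩ := exists_const_of_mem x hx v x (mem_of_ord_nonneg v hx0 (by omega))
      rcases hc with hc | hc
      · exact absurd (hc ▸ isAlgebraic_algebraMap (A := F) c) hx
      · exact ⟨c, hc⟩
  have hsupp : E.support ⊆ Zinf ∪ S.biUnion Z := by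
    intro v hv
    rw [Finsupp.mem_support_iff, hEv] at hv
    rw [Finset.mem_union, Finset.mem_biUnion]
    rcases hcases v with h | ⟨c, hc⟩
    · exact Or.inl ((hZinf v).mpr h)
    · right
      by_cases hcS : c ∈ S
      · exact ⟨c, hcS, (hZ c v).mpr hc⟩
      · exfalso
        apply hv
        rw [hfin v c hc, hS c hcS v hc]; ring
  have hord_sub : ∀ (v : Place k F) (c : k), v.ord x < 0 →
      ¬ 0 < v.ord (x - algebraMap k F c) := by
    intro v c h1 h2
    have hne : x - algebraMap k F c ≠ 0 := by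
      intro h
      rw [h, v.ord_zero] at h2; omega
    have hmem : x - algebraMap k F c ∈ v.toValuationSubring := mem_of_ord_nonneg v hne h2.le
    have : x ∈ v.toValuationSubring := by
      have := add_mem hmem (v.algebraMap_mem' c)
      rwa [sub_add_cancel] at this
    have := ord_nonneg_of_mem v this
    omega
  have hdisj1 : Disjoint Zinf (S.biUnion Z) := by
    rw [Finset.disjoint_left]
    intro v h1 h2
    rw [Finset.mem_biUnion] at h2
    obtain ⟨c, _, hc⟩ := h2
    exact hord_sub v c ((hZinf v).mp h1) ((hZ c v).mp hc)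
  have hdisj2 : (S : Set k).PairwiseDisjoint Z := by
    intro c _ c' _ hcc'
    rw [Function.onFun, Finset.disjoint_left]
    intro v h1 h2
    rw [hZ] at h1 h2
    have hne1 : x - algebraMap k F c ≠ 0 := by
      intro h
      rw [h, v.ord_zero] at h1; omega
    have hne2 : x - algebraMap k F c' ≠ 0 := by
      intro h
      rw [h, v.ord_zero] at h2; omega
    have hdiff : algebraMap k F (c' - c) = (x - algebraMap k F c) + -(x - algebraMap k F c') := by
      rw [map_sub]; ring
    have hcc : algebraMap k F (c' - c) ≠ 0 := by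
      simpa [sub_eq_zero] using hcc'.symm
    have hneg : v.ord (-(x - algebraMap k F c')) = v.ord (x - algebraMap k F c') := by
      simp only [Place.ord, Valuation.map_neg]
    have := ord_add_ge v (hdiff ▸ hcc) hne1 (neg_ne_zero.mpr hne2)
    rw [← hdiff, ord_algebraMap, hneg] at this
    omega
  rw [hdegE, degree_eq_sum_of_deg_one (place_deg_eq_one x hx) E _ hsupp,
    Finset.sum_union hdisj1, Finset.sum_biUnion hdisj2]
  have h1 : ∑ v ∈ Zinf, E v = - (finrank k⟮x⟯ F : ℤ) - Zinf.card := by
    rw [← sum_ord_poles x hx Zinf hZinf]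
    have : ∑ v ∈ Zinf, E v = ∑ v ∈ Zinf, (v.ord x - 1) :=
      Finset.sum_congr rfl fun v hv => by rw [hEv, hinf v ((hZinf v).mp hv)]
    rw [this, Finset.sum_sub_distrib]
    simp
  have h2 : ∀ c ∈ S, ∑ v ∈ Z c, E v = (finrank k⟮x⟯ F : ℤ) - (Z c).card := by
    intro c _
    rw [← sum_ord_sub_const x hx c (Z c) (hZ c)]
    have : ∑ v ∈ Z c, E v = ∑ v ∈ Z c, (v.ord (x - algebraMap k F c) - 1) :=
      Finset.sum_congr rfl fun v hv => by rw [hEv, hfin v c ((hZ c v).mp hv)]
    rw [this, Finset.sum_sub_distrib]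
    simp
  rw [h1, Finset.sum_congr rfl h2]
  ring

end RH

end Fermat.Agent.S24

namespace Fermat.Agent.S24

open AlgebraicCurve KaehlerDifferential

theorem genus_eq_of_degree {K F : Type*} [Field K] [Field F] [Algebra K F]
    [HasCanonicalDivisor (K := K) (F := F)] (G : ℚ) (hG : ∃ g : ℕ, (g : ℚ) = G)
    (hne : ∃ ω : Ω[F⁄K], ω ≠ 0)
    (hdeg : ∀ (ω : Ω[F⁄K]), ω ≠ 0 → ∀ Dv : Divisor K F, (∀ v, Dv v = v.ordDifferential ω) →
      ((Divisor.degree Dv : ℤ) : ℚ) = 2 * G - 2) :
    (genus K F : ℚ) = G := by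
  obtain ⟨g, hg⟩ := hG
  have h1 := hdeg hne.choose hne.choose_spec (canonicalDivisorOf hne.choose_spec)
    (canonicalDivisorOf_apply hne.choose_spec)
  have h2 : Divisor.degree (canonicalDivisorOf hne.choose_spec) = 2 * (g : ℤ) - 2 := by
    have : ((Divisor.degree (canonicalDivisorOf hne.choose_spec) : ℤ) : ℚ)
        = ((2 * (g : ℤ) - 2 : ℤ) : ℚ) := by
      rw [h1, ← hg]; push_cast; ring
    exact_mod_cast this
  rw [← hg]
  congr 1
  unfold genus
  rw [dif_pos hne, h2]
  have : (2 * (g : ℤ) - 2 + 2).toNat = 2 * g := by omega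
  rw [this]
  omega

end Fermat.Agent.S24
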