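import Mathlib
import Fermat.Agent.S24.Differential
import Fermat.Agent.S24.RH

set_option autoImplicit false

open KaehlerDifferential AlgebraicCurve Polynomial IntermediateField Module
open IntermediateField.algebraAdjoinAdjoin Cardinal

namespace Fermat.Agent.S24.Differential

section Adapter

universe u v

variable {k : Type u} {F : Type v} [Field k] [Field F] [Algebra k F]

/-- A finite extension of `k(x)`, `x` transcendental, has transcendence degree one. -/
theorem trdeg_eq_one (x : F) (hx : Transcendental k x) [FiniteDimensional k⟮x⟯ F] :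
    Algebra.trdeg k F = 1 := by
  have halg : Algebra.IsAlgebraic (Algebra.adjoin k {x}) F := by
    have h1 : Algebra.IsAlgebraic (Algebra.adjoin k {x}) k⟮x⟯ := inferInstance
    have h2 : Algebra.IsAlgebraic k⟮x⟯ F := inferInstance
    exact Algebra.IsAlgebraic.trans (Algebra.adjoin k {x}) k⟮x⟯ F
  have hle : Algebra.trdeg k F ≤ 1 := by
    have := Algebra.IsAlgebraic.trdeg_le_cardinalMk k ({x} : Set F)
    simpa using this
  have hne : Algebra.trdeg k F ≠ 0 := by
    have : Algebra.Transcendental k F := ⟨⟨x, hx⟩⟩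
    exact trdeg_ne_zero_iff.mpr this
  exact le_antisymm hle (Cardinal.one_le_iff_ne_zero.mpr hne)

variable [IsAlgClosed k] [CharZero k]

theorem hres (x : F) (hx : Transcendental k x) [FiniteDimensional k⟮x⟯ F] (v : Place k F) :
    Function.Surjective (algebraMap k v.ResidueField) :=
  surjective_algebraMap_of_deg_eq_one v (place_deg_eq_one x hx v)

omit [IsAlgClosed k] in
theorem hgen (x : F) (hx : Transcendental k x) [FiniteDimensional k⟮x⟯ F] :
    ∀ ω : Ω[F⁄k], ∃ g : F, ω = g • D k F x := by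
  intro ω
  have h := span_D_eq_top x hx (isAlgebraic_adjoin_of_transcendental (trdeg_eq_one x hx) hx)
  have hω : ω ∈ Submodule.span F {D k F x} := by rw [h]; trivial
  obtain ⟨g, hg⟩ := Submodule.mem_span_singleton.mp hω
  exact ⟨g, hg.symm⟩

omit [IsAlgClosed k] in
theorem D_ne_zero' (x : F) (hx : Transcendental k x) [FiniteDimensional k⟮x⟯ F] :
    D k F x ≠ 0 :=
  D_ne_zero x hx (isAlgebraic_adjoin_of_transcendental (trdeg_eq_one x hx) hx)

omit [IsAlgClosed k] in
theorem exists_ne_zero (x : F) (hx : Transcendental k x) [FiniteDimensional k⟮x⟯ F] :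
    ∃ ω : Ω[F⁄k], ω ≠ 0 := ⟨_, D_ne_zero' x hx⟩

omit [IsAlgClosed k] in
theorem hsmul (x : F) (hx : Transcendental k x) [FiniteDimensional k⟮x⟯ F] :
    ∀ (v : Place k F) (g : F), g ≠ 0 →
      v.ordDifferential (g • D k F x) = v.ord g + v.ordDifferential (D k F x) :=
  fun v _ hg => ordDifferential_smul v (trdeg_eq_one x hx) hg (D_ne_zero' x hx)

theorem hfin (x : F) (hx : Transcendental k x) [FiniteDimensional k⟮x⟯ F] :
    ∀ (v : Place k F) (c : k), 0 < v.ord (x - algebraMap k F c) →
      v.ordDifferential (D k F x) = v.ord (x - algebraMap k F c) - 1 :=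
  fun v c h => ordDifferential_D_of_pos v (trdeg_eq_one x hx) (hres x hx v) x c h

theorem hinf (x : F) (hx : Transcendental k x) [FiniteDimensional k⟮x⟯ F] :
    ∀ v : Place k F, v.ord x < 0 → v.ordDifferential (D k F x) = v.ord x - 1 :=
  fun v h => ordDifferential_D_of_neg v (trdeg_eq_one x hx) (hres x hx v) x h

/-- Riemann–Hurwitz with all differential hypotheses discharged. -/
theorem degree_eq (x : F) (hx : Transcendental k x) [FiniteDimensional k⟮x⟯ F]
    (S : Finset k)
    (hS : ∀ c, c ∉ S → ∀ v : Place k F, 0 < v.ord (x - algebraMap k F c) →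
      v.ord (x - algebraMap k F c) = 1)
    (Z : k → Finset (Place k F)) (hZ : ∀ c v, v ∈ Z c ↔ 0 < v.ord (x - algebraMap k F c))
    (Zinf : Finset (Place k F)) (hZinf : ∀ v, v ∈ Zinf ↔ v.ord x < 0)
    (Dv : Divisor k F) (ω : Ω[F⁄k]) (hω : ω ≠ 0) (hD : ∀ v, Dv v = v.ordDifferential ω) :
    Divisor.degree Dv = ∑ c ∈ S, ((finrank k⟮x⟯ F : ℤ) - (Z c).card)
      - (finrank k⟮x⟯ F : ℤ) - Zinf.card :=
  degree_eq_of_ordDifferential x hx (hgen x hx) (hsmul x hx) (hfin x hx) (hinf x hx) S hS Z hZ
    Zinf hZinf Dv ω hω hD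

end Adapter

end Fermat.Agent.S24.Differential
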