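import Mathlib
import Fermat.Agent.S24.RH
import Fermat.Agent.Lib.Count.Main
import Fermat.Statements.S24

set_option autoImplicit false
set_option linter.unusedSectionVars false
set_option linter.style.haveILetI false

open AlgebraicCurve Module IntermediateField KaehlerDifferential ModularCurve
open scoped MatrixGroups
open CongruenceSubgroup MulAction

namespace Fermat.Agent.S24

/-- Conditional final assembly: everything that is needed about the function field `F` of `X₀(N)`
and its element `j`. -/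
theorem genus_eq_genusFormula_of {k F : Type*} [Field k] [IsAlgClosed k] [CharZero k] [Field F]
    [Algebra k F] [HasCanonicalDivisor (K := k) (F := F)] (N : ℕ) [NeZero N]
    (j : F) (hj : Transcendental k j) [FiniteDimensional k⟮j⟯ F]
    (hn : finrank k⟮j⟯ F = Nat.card (SL(2, ℤ) ⧸ Gamma0 N))
    (hne : D k F j ≠ 0)
    (hgen : ∀ ω : Ω[F⁄k], ∃ g : F, ω = g • D k F j)
    (hsmul : ∀ (v : Place k F) (g : F), g ≠ 0 →
      v.ordDifferential (g • D k F j) = v.ord g + v.ordDifferential (D k F j))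
    (hfin : ∀ (v : Place k F) (c : k), 0 < v.ord (j - algebraMap k F c) →
      v.ordDifferential (D k F j) = v.ord (j - algebraMap k F c) - 1)
    (hinf : ∀ v : Place k F, v.ord j < 0 → v.ordDifferential (D k F j) = v.ord j - 1)
    (hgeneric : ∀ c : k, c ≠ 0 → c ≠ 1728 → ∀ v : Place k F,
      0 < v.ord (j - algebraMap k F c) → v.ord (j - algebraMap k F c) = 1)
    (h0 : ∀ Z : Finset (Place k F), (∀ v, v ∈ Z ↔ 0 < v.ord (j - algebraMap k F 0)) →
      Z.card = Nat.card (orbitRel.Quotient (Subgroup.zpowers (ModularGroup.S * ModularGroup.T))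
        (SL(2, ℤ) ⧸ Gamma0 N)))
    (h1728 : ∀ Z : Finset (Place k F), (∀ v, v ∈ Z ↔ 0 < v.ord (j - algebraMap k F 1728)) →
      Z.card = Nat.card (orbitRel.Quotient (Subgroup.zpowers ModularGroup.S)
        (SL(2, ℤ) ⧸ Gamma0 N)))
    (hcusp : ∀ Z : Finset (Place k F), (∀ v, v ∈ Z ↔ v.ord j < 0) →
      Z.card = Nat.card (orbitRel.Quotient (Subgroup.zpowers ModularGroup.T)
        (SL(2, ℤ) ⧸ Gamma0 N))) :
    (genus k F : ℚ) = genusFormula N := by
  classical
  refine genus_eq_of_degree _ (Lib.Count.exists_nat_eq_genusFormula N) ⟨_, hne⟩ ?_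
  intro ω hω Dv hDv
  have hZex : ∀ c : k, ∃ Z : Finset (Place k F), ∀ v, v ∈ Z ↔ 0 < v.ord (j - algebraMap k F c) := by
    intro c
    have : FiniteDimensional k⟮j - algebraMap k F c⟯ F := by
      rw [adjoin_sub_const_eq]; infer_instance
    obtain ⟨Z, hZ, -⟩ := exists_finset_zeros (j - algebraMap k F c) (transcendental_sub_const hj c)
    exact ⟨Z, hZ⟩
  choose Z hZ using hZex
  obtain ⟨Zinf, hZinf⟩ : ∃ Z : Finset (Place k F), ∀ v, v ∈ Z ↔ v.ord j < 0 := by
    have : FiniteDimensional k⟮j⁻¹⟯ F := by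
      rw [adjoin_inv_eq]; infer_instance
    obtain ⟨Z, hZ, -⟩ := exists_finset_zeros j⁻¹ (transcendental_inv hj)
    exact ⟨Z, fun v => by rw [hZ, v.ord_inv]; omega⟩
  have h1728ne : (0 : k) ≠ 1728 := by norm_num
  have hdeg := degree_eq_of_ordDifferential j hj hgen hsmul hfin hinf ({0, 1728} : Finset k)
    (by
      intro c hc v hv
      simp only [Finset.mem_insert, Finset.mem_singleton, not_or] at hc
      exact hgeneric c hc.1 hc.2 v hv)
    Z hZ Zinf hZinf Dv ω hω hDv
  rw [Finset.sum_pair h1728ne, h0 _ (hZ 0), h1728 _ (hZ 1728), hcusp _ hZinf, hn,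
    Lib.Count.card_quotient_Gamma0, Lib.Count.card_orbits_zpowers_T] at hdeg
  have e2 := Lib.Count.two_mul_card_orbits_S N
  have e3 := Lib.Count.three_mul_card_orbits_ST N
  set rS := Nat.card (orbitRel.Quotient (Subgroup.zpowers ModularGroup.S) (SL(2, ℤ) ⧸ Gamma0 N))
  set rST := Nat.card (orbitRel.Quotient (Subgroup.zpowers (ModularGroup.S * ModularGroup.T))
    (SL(2, ℤ) ⧸ Gamma0 N))
  rw [hdeg, genusFormula]
  have e2' : (2 : ℚ) * rS = dedekindPsi N + nuTwo N := by exact_mod_cast e2
  have e3' : (3 : ℚ) * rST = dedekindPsi N + 2 * nuThree N := by exact_mod_cast e3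
  push_cast
  linarith

end Fermat.Agent.S24
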