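import Mathlib
import Fermat.Agent.S24.Zeros

set_option autoImplicit false
set_option linter.unusedSectionVars false
set_option linter.style.haveILetI false

open IsDedekindDomain AlgebraicCurve Module IntermediateField Polynomial

namespace Fermat.Agent.S24

section Laurent

variable {L : Type*} [Field L]

theorem laurent_order_inv {s : LaurentSeries L} (hs : s ≠ 0) : (s⁻¹).order = - s.order := by
  have h := HahnSeries.order_mul hs (inv_ne_zero hs)
  rw [mul_inv_cancel₀ hs, HahnSeries.order_one] at h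
  omega

/-- The valuation subring of Laurent series of nonnegative order. -/
noncomputable def laurentInt (L : Type*) [Field L] : ValuationSubring (LaurentSeries L) where
  carrier := {s | 0 ≤ s.order}
  mul_mem' := by
    intro a b ha hb
    simp only [Set.mem_ofPred_eq] at ha hb ⊢
    rcases eq_or_ne a 0 with rfl | ha0
    · simp
    rcases eq_or_ne b 0 with rfl | hb0
    · simp
    rw [HahnSeries.order_mul ha0 hb0]; omega
  one_mem' := by simp
  add_mem' := by
    intro a b ha hb
    simp only [Set.mem_ofPred_eq] at ha hb ⊢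
    rcases eq_or_ne (a + b) 0 with h | h
    · rw [h]; simp
    · exact le_trans (le_min ha hb) (HahnSeries.min_order_le_order_add h)
  zero_mem' := by simp
  neg_mem' := by
    intro a ha
    simp only [Set.mem_ofPred_eq] at ha ⊢
    rwa [HahnSeries.order_neg]
  mem_or_inv_mem' := by
    intro a
    simp only [Set.mem_ofPred_eq]
    rcases eq_or_ne a 0 with rfl | ha0
    · left; simp
    rw [laurent_order_inv ha0]
    omega

theorem mem_laurentInt {s : LaurentSeries L} : s ∈ laurentInt L ↔ 0 ≤ s.order := Iff.rfl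

theorem laurent_order_prod {ι : Type*} (s : Finset ι) (g : ι → LaurentSeries L)
    (hg : ∀ i ∈ s, g i ≠ 0) : (∏ i ∈ s, g i).order = ∑ i ∈ s, (g i).order := by
  classical
  induction s using Finset.induction_on with
  | empty => simp
  | insert a s ha ih =>
    rw [Finset.prod_insert ha, Finset.sum_insert ha,
      HahnSeries.order_mul (hg a (Finset.mem_insert_self a s))
        (Finset.prod_ne_zero_iff.mpr fun i hi => hg i (Finset.mem_insert_of_mem hi)),
      ih fun i hi => hg i (Finset.mem_insert_of_mem hi)]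

end Laurent

section OrdOf

variable {k F : Type*} [Field k] [Field F] [Algebra k F]
variable {L : Type*} [Field L]

/-- The order function on `F` attached to a ring hom into Laurent series. -/
noncomputable def ordOf (φ : F →+* LaurentSeries L) (f : F) : ℤ := (φ f).order

theorem map_ne_zero_of_ne (φ : F →+* LaurentSeries L) {f : F} (hf : f ≠ 0) : φ f ≠ 0 :=
  (map_ne_zero φ).mpr hf

theorem ordOf_mul (φ : F →+* LaurentSeries L) {f g : F} (hf : f ≠ 0) (hg : g ≠ 0) :
    ordOf φ (f * g) = ordOf φ f + ordOf φ g := by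
  unfold ordOf
  rw [map_mul, HahnSeries.order_mul (map_ne_zero_of_ne φ hf) (map_ne_zero_of_ne φ hg)]

theorem ordOf_pow (φ : F →+* LaurentSeries L) (f : F) (n : ℕ) :
    ordOf φ (f ^ n) = n * ordOf φ f := by
  unfold ordOf
  rw [map_pow, HahnSeries.order_pow, nsmul_eq_mul]

theorem ordOf_algebraMap [IsAlgClosed k] (φ : F →+* LaurentSeries L) (a : k) :
    ordOf φ (algebraMap k F a) = 0 := by
  obtain ⟨d, hd⟩ : ∃ d, d = ordOf φ (algebraMap k F a) := ⟨_, rfl⟩
  obtain ⟨b, hb⟩ := IsAlgClosed.exists_pow_nat_eq a (n := d.natAbs + 1) (Nat.succ_pos _)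
  have h1 : ordOf φ (algebraMap k F a)
      = ((d.natAbs + 1 : ℕ) : ℤ) * ordOf φ (algebraMap k F b) := by
    rw [← hb, map_pow, ordOf_pow]
  rw [← hd] at h1 ⊢
  apply Int.eq_zero_of_abs_lt_dvd (m := ((d.natAbs + 1 : ℕ) : ℤ)) ⟨_, h1⟩
  push_cast
  rw [Int.abs_eq_natAbs]
  omega

/-- The valuation subring of `F` pulled back from Laurent series. -/
noncomputable def ringOf (φ : F →+* LaurentSeries L) : ValuationSubring F :=
  (laurentInt L).comap φ

theorem mem_ringOf (φ : F →+* LaurentSeries L) (f : F) : f ∈ ringOf φ ↔ 0 ≤ ordOf φ f := Iff.rfl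

theorem integral_mem_valuationSubring (V : ValuationSubring F) (A : Subalgebra k F)
    (hA : ∀ a : A, (a : F) ∈ V) {b : F} (hb : IsIntegral A b) : b ∈ V := by
  letI : Algebra A V := ((algebraMap A F).codRestrict V.toSubring hA).toAlgebra
  letI : IsScalarTower A V F := IsScalarTower.of_algebraMap_eq fun f => rfl
  have hx : IsIntegral V b := hb.tower_top
  obtain ⟨y, hy⟩ := IsIntegrallyClosed.isIntegral_iff.mp hx
  rw [← hy]
  exact y.2

theorem adjoin_le_valuationSubring (V : ValuationSubring F) (hk : ∀ a : k, algebraMap k F a ∈ V)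
    (x : F) (hx : x ∈ V) (a : Algebra.adjoin k {x}) : (a : F) ∈ V := by
  obtain ⟨a, ha⟩ := a
  show a ∈ V
  induction ha using Algebra.adjoin_induction with
  | mem y hy => rw [Set.mem_singleton_iff.mp hy]; exact hx
  | algebraMap r => exact hk r
  | add y z _ _ hy hz => exact add_mem hy hz
  | mul y z _ _ hy hz => exact mul_mem hy hz

end OrdOf

section Norm

variable {k F : Type*} [Field k] [CharZero k] [Field F] [Algebra k F]
variable {L : Type*} [Field L]

theorem agree_on_adjoin (x : F) (φ ψ : F →+* LaurentSeries L)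
    (hk : ∀ a : k, φ (algebraMap k F a) = ψ (algebraMap k F a)) (hx : φ x = ψ x)
    (z : k⟮x⟯) : φ (z : F) = ψ (z : F) := by
  obtain ⟨z, hz⟩ := z
  show φ z = ψ z
  induction hz using IntermediateField.adjoin_induction with
  | mem y hy => rw [Set.mem_singleton_iff.mp hy]; exact hx
  | algebraMap r => exact hk r
  | add y z _ _ hy hz => rw [map_add, map_add, hy, hz]
  | inv y _ hy => rw [map_inv₀, map_inv₀, hy]
  | mul y z _ _ hy hz => rw [map_mul, map_mul, hy, hz]

theorem prod_eq_norm (x : F) [FiniteDimensional k⟮x⟯ F]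
    {X : Type*} [Fintype X] (hcard : Fintype.card X = finrank k⟮x⟯ F)
    (σ : X → F →+* LaurentSeries L) (hσinj : Function.Injective σ)
    (hσk : ∀ i j (a : k), σ i (algebraMap k F a) = σ j (algebraMap k F a))
    (hσx : ∀ i j, σ i x = σ j x) (i₀ : X) (b : F) :
    σ i₀ ((Algebra.norm k⟮x⟯ b : k⟮x⟯) : F) = ∏ i, σ i b := by
  classical
  letI : Algebra k⟮x⟯ (LaurentSeries L) := ((σ i₀).comp (algebraMap k⟮x⟯ F)).toAlgebra
  let Ebar := AlgebraicClosure (LaurentSeries L)
  have hcz : CharZero k⟮x⟯ := charZero_of_injective_algebraMap (algebraMap k k⟮x⟯).injective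
  let τ : X → (F →ₐ[k⟮x⟯] Ebar) := fun i =>
    { toRingHom := (algebraMap (LaurentSeries L) Ebar).comp (σ i)
      commutes' := by
        intro z
        show algebraMap (LaurentSeries L) Ebar (σ i (z : F)) = _
        rw [agree_on_adjoin x (σ i) (σ i₀) (hσk i i₀) (hσx i i₀) z,
          IsScalarTower.algebraMap_apply k⟮x⟯ (LaurentSeries L) Ebar]
        rfl }
  have hτinj : Function.Injective τ := by
    intro i j hij
    apply hσinj
    ext1 f
    have h := congrArg (fun t : F →ₐ[k⟮x⟯] Ebar => t f) hij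
    exact (algebraMap (LaurentSeries L) Ebar).injective h
  have hτbij : Function.Bijective τ := by
    rw [Fintype.bijective_iff_injective_and_card]
    refine ⟨hτinj, ?_⟩
    rw [hcard, AlgHom.card]
  have h1 := Algebra.norm_eq_prod_embeddings k⟮x⟯ Ebar b
  rw [← hτbij.prod_comp (fun t : F →ₐ[k⟮x⟯] Ebar => t b)] at h1
  apply (algebraMap (LaurentSeries L) Ebar).injective
  rw [map_prod]
  rw [IsScalarTower.algebraMap_apply k⟮x⟯ (LaurentSeries L) Ebar] at h1
  exact h1

end Norm

section MaxIdeal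

variable {F : Type*} [Field F] {L : Type*} [Field L]

theorem ordOf_one (φ : F →+* LaurentSeries L) : ordOf φ 1 = 0 := by
  unfold ordOf; rw [map_one, HahnSeries.order_one]

theorem ordOf_inv (φ : F →+* LaurentSeries L) {f : F} (hf : f ≠ 0) :
    ordOf φ f⁻¹ = - ordOf φ f := by
  have h := ordOf_mul φ hf (inv_ne_zero hf)
  rw [mul_inv_cancel₀ hf, ordOf_one] at h
  omega

theorem mem_maximalIdeal_ringOf (φ : F →+* LaurentSeries L) (a : ringOf φ) :
    a ∈ IsLocalRing.maximalIdeal (ringOf φ) ↔ (a : F) = 0 ∨ 0 < ordOf φ (a : F) := by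
  rw [IsLocalRing.mem_maximalIdeal, mem_nonunits_iff]
  have ha : 0 ≤ ordOf φ (a : F) := a.2
  constructor
  · intro hnu
    by_contra hcon
    rw [not_or] at hcon
    obtain ⟨h0, h1⟩ := hcon
    apply hnu
    have hmem : (a : F)⁻¹ ∈ ringOf φ := by
      rw [mem_ringOf, ordOf_inv φ h0]; omega
    exact ⟨⟨a, ⟨_, hmem⟩, Subtype.ext (mul_inv_cancel₀ h0), Subtype.ext (inv_mul_cancel₀ h0)⟩, rfl⟩
  · rintro (h0 | h1) hu
    · have : a = 0 := Subtype.ext h0
      rw [this] at hu
      exact not_isUnit_zero hu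
    · obtain ⟨u, rfl⟩ := hu
      have hmul : ((u : ringOf φ) : F) * (((u⁻¹ : (ringOf φ)ˣ) : ringOf φ) : F) = 1 :=
        congrArg Subtype.val u.mul_inv
      have hu0 : ((u : ringOf φ) : F) ≠ 0 := left_ne_zero_of_mul_eq_one hmul
      have hu1 : (((u⁻¹ : (ringOf φ)ˣ) : ringOf φ) : F) ≠ 0 := right_ne_zero_of_mul_eq_one hmul
      have h2 := ordOf_mul φ hu0 hu1
      rw [hmul, ordOf_one] at h2
      have h3 : 0 ≤ ordOf φ (((u⁻¹ : (ringOf φ)ˣ) : ringOf φ) : F) :=
        ((u⁻¹ : (ringOf φ)ˣ) : ringOf φ).2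
      omega

end MaxIdeal

section Main

open IntermediateField.algebraAdjoinAdjoin

variable {k F : Type*} [Field k] [IsAlgClosed k] [CharZero k] [Field F] [Algebra k F]
variable {L : Type*} [Field L]

theorem exists_embedding_of_place (x : F) (hx : Transcendental k x) [FiniteDimensional k⟮x⟯ F]
    {ι : Type*} [Fintype ι] (hcard : Fintype.card ι = finrank k⟮x⟯ F)
    (σ : ι → F →+* LaurentSeries L) (hσinj : Function.Injective σ)
    (hσk : ∀ i j (a : k), σ i (algebraMap k F a) = σ j (algebraMap k F a))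
    (hσx : ∀ i j, σ i x = σ j x) (hord : ∀ i, 0 < ordOf (σ i) x)
    (v : Place k F) (hv : 0 < v.ord x) :
    ∃ i, v.toValuationSubring = ringOf (σ i) := by
  classical
  let A := Algebra.adjoin k {x}
  let e : k[X] ≃ₐ[k] A := Polynomial.algEquivOfTranscendental k x hx
  have hPID : IsPrincipalIdealRing A :=
    IsPrincipalIdealRing.of_surjective e.toRingEquiv.toRingHom e.surjective
  let t : A := ⟨x, Algebra.self_mem_adjoin_singleton k x⟩
  have het : e X = t := Polynomial.algEquivOfTranscendental_apply_X k x hx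
  have hx0 : x ≠ 0 := by
    rintro rfl
    exact hx isAlgebraic_zero
  have hspan : Ideal.span {t} = Ideal.map e.toRingEquiv.toRingHom (Ideal.span {X}) := by
    rw [Ideal.map_span, Set.image_singleton]
    congr 2
    exact het.symm
  have hmax : (Ideal.span {t}).IsMaximal := by
    rw [hspan]
    exact Ideal.IsMaximal.map_bijective _ e.bijective
      (PrincipalIdealRing.isMaximal_of_irreducible Polynomial.irreducible_X)
  have : IsDedekindDomain (integralClosure A F) := integralClosure.isDedekindDomain A k⟮x⟯ F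
  have : IsFractionRing (integralClosure A F) F :=
    integralClosure.isFractionRing_of_finite_extension k⟮x⟯ F
  have : Module.Finite A (integralClosure A F) :=
    IsIntegralClosure.finite A k⟮x⟯ F (integralClosure A F)
  let B := integralClosure A F
  have hvA : ∀ a : A, (a : F) ∈ v.toValuationSubring :=
    adjoin_le_place v x (mem_of_ord_nonneg v hx0 hv.le)
  have hvB : ∀ b : B, algebraMap B F b ∈ v.toValuationSubring := fun b =>
    integral_mem_valuationSubring v.toValuationSubring A hvA b.2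
  have hiA : ∀ i, ∀ a : A, (a : F) ∈ ringOf (σ i) := fun i =>
    adjoin_le_valuationSubring (ringOf (σ i))
      (fun a => by rw [mem_ringOf, ordOf_algebraMap]) x (by rw [mem_ringOf]; exact (hord i).le)
  have hiB : ∀ i, ∀ b : B, algebraMap B F b ∈ ringOf (σ i) := fun i b =>
    integral_mem_valuationSubring (ringOf (σ i)) A (hiA i) b.2
  let P := centre v hvB
  let Q : ι → Ideal B := fun i => (IsLocalRing.maximalIdeal (ringOf (σ i))).comap
    ((algebraMap B F).codRestrict (ringOf (σ i)).toSubring (hiB i))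
  have hQprime : ∀ i, (Q i).IsPrime := fun i => Ideal.comap_isPrime _ _
  have hQmem : ∀ i (b : B), b ∈ Q i ↔ (algebraMap B F b = 0 ∨ 0 < ordOf (σ i) (algebraMap B F b)) := by
    intro i b
    show _ ∈ IsLocalRing.maximalIdeal (ringOf (σ i)) ↔ _
    rw [mem_maximalIdeal_ringOf]
    rfl
  have hcardpos : 0 < Fintype.card ι := by rw [hcard]; exact Module.finrank_pos
  obtain ⟨i₀⟩ : Nonempty ι := Fintype.card_pos_iff.mp hcardpos
  -- Step 1: the centre of `v` is one of the `Q i`
  have hstep1 : ∃ i, P.asIdeal = Q i := by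
    by_contra hcon
    push Not at hcon
    have hnot : ¬ ((P.asIdeal : Set B) ⊆ ⋃ i ∈ ((Finset.univ : Finset ι) : Set ι), (Q i : Set B)) := by
      intro hsub
      obtain ⟨i, -, hi⟩ := (Ideal.subset_union_prime i₀ i₀ (fun i _ _ _ => hQprime i)).mp hsub
      exact hcon i (P.isMaximal.eq_of_le (hQprime i).ne_top hi)
    rw [Set.not_subset] at hnot
    obtain ⟨b, hbP, hbQ⟩ := hnot
    have hbQ' : ∀ i, b ∉ Q i := by
      intro i hi
      apply hbQ
      simp only [Set.mem_iUnion]
      exact ⟨i, by simp, hi⟩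
    have hb0 : ∀ i, algebraMap B F b ≠ 0 ∧ ordOf (σ i) (algebraMap B F b) = 0 := by
      intro i
      have h1 := hbQ' i
      rw [hQmem, not_or] at h1
      have h2 : 0 ≤ ordOf (σ i) (algebraMap B F b) := hiB i b
      exact ⟨h1.1, by omega⟩
    let a : A := Algebra.intNorm A B b
    have hdvd : b ∣ algebraMap A B a := Algebra.dvd_algebraMap_intNorm_self A B b
    have haP : algebraMap A B a ∈ P.asIdeal := Ideal.mem_of_dvd _ hdvd hbP
    have hnorm : algebraMap A k⟮x⟯ a = Algebra.norm k⟮x⟯ (algebraMap B F b) :=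
      Algebra.algebraMap_intNorm (K := k⟮x⟯) (L := F) b
    have hprod := prod_eq_norm x hcard σ hσinj hσk hσx i₀ (algebraMap B F b)
    rw [← hnorm] at hprod
    have hordprod : ordOf (σ i₀) ((algebraMap A k⟮x⟯ a : k⟮x⟯) : F) = 0 := by
      unfold ordOf
      rw [hprod, laurent_order_prod _ _ (fun i _ => map_ne_zero_of_ne (σ i) (hb0 i).1)]
      exact Finset.sum_eq_zero fun i _ => (hb0 i).2
    have hle : Ideal.span {t} ≤ P.asIdeal.comap (algebraMap A B) := by
      rw [Ideal.span_singleton_le_iff_mem, Ideal.mem_comap, mem_centre_iff]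
      right
      exact hv
    have heq : Ideal.span {t} = P.asIdeal.comap (algebraMap A B) :=
      hmax.eq_of_le (Ideal.comap_ne_top _ P.isPrime.ne_top) hle
    have hat : a ∈ Ideal.span {t} := by rw [heq]; exact haP
    obtain ⟨a', ha'⟩ := Ideal.mem_span_singleton'.mp hat
    have haF : ((algebraMap A k⟮x⟯ a : k⟮x⟯) : F) = (a' : F) * x := by
      rw [← ha']; rfl
    rw [haF] at hordprod hprod
    have hne : (a' : F) * x ≠ 0 := by
      intro h0
      rw [h0, map_zero] at hprod
      exact (Finset.prod_ne_zero_iff.mpr fun i _ => map_ne_zero_of_ne (σ i) (hb0 i).1) hprod.symm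
    have ha'0 : (a' : F) ≠ 0 := left_ne_zero_of_mul hne
    rw [ordOf_mul _ ha'0 hx0] at hordprod
    have h3 : 0 ≤ ordOf (σ i₀) (a' : F) := hiA i₀ a'
    have h4 := hord i₀
    omega
  obtain ⟨i, hi⟩ := hstep1
  refine ⟨i, ?_⟩
  refine ValuationSubring.eq_of_le_of_ne_top _ ?_ ?_
  · intro f hf
    have hc := ofHeightOneSpectrum_centre v hvB
    rw [← hc, Place.ofHeightOneSpectrum_toValuationSubring,
      Valuation.mem_valuationSubring_iff] at hf
    obtain ⟨n, d, hnd⟩ := HeightOneSpectrum.exists_primeCompl_mul_eq_of_integer _ f hf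
    have hd : (d : B) ∉ Q i := by
      rw [← hi]; exact d.2
    rw [hQmem, not_or] at hd
    have hd2 : 0 ≤ ordOf (σ i) (algebraMap B F d) := hiB i d
    have hf' : f = algebraMap B F n * (algebraMap B F d)⁻¹ := by
      rw [← hnd, mul_assoc, mul_inv_cancel₀ hd.1, mul_one]
    rw [hf']
    refine mul_mem (hiB i n) ?_
    rw [mem_ringOf, ordOf_inv _ hd.1]
    omega
  · intro htop
    have h1 : x⁻¹ ∈ ringOf (σ i) := by rw [htop]; exact ValuationSubring.mem_top _
    rw [mem_ringOf, ordOf_inv _ hx0] at h1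
    have h4 := hord i
    omega

end Main

section Monodromy

variable {k F : Type*} [Field k] [Field F] [Algebra k F]
variable {L : Type*} [Field L]

theorem order_eq_of_coeff {s s' : LaurentSeries L} (c : ℤ → L) (hc : ∀ m, c m ≠ 0)
    (h : ∀ m, s'.coeff m = c m * s.coeff m) : s'.order = s.order := by
  rcases eq_or_ne s 0 with rfl | hs
  · have : s' = 0 := by
      ext m; rw [h m]; simp
    rw [this]
  have hs' : s' ≠ 0 := by
    intro h0
    apply hs
    ext m
    have := h m
    rw [h0] at this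
    simp only [HahnSeries.coeff_zero] at this ⊢
    exact (mul_eq_zero.mp this.symm).resolve_left (hc m)
  apply le_antisymm
  · apply HahnSeries.order_le_of_coeff_ne_zero
    rw [h]
    exact mul_ne_zero (hc _) (fun h0 => hs (HahnSeries.coeff_order_eq_zero.mp h0))
  · apply HahnSeries.order_le_of_coeff_ne_zero
    intro h0
    have h1 := h s'.order
    rw [h0, mul_zero] at h1
    exact hs' (HahnSeries.coeff_order_eq_zero.mp h1)

variable {ι G : Type*} [Group G] [MulAction G ι]

theorem coeff_pow_smul (σ : ι → F →+* LaurentSeries L) (g : G) (ζ : L)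
    (hπ : ∀ i f (m : ℤ), (σ (g • i) f).coeff m = ζ ^ m * (σ i f).coeff m)
    (n : ℕ) (i : ι) (f : F) (m : ℤ) :
    (σ (g ^ n • i) f).coeff m = (ζ ^ m) ^ n * (σ i f).coeff m := by
  induction n with
  | zero => simp
  | succ n ih => rw [pow_succ', mul_smul, hπ, ih, pow_succ']; ring

theorem ringOf_smul (σ : ι → F →+* LaurentSeries L) (g : G) (ζ : L) (hζ0 : ζ ≠ 0)
    (hπ : ∀ i f (m : ℤ), (σ (g • i) f).coeff m = ζ ^ m * (σ i f).coeff m) (i : ι) :
    ringOf (σ (g • i)) = ringOf (σ i) := by
  ext f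
  rw [mem_ringOf, mem_ringOf]
  unfold ordOf
  rw [order_eq_of_coeff (fun m => ζ ^ m) (fun m => zpow_ne_zero m hζ0) (hπ i f)]

theorem ringOf_zpowers_smul (σ : ι → F →+* LaurentSeries L) (g : G) (ζ : L) (hζ0 : ζ ≠ 0)
    (hπ : ∀ i f (m : ℤ), (σ (g • i) f).coeff m = ζ ^ m * (σ i f).coeff m)
    (z : ℤ) (i : ι) : ringOf (σ (g ^ z • i)) = ringOf (σ i) := by
  induction z using Int.induction_on generalizing i with
  | zero => simp
  | succ n ih =>
    rw [zpow_add_one, mul_smul, ih, ringOf_smul σ g ζ hζ0 hπ]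
  | pred n ih =>
    rw [zpow_sub_one, mul_smul, ih]
    have h := ringOf_smul σ g ζ hζ0 hπ (g⁻¹ • i)
    rw [smul_inv_smul] at h
    exact h.symm

theorem ord_dvd_of_period (x : F) (hx0 : x ≠ 0) (σ : ι → F →+* LaurentSeries L) (g : G) (ζ : L)
    (e₀ : ℕ) (hζ : IsPrimitiveRoot ζ e₀)
    (hπ : ∀ i f (m : ℤ), (σ (g • i) f).coeff m = ζ ^ m * (σ i f).coeff m)
    (i : ι) (hord : ordOf (σ i) x = e₀)
    (v : Place k F) (hv : v.toValuationSubring = ringOf (σ i))
    (n : ℕ) (hn : g ^ n • i = i) : v.ord x ∣ (n : ℤ) := by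
  obtain ⟨M, hM, hφ⟩ := exists_mul_ord_of_hom v (ordOf (σ i))
    (fun f g hf hg => ordOf_mul _ hf hg)
    (fun f _ => by rw [hv, mem_ringOf])
  obtain ⟨ϖ, hϖ⟩ := IsDiscreteValuationRing.exists_irreducible v.toValuationSubring
  have hϖ0 : (ϖ : F) ≠ 0 := by
    simpa [ne_eq, ZeroMemClass.coe_eq_zero] using hϖ.ne_zero
  have h1 : ordOf (σ i) (ϖ : F) = M := by
    rw [hφ _ hϖ0, v.ord_coe_irreducible hϖ, mul_one]
  have h2 := coeff_pow_smul σ g ζ hπ n i (ϖ : F) M
  rw [hn] at h2
  have hc : (σ i (ϖ : F)).coeff M ≠ 0 := by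
    rw [← h1]
    intro h0
    exact map_ne_zero_of_ne (σ i) hϖ0 (HahnSeries.coeff_order_eq_zero.mp h0)
  have h3 : (ζ ^ M) ^ n = 1 := by
    have : ((ζ ^ M) ^ n - 1) * (σ i (ϖ : F)).coeff M = 0 := by
      rw [sub_mul, one_mul, ← h2, sub_self]
    exact sub_eq_zero.mp ((mul_eq_zero.mp this).resolve_right hc)
  rw [← zpow_natCast, ← zpow_mul, hζ.zpow_eq_one_iff_dvd] at h3
  have h4 : (e₀ : ℤ) = M * v.ord x := by rw [← hord, hφ _ hx0]
  rw [h4] at h3
  exact Int.dvd_of_mul_dvd_mul_left hM.ne' h3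

end Monodromy

section Count

variable {k F : Type*} [Field k] [IsAlgClosed k] [CharZero k] [Field F] [Algebra k F]
variable {L : Type*} [Field L]
variable {ι G : Type*} [Group G] [MulAction G ι]

/-- **Local counting lemma.** If the `n = [F : k(x)]` embeddings of `F` into Laurent series over
`k(x)` are permuted by `g` through the substitution `w ↦ ζ w`, the places of `F` over `x = 0`
are in bijection with the orbits of `g`. -/
theorem card_zeros_eq_card_orbits (x : F) (hx : Transcendental k x) [FiniteDimensional k⟮x⟯ F]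
    [Finite ι] (hcard : Nat.card ι = finrank k⟮x⟯ F)
    (σ : ι → F →+* LaurentSeries L) (hσinj : Function.Injective σ)
    (hσk : ∀ i j (a : k), σ i (algebraMap k F a) = σ j (algebraMap k F a))
    (hσx : ∀ i j, σ i x = σ j x)
    (e₀ : ℕ) (he₀ : 0 < e₀) (hord : ∀ i, (σ i x).order = e₀)
    (g : G) (ζ : L) (hζ : IsPrimitiveRoot ζ e₀)
    (hπ : ∀ i f (m : ℤ), (σ (g • i) f).coeff m = ζ ^ m * (σ i f).coeff m)
    (Z : Finset (Place k F)) (hZ : ∀ v, v ∈ Z ↔ 0 < v.ord x) :
    Z.card = Nat.card (MulAction.orbitRel.Quotient (Subgroup.zpowers g) ι) ∧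
      ∑ v ∈ Z, v.ord x = finrank k⟮x⟯ F := by
  classical
  cases nonempty_fintype ι
  have hx0 : x ≠ 0 := by
    rintro rfl
    exact hx isAlgebraic_zero
  have hζ0 : ζ ≠ 0 := hζ.ne_zero he₀.ne'
  obtain ⟨Z', hZ', hsum⟩ := exists_finset_zeros x hx
  have hZZ : Z' = Z := Finset.ext fun v => by rw [hZ, hZ']
  subst hZZ
  refine ⟨?_, hsum⟩
  have hcard' : Fintype.card ι = finrank k⟮x⟯ F := by rw [← hcard, Nat.card_eq_fintype_card]
  have hcardpos : 0 < Fintype.card ι := by rw [hcard']; exact Module.finrank_pos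
  have hne : Nonempty ι := Fintype.card_pos_iff.mp hcardpos
  have hex : ∀ v ∈ Z', ∃ i, v.toValuationSubring = ringOf (σ i) := fun v hv =>
    exists_embedding_of_place x hx hcard' σ hσinj hσk hσx
      (fun i => by unfold ordOf; rw [hord i]; exact_mod_cast he₀) v ((hZ' v).mp hv)
  choose! iv hiv using hex
  let Ω := MulAction.orbitRel.Quotient (Subgroup.zpowers g) ι
  letI : Fintype Ω := Fintype.ofFinite Ω
  let φ : Place k F → Ω := fun v => Quotient.mk'' (iv v)
  let size : Ω → ℕ := fun ω => Nat.card ω.orbit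
  have hsize_sum : ∑ ω, size ω = Fintype.card ι := by
    rw [← Nat.card_eq_fintype_card,
      Nat.card_congr (MulAction.selfEquivSigmaOrbits' (Subgroup.zpowers g) ι), Nat.card_sigma]
  have hsize_pos : ∀ ω, 0 < size ω := by
    intro ω
    induction ω using Quotient.inductionOn' with
    | h i =>
      have : Nonempty (MulAction.orbitRel.Quotient.orbit
          (Quotient.mk'' i : MulAction.orbitRel.Quotient (Subgroup.zpowers g) ι)) :=
        ⟨⟨i, MulAction.mem_orbit_self i⟩⟩
      exact Nat.card_pos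
  have hle : ∀ v ∈ Z', v.ord x ≤ size (φ v) := by
    intro v hv
    have h1 : size (φ v) = Function.minimalPeriod (g • ·) (iv v) := by
      rw [MulAction.minimalPeriod_eq_card, ← Nat.card_eq_fintype_card]
      rfl
    have h2 : g ^ (size (φ v)) • iv v = iv v := by
      rw [h1, MulAction.pow_smul_eq_iff_minimalPeriod_dvd]
    have h3 := ord_dvd_of_period x hx0 σ g ζ e₀ hζ hπ (iv v) (hord _) v (hiv v hv) _ h2
    exact Int.le_of_dvd (by exact_mod_cast hsize_pos _) h3
  have hinj : Set.InjOn φ Z' := by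
    intro v hv v' hv' hvv'
    have h1 : iv v ∈ MulAction.orbit (Subgroup.zpowers g) (iv v') := Quotient.exact' hvv'
    obtain ⟨⟨h, hh⟩, hh2⟩ := h1
    obtain ⟨z, rfl⟩ := Subgroup.mem_zpowers_iff.mp hh
    have h3 : g ^ z • iv v' = iv v := hh2
    apply Place.ext
    rw [hiv v hv, hiv v' hv', ← h3, ringOf_zpowers_smul σ g ζ hζ0 hπ]
  have himage : Z'.image φ = Finset.univ := by
    by_contra hne
    have hss : Z'.image φ ⊂ Finset.univ := Finset.ssubset_univ_iff.mpr hne
    obtain ⟨ω, -, hω⟩ := Finset.exists_of_ssubset hss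
    have hlt : ∑ ω ∈ Z'.image φ, size ω < ∑ ω, size ω :=
      Finset.sum_lt_sum_of_subset hss.subset (Finset.mem_univ ω) hω (hsize_pos ω)
        (fun _ _ _ => Nat.zero_le _)
    rw [Finset.sum_image hinj, hsize_sum, hcard'] at hlt
    have h5 : ∑ v ∈ Z', v.ord x ≤ ∑ v ∈ Z', (size (φ v) : ℤ) := Finset.sum_le_sum hle
    rw [hsum] at h5
    have h6 : ((∑ v ∈ Z', size (φ v) : ℕ) : ℤ) < (finrank k⟮x⟯ F : ℤ) := by exact_mod_cast hlt
    push_cast at h6
    omega
  rw [← Finset.card_image_of_injOn hinj, himage, Finset.card_univ, Nat.card_eq_fintype_card]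

/-- Ramification contribution of the fibre `x = 0`. -/
theorem sum_ord_sub_one_eq (x : F) (hx : Transcendental k x) [FiniteDimensional k⟮x⟯ F]
    [Finite ι] (hcard : Nat.card ι = finrank k⟮x⟯ F)
    (σ : ι → F →+* LaurentSeries L) (hσinj : Function.Injective σ)
    (hσk : ∀ i j (a : k), σ i (algebraMap k F a) = σ j (algebraMap k F a))
    (hσx : ∀ i j, σ i x = σ j x)
    (e₀ : ℕ) (he₀ : 0 < e₀) (hord : ∀ i, (σ i x).order = e₀)
    (g : G) (ζ : L) (hζ : IsPrimitiveRoot ζ e₀)
    (hπ : ∀ i f (m : ℤ), (σ (g • i) f).coeff m = ζ ^ m * (σ i f).coeff m)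
    (Z : Finset (Place k F)) (hZ : ∀ v, v ∈ Z ↔ 0 < v.ord x) :
    ∑ v ∈ Z, (v.ord x - 1) = (finrank k⟮x⟯ F : ℤ)
      - Nat.card (MulAction.orbitRel.Quotient (Subgroup.zpowers g) ι) := by
  obtain ⟨h1, h2⟩ := card_zeros_eq_card_orbits x hx hcard σ hσinj hσk hσx e₀ he₀ hord g ζ hζ hπ Z hZ
  rw [Finset.sum_sub_distrib, h2, ← h1]
  simp

/-- Unramified fibre: if `x` has order one in all `n` embeddings then every zero of `x` is
simple. -/
theorem ord_eq_one_of_order_eq_one (x : F) (hx : Transcendental k x) [FiniteDimensional k⟮x⟯ F]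
    [Finite ι] (hcard : Nat.card ι = finrank k⟮x⟯ F)
    (σ : ι → F →+* LaurentSeries L) (hσinj : Function.Injective σ)
    (hσk : ∀ i j (a : k), σ i (algebraMap k F a) = σ j (algebraMap k F a))
    (hσx : ∀ i j, σ i x = σ j x) (hord : ∀ i, (σ i x).order = 1)
    (v : Place k F) (hv : 0 < v.ord x) : v.ord x = 1 := by
  classical
  cases nonempty_fintype ι
  have hx0 : x ≠ 0 := by
    rintro rfl
    exact hx isAlgebraic_zero
  have hcard' : Fintype.card ι = finrank k⟮x⟯ F := by rw [← hcard, Nat.card_eq_fintype_card]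
  obtain ⟨i, hi⟩ := exists_embedding_of_place x hx hcard' σ hσinj hσk hσx
      (fun i => by unfold ordOf; rw [hord i]; exact one_pos) v hv
  obtain ⟨M, hM, hφ⟩ := exists_mul_ord_of_hom v (ordOf (σ i))
    (fun f g hf hg => ordOf_mul _ hf hg)
    (fun f _ => by rw [hi, mem_ringOf])
  have h1 : (1 : ℤ) = M * v.ord x := by
    rw [← hφ x hx0]; exact (hord i).symm
  exact Int.eq_one_of_dvd_one hv.le ⟨M, by rw [h1]; ring⟩

end Count

end Fermat.Agent.S24
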