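import Mathlib
import Fermat.Agent.S24.Final
import Fermat.Agent.S24.DifferentialRH
import Fermat.Agent.S24.LocalCount

set_option autoImplicit false
set_option linter.unusedSectionVars false
set_option linter.style.haveILetI false

open AlgebraicCurve Module IntermediateField KaehlerDifferential ModularCurve
open scoped MatrixGroups
open CongruenceSubgroup MulAction

namespace Fermat.Agent.S24

/-- A family of embeddings of `F` into Laurent series, indexed by `ι`, all agreeing on `k` and on
`x`, in which `x` has order `e₀`, and on which `g` acts through `w ↦ ζ w`. -/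
structure LocalFamily (k F : Type*) [Field k] [Field F] [Algebra k F] (ι G : Type*) [Group G]
    [MulAction G ι] (x : F) (e₀ : ℕ) (g : G) where
  σ : ι → F →+* LaurentSeries ℂ
  inj : Function.Injective σ
  const : ∀ i i' (a : k), σ i (algebraMap k F a) = σ i' (algebraMap k F a)
  agree : ∀ i i', σ i x = σ i' x
  order : ∀ i, (σ i x).order = e₀
  ζ : ℂ
  prim : IsPrimitiveRoot ζ e₀
  rot : ∀ i f (m : ℤ), (σ (g • i) f).coeff m = ζ ^ m * (σ i f).coeff m

/-- `S24` modulo the degree computation and the four kinds of local families. -/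
theorem genus_eq_genusFormula_of_families {k F : Type*} [Field k] [IsAlgClosed k] [CharZero k]
    [Field F] [Algebra k F] [HasCanonicalDivisor (K := k) (F := F)] (N : ℕ) [NeZero N]
    (j : F) (hj : Transcendental k j) [FiniteDimensional k⟮j⟯ F]
    (hn : finrank k⟮j⟯ F = Nat.card (SL(2, ℤ) ⧸ Gamma0 N))
    (fgen : ∀ c : k, c ≠ 0 → c ≠ 1728 →
      Nonempty (LocalFamily k F (SL(2, ℤ) ⧸ Gamma0 N) SL(2, ℤ) (j - algebraMap k F c) 1 1))
    (f0 : Nonempty (LocalFamily k F (SL(2, ℤ) ⧸ Gamma0 N) SL(2, ℤ) (j - algebraMap k F 0) 3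
      (ModularGroup.S * ModularGroup.T)))
    (f1728 : Nonempty (LocalFamily k F (SL(2, ℤ) ⧸ Gamma0 N) SL(2, ℤ) (j - algebraMap k F 1728) 2
      ModularGroup.S))
    (fcusp : Nonempty (LocalFamily k F (SL(2, ℤ) ⧸ Gamma0 N) SL(2, ℤ) j⁻¹ N ModularGroup.T)) :
    (genus k F : ℚ) = genusFormula N := by
  have hfinite : Finite (SL(2, ℤ) ⧸ Gamma0 N) := by
    apply Nat.finite_of_card_ne_zero
    rw [← hn]
    exact (finrank_pos (R := k⟮j⟯) (M := F)).ne'
  have hsubfd : ∀ c : k, FiniteDimensional k⟮j - algebraMap k F c⟯ F := by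
    intro c
    rw [adjoin_sub_const_eq]; infer_instance
  have hinvfd : FiniteDimensional k⟮j⁻¹⟯ F := by
    rw [adjoin_inv_eq]; infer_instance
  refine genus_eq_genusFormula_of N j hj hn (Differential.D_ne_zero' j hj) (Differential.hgen j hj)
    (Differential.hsmul j hj) (Differential.hfin j hj) (Differential.hinf j hj) ?_ ?_ ?_ ?_
  · intro c hc0 hc1 v hv
    obtain ⟨fam⟩ := fgen c hc0 hc1
    exact ord_eq_one_of_order_eq_one (j - algebraMap k F c) (transcendental_sub_const hj c)
      (by rw [adjoin_sub_const_eq, hn]) fam.σ fam.inj fam.const fam.agree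
      (fun i => by rw [fam.order i]; rfl) v hv
  · intro Z hZ
    obtain ⟨fam⟩ := f0
    exact (card_zeros_eq_card_orbits (j - algebraMap k F 0) (transcendental_sub_const hj 0)
      (by rw [adjoin_sub_const_eq, hn]) fam.σ fam.inj fam.const fam.agree 3 (by norm_num)
      fam.order _ fam.ζ fam.prim fam.rot Z hZ).1
  · intro Z hZ
    obtain ⟨fam⟩ := f1728
    exact (card_zeros_eq_card_orbits (j - algebraMap k F 1728) (transcendental_sub_const hj 1728)
      (by rw [adjoin_sub_const_eq, hn]) fam.σ fam.inj fam.const fam.agree 2 (by norm_num)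
      fam.order _ fam.ζ fam.prim fam.rot Z hZ).1
  · intro Z hZ
    obtain ⟨fam⟩ := fcusp
    exact (card_zeros_eq_card_orbits j⁻¹ (transcendental_inv hj)
      (by rw [adjoin_inv_eq, hn]) fam.σ fam.inj fam.const fam.agree N (Nat.pos_of_ne_zero (NeZero.ne N))
      fam.order _ fam.ζ fam.prim fam.rot Z (fun v => by rw [hZ, v.ord_inv]; omega)).1

end Fermat.Agent.S24
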