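import Mathlib
import Fermat.Prelude.Def_ModularCurve_LaurentCoeff

/-!
# S24 / Degree: abstract parts

* `card_le_finrank_of_ringHoms` : lower bound for `[F : k(x)]` from a family of embeddings;
* `finrank_le_of_relations` : upper bound from monic relations on a generating subalgebra;
* `descent_relation` : descent of a monic relation along a field extension of the coefficients;
* `exists_norm_relation` : the norm polynomial of an invariant function.
-/

set_option autoImplicit false
set_option linter.style.haveILetI false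

namespace Fermat.Agent.S24.Degree

open IntermediateField Module Polynomial ModularCurve

/-- Two ring homs out of `F` which agree on constants and on `x` agree on `k⟮x⟯`. -/
theorem ringHom_eq_on_adjoin_simple {k F L : Type*} [Field k] [Field F] [Algebra k F] [Field L]
    (x : F) (φ ψ : F →+* L) (h2 : ∀ a, φ (algebraMap k F a) = ψ (algebraMap k F a))
    (h3 : φ x = ψ x) (y : F) (hy : y ∈ k⟮x⟯) : φ y = ψ y := by
  induction hy using IntermediateField.adjoin_induction with
  | mem z hz => rw [Set.mem_singleton_iff.mp hz, h3]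
  | algebraMap a => exact h2 a
  | add a b _ _ ha hb => rw [map_add, map_add, ha, hb]
  | inv a _ ha => rw [map_inv₀, map_inv₀, ha]
  | mul a b _ _ ha hb => rw [map_mul, map_mul, ha, hb]

/-- An injective family of ring homs agreeing on `k` and on `x` has at most `[F : k(x)]`
members. -/
theorem card_le_finrank_of_ringHoms {k F L X : Type*} [Field k] [Field F] [Algebra k F] [Field L]
    (x : F) [FiniteDimensional k⟮x⟯ F] (σ : X → (F →+* L))
    (h1 : Function.Injective σ)
    (h2 : ∀ i i' a, σ i (algebraMap k F a) = σ i' (algebraMap k F a))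
    (h3 : ∀ i i', σ i x = σ i' x) : Nat.card X ≤ finrank k⟮x⟯ F := by
  rcases isEmpty_or_nonempty X with hX | ⟨⟨i0⟩⟩
  · simp
  letI : Algebra k⟮x⟯ L := ((σ i0).comp (algebraMap k⟮x⟯ F)).toAlgebra
  let τ : X → (F →ₐ[k⟮x⟯] L) := fun i =>
    { σ i with
      commutes' := fun y =>
        ringHom_eq_on_adjoin_simple x (σ i) (σ i0) (h2 i i0) (h3 i i0) y.1 y.2 }
  have hτ : Function.Injective τ := by
    intro i i' h
    apply h1
    ext f
    exact congrArg (fun t : F →ₐ[k⟮x⟯] L => t f) h
  exact (Nat.card_le_card_of_injective τ hτ).trans (card_algHom_le_finrank k⟮x⟯ F L)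

theorem exists_monic_of_relation {T F : Type*} [CommRing T] [Nontrivial T] [CommRing F] [Algebra T F]
    {n : ℕ} (r : Fin n → T) (a : F)
    (h : a ^ n + ∑ i : Fin n, algebraMap T F (r i) * a ^ (i : ℕ) = 0) :
    ∃ P : T[X], P.Monic ∧ P.natDegree = n ∧ aeval a P = 0 := by
  have hdeg : degree (∑ i : Fin n, C (r i) * X ^ (i : ℕ)) < n := degree_sum_fin_lt r
  refine ⟨X ^ n + ∑ i : Fin n, C (r i) * X ^ (i : ℕ), monic_X_pow_add hdeg,
    ?_, ?_⟩
  · rw [natDegree_add_eq_left_of_degree_lt (by rwa [degree_X_pow]), natDegree_X_pow]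
  · simpa using h

theorem finrank_le_of_relations {k F : Type*} [Field k] [CharZero k] [Field F] [Algebra k F]
    (x : F) (n : ℕ) (S : Set F) [Finite S] (hx : x ∈ Algebra.adjoin k S)
    (hfrac : ∀ f : F, ∃ a ∈ Algebra.adjoin k S, ∃ b ∈ Algebra.adjoin k S, b ≠ 0 ∧ f = a / b)
    (hA : ∀ a ∈ Algebra.adjoin k S, ∃ r : Fin n → Algebra.adjoin k {x},
      a ^ n + ∑ i : Fin n, (r i : F) * a ^ (i : ℕ) = 0) :
    FiniteDimensional k⟮x⟯ F ∧ finrank k⟮x⟯ F ≤ n := by
  have hle : Algebra.adjoin k {x} ≤ k⟮x⟯.toSubalgebra := algebra_adjoin_le_adjoin k {x}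
  -- elements of `A` are integral of degree `≤ n`
  have hint : ∀ a ∈ Algebra.adjoin k S, IsIntegral k⟮x⟯ a ∧ (minpoly k⟮x⟯ a).natDegree ≤ n := by
    intro a ha
    obtain ⟨r, hr⟩ := hA a ha
    obtain ⟨P, hP1, hP2, hP3⟩ := exists_monic_of_relation (T := k⟮x⟯) (F := F)
      (fun i => ⟨(r i : F), hle (r i).2⟩) a hr
    refine ⟨⟨P, hP1, by simpa [aeval_def] using hP3⟩, ?_⟩
    rw [← hP2]
    exact natDegree_le_of_dvd (minpoly.dvd _ _ hP3) hP1.ne_zero
  have hAle : ∀ a ∈ Algebra.adjoin k S, a ∈ adjoin k⟮x⟯ S := by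
    intro a ha
    induction ha using Algebra.adjoin_induction with
    | mem z hz => exact subset_adjoin _ _ hz
    | algebraMap c =>
      have := (adjoin k⟮x⟯ S).algebraMap_mem (algebraMap k k⟮x⟯ c)
      rwa [← IsScalarTower.algebraMap_apply] at this
    | add a b _ _ ha hb => exact add_mem ha hb
    | mul a b _ _ ha hb => exact mul_mem ha hb
  have htop : adjoin k⟮x⟯ S = ⊤ := by
    rw [eq_top_iff]
    intro f _
    obtain ⟨a, ha, b, hb, _, rfl⟩ := hfrac f
    exact div_mem (hAle a ha) (hAle b hb)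
  have hfd : FiniteDimensional k⟮x⟯ F := by
    have h1 : FiniteDimensional k⟮x⟯ (adjoin k⟮x⟯ S) :=
      finiteDimensional_adjoin fun s hs => (hint s (Algebra.subset_adjoin hs)).1
    rw [htop] at h1
    exact (topEquiv (F := k⟮x⟯) (E := F)).toLinearEquiv.finiteDimensional
  refine ⟨hfd, ?_⟩
  obtain ⟨α, hα⟩ := Field.exists_primitive_element k⟮x⟯ F
  obtain ⟨a, ha, b, hb, hb0, rfl⟩ := hfrac α
  -- clear the denominator
  obtain ⟨r, hr⟩ := hA b hb
  obtain ⟨P, hP1, hP2, hP3⟩ := exists_monic_of_relation (T := Algebra.adjoin k {x}) (F := F) r b hr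
  have halg : IsAlgebraic (Algebra.adjoin k {x}) b := ⟨P, hP1.ne_zero, hP3⟩
  obtain ⟨t, ht, s, hs, hbt⟩ := halg.exists_nonzero_eq_adjoin_mul (mem_nonZeroDivisors_of_ne_zero hb0)
  have htA : t ∈ Algebra.adjoin k S := by
    clear hbt
    induction ht using Algebra.adjoin_induction with
    | mem z hz => rw [Set.mem_singleton_iff.mp hz]; exact hb
    | algebraMap c =>
      exact (Algebra.adjoin_le (Set.singleton_subset_iff.mpr hx) : Algebra.adjoin k {x} ≤ _) c.2
    | add a b _ _ ha hb => exact add_mem ha hb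
    | mul a b _ _ ha hb => exact mul_mem ha hb
  have hs' : (s : F) ≠ 0 := by simpa using hs
  have hat := hint (a * t) (mul_mem ha htA)
  have htop2 : k⟮x⟯⟮a * t⟯ = ⊤ := by
    rw [eq_top_iff, ← hα, adjoin_simple_le_iff]
    have h1 : a / b = (a * t) * (s : F)⁻¹ := by
      have : b * t = (s : F) := hbt
      rw [← this]
      have ht0 : t ≠ 0 := by
        rintro rfl
        rw [mul_zero] at this
        exact hs' this.symm
      field_simp
    rw [h1]
    refine mul_mem (mem_adjoin_simple_self _ _) (inv_mem ?_)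
    exact (k⟮x⟯⟮a * t⟯).algebraMap_mem ⟨(s : F), hle s.2⟩
  rw [← finrank_top', ← htop2, adjoin.finrank hat.1]
  exact hat.2

section Descent

variable {k C : Type*} [Field k] [Field C] (ι : k →+* C)

/-- A `k`-linear retraction of `ι`. -/
theorem exists_retraction : ∃ lam : C →+ k, (∀ a c, lam (c * ι a) = lam c * a) ∧ lam 1 = 1 := by
  letI : Algebra k C := ι.toAlgebra
  obtain ⟨g, hg⟩ := (Algebra.linearMap k C).exists_leftInverse_of_injective
    (LinearMap.ker_eq_bot.mpr (algebraMap k C).injective)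
  refine ⟨g.toAddMonoidHom, fun a c => ?_, ?_⟩
  · have : c * ι a = a • c := by rw [Algebra.smul_def, mul_comm]; rfl
    simp [this, mul_comm]
  · have := LinearMap.congr_fun hg 1
    simpa using this

variable {ι}

/-- Coefficientwise application of an additive map. -/
noncomputable def coeffAdd (lam : C →+ k) : LaurentSeries C →+ LaurentSeries k where
  toFun x := x.map lam
  map_zero' := by ext; simp
  map_add' x y := by ext; simp

theorem coeffAdd_smul (lam : C →+ k) (hlam : ∀ a c, lam (c * ι a) = lam c * a) (c : C)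
    (f : LaurentSeries k) :
    coeffAdd lam (algebraMap C (LaurentSeries C) c * coeffMap ι f)
      = algebraMap k (LaurentSeries k) (lam c) * f := by
  ext e
  rw [algebraMap_laurentSeries_eq_single, algebraMap_laurentSeries_eq_single,
    HahnSeries.coeff_single_mul]
  simp [coeffAdd, hlam]

/-- Coefficientwise application of an additive map to a polynomial. -/
noncomputable def lamPoly (lam : C →+ k) (p : C[X]) : k[X] :=
  ∑ l ∈ Finset.range (p.natDegree + 1), monomial l (lam (p.coeff l))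

theorem coeffAdd_aeval_mul (lam : C →+ k) (hlam : ∀ a c, lam (c * ι a) = lam c * a) (p : C[X])
    (j g : LaurentSeries k) :
    coeffAdd lam (aeval (coeffMap ι j) p * coeffMap ι g) = aeval j (lamPoly lam p) * g := by
  rw [aeval_eq_sum_range, Finset.sum_mul, map_sum, lamPoly, map_sum, Finset.sum_mul]
  refine Finset.sum_congr rfl fun l _ => ?_
  rw [Algebra.smul_def, mul_assoc, ← map_pow, ← map_mul, coeffAdd_smul lam hlam, aeval_monomial,
    mul_assoc]

/-- Descent of a monic relation from `C` to `k`. -/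
theorem descent_relation (j α : LaurentSeries k) {n : ℕ} (p : Fin n → C[X])
    (h : coeffMap ι α ^ n + ∑ i : Fin n, aeval (coeffMap ι j) (p i) * coeffMap ι α ^ (i : ℕ) = 0) :
    ∃ p' : Fin n → k[X], α ^ n + ∑ i : Fin n, aeval j (p' i) * α ^ (i : ℕ) = 0 := by
  obtain ⟨lam, hlam, hlam1⟩ := exists_retraction ι
  refine ⟨fun i => lamPoly lam (p i), ?_⟩
  have h2 := congrArg (coeffAdd lam) h
  rw [map_add, map_sum, map_zero] at h2
  have h3 : coeffAdd lam (coeffMap ι α ^ n) = α ^ n := by
    have := coeffAdd_smul lam hlam 1 (α ^ n)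
    rwa [map_one, one_mul, hlam1, map_one, one_mul, map_pow] at this
  rw [h3] at h2
  rw [← h2]
  congr 1
  refine Finset.sum_congr rfl fun i _ => ?_
  rw [← map_pow, coeffAdd_aeval_mul lam hlam]

end Descent

section Norm

variable {G H : Type*} [Group G] [MulAction G H] [Nonempty H]

/-- Norm polynomial argument: a `Γ`-invariant function is a root of a monic polynomial of degree
`[G : Γ]` whose coefficients are `G`-invariant and lie in any subring containing the translates. -/
theorem exists_norm_relation (Γ : Subgroup G) [Finite (G ⧸ Γ)] (φ : H → ℂ)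
    (hφ : ∀ γ ∈ Γ, ∀ τ, φ (γ • τ) = φ τ) (𝒮 : Subring (H → ℂ))
    (hS : ∀ g : G, (fun τ => φ (g • τ)) ∈ 𝒮) :
    ∃ r : Fin (Nat.card (G ⧸ Γ)) → (H → ℂ), (∀ i, r i ∈ 𝒮) ∧
      (∀ i (g : G) τ, r i (g • τ) = r i τ) ∧
      φ ^ (Nat.card (G ⧸ Γ)) + ∑ i, r i * φ ^ (i : ℕ) = 0 := by
  classical
  have := Fintype.ofFinite (G ⧸ Γ)
  let tr : G ⧸ Γ → H → ℂ := fun x τ => φ (x.out⁻¹ • τ)
  have tr_mk : ∀ g : G, tr (g : G ⧸ Γ) = fun τ => φ (g⁻¹ • τ) := by
    intro g
    obtain ⟨γ, hγ⟩ := QuotientGroup.mk_out_eq_mul Γ g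
    funext τ
    show φ ((Quotient.out (g : G ⧸ Γ))⁻¹ • τ) = _
    rw [hγ, mul_inv_rev, mul_smul, hφ _ (Γ.inv_mem γ.2)]
  have trS : ∀ x, tr x ∈ 𝒮 := fun x => hS _
  let P : (H → ℂ)[X] := ∏ x : G ⧸ Γ, (X - C (tr x))
  let cg : G → ((H → ℂ) →+* (H → ℂ)) := fun g =>
    RingHom.pi fun τ => Pi.evalRingHom (fun _ : H => ℂ) (g • τ)
  have hcg : ∀ g x, cg g (tr x) = tr (g⁻¹ • x) := by
    intro g x
    induction x using QuotientGroup.induction_on with | H a => ?_
    have e : g⁻¹ • (a : G ⧸ Γ) = ((g⁻¹ * a : G) : G ⧸ Γ) := rfl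
    rw [e, tr_mk, tr_mk]
    funext τ
    show φ (a⁻¹ • g • τ) = _
    rw [mul_inv_rev, inv_inv, mul_smul]
  have hPmap : ∀ g, P.map (cg g) = P := by
    intro g
    simp only [P, Polynomial.map_prod, Polynomial.map_sub, Polynomial.map_X, Polynomial.map_C, hcg]
    exact Equiv.prod_comp (MulAction.toPerm g⁻¹) fun x => (X - C (tr x))
  have hPS : P = (∏ x : G ⧸ Γ, (X - C (⟨tr x, trS x⟩ : 𝒮))).map 𝒮.subtype := by
    simp only [P, Polynomial.map_prod, Polynomial.map_sub, Polynomial.map_X, Polynomial.map_C]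
    rfl
  have hmonic : P.Monic := monic_prod_of_monic _ _ fun x _ => monic_X_sub_C _
  have hdeg : P.natDegree = Nat.card (G ⧸ Γ) := by
    rw [natDegree_prod_of_monic _ _ fun x _ => monic_X_sub_C _]
    simp [Nat.card_eq_fintype_card]
  have heval : P.eval φ = 0 := by
    rw [eval_prod]
    refine Finset.prod_eq_zero (Finset.mem_univ ((1 : G) : G ⧸ Γ)) ?_
    rw [tr_mk]
    simp
  refine ⟨fun i => P.coeff i, fun i => ?_, fun i g τ => ?_, ?_⟩
  · show P.coeff (i : ℕ) ∈ 𝒮
    rw [hPS, coeff_map]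
    exact Subtype.mem _
  · have := congrArg (fun Q => Q.coeff (i : ℕ) τ) (hPmap g)
    simp only [coeff_map] at this
    exact this
  · rw [eval_eq_sum_range, hdeg, Finset.sum_range_succ, ← hdeg, hmonic.coeff_natDegree, one_mul,
      hdeg, Finset.sum_range, add_comm] at heval
    exact heval

end Norm

end Fermat.Agent.S24.Degree
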