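import Fermat.Agent.S24.DefsB
import Fermat.Prelude.Thm_ModularCurve_coeffMap_qExpand

set_option autoImplicit false

/-!
# `FN N` is the fraction field of `A N = Kbar[j_d : d ∣ N]`

Pure algebra.  `gens N` is the set of the `q`-expansions `j(q^d)`, `d ∣ N`, with coefficients
in `Kbar`.
-/

namespace Fermat.Agent.S24.FNAdjoin

open AlgebraicCurve ModularCurve IntermediateField

/-- The generators `j(q^d)`, `d ∣ N`, as Laurent series over `Kbar`. -/
def gens (N : ℕ) : Set (LaurentSeries Kbar) :=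
  {s | ∃ d : ℕ, ∃ _ : NeZero d, d ∣ N ∧ s = coeffEmb Kbar (qExpand ℚ d jq)}

theorem gens_eq_image (N : ℕ) : gens N = ⇑(coeffEmb Kbar) '' divisorExpansions N := by
  ext s
  constructor
  · rintro ⟨d, hd, hdN, rfl⟩
    exact ⟨_, ⟨d, hd, hdN, rfl⟩, rfl⟩
  · rintro ⟨_, ⟨d, hd, hdN, rfl⟩, rfl⟩
    exact ⟨d, hd, hdN, rfl⟩

theorem mem_gens {N d : ℕ} [NeZero d] (hd : d ∣ N) :
    coeffEmb Kbar (qExpand ℚ d jq) ∈ gens N :=
  ⟨d, ‹_›, hd, rfl⟩

/-- `coeffEmb` commutes with `q ↦ q^d`. -/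
theorem coeffEmb_qExpand (d : ℕ) [NeZero d] (x : LaurentSeries ℚ) :
    coeffEmb Kbar (qExpand ℚ d x) = qExpand Kbar d (coeffEmb Kbar x) :=
  ModularCurve.coeffMap_qExpand _ d x

theorem coeffEmb_algebraMap (c : ℚ) :
    coeffEmb Kbar (algebraMap ℚ (LaurentSeries ℚ) c) =
      algebraMap Kbar (LaurentSeries Kbar) (algebraMap ℚ Kbar c) := by
  rw [algebraMap_laurentSeries_eq_single, algebraMap_laurentSeries_eq_single, coeffEmb,
    coeffMap_single]

/-- `coeffEmb` maps `adjoin ℚ S` into `adjoin Kbar (coeffEmb '' S)`. -/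
theorem coeffEmb_mem_adjoin {S : Set (LaurentSeries ℚ)} {x : LaurentSeries ℚ}
    (hx : x ∈ IntermediateField.adjoin ℚ S) :
    coeffEmb Kbar x ∈ IntermediateField.adjoin Kbar (⇑(coeffEmb Kbar) '' S) := by
  induction hx using IntermediateField.adjoin_induction with
  | mem y hy => exact IntermediateField.subset_adjoin _ _ ⟨y, hy, rfl⟩
  | algebraMap c =>
      rw [coeffEmb_algebraMap]
      exact IntermediateField.algebraMap_mem _ _
  | add x y _ _ hx hy => rw [map_add]; exact add_mem hx hy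
  | inv x _ hx => rw [map_inv₀]; exact inv_mem hx
  | mul x y _ _ hx hy => rw [map_mul]; exact mul_mem hx hy

/-- (a) `FN N` is generated over `Kbar` by the `j(q^d)`, `d ∣ N`. -/
theorem modularFunctionFieldBar_eq_adjoin (N : ℕ) :
    modularFunctionFieldBar N = IntermediateField.adjoin Kbar (gens N) := by
  apply le_antisymm
  · show IntermediateField.adjoin Kbar _ ≤ _
    rw [IntermediateField.adjoin_le_iff]
    rintro _ ⟨x, hx, rfl⟩
    rw [gens_eq_image]
    exact coeffEmb_mem_adjoin hx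
  · rw [IntermediateField.adjoin_le_iff]
    rintro _ ⟨d, hd, hdN, rfl⟩
    exact coeffEmb_mem_laurentBaseChange Kbar (jqd_mem_full N hdN)

theorem gens_subset (N : ℕ) : gens N ⊆ (modularFunctionFieldBar N : Set (LaurentSeries Kbar)) := by
  rw [modularFunctionFieldBar_eq_adjoin]
  exact IntermediateField.subset_adjoin _ _

/-- The element `j_d = j(q^d)` of `FN N`, for `d ∣ N`. -/
noncomputable def jd (N d : ℕ) [NeZero d] (hd : d ∣ N) : FN N :=
  ⟨coeffEmb Kbar (qExpand ℚ d jq), gens_subset N (mem_gens hd)⟩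

@[simp] theorem coe_jd (N d : ℕ) [NeZero d] (hd : d ∣ N) :
    ((jd N d hd : FN N) : LaurentSeries Kbar) = coeffEmb Kbar (qExpand ℚ d jq) := rfl

theorem coe_jd' (N d : ℕ) [NeZero d] (hd : d ∣ N) :
    ((jd N d hd : FN N) : LaurentSeries Kbar) = qExpand Kbar d (coeffEmb Kbar jq) := by
  rw [coe_jd, coeffEmb_qExpand]

theorem jd_one (N : ℕ) : jd N 1 (one_dvd N) = jF N := by
  apply Subtype.ext
  show coeffEmb Kbar (qExpand ℚ 1 jq) = coeffEmb Kbar jq
  rw [qExpand_one_apply]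

/-- The generators, as elements of `FN N`. -/
def gensF (N : ℕ) : Set (FN N) :=
  {s | ∃ d : ℕ, ∃ _ : NeZero d, ∃ hd : d ∣ N, s = jd N d hd}

theorem jd_mem_gensF (N d : ℕ) [NeZero d] (hd : d ∣ N) : jd N d hd ∈ gensF N :=
  ⟨d, ‹_›, hd, rfl⟩

theorem image_gensF (N : ℕ) : (Subtype.val : FN N → LaurentSeries Kbar) '' gensF N = gens N := by
  ext s
  constructor
  · rintro ⟨_, ⟨d, hd, hdN, rfl⟩, rfl⟩
    exact ⟨d, hd, hdN, rfl⟩
  · rintro ⟨d, hd, hdN, rfl⟩
    exact ⟨jd N d hdN, ⟨d, hd, hdN, rfl⟩, rfl⟩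

/-- (b) The `Kbar`-algebra `A N = Kbar[j_d : d ∣ N] ⊆ FN N`. -/
noncomputable def A (N : ℕ) : Subalgebra Kbar (FN N) := Algebra.adjoin Kbar (gensF N)

/-- The same algebra inside `LaurentSeries Kbar`. -/
noncomputable def AL (N : ℕ) : Subalgebra Kbar (LaurentSeries Kbar) := Algebra.adjoin Kbar (gens N)

theorem jd_mem_A (N d : ℕ) [NeZero d] (hd : d ∣ N) : jd N d hd ∈ A N :=
  Algebra.subset_adjoin (jd_mem_gensF N d hd)

theorem jF_mem_A (N : ℕ) : jF N ∈ A N := by
  rw [← jd_one]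
  exact jd_mem_A N 1 (one_dvd N)

theorem map_A (N : ℕ) : (A N).map (modularFunctionFieldBar N).val = AL N := by
  rw [A, AL, AlgHom.map_adjoin, ← image_gensF]
  rfl

theorem mem_A_iff {N : ℕ} {x : FN N} : x ∈ A N ↔ (x : LaurentSeries Kbar) ∈ AL N := by
  rw [← map_A]
  constructor
  · intro hx
    exact ⟨x, hx, rfl⟩
  · rintro ⟨y, hy, hyx⟩
    have : y = x := Subtype.ext hyx
    rwa [← this]

theorem AL_le (N : ℕ) : AL N ≤ (modularFunctionFieldBar N).toSubalgebra := by
  rw [AL, Algebra.adjoin_le_iff]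
  exact gens_subset N

/-- The field generated by `gensF N` inside `FN N` is everything. -/
theorem adjoin_gensF (N : ℕ) : IntermediateField.adjoin Kbar (gensF N) = ⊤ := by
  apply IntermediateField.map_injective (modularFunctionFieldBar N).val
  rw [IntermediateField.adjoin_map]
  have h1 : (⇑(modularFunctionFieldBar N).val '' gensF N) = gens N := image_gensF N
  rw [h1, ← modularFunctionFieldBar_eq_adjoin, ← AlgHom.fieldRange_eq_map,
    IntermediateField.fieldRange_val]

/-- Every element of `FN N` is a quotient `a / s` with `a, s ∈ A N`, `s ≠ 0`. -/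
theorem exists_div (N : ℕ) (x : FN N) : ∃ a ∈ A N, ∃ s ∈ A N, s ≠ 0 ∧ x = a / s := by
  have hx : x ∈ IntermediateField.adjoin Kbar (gensF N) := by
    rw [adjoin_gensF]; trivial
  rw [IntermediateField.mem_adjoin_iff_div] at hx
  obtain ⟨a, ha, s, hs, rfl⟩ := hx
  by_cases h0 : s = 0
  · exact ⟨0, zero_mem _, 1, one_mem _, one_ne_zero, by simp [h0]⟩
  · exact ⟨a, ha, s, hs, h0, rfl⟩

/-- (b) `FN N` is the fraction field of `A N`. -/
instance isFractionRing (N : ℕ) : IsFractionRing (A N) (FN N) := by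
  refine IsFractionRing.of_field (A N) (FN N) ?_
  intro x
  obtain ⟨a, ha, s, hs, -, rfl⟩ := exists_div N x
  exact ⟨⟨a, ha⟩, ⟨s, hs⟩, rfl⟩

/-- Induction principle for `A N`. -/
theorem A_induction {N : ℕ} {P : FN N → Prop}
    (hj : ∀ (d : ℕ) [NeZero d] (hd : d ∣ N), P (jd N d hd))
    (hc : ∀ c : Kbar, P (algebraMap Kbar (FN N) c))
    (hadd : ∀ x y, x ∈ A N → y ∈ A N → P x → P y → P (x + y))
    (hmul : ∀ x y, x ∈ A N → y ∈ A N → P x → P y → P (x * y))
    {x : FN N} (hx : x ∈ A N) : P x := by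
  induction hx using Algebra.adjoin_induction with
  | mem y hy =>
      obtain ⟨d, hd, hdN, rfl⟩ := hy
      exact hj d hdN
  | algebraMap c => exact hc c
  | add x y hx hy hx' hy' => exact hadd x y hx hy hx' hy'
  | mul x y hx hy hx' hy' => exact hmul x y hx hy hx' hy'

/-- Two ring homs out of `FN N` which agree on constants and on the `j_d` are equal. -/
theorem ringHom_ext {N : ℕ} {R : Type*} [Semiring R] [IsDomain R] {f g : FN N →+* R}
    (hc : ∀ c : Kbar, f (algebraMap Kbar (FN N) c) = g (algebraMap Kbar (FN N) c))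
    (hj : ∀ (d : ℕ) [NeZero d] (hd : d ∣ N), f (jd N d hd) = g (jd N d hd)) : f = g := by
  have hA : ∀ x ∈ A N, f x = g x := by
    intro x hx
    refine A_induction (P := fun x => f x = g x) (fun d _ hd => hj d hd) hc ?_ ?_ hx
    · intro x y _ _ hx hy
      rw [map_add, map_add, hx, hy]
    · intro x y _ _ hx hy
      rw [map_mul, map_mul, hx, hy]
  ext x
  obtain ⟨a, ha, s, hs, hs0, rfl⟩ := exists_div N x
  have h1 : f (a / s) * f s = f a := by rw [← map_mul, div_mul_cancel₀ _ hs0]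
  have h2 : g (a / s) * g s = g a := by rw [← map_mul, div_mul_cancel₀ _ hs0]
  have h3 : f s ≠ 0 := (map_ne_zero_iff f f.injective).2 hs0
  rw [← hA a ha, ← hA s hs, ← h1] at h2
  exact (mul_right_cancel₀ h3 h2).symm

end Fermat.Agent.S24.FNAdjoin
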