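import Mathlib
import Fermat.Prelude.Def_ModularCurve_LaurentCoeff

/-!
# S24 / JRational

Pure algebra: let `ι : K →+* L` be a field embedding, `j : K((q))` a Laurent series with a pole.
If `P : L[X]` and `P(ι j)` has all its coefficients in `ι K`, then `P` has coefficients in `ι K`.
-/

namespace Fermat.Agent.S24.JRational

open HahnSeries ModularCurve Polynomial

variable {K L : Type*} [Field K] [Field L]

theorem coeffMap_injective (ι : K →+* L) : Function.Injective (coeffMap ι) := by
  intro x y h
  ext k
  have := congrArg (fun z => z.coeff k) h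
  simpa using ι.injective this

theorem coeffMap_algebraMap' (ι : K →+* L) (c : K) :
    coeffMap ι (algebraMap K (LaurentSeries K) c) = algebraMap L (LaurentSeries L) (ι c) := by
  rw [algebraMap_laurentSeries_eq_single, algebraMap_laurentSeries_eq_single, coeffMap_single]

theorem coeffMap_aeval (ι : K →+* L) (j : LaurentSeries K) (Q : K[X]) :
    coeffMap ι (aeval j Q) = aeval (coeffMap ι j) (Q.map ι) := by
  induction Q using Polynomial.induction_on' with
  | add p q hp hq => simp [hp, hq]
  | monomial n a =>
    simp only [aeval_monomial, map_mul, map_pow, Polynomial.map_monomial, coeffMap_algebraMap']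

theorem coeff_aeval_eq_zero (x : LaurentSeries L) (hx : x.order < 0) (n : ℕ) (P : L[X])
    (hP : P.degree < n) : (aeval x P).coeff (n • x.order) = 0 := by
  rcases eq_or_ne P 0 with rfl | h0
  · simp
  rw [aeval_eq_sum_range' (n := n) ((natDegree_lt_iff_degree_lt h0).mpr hP)]
  rw [HahnSeries.coeff_sum]
  refine Finset.sum_eq_zero fun k hk => ?_
  have hk' : k < n := Finset.mem_range.mp hk
  have h1 : (x ^ k).coeff (n • x.order) = 0 := by
    apply coeff_eq_zero_of_lt_order
    rw [order_pow]
    simp only [nsmul_eq_mul]
    have : (k : ℤ) < n := by exact_mod_cast hk'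
    nlinarith
  rw [Algebra.smul_def, algebraMap_laurentSeries_eq_single]
  rw [HahnSeries.coeff_single_zero_mul, h1, mul_zero]

theorem coeff_pow_order (x : LaurentSeries L) (n : ℕ) :
    (x ^ n).coeff (n • x.order) = x.leadingCoeff ^ n := by
  rw [← order_pow, ← leadingCoeff_eq]
  induction n with
  | zero => simp
  | succ n ih => rw [pow_succ, HahnSeries.leadingCoeff_mul, ih, pow_succ]

theorem order_coeffMap (ι : K →+* L) (j : LaurentSeries K) : (coeffMap ι j).order = j.order := by
  rcases eq_or_ne j 0 with rfl | hj
  · simp
  have hj' : coeffMap ι j ≠ 0 := fun h => hj (coeffMap_injective ι (by simpa using h))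
  apply le_antisymm
  · apply order_le_of_coeff_ne_zero
    rw [coeffMap_coeff]
    exact (map_ne_zero ι).mpr (coeff_order_eq_zero.not.mpr hj)
  · apply order_le_of_coeff_ne_zero
    have := coeff_order_eq_zero.not.mpr hj'
    rw [coeffMap_coeff] at this
    exact (map_ne_zero ι).mp this

theorem leadingCoeff_coeffMap (ι : K →+* L) (j : LaurentSeries K) :
    (coeffMap ι j).leadingCoeff = ι j.leadingCoeff := by
  rw [leadingCoeff_eq, leadingCoeff_eq, order_coeffMap, coeffMap_coeff]

/-- **Rationality of the polynomial.** -/
theorem exists_poly_map_eq (ι : K →+* L) (j : LaurentSeries K) (hj : j.order < 0)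
    (P : L[X]) (y : LaurentSeries K) (h : aeval (coeffMap ι j) P = coeffMap ι y) :
    ∃ Q : K[X], Q.map ι = P ∧ aeval j Q = y := by
  have hj0 : j ≠ 0 := by rintro rfl; simp at hj
  have key : ∀ (n : ℕ) (P : L[X]) (y : LaurentSeries K), P.degree < n →
      aeval (coeffMap ι j) P = coeffMap ι y → ∃ Q : K[X], Q.map ι = P := by
    intro n
    induction n with
    | zero =>
      intro P y hP _
      have : P = 0 := by
        rw [← Polynomial.degree_eq_bot]
        simpa [Nat.WithBot.lt_zero_iff] using hP
      exact ⟨0, by simp [this]⟩
    | succ n ih =>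
      intro P y hP hPy
      -- split off the coefficient of degree `n`
      set a : L := P.coeff n with ha
      set P' : L[X] := P - C a * X ^ n with hP'
      have hdeg : P'.degree < n := by
        rw [Polynomial.degree_lt_iff_coeff_zero]
        intro m hm
        rcases eq_or_lt_of_le hm with rfl | hlt
        · simp [hP', ha]
        · have : P.coeff m = 0 := by
            apply Polynomial.coeff_eq_zero_of_degree_lt
            refine lt_of_lt_of_le hP ?_
            exact_mod_cast Nat.succ_le_of_lt hlt
          simp [hP', this, Polynomial.coeff_X_pow, hlt.ne']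
      have hsplit : P = P' + C a * X ^ n := by simp [hP']
      have hx : (coeffMap ι j).order < 0 := by rwa [order_coeffMap]
      have hcoef : a * (ι j.leadingCoeff) ^ n = ι (y.coeff (n • j.order)) := by
        have h1 := congrArg (fun z => z.coeff (n • j.order)) hPy
        simp only [coeffMap_coeff] at h1
        rw [hsplit, map_add, HahnSeries.coeff_add] at h1
        have h2 := coeff_aeval_eq_zero (coeffMap ι j) hx n P' hdeg
        rw [order_coeffMap] at h2
        rw [h2, zero_add, map_mul, aeval_C, map_pow, aeval_X, algebraMap_laurentSeries_eq_single,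
          HahnSeries.coeff_single_zero_mul] at h1
        have h3 := coeff_pow_order (coeffMap ι j) n
        rw [order_coeffMap, leadingCoeff_coeffMap] at h3
        rw [h3] at h1
        exact h1
      have hlc : ι j.leadingCoeff ^ n ≠ 0 :=
        pow_ne_zero _ ((map_ne_zero ι).mpr (leadingCoeff_ne_zero.mpr hj0))
      set b : K := y.coeff (n • j.order) / j.leadingCoeff ^ n with hb
      have hab : a = ι b := by
        rw [hb, map_div₀, map_pow, ← hcoef]
        field_simp
      obtain ⟨Q', hQ'⟩ := ih P' (y - algebraMap K _ b * j ^ n) hdeg (by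
        rw [hP', map_sub, map_sub, hPy, map_mul, map_mul, aeval_C, map_pow, map_pow, aeval_X,
          coeffMap_algebraMap', hab])
      refine ⟨Q' + C b * X ^ n, ?_⟩
      rw [hsplit, Polynomial.map_add, hQ', Polynomial.map_mul, Polynomial.map_pow, Polynomial.map_C,
        Polynomial.map_X, hab]
  obtain ⟨Q, hQ⟩ := key (P.natDegree + 1) P y
    (lt_of_le_of_lt Polynomial.degree_le_natDegree (by exact_mod_cast Nat.lt_succ_self _)) h
  refine ⟨Q, hQ, coeffMap_injective ι ?_⟩
  rw [coeffMap_aeval, hQ, h]

end Fermat.Agent.S24.JRational
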