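import Fermat.Agent.S24.Defs

set_option autoImplicit false

namespace Fermat.Agent.S24

open AlgebraicCurve ModularCurve
open scoped Real

/-- The constant field. -/
abbrev Kbar : Type := AlgebraicClosure ℚ

/-- The function field of `X₀(N)` over `Kbar` (as in the frozen statement). -/
abbrev FN (N : ℕ) : Type := ↥(modularFunctionFieldBar N)

/-- A fixed embedding of `Kbar` in `ℂ`. -/
noncomputable def iota : Kbar →+* ℂ :=
  haveI : Algebra.IsAlgebraic ℚ Kbar := AlgebraicClosure.isAlgebraic ℚ
  ((IsAlgClosed.lift : Kbar →ₐ[ℚ] ℂ) : Kbar →+* ℂ)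

/-- The element of `Kbar` mapping to `exp (2 π i / M)`. -/
noncomputable def zeta (M : ℕ) : Kbar :=
  letI := Classical.propDecidable
  if h : ∃ z : Kbar, iota z = Complex.exp (2 * π * Complex.I / M) then h.choose else 1

/-- The element `j` of `FN N`. -/
noncomputable def jF (N : ℕ) : FN N :=
  ⟨coeffEmb Kbar jq, coeffEmb_mem_laurentBaseChange Kbar (by
    have h := jqd_mem_full N (one_dvd N)
    rwa [qExpand_one_apply] at h)⟩

end Fermat.Agent.S24
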