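import Mathlib

set_option autoImplicit false

open PowerSeries Filter Topology

namespace Fermat.Agent.S24

/-- Taylor series at `0` of a function `ℂ → ℂ`, as a formal power series. -/
noncomputable def taylor0 (g : ℂ → ℂ) : PowerSeries ℂ :=
  .mk fun m => ((m.factorial : ℂ))⁻¹ * iteratedDeriv m g 0

lemma coeff_taylor0 (g : ℂ → ℂ) (m : ℕ) :
    (taylor0 g).coeff m = ((m.factorial : ℂ))⁻¹ * iteratedDeriv m g 0 := by
  simp [taylor0]

lemma taylor0_congr {f g : ℂ → ℂ} (h : f =ᶠ[𝓝 0] g) : taylor0 f = taylor0 g := by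
  ext m
  rw [coeff_taylor0, coeff_taylor0, h.iteratedDeriv_eq]

lemma taylor0_mul {f g : ℂ → ℂ} (hf : AnalyticAt ℂ f 0) (hg : AnalyticAt ℂ g 0) :
    taylor0 (f * g) = taylor0 f * taylor0 g := by
  ext
  simp only [coeff_taylor0,
    iteratedDeriv_mul hf.contDiffAt hg.contDiffAt, Finset.mul_sum, PowerSeries.coeff_mul,
    Finset.Nat.sum_antidiagonal_eq_sum_range_succ_mk, Nat.succ_eq_add_one]
  refine Finset.sum_congr rfl fun i hi ↦ ?_
  rw [Nat.cast_choose _ (by grind)]
  field_simp [Nat.factorial_ne_zero]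

lemma taylor0_add {f g : ℂ → ℂ} (hf : AnalyticAt ℂ f 0) (hg : AnalyticAt ℂ g 0) :
    taylor0 (f + g) = taylor0 f + taylor0 g := by
  ext m
  simp [coeff_taylor0, iteratedDeriv_add hf.contDiffAt hg.contDiffAt, mul_add]

lemma taylor0_const (c : ℂ) : taylor0 (fun _ => c) = PowerSeries.C c := by
  ext m
  rw [coeff_taylor0, iteratedDeriv_const, PowerSeries.coeff_C]
  split_ifs with h <;> simp [h]

lemma taylor0_one : taylor0 (1 : ℂ → ℂ) = 1 := by
  have := taylor0_const 1
  rw [map_one] at this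
  exact this

lemma taylor0_neg (f : ℂ → ℂ) : taylor0 (-f) = - taylor0 f := by
  ext m
  simp [coeff_taylor0, iteratedDeriv_neg]

lemma taylor0_sub {f g : ℂ → ℂ} (hf : AnalyticAt ℂ f 0) (hg : AnalyticAt ℂ g 0) :
    taylor0 (f - g) = taylor0 f - taylor0 g := by
  rw [sub_eq_add_neg, taylor0_add hf hg.neg, taylor0_neg, sub_eq_add_neg]

lemma taylor0_id : taylor0 (fun q => q) = PowerSeries.X := by
  ext m
  rw [coeff_taylor0, PowerSeries.coeff_X]
  rcases m with _ | _ | m
  · simp
  · simp [iteratedDeriv_succ]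
  · have : iteratedDeriv (m + 1 + 1) (fun q : ℂ => q) = fun _ => 0 := by
      rw [iteratedDeriv_succ', iteratedDeriv_succ']
      have h1 : deriv (fun q : ℂ => q) = fun _ => 1 := by ext; simp
      rw [h1]
      have h2 : deriv (fun _ : ℂ => (1 : ℂ)) = fun _ => 0 := by ext; simp
      rw [h2]
      ext x
      simp
    rw [this]; simp

lemma taylor0_pow {f : ℂ → ℂ} (hf : AnalyticAt ℂ f 0) (n : ℕ) :
    taylor0 (f ^ n) = taylor0 f ^ n := by
  induction n with
  | zero => simpa using taylor0_one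
  | succ n ih => rw [pow_succ, taylor0_mul (hf.pow n) hf, ih, pow_succ]

lemma taylor0_finset_prod {ι : Type*} (s : Finset ι) (f : ι → ℂ → ℂ)
    (hf : ∀ i ∈ s, AnalyticAt ℂ (f i) 0) :
    taylor0 (∏ i ∈ s, f i) = ∏ i ∈ s, taylor0 (f i) := by
  classical
  induction s using Finset.induction_on with
  | empty => simpa using taylor0_one
  | insert a s ha ih =>
    rw [Finset.prod_insert ha, Finset.prod_insert ha,
      taylor0_mul (hf a (Finset.mem_insert_self a s)), ih fun i hi => hf i (Finset.mem_insert_of_mem hi)]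
    exact Finset.analyticAt_prod _ fun i hi => hf i (Finset.mem_insert_of_mem hi)

/-- Iterated derivatives pass to locally uniform limits of holomorphic functions. -/
lemma tendstoLocallyUniformlyOn_iteratedDeriv {ι : Type*} {φ : Filter ι} {F : ι → ℂ → ℂ}
    {f : ℂ → ℂ} {U : Set ℂ} (hU : IsOpen U) (h : TendstoLocallyUniformlyOn F f φ U)
    (hF : ∀ᶠ n in φ, DifferentiableOn ℂ (F n) U) (m : ℕ) :
    TendstoLocallyUniformlyOn (fun n => iteratedDeriv m (F n)) (iteratedDeriv m f) φ U ∧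
      ∀ᶠ n in φ, DifferentiableOn ℂ (iteratedDeriv m (F n)) U := by
  induction m with
  | zero => simpa using ⟨h, hF⟩
  | succ m ih =>
    refine ⟨?_, ?_⟩
    · have := ih.1.deriv ih.2 hU
      simpa only [iteratedDeriv_succ, Function.comp_def] using this
    · filter_upwards [ih.2] with n hn
      rw [iteratedDeriv_succ]
      exact hn.deriv hU

lemma tendsto_coeff_taylor0 {ι : Type*} {φ : Filter ι} {F : ι → ℂ → ℂ}
    {f : ℂ → ℂ} {U : Set ℂ} (hU : IsOpen U) (h0 : (0 : ℂ) ∈ U)
    (h : TendstoLocallyUniformlyOn F f φ U)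
    (hF : ∀ᶠ n in φ, DifferentiableOn ℂ (F n) U) (m : ℕ) :
    Tendsto (fun n => (taylor0 (F n)).coeff m) φ (𝓝 ((taylor0 f).coeff m)) := by
  simp only [coeff_taylor0]
  exact ((tendstoLocallyUniformlyOn_iteratedDeriv hU h hF m).1.tendsto_at h0).const_mul _

end Fermat.Agent.S24
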