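import Mathlib
import Fermat.Prelude.Def_ModularCurve_X0
import Fermat.Prelude.Def_ModularCurve_LaurentCoeff
import Fermat.Agent.S24.Taylor

set_option autoImplicit false

noncomputable section

namespace Fermat.Agent.S24

open HahnSeries

def IsConv (x : LaurentSeries ℂ) : Prop :=
  ∀ q : ℂ, q ≠ 0 → ‖q‖ < 1 → Summable (fun n : ℤ => x.coeff n * q ^ n)

def evalAt (q : ℂ) (x : LaurentSeries ℂ) : ℂ := ∑' n : ℤ, x.coeff n * q ^ n

theorem IsConv.hasSum {x : LaurentSeries ℂ} (hx : IsConv x) {q : ℂ} (hq : q ≠ 0) (hq1 : ‖q‖ < 1) :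
    HasSum (fun n : ℤ => x.coeff n * q ^ n) (evalAt q x) :=
  (hx q hq hq1).hasSum

theorem isConv_zero : IsConv 0 := by
  intro q _ _
  simp [summable_zero]

theorem evalAt_zero (q : ℂ) : evalAt q 0 = 0 := by
  simp [evalAt]

theorem IsConv.add {x y : LaurentSeries ℂ} (hx : IsConv x) (hy : IsConv y) : IsConv (x + y) := by
  intro q hq hq1
  simpa [add_mul] using (hx q hq hq1).add (hy q hq hq1)

theorem evalAt_add {x y : LaurentSeries ℂ} (hx : IsConv x) (hy : IsConv y) {q : ℂ} (hq : q ≠ 0)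
    (hq1 : ‖q‖ < 1) : evalAt q (x + y) = evalAt q x + evalAt q y := by
  have := (hx.hasSum hq hq1).add (hy.hasSum hq hq1)
  simpa [evalAt, add_mul] using this.tsum_eq

theorem IsConv.neg {x : LaurentSeries ℂ} (hx : IsConv x) : IsConv (-x) := by
  intro q hq hq1
  simpa using (hx q hq hq1).neg

theorem evalAt_neg (x : LaurentSeries ℂ) (q : ℂ) : evalAt q (-x) = - evalAt q x := by
  simp [evalAt, tsum_neg]

theorem IsConv.sub {x y : LaurentSeries ℂ} (hx : IsConv x) (hy : IsConv y) : IsConv (x - y) := by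
  rw [sub_eq_add_neg]; exact hx.add hy.neg

theorem evalAt_sub {x y : LaurentSeries ℂ} (hx : IsConv x) (hy : IsConv y) {q : ℂ} (hq : q ≠ 0)
    (hq1 : ‖q‖ < 1) : evalAt q (x - y) = evalAt q x - evalAt q y := by
  rw [sub_eq_add_neg, evalAt_add hx hy.neg hq hq1, evalAt_neg, sub_eq_add_neg]

theorem hasSum_single (k : ℤ) (c q : ℂ) :
    HasSum (fun n : ℤ => (single k c : LaurentSeries ℂ).coeff n * q ^ n) (c * q ^ k) := by
  have := hasSum_ite_eq k (c * q ^ k)
  convert this using 2 with n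
  by_cases h : n = k
  · subst h; simp
  · simp [h, coeff_single_of_ne h]

theorem isConv_single (k : ℤ) (c : ℂ) : IsConv (single k c) :=
  fun q _ _ => (hasSum_single k c q).summable

theorem evalAt_single (k : ℤ) (c q : ℂ) : evalAt q (single k c) = c * q ^ k :=
  (hasSum_single k c q).tsum_eq

theorem hasSum_mul_aux {x y : LaurentSeries ℂ} {q : ℂ} (hq : q ≠ 0) (n : ℤ) :
    HasSum (fun i : ℤ => (x.coeff i * q ^ i) * (y.coeff (n - i) * q ^ (n - i)))
      ((x * y).coeff n * q ^ n) := by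
  classical
  rw [HahnSeries.coeff_mul, Finset.sum_mul]
  have hinj : Set.InjOn Prod.fst
      (Finset.antidiagonal x.isPWO_support y.isPWO_support n : Set (ℤ × ℤ)) := by
    intro a ha b hb hab
    simp only [Finset.mem_coe, Finset.mem_antidiagonal] at ha hb
    ext
    · exact hab
    · have h1 := ha.2.2; have h2 := hb.2.2; omega
  have key : ∑ ij ∈ Finset.antidiagonal x.isPWO_support y.isPWO_support n,
      x.coeff ij.1 * y.coeff ij.2 * q ^ n =
      ∑ i ∈ (Finset.antidiagonal x.isPWO_support y.isPWO_support n).image Prod.fst,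
        (x.coeff i * q ^ i) * (y.coeff (n - i) * q ^ (n - i)) := by
    rw [Finset.sum_image hinj]
    refine Finset.sum_congr rfl fun ij hij => ?_
    simp only [Finset.mem_antidiagonal] at hij
    have h2 : n - ij.1 = ij.2 := by have := hij.2.2; omega
    rw [h2, ← hij.2.2, zpow_add₀ hq]
    ring
  rw [key]
  refine hasSum_sum_of_ne_finset_zero fun i hi => ?_
  by_contra hne
  apply hi
  simp only [Finset.mem_image, Finset.mem_antidiagonal]
  refine ⟨(i, n - i), ⟨?_, ?_, by simp⟩, rfl⟩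
  · intro h0; apply hne; simp only at h0; simp [h0]
  · intro h0; apply hne; simp only at h0; simp [h0]

theorem hasSum_mul {x y : LaurentSeries ℂ} (hx : IsConv x) (hy : IsConv y) {q : ℂ} (hq : q ≠ 0)
    (hq1 : ‖q‖ < 1) :
    HasSum (fun n : ℤ => (x * y).coeff n * q ^ n) (evalAt q x * evalAt q y) := by
  have hf := (hx q hq hq1).norm
  have hg := (hy q hq hq1).norm
  have h1 : HasSum (fun z : ℤ × ℤ => (x.coeff z.1 * q ^ z.1) * (y.coeff z.2 * q ^ z.2))
      (evalAt q x * evalAt q y) := by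
    have := (summable_mul_of_summable_norm hf hg).hasSum
    rwa [← tsum_mul_tsum_of_summable_norm hf hg] at this
  let e : ℤ × ℤ ≃ ℤ × ℤ :=
    { toFun := fun p => (p.2, p.1 - p.2)
      invFun := fun p => (p.1 + p.2, p.1)
      left_inv := fun p => by ext <;> simp
      right_inv := fun p => by ext <;> simp }
  have h2 := (e.hasSum_iff).mpr h1
  exact h2.prod_fiberwise fun n => hasSum_mul_aux hq n

theorem IsConv.mul {x y : LaurentSeries ℂ} (hx : IsConv x) (hy : IsConv y) : IsConv (x * y) :=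
  fun _ hq hq1 => (hasSum_mul hx hy hq hq1).summable

theorem evalAt_mul {x y : LaurentSeries ℂ} (hx : IsConv x) (hy : IsConv y) {q : ℂ} (hq : q ≠ 0)
    (hq1 : ‖q‖ < 1) : evalAt q (x * y) = evalAt q x * evalAt q y :=
  (hasSum_mul hx hy hq hq1).tsum_eq


/-! ### reduction to `ℕ`-indexed series -/

theorem hasSum_nat_iff {x : LaurentSeries ℂ} {k : ℤ} (hk : ∀ n < k, x.coeff n = 0) (q a : ℂ) :
    HasSum (fun m : ℕ => x.coeff (k + m) * q ^ (k + m : ℤ)) a ↔
      HasSum (fun n : ℤ => x.coeff n * q ^ n) a := by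
  have hinj : Function.Injective (fun m : ℕ => k + (m : ℤ)) := by
    intro a b h; simpa using h
  refine hinj.hasSum_iff (f := fun n : ℤ => x.coeff n * q ^ n) fun n hn => ?_
  have : n < k := by
    by_contra hlt
    push Not at hlt
    apply hn
    exact ⟨(n - k).toNat, by simp; omega⟩
  simp [hk n this]

theorem exists_lower_bound (x : LaurentSeries ℂ) : ∃ k : ℤ, ∀ n < k, x.coeff n = 0 :=
  ⟨x.order, fun _ hn => HahnSeries.coeff_eq_zero_of_lt_order hn⟩

theorem hasSum_nat_iff' {x : LaurentSeries ℂ} {k : ℤ} (hk : ∀ n < k, x.coeff n = 0) {q : ℂ}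
    (hq : q ≠ 0) (a : ℂ) :
    HasSum (fun m : ℕ => x.coeff (k + m) * q ^ m) a ↔
      HasSum (fun n : ℤ => x.coeff n * q ^ n) (q ^ k * a) := by
  rw [← hasSum_nat_iff hk]
  constructor
  · intro h
    have := h.mul_left (q ^ k)
    refine this.congr_fun fun m => ?_
    rw [zpow_add₀ hq, zpow_natCast]; ring
  · intro h
    have := h.mul_left (q ^ k)⁻¹
    rw [inv_mul_cancel_left₀ (zpow_ne_zero _ hq)] at this
    refine this.congr_fun fun m => ?_
    rw [zpow_add₀ hq, zpow_natCast]
    field_simp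

/-- A scalar power series which is summable on the punctured unit disc defines an analytic
function on the unit ball. -/
theorem hasFPowerSeriesOnBall_of_summable {c : ℕ → ℂ}
    (hc : ∀ q : ℂ, q ≠ 0 → ‖q‖ < 1 → Summable (fun m : ℕ => c m * q ^ m)) :
    HasFPowerSeriesOnBall (fun q => ∑' m : ℕ, c m * q ^ m) (.ofScalars ℂ c) 0 1 := by
  constructor
  · refine le_of_forall_lt_imp_le_of_dense fun r hr ↦ ?_
    rcases eq_or_ne r 0 with rfl | hr'
    · simp
    · lift r to NNReal using hr.ne_top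
      apply FormalMultilinearSeries.le_radius_of_summable
      have := (hc (r : ℂ) (by exact_mod_cast hr') (by simpa using hr)).norm
      simpa [norm_mul, mul_comm] using this
  · simp
  · intro y hy
    rw [← ENNReal.coe_one, Metric.eball_coe, NNReal.coe_one, mem_ball_zero_iff] at hy
    rcases eq_or_ne y 0 with rfl | hy'
    · have h0 : HasSum (fun m : ℕ => c m * (0 : ℂ) ^ m) (c 0) := by
        simpa +contextual [zero_pow_eq] using hasSum_ite_eq 0 (c 0)
      simpa [mul_comm, h0.tsum_eq] using h0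
    · simpa [mul_comm] using (hc y hy' hy).hasSum

theorem coeff_eq_zero_of_hasSum_zero {c : ℕ → ℂ}
    (hc : ∀ q : ℂ, q ≠ 0 → ‖q‖ < 1 → HasSum (fun m : ℕ => c m * q ^ m) 0) (m : ℕ) : c m = 0 := by
  have h1 := (hasFPowerSeriesOnBall_of_summable fun q hq hq1 => (hc q hq hq1).summable)
  have h2 : (fun q => ∑' m : ℕ, c m * q ^ m) =ᶠ[nhdsWithin 0 {0}ᶜ] (fun _ => (0 : ℂ)) := by
    have : Metric.ball (0 : ℂ) 1 ∈ nhds (0 : ℂ) := Metric.ball_mem_nhds _ one_pos
    filter_upwards [self_mem_nhdsWithin, nhdsWithin_le_nhds this] with q hq hq1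
    exact (hc q hq (by simpa using hq1)).tsum_eq
  have h3 : (fun q => ∑' m : ℕ, c m * q ^ m) =ᶠ[nhds 0] (fun _ => (0 : ℂ)) :=
    (h1.hasFPowerSeriesAt.continuousAt.eventuallyEq_nhds_iff_eventuallyEq_nhdsNE
      continuousAt_const).mp h2
  have h4 : HasFPowerSeriesAt (fun _ : ℂ => (0 : ℂ)) (.ofScalars ℂ c) 0 :=
    h1.hasFPowerSeriesAt.congr h3
  have h5 := h4.eq_zero
  have := congr_arg (FormalMultilinearSeries.coeff · m) h5
  have h0 : FormalMultilinearSeries.coeff (0 : FormalMultilinearSeries ℂ ℂ ℂ) m = 0 := by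
    simp [FormalMultilinearSeries.coeff]
  simpa [h0] using this


/-- **Injectivity of evaluation**: a convergent Laurent series vanishing on the punctured disc is
zero. -/
theorem eq_zero_of_evalAt_eq_zero {x : LaurentSeries ℂ} (hx : IsConv x)
    (h : ∀ q : ℂ, q ≠ 0 → ‖q‖ < 1 → evalAt q x = 0) : x = 0 := by
  obtain ⟨k, hk⟩ := exists_lower_bound x
  have key : ∀ m : ℕ, x.coeff (k + m) = 0 := by
    refine coeff_eq_zero_of_hasSum_zero (c := fun m : ℕ => x.coeff (k + m)) fun q hq hq1 => ?_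
    rw [hasSum_nat_iff' hk hq, mul_zero, ← h q hq hq1]
    exact hx.hasSum hq hq1
  ext n
  by_cases hn : n < k
  · simpa using hk n hn
  · have := key (n - k).toNat
    rw [show k + ((n - k).toNat : ℤ) = n by omega] at this
    simpa using this

theorem eq_of_evalAt_eq {x y : LaurentSeries ℂ} (hx : IsConv x) (hy : IsConv y)
    (h : ∀ q : ℂ, q ≠ 0 → ‖q‖ < 1 → evalAt q x = evalAt q y) : x = y := by
  rw [← sub_eq_zero]
  refine eq_zero_of_evalAt_eq_zero (hx.sub hy) fun q hq hq1 => ?_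
  rw [evalAt_sub hx hy hq hq1, h q hq hq1, sub_self]

/-- The regular part: `evalAt q x = q ^ k * g q` with `g` analytic on the unit ball. -/
theorem IsConv.exists_analytic {x : LaurentSeries ℂ} (hx : IsConv x) {k : ℤ}
    (hk : ∀ n < k, x.coeff n = 0) :
    ∃ g : ℂ → ℂ, HasFPowerSeriesOnBall g (.ofScalars ℂ fun m : ℕ => x.coeff (k + m)) 0 1 ∧
      g 0 = x.coeff k ∧ ∀ q : ℂ, q ≠ 0 → ‖q‖ < 1 → evalAt q x = q ^ k * g q := by
  have hs : ∀ q : ℂ, q ≠ 0 → ‖q‖ < 1 → Summable (fun m : ℕ => x.coeff (k + m) * q ^ m) := by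
    intro q hq hq1
    have h1 := hx.hasSum hq hq1
    rw [show evalAt q x = q ^ k * ((q ^ k)⁻¹ * evalAt q x) by
      rw [mul_inv_cancel_left₀ (zpow_ne_zero _ hq)], ← hasSum_nat_iff' hk hq] at h1
    exact h1.summable
  refine ⟨_, hasFPowerSeriesOnBall_of_summable hs, ?_, fun q hq hq1 => ?_⟩
  · have h0 : HasSum (fun m : ℕ => x.coeff (k + m) * (0 : ℂ) ^ m) (x.coeff k) := by
      simpa +contextual [zero_pow_eq] using hasSum_ite_eq 0 (x.coeff k)
    exact h0.tsum_eq
  · exact ((hasSum_nat_iff' hk hq _).mp (hs q hq hq1).hasSum).tsum_eq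

theorem IsConv.differentiableOn {x : LaurentSeries ℂ} (hx : IsConv x) :
    DifferentiableOn ℂ (fun q => evalAt q x) (Metric.ball 0 1 \ {0}) := by
  obtain ⟨k, hk⟩ := exists_lower_bound x
  obtain ⟨g, hg, -, hev⟩ := hx.exists_analytic hk
  have hg' : DifferentiableOn ℂ g (Metric.ball 0 1) := by
    have := hg.differentiableOn
    simpa [← ENNReal.coe_one, Metric.eball_coe] using this
  have h1 : DifferentiableOn ℂ (fun q => q ^ k * g q) (Metric.ball 0 1 \ {0}) := by
    refine DifferentiableOn.mul ?_ (hg'.mono Set.sdiff_subset)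
    intro q hq
    exact (differentiableAt_zpow.mpr (Or.inl hq.2)).differentiableWithinAt
  refine h1.congr fun q hq => hev q hq.2 (by simpa using hq.1)

/-! ### power series -/

theorem hasSum_ofPowerSeries_iff (p : PowerSeries ℂ) (q a : ℂ) :
    HasSum (fun m : ℕ => p.coeff m * q ^ m) a ↔
      HasSum (fun n : ℤ => (HahnSeries.ofPowerSeries ℤ ℂ p).coeff n * q ^ n) a := by
  rw [← hasSum_nat_iff (k := 0)
    (fun n hn => ModularCurve.ofPowerSeries_coeff_of_neg p hn)]
  simp [HahnSeries.ofPowerSeries_apply_coeff]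

/-- Taylor series of a function holomorphic on the unit ball. -/
theorem hasSum_taylor0 {g : ℂ → ℂ} (hg : DifferentiableOn ℂ g (Metric.ball 0 1)) {q : ℂ}
    (hq1 : ‖q‖ < 1) : HasSum (fun m : ℕ => (taylor0 g).coeff m * q ^ m) (g q) := by
  have := Complex.hasSum_taylorSeries_on_ball hg (z := q) (by simpa using hq1)
  refine this.congr_fun fun m => ?_
  rw [coeff_taylor0]
  simp only [sub_zero, smul_eq_mul]
  ring

theorem isConv_taylor0 {g : ℂ → ℂ} (hg : DifferentiableOn ℂ g (Metric.ball 0 1)) :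
    IsConv (HahnSeries.ofPowerSeries ℤ ℂ (taylor0 g)) :=
  fun q _ hq1 => ((hasSum_ofPowerSeries_iff _ q _).mp (hasSum_taylor0 hg hq1)).summable

theorem evalAt_taylor0 {g : ℂ → ℂ} (hg : DifferentiableOn ℂ g (Metric.ball 0 1)) {q : ℂ}
    (hq1 : ‖q‖ < 1) : evalAt q (HahnSeries.ofPowerSeries ℤ ℂ (taylor0 g)) = g q :=
  ((hasSum_ofPowerSeries_iff _ q _).mp (hasSum_taylor0 hg hq1)).tsum_eq


/-! ### constants, powers, the subring of convergent series -/

theorem isConv_one : IsConv 1 := isConv_single 0 1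

theorem evalAt_one (q : ℂ) : evalAt q 1 = 1 := by
  have := evalAt_single 0 1 q
  simpa using this

theorem isConv_C (c : ℂ) : IsConv (HahnSeries.C c) := isConv_single 0 c

theorem evalAt_C (c q : ℂ) : evalAt q (HahnSeries.C c) = c := by
  have := evalAt_single 0 c q
  simpa using this

theorem isConv_algebraMap (c : ℂ) : IsConv (algebraMap ℂ (LaurentSeries ℂ) c) := by
  rw [ModularCurve.algebraMap_laurentSeries_eq_single]; exact isConv_single 0 c

theorem evalAt_algebraMap (c q : ℂ) : evalAt q (algebraMap ℂ (LaurentSeries ℂ) c) = c := by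
  rw [ModularCurve.algebraMap_laurentSeries_eq_single]
  simpa using evalAt_single 0 c q

/-- The subring of Laurent series converging on the punctured unit disc. -/
def convSubring : Subring (LaurentSeries ℂ) where
  carrier := {x | IsConv x}
  mul_mem' := IsConv.mul
  one_mem' := isConv_one
  add_mem' := IsConv.add
  zero_mem' := isConv_zero
  neg_mem' := IsConv.neg

theorem mem_convSubring {x : LaurentSeries ℂ} : x ∈ convSubring ↔ IsConv x := Iff.rfl

theorem IsConv.pow {x : LaurentSeries ℂ} (hx : IsConv x) (n : ℕ) : IsConv (x ^ n) :=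
  pow_mem (S := convSubring) hx n

/-- Evaluation at a point of the punctured unit disc, as a ring homomorphism. -/
def evalHom (q : ℂ) (hq : q ≠ 0) (hq1 : ‖q‖ < 1) : convSubring →+* ℂ where
  toFun x := evalAt q x
  map_one' := evalAt_one q
  map_mul' x y := evalAt_mul x.2 y.2 hq hq1
  map_zero' := evalAt_zero q
  map_add' x y := evalAt_add x.2 y.2 hq hq1

theorem evalAt_pow {x : LaurentSeries ℂ} (hx : IsConv x) {q : ℂ} (hq : q ≠ 0) (hq1 : ‖q‖ < 1)
    (n : ℕ) : evalAt q (x ^ n) = evalAt q x ^ n :=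
  map_pow (evalHom q hq hq1) ⟨x, hx⟩ n

/-! ### substitution `q ↦ q ^ d` -/

theorem hasSum_qExpand_iff (d : ℕ) [NeZero d] (x : LaurentSeries ℂ) (q a : ℂ) :
    HasSum (fun n : ℤ => x.coeff n * (q ^ d) ^ n) a ↔
      HasSum (fun n : ℤ => (ModularCurve.qExpand ℂ d x).coeff n * q ^ n) a := by
  have hd : (d : ℤ) ≠ 0 := by exact_mod_cast NeZero.ne d
  have hinj : Function.Injective (fun n : ℤ => (d : ℤ) * n) := mul_right_injective₀ hd
  rw [← hinj.hasSum_iff (f := fun n : ℤ => (ModularCurve.qExpand ℂ d x).coeff n * q ^ n)]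
  · refine ⟨fun h => h.congr_fun fun n => ?_, fun h => h.congr_fun fun n => ?_⟩ <;>
    simp [Function.comp, zpow_mul, zpow_natCast]
  · intro n hn
    rw [ModularCurve.qExpand_coeff_of_not_dvd d x (fun ⟨m, hm⟩ => hn ⟨m, hm.symm⟩), zero_mul]

theorem norm_pow_lt_one_of_ne_zero {q : ℂ} (hq1 : ‖q‖ < 1) (d : ℕ) [NeZero d] : ‖q ^ d‖ < 1 := by
  rw [norm_pow]; exact pow_lt_one₀ (norm_nonneg _) hq1 (NeZero.ne d)

theorem IsConv.qExpand {x : LaurentSeries ℂ} (hx : IsConv x) (d : ℕ) [NeZero d] :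
    IsConv (ModularCurve.qExpand ℂ d x) := fun q hq hq1 =>
  ((hasSum_qExpand_iff d x q _).mp
    (hx.hasSum (pow_ne_zero d hq) (norm_pow_lt_one_of_ne_zero hq1 d))).summable

theorem evalAt_qExpand (x : LaurentSeries ℂ) (d : ℕ) [NeZero d] (q : ℂ) :
    evalAt q (ModularCurve.qExpand ℂ d x) = evalAt (q ^ d) x := by
  by_cases hs : Summable (fun n : ℤ => x.coeff n * (q ^ d) ^ n)
  · exact ((hasSum_qExpand_iff d x q _).mp hs.hasSum).tsum_eq
  · have hs' : ¬ Summable (fun n : ℤ => (ModularCurve.qExpand ℂ d x).coeff n * q ^ n) :=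
      fun ⟨a, ha⟩ => hs ⟨a, (hasSum_qExpand_iff d x q a).mpr ha⟩
    rw [evalAt, evalAt, tsum_eq_zero_of_not_summable hs, tsum_eq_zero_of_not_summable hs']


/-! ### substitution `q ↦ c * q` -/

section Twist

variable {L : Type*} [Field L]

/-- underlying function of `twist`. -/
def twistFun (c : L) (x : LaurentSeries L) : LaurentSeries L where
  coeff n := c ^ n * x.coeff n
  isPWO_support' := x.isPWO_support.mono fun n hn h0 => hn (by
    show c ^ n * x.coeff n = 0
    rw [h0, mul_zero])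

@[simp] theorem twistFun_coeff (c : L) (x : LaurentSeries L) (n : ℤ) :
    (twistFun c x).coeff n = c ^ n * x.coeff n := rfl

theorem support_twistFun {c : L} (hc : c ≠ 0) (x : LaurentSeries L) :
    (twistFun c x).support = x.support := by
  ext n
  simp [zpow_ne_zero n hc]

/-- The substitution `q ↦ c * q` on Laurent series (`c ≠ 0`), as a ring homomorphism. -/
def twist (c : L) (hc : c ≠ 0) : LaurentSeries L →+* LaurentSeries L where
  toFun := twistFun c
  map_one' := by
    ext n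
    by_cases h : n = 0
    · subst h; simp
    · simp [HahnSeries.coeff_one, h]
  map_zero' := by ext n; simp
  map_add' x y := by ext n; simp [mul_add]
  map_mul' x y := by
    ext n
    rw [twistFun_coeff, HahnSeries.coeff_mul, HahnSeries.coeff_mul, Finset.mul_sum]
    refine Finset.sum_congr ?_ fun ij hij => ?_
    · ext ij
      simp only [Finset.mem_antidiagonal, support_twistFun hc]
    · rw [Finset.mem_antidiagonal] at hij
      rw [twistFun_coeff, twistFun_coeff, ← hij.2.2, zpow_add₀ hc]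
      ring

@[simp] theorem twist_coeff (c : L) (hc : c ≠ 0) (x : LaurentSeries L) (n : ℤ) :
    (twist c hc x).coeff n = c ^ n * x.coeff n := rfl

end Twist

theorem hasSum_twist_iff (c : ℂ) (hc : c ≠ 0) (x : LaurentSeries ℂ) (q a : ℂ) :
    HasSum (fun n : ℤ => x.coeff n * (c * q) ^ n) a ↔
      HasSum (fun n : ℤ => (twist c hc x).coeff n * q ^ n) a := by
  refine ⟨fun h => h.congr_fun fun n => ?_, fun h => h.congr_fun fun n => ?_⟩ <;>
  · rw [twist_coeff, mul_zpow]; ring

theorem IsConv.twist {x : LaurentSeries ℂ} (hx : IsConv x) {c : ℂ} (hc : c ≠ 0) (hc1 : ‖c‖ ≤ 1) :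
    IsConv (twist c hc x) := fun q hq hq1 =>
  ((hasSum_twist_iff c hc x q _).mp (hx.hasSum (mul_ne_zero hc hq) (by
    rw [norm_mul]
    calc ‖c‖ * ‖q‖ ≤ 1 * ‖q‖ := by gcongr
      _ < 1 := by rwa [one_mul]))).summable

theorem evalAt_twist (x : LaurentSeries ℂ) {c : ℂ} (hc : c ≠ 0) (q : ℂ) :
    evalAt q (twist c hc x) = evalAt (c * q) x := by
  rw [evalAt, evalAt]
  refine tsum_congr fun n => ?_
  rw [twist_coeff, mul_zpow]; ring

end Fermat.Agent.S24
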