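import Mathlib
import Fermat.Prelude.Def_ModularCurve_X0
import Fermat.Agent.S24.Taylor

set_option autoImplicit false

open PowerSeries Filter Topology UpperHalfPlane ModularForm EisensteinSeries
open scoped PowerSeries.WithPiTopology

namespace Fermat.Agent.S24

/-- The Euler function `∏ (1 - q^(n+1))` on the unit disc. -/
noncomputable def eulerFn (q : ℂ) : ℂ := ∏' n : ℕ, (1 - q ^ (n + 1))

lemma differentiableOn_eulerFn : DifferentiableOn ℂ eulerFn (Metric.ball 0 1) :=
  differentiableOn_tprod_one_sub_pow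

lemma analyticAt_eulerFn : AnalyticAt ℂ eulerFn 0 :=
  differentiableOn_eulerFn.analyticAt (Metric.ball_mem_nhds 0 one_pos)

lemma taylor0_finprod (I : Finset ℕ) :
    taylor0 (fun q => ∏ n ∈ I, (1 - q ^ (n + 1))) =
      (∏ n ∈ I, ((1 : PowerSeries ℤ) - X ^ (n + 1))).map (Int.castRingHom ℂ) := by
  have h1 : (fun q : ℂ => ∏ n ∈ I, (1 - q ^ (n + 1))) =
      ∏ n ∈ I, ((1 : ℂ → ℂ) - (fun q => q) ^ (n + 1)) := by
    ext q; simp [Finset.prod_apply]
  have hid : AnalyticAt ℂ (fun q : ℂ => q) 0 := analyticAt_id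
  have hone : AnalyticAt ℂ (1 : ℂ → ℂ) 0 := analyticAt_const
  rw [h1, taylor0_finset_prod _ _ fun n _ => hone.sub (hid.pow (n + 1)), map_prod]
  refine Finset.prod_congr rfl fun n _ => ?_
  rw [taylor0_sub hone (hid.pow (n + 1)), taylor0_one, taylor0_pow hid, taylor0_id]
  simp

theorem taylor0_eulerFn :
    taylor0 eulerFn = ModularCurve.etaProd.map (Int.castRingHom ℂ) := by
  ext m
  have hL : Tendsto (fun I : Finset ℕ => (taylor0 (fun q => ∏ n ∈ I, (1 - q ^ (n + 1)))).coeff m)
      atTop (𝓝 ((taylor0 eulerFn).coeff m)) := by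
    refine tendsto_coeff_taylor0 Metric.isOpen_ball (Metric.mem_ball_self one_pos) ?_ ?_ m
    · exact hasProdLocallyUniformlyOn_iff_tendstoLocallyUniformlyOn.mp
        multipliableLocallyUniformlyOn_one_sub_pow.hasProdLocallyUniformlyOn
    · exact .of_forall fun I => by fun_prop
  have hR0 : Tendsto (fun I : Finset ℕ => (∏ n ∈ I, ((1 : PowerSeries ℤ) - X ^ (n + 1))).coeff m)
      atTop (𝓝 (ModularCurve.etaProd.coeff m)) :=
    ((PowerSeries.WithPiTopology.continuous_coeff ℤ m).tendsto _).comp
      (PowerSeries.WithPiTopology.multipliable_one_sub_X_pow ℤ).hasProd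
  have hR : Tendsto (fun I : Finset ℕ =>
      (((∏ n ∈ I, ((1 : PowerSeries ℤ) - X ^ (n + 1))).coeff m : ℤ) : ℂ))
      atTop (𝓝 ((ModularCurve.etaProd.coeff m : ℤ) : ℂ)) :=
    ((continuous_of_discreteTopology (f := fun k : ℤ => (k : ℂ))).tendsto _).comp hR0
  simp only [taylor0_finprod, PowerSeries.coeff_map, eq_intCast] at hL
  rw [PowerSeries.coeff_map, eq_intCast]
  exact tendsto_nhds_unique hL hR

/-- The `q`-expansion of the discriminant is the formal series `X * ∏ (1 - X^n)^24`. -/
theorem qExpansion_discriminant :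
    qExpansion 1 ModularForm.discriminant =
      (X * ModularCurve.dedekindEtaUnit).map (Int.castRingHom ℂ) := by
  have h1 : qExpansion 1 ModularForm.discriminant =
      taylor0 (cuspFunction 1 ModularForm.discriminant) := rfl
  have h2 : cuspFunction 1 ModularForm.discriminant =ᶠ[𝓝 0]
      ((fun q => q) * eulerFn ^ 24 : ℂ → ℂ) := by
    filter_upwards [Metric.ball_mem_nhds (0 : ℂ) one_pos] with q hq
    rw [discriminant_cuspFunction_eqOn hq]
    simp only [Pi.mul_apply, Pi.pow_apply, eulerFn]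
    rw [(multipliable_one_sub_pow (by simpa using hq)).tprod_pow]
  have hid : AnalyticAt ℂ (fun q : ℂ => q) 0 := analyticAt_id
  rw [h1, taylor0_congr h2, taylor0_mul hid (analyticAt_eulerFn.pow 24), taylor0_id,
    taylor0_pow analyticAt_eulerFn, taylor0_eulerFn, ModularCurve.dedekindEtaUnit]
  simp

/-- The `q`-expansion of `E₄` is the formal series `eisenstein4`. -/
theorem qExpansion_E₄ :
    qExpansion 1 E₄ = ModularCurve.eisenstein4.map (Int.castRingHom ℂ) := by
  ext m
  rw [E_qExpansion_coeff (by norm_num) (by decide) m, PowerSeries.coeff_map,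
    ModularCurve.eisenstein4, PowerSeries.coeff_mk]
  split_ifs with h
  · simp
  · have hb : bernoulli 4 = -1 / 30 := by
      rw [bernoulli_eq_bernoulli'_of_ne_one (by norm_num), bernoulli'_four]
    rw [hb, ArithmeticFunction.sigma_apply, eq_intCast]
    push_cast
    ring

end Fermat.Agent.S24
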