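import Mathlib

set_option autoImplicit false

open ModularForm EisensteinSeries Complex Filter Topology Function
open UpperHalfPlane hiding I
open scoped MatrixGroups Manifold Real Derivative

namespace Fermat.Agent.S24.JLocal

noncomputable section

local notation "𝕢" => Periodic.qParam

/-- `D F = q * c'(q)` where `c` is the cusp function. -/
theorem D_eq_qParam_mul_deriv_cuspFunction {F : ℍ → ℂ}
    (hper : Periodic (F ∘ ofComplex) 1) (hhol : MDiff F) (hbdd : IsBoundedAtImInfty F) (z : ℍ) :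
    D F z = 𝕢 1 z * deriv (cuspFunction 1 F) (𝕢 1 z) := by
  have hq : ‖𝕢 1 (z : ℂ)‖ < 1 := Periodic.norm_qParam_lt_one one_pos z.im_pos
  have hc : DifferentiableAt ℂ (cuspFunction 1 F) (𝕢 1 z) :=
    differentiableAt_cuspFunction one_pos hper hhol hbdd hq
  have hqd : HasDerivAt (𝕢 1) (2 * π * I * 𝕢 1 z) (z : ℂ) := by
    have h1 : HasDerivAt (fun w : ℂ => 2 * π * I * w / ((1 : ℝ) : ℂ)) (2 * π * I) (z : ℂ) := by
      simpa using ((hasDerivAt_id (z : ℂ)).const_mul (2 * π * I))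
    have h2 := h1.cexp
    have h3 : (𝕢 1) = fun w : ℂ => cexp (2 * π * I * w / ((1 : ℝ) : ℂ)) := rfl
    rw [h3]
    have h4 : 2 * (π : ℂ) * I * cexp (2 * π * I * (z : ℂ) / ((1 : ℝ) : ℂ)) =
        cexp (2 * π * I * (z : ℂ) / ((1 : ℝ) : ℂ)) * (2 * π * I) := mul_comm _ _
    rw [h4]
    exact h2
  have heq : (F ∘ ofComplex) = (cuspFunction 1 F) ∘ (𝕢 1) := by
    funext w
    simp only [comp_apply, cuspFunction]
    exact (Periodic.eq_cuspFunction one_ne_zero hper w).symm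
  have hd : HasDerivAt (F ∘ ofComplex)
      (deriv (cuspFunction 1 F) (𝕢 1 z) * (2 * π * I * 𝕢 1 z)) (z : ℂ) := by
    rw [heq]
    exact hc.hasDerivAt.comp (z : ℂ) hqd
  have hpi : (2 * π * I : ℂ) ≠ 0 := by simp [Real.pi_ne_zero]
  simp only [Derivative.normalizedDerivOfComplex, hd.deriv]
  field_simp

theorem tendsto_D_atImInfty {F : ℍ → ℂ}
    (hper : Periodic (F ∘ ofComplex) 1) (hhol : MDiff F) (hbdd : IsBoundedAtImInfty F) :
    Tendsto (D F) atImInfty (𝓝 0) := by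
  have han : AnalyticAt ℂ (cuspFunction 1 F) 0 :=
    analyticAt_cuspFunction_zero one_pos hper hhol hbdd
  have hcont : ContinuousAt (deriv (cuspFunction 1 F)) 0 := han.deriv.continuousAt
  have hq : Tendsto (fun τ : ℍ ↦ 𝕢 1 τ) atImInfty (𝓝 0) := qParam_tendsto_atImInfty one_pos
  have h1 : Tendsto (fun τ : ℍ ↦ 𝕢 1 τ * deriv (cuspFunction 1 F) (𝕢 1 τ)) atImInfty
      (𝓝 (0 * deriv (cuspFunction 1 F) 0)) := hq.mul (hcont.tendsto.comp hq)
  rw [zero_mul] at h1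
  refine h1.congr fun τ => ?_
  exact (D_eq_qParam_mul_deriv_cuspFunction hper hhol hbdd τ).symm

local notation "Δ" => ModularForm.discriminant

theorem periodic_levelOne {k : ℤ} (f : ModularForm 𝒮ℒ k) : Periodic (⇑f ∘ ofComplex) 1 := by
  have := SlashInvariantFormClass.periodic_comp_ofComplex (h := 1) f one_mem_strictPeriods_SL
  simpa using this

theorem bdd_levelOne {k : ℤ} (f : ModularForm 𝒮ℒ k) : IsBoundedAtImInfty (⇑f) :=
  have : Fact (IsCusp OnePoint.infty 𝒮ℒ) :=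
    ⟨Subgroup.isCusp_of_mem_strictPeriods one_pos one_mem_strictPeriods_SL⟩
  ModularFormClass.bdd_at_infty f

theorem tendsto_coeff_zero {F : ℍ → ℂ}
    (hper : Periodic (F ∘ ofComplex) 1) (hhol : MDiff F) (hbdd : IsBoundedAtImInfty F) :
    Tendsto F atImInfty (𝓝 ((qExpansion 1 F).coeff 0)) := by
  have han : AnalyticAt ℂ (cuspFunction 1 F) 0 :=
    analyticAt_cuspFunction_zero one_pos hper hhol hbdd
  have hq : Tendsto (fun τ : ℍ ↦ 𝕢 1 τ) atImInfty (𝓝 0) := qParam_tendsto_atImInfty one_pos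
  have h1 := han.continuousAt.tendsto.comp hq
  have h2 : (qExpansion 1 F).coeff 0 = cuspFunction 1 F 0 := by
    simp [qExpansion_coeff]
  rw [h2]
  refine h1.congr fun τ => ?_
  exact eq_cuspFunction τ one_ne_zero hper

theorem tendsto_levelOne {k : ℤ} (f : ModularForm 𝒮ℒ k) :
    Tendsto (⇑f) atImInfty (𝓝 ((qExpansion 1 f).coeff 0)) :=
  tendsto_coeff_zero (periodic_levelOne f) (ModularFormClass.holo f) (bdd_levelOne f)

theorem periodic_E2 : Periodic (E2 ∘ ofComplex) 1 := by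
  intro w
  by_cases hw : 0 < im w
  · have hw1 : 0 < im (w + 1) := by simpa using hw
    simp only [comp_apply, ofComplex_apply_of_im_pos hw1, ofComplex_apply_of_im_pos hw]
    rw [E2_eq_tsum_cexp, E2_eq_tsum_cexp]
    congr 2
    refine tsum_congr fun n => ?_
    congr 2
    rw [mul_add, Complex.exp_add]
    simp
  · have hw' : im w ≤ 0 := not_lt.mp hw
    have hw1 : im (w + 1) ≤ 0 := by simpa using hw'
    simp [ofComplex_apply_of_im_nonpos hw1, ofComplex_apply_of_im_nonpos hw']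

theorem tendsto_E2 : Tendsto E2 atImInfty (𝓝 1) := by
  have han : AnalyticAt ℂ (cuspFunction 1 E2) 0 :=
    analyticAt_cuspFunction_zero one_pos periodic_E2 E2_mdifferentiable isBoundedAtImInfty_E2
  set c : ℕ → ℂ := fun m : ℕ ↦ (if m = 0 then 1 else -24 * ArithmeticFunction.sigma 1 m : ℂ)
    with hc
  have hf : ∀ τ : ℍ, HasSum (fun m ↦ c m • 𝕢 1 τ ^ m) (E2 τ) := by
    intro τ
    have := hasSum_qExpansion_E2 (z := τ)
    simpa only [Function.Periodic.qParam, ofReal_one, div_one] using this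
  have h0 : c 0 = cuspFunction 1 E2 0 := by
    have h1 := hasFPowerSeriesOnBall_cuspFunction one_pos han hf
    have h2 := h1.coeff_zero (fun _ => 0)
    simpa using h2
  have h1 := tendsto_coeff_zero periodic_E2 E2_mdifferentiable isBoundedAtImInfty_E2
  have h2 : (qExpansion 1 E2).coeff 0 = cuspFunction 1 E2 0 := by
    simp [qExpansion_coeff]
  rw [h2, ← h0] at h1
  simpa [hc] using h1

theorem tendsto_serreDerivative {k : ℤ} (f : ModularForm 𝒮ℒ k) :
    Tendsto (Derivative.serreDerivative (k : ℂ) (⇑f)) atImInfty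
      (𝓝 (-((k : ℂ) * 12⁻¹ * (qExpansion 1 f).coeff 0))) := by
  have h1 := tendsto_D_atImInfty (periodic_levelOne f) (ModularFormClass.holo f) (bdd_levelOne f)
  have h2 := ((tendsto_const_nhds (x := (k : ℂ) * 12⁻¹)).mul tendsto_E2).mul (tendsto_levelOne f)
  have h3 := h1.sub h2
  simp only [mul_one, zero_sub] at h3
  exact h3

/-- The Serre derivative of a level one modular form, as a modular form. -/
def serreMF {k : ℤ} (f : ModularForm 𝒮ℒ k) : ModularForm 𝒮ℒ (k + 2) where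
  toFun := Derivative.serreDerivative k f
  slash_action_eq' := fun _ ⟨γ, hγ⟩ ↦ hγ ▸ by
    have hγ' : (γ : GL (Fin 2) ℝ) ∈ 𝒮ℒ := ⟨γ, rfl⟩
    exact Derivative.serreDerivative_slash_invariant (ModularFormClass.holo f)
      (SlashInvariantFormClass.slash_action_eq f _ hγ')
  holo' := Derivative.serreDerivative_mdifferentiable k (ModularFormClass.holo f)
  bdd_at_cusps' {c} hc := by
    rw [Subgroup.IsArithmetic.isCusp_iff_isCusp_SL2Z] at hc
    rw [OnePoint.isBoundedAt_iff_forall_SL2Z hc]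
    intro γ _
    have hγ' : (γ : GL (Fin 2) ℝ) ∈ 𝒮ℒ := ⟨γ, rfl⟩
    have hinv : Derivative.serreDerivative (k : ℂ) (⇑f) ∣[k + 2] γ
        = Derivative.serreDerivative (k : ℂ) (⇑f) :=
      Derivative.serreDerivative_slash_invariant (ModularFormClass.holo f)
        (SlashInvariantFormClass.slash_action_eq f _ hγ')
    rw [hinv]
    exact (tendsto_serreDerivative f).isBigO_one ℝ

@[simp] theorem serreMF_apply {k : ℤ} (f : ModularForm 𝒮ℒ k) (z : ℍ) :
    serreMF f z = D f z - k * 12⁻¹ * E2 z * f z := rfl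

theorem coeff_zero_serreMF {k : ℤ} (f : ModularForm 𝒮ℒ k) :
    (qExpansion 1 (serreMF f)).coeff 0 = -((k : ℂ) * 12⁻¹ * (qExpansion 1 f).coeff 0) :=
  tendsto_nhds_unique (tendsto_levelOne (serreMF f)) (tendsto_serreDerivative f)

theorem eq_zero_of_tendsto_zero {k : ℤ} (hk : k < 12 ∨ k = 14) (f : ModularForm 𝒮ℒ k)
    (h : Tendsto (⇑f) atImInfty (𝓝 0)) : f = 0 := by
  have h0 : (qExpansion 1 f).coeff 0 = 0 := tendsto_nhds_unique (tendsto_levelOne f) h
  have hg : CuspForm.discriminantEquiv (toCuspForm f h0) = 0 := by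
    rcases hk with hk | rfl
    · exact rank_zero_iff_forall_zero.mp (levelOne_neg_weight_rank_zero (by lia)) _
    · exact rank_zero_iff_forall_zero.mp levelOne_weight_two_rank_zero _
  simpa [CuspForm.discriminantEquiv.map_eq_zero_iff, DFunLike.ext_iff] using hg

theorem tendsto_E₄ : Tendsto (⇑E₄) atImInfty (𝓝 1) := by
  have := tendsto_levelOne E₄
  rwa [E_qExpansion_coeff_zero _ ⟨2, rfl⟩] at this

theorem tendsto_E₆ : Tendsto (⇑E₆) atImInfty (𝓝 1) := by
  have := tendsto_levelOne E₆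
  rwa [E_qExpansion_coeff_zero _ ⟨3, rfl⟩] at this

/-- Ramanujan's identity for `E₄`. -/
theorem D_E₄ (z : ℍ) : D E₄ z = (E2 z * E₄ z - E₆ z) / 3 := by
  let h : ModularForm 𝒮ℒ (4 + 2) := serreMF E₄ + (1 / 3 : ℂ) • ModularForm.mcast (by norm_num) E₆
  have hlim : Tendsto (⇑h) atImInfty (𝓝 0) := by
    have h1 := tendsto_serreDerivative E₄
    rw [E_qExpansion_coeff_zero _ ⟨2, rfl⟩] at h1
    have h2 := h1.add ((tendsto_const_nhds (x := (1 / 3 : ℂ))).mul tendsto_E₆)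
    have h3 : -(((4 : ℤ) : ℂ) * 12⁻¹ * 1 : ℂ) + 1 / 3 * 1 = 0 := by norm_num
    rw [h3] at h2
    exact h2
  have hz := eq_zero_of_tendsto_zero (Or.inl (by norm_num)) h hlim
  have h4 : h z = 0 := by rw [hz]; rfl
  have h5 : h z = D E₄ z - ((4 : ℤ) : ℂ) * 12⁻¹ * E2 z * E₄ z + (1 / 3 : ℂ) * E₆ z := rfl
  rw [h5] at h4
  push_cast at h4
  linear_combination h4

/-- Ramanujan's identity for `E₆`. -/
theorem D_E₆ (z : ℍ) : D E₆ z = (E2 z * E₆ z - E₄ z ^ 2) / 2 := by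
  let h : ModularForm 𝒮ℒ (6 + 2) :=
    serreMF E₆ + (1 / 2 : ℂ) • ModularForm.mcast (by norm_num) (E₄.mul E₄)
  have hlim : Tendsto (⇑h) atImInfty (𝓝 0) := by
    have h1 := tendsto_serreDerivative E₆
    rw [E_qExpansion_coeff_zero _ ⟨3, rfl⟩] at h1
    have h2 := h1.add ((tendsto_const_nhds (x := (1 / 2 : ℂ))).mul (tendsto_E₄.mul tendsto_E₄))
    have h3 : -(((6 : ℤ) : ℂ) * 12⁻¹ * 1 : ℂ) + 1 / 2 * (1 * 1) = 0 := by norm_num
    rw [h3] at h2
    exact h2
  have hz := eq_zero_of_tendsto_zero (Or.inl (by norm_num)) h hlim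
  have h4 : h z = 0 := by rw [hz]; rfl
  have h5 : h z = D E₆ z - ((6 : ℤ) : ℂ) * 12⁻¹ * E2 z * E₆ z + (1 / 2 : ℂ) * (E₄ z * E₄ z) := rfl
  rw [h5] at h4
  push_cast at h4
  linear_combination h4

/-- The discriminant as a level one modular form. -/
def ΔMF : ModularForm 𝒮ℒ 12 := (CuspForm.discriminant : ModularForm 𝒮ℒ 12)

theorem ΔMF_apply (z : ℍ) : ΔMF z = Δ z := rfl

/-- Ramanujan's identity for `Δ`. -/
theorem D_Δ (z : ℍ) : D Δ z = E2 z * Δ z := by
  let h : ModularForm 𝒮ℒ (12 + 2) := serreMF ΔMF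
  have hlim : Tendsto (⇑h) atImInfty (𝓝 0) := by
    have h1 := tendsto_serreDerivative ΔMF
    have h0 : (qExpansion 1 ΔMF).coeff 0 = 0 :=
      tendsto_nhds_unique (tendsto_levelOne ΔMF) discriminant_isZeroAtImInfty
    rw [h0, mul_zero, neg_zero] at h1
    exact h1
  have hz := eq_zero_of_tendsto_zero (Or.inr (by norm_num)) h hlim
  have h4 : h z = 0 := by rw [hz]; rfl
  have h5 : h z = D Δ z - ((12 : ℤ) : ℂ) * 12⁻¹ * E2 z * Δ z := rfl
  rw [h5] at h4
  push_cast at h4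
  linear_combination h4

/-- A level one modular form whose limit at `i∞` is nonzero and whose weight is positive has a
zero in the upper half plane. -/
theorem exists_zero_of_pos_weight {k : ℤ} (hk : 0 < k) (f : ModularForm 𝒮ℒ k) {a : ℂ} (ha : a ≠ 0)
    (hlim : Tendsto (⇑f) atImInfty (𝓝 a)) : ∃ τ : ℍ, f τ = 0 := by
  by_contra hne
  push Not at hne
  have hinv : ∀ γ : SL(2, ℤ), ((1 : ℍ → ℂ) / ⇑f) ∣[(0 : ℤ) - k] γ = (1 : ℍ → ℂ) / ⇑f := by
    intro γ
    have hγ : (γ : GL (Fin 2) ℝ) ∈ 𝒮ℒ := ⟨γ, rfl⟩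
    rw [div_slash_SL2, is_invariant_one, SL_slash, SlashInvariantFormClass.slash_action_eq f _ hγ]
  let g : ModularForm 𝒮ℒ (0 - k) :=
    { toFun := (1 : ℍ → ℂ) / ⇑f
      slash_action_eq' := fun _ ⟨γ, hγ⟩ ↦ hγ ▸ hinv γ
      holo' := (mdifferentiable_const (c := (1 : ℂ))).div (ModularFormClass.holo f) hne
      bdd_at_cusps' := fun {c} hc => by
        rw [Subgroup.IsArithmetic.isCusp_iff_isCusp_SL2Z] at hc
        rw [OnePoint.isBoundedAt_iff_forall_SL2Z hc]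
        intro γ _
        rw [hinv γ]
        have h1 : Tendsto ((1 : ℍ → ℂ) / ⇑f) atImInfty (𝓝 (1 / a)) :=
          (tendsto_const_nhds (x := (1 : ℂ))).div hlim ha
        exact h1.isBigO_one ℝ }
  have hg : (⇑g : ℍ → ℂ) = 0 := ModularFormClass.levelOne_neg_weight_eq_zero (by lia) g
  have h1 : g UpperHalfPlane.I = 0 := by rw [hg]; rfl
  have h2 : g UpperHalfPlane.I = 1 / f UpperHalfPlane.I := rfl
  rw [h2] at h1
  exact one_div_ne_zero (hne _) h1

/-- Surjectivity of the `j`-invariant, in the form `E₄³ = c Δ`. -/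
theorem exists_E₄_cube_eq (c : ℂ) : ∃ τ : ℍ, E₄ τ ^ 3 = c * Δ τ := by
  let f : ModularForm 𝒮ℒ 12 := ModularForm.mcast (by norm_num) ((E₄.mul E₄).mul E₄) - c • ΔMF
  have hlim : Tendsto (⇑f) atImInfty (𝓝 1) := by
    have h1 := ((tendsto_E₄.mul tendsto_E₄).mul tendsto_E₄).sub
      ((tendsto_const_nhds (x := c)).mul discriminant_isZeroAtImInfty)
    simp only [mul_one, mul_zero, sub_zero] at h1
    exact h1
  obtain ⟨τ, hτ⟩ := exists_zero_of_pos_weight (by norm_num) f one_ne_zero hlim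
  refine ⟨τ, ?_⟩
  have h2 : f τ = E₄ τ * E₄ τ * E₄ τ - c * Δ τ := rfl
  rw [h2] at hτ
  linear_combination hτ

/-- A holomorphic function on `ℍ`, composed with `ofComplex`, is analytic at points of `ℍ`. -/
theorem analyticAt_comp_ofComplex {F : ℍ → ℂ} (hF : MDiff F) (τ : ℍ) :
    AnalyticAt ℂ (F ∘ ofComplex) (τ : ℂ) := by
  have h1 : DifferentiableOn ℂ (F ∘ ofComplex) upperHalfPlaneSet :=
    UpperHalfPlane.mdifferentiable_iff.mp hF
  exact h1.analyticAt (isOpen_upperHalfPlaneSet.mem_nhds τ.im_pos)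

theorem deriv_comp_ofComplex (F : ℍ → ℂ) (τ : ℍ) :
    deriv (F ∘ ofComplex) (τ : ℂ) = 2 * π * I * D F τ := by
  have hpi : (2 * π * I : ℂ) ≠ 0 := by simp [Real.pi_ne_zero]
  simp only [Derivative.normalizedDerivOfComplex]
  field_simp

theorem E₆_ne_zero_of_E₄_eq_zero {τ : ℍ} (h : E₄ τ = 0) : E₆ τ ≠ 0 := by
  intro h6
  have := discriminant_eq_E₄_cube_sub_E₆_sq τ
  rw [h, h6] at this
  exact discriminant_ne_zero τ (by simpa using this)

theorem E₄_ne_zero_of_E₆_eq_zero {τ : ℍ} (h : E₆ τ = 0) : E₄ τ ≠ 0 := by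
  intro h4
  exact E₆_ne_zero_of_E₄_eq_zero h4 h

/-- Zeros of `E₄` are simple. -/
theorem analyticOrderAt_E₄ {τ : ℍ} (h : E₄ τ = 0) :
    analyticOrderAt (⇑E₄ ∘ ofComplex) (τ : ℂ) = 1 := by
  refine (analyticAt_comp_ofComplex (ModularFormClass.holo E₄) τ).analyticOrderAt_eq_one_of_zero_deriv_ne_zero
    (by simpa using h) ?_
  rw [deriv_comp_ofComplex, D_E₄, h]
  have hpi : (2 * π * I : ℂ) ≠ 0 := by simp [Real.pi_ne_zero]
  have h6 := E₆_ne_zero_of_E₄_eq_zero h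
  simp only [mul_zero, zero_sub]
  exact mul_ne_zero hpi (div_ne_zero (neg_ne_zero.mpr h6) (by norm_num))

/-- Zeros of `E₆` are simple. -/
theorem analyticOrderAt_E₆ {τ : ℍ} (h : E₆ τ = 0) :
    analyticOrderAt (⇑E₆ ∘ ofComplex) (τ : ℂ) = 1 := by
  refine (analyticAt_comp_ofComplex (ModularFormClass.holo E₆) τ).analyticOrderAt_eq_one_of_zero_deriv_ne_zero
    (by simpa using h) ?_
  rw [deriv_comp_ofComplex, D_E₆, h]
  have hpi : (2 * π * I : ℂ) ≠ 0 := by simp [Real.pi_ne_zero]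
  have h4 := E₄_ne_zero_of_E₆_eq_zero h
  simp only [mul_zero, zero_sub]
  exact mul_ne_zero hpi (div_ne_zero (neg_ne_zero.mpr (pow_ne_zero 2 h4)) (by norm_num))

/-- Klein's `j`-invariant as a function on the upper half plane. -/
def kleinJ (z : ℍ) : ℂ := E₄ z ^ 3 / Δ z

theorem mdifferentiable_Δ : MDiff Δ := CuspForm.discriminant.holo'

theorem mdifferentiable_kleinJ : MDiff kleinJ :=
  ((ModularFormClass.holo E₄).pow 3).div mdifferentiable_Δ discriminant_ne_zero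

theorem kleinJ_surjective : Function.Surjective kleinJ := by
  intro c
  obtain ⟨τ, hτ⟩ := exists_E₄_cube_eq c
  exact ⟨τ, by rw [kleinJ, hτ, mul_div_cancel_right₀ _ (discriminant_ne_zero τ)]⟩

theorem kleinJ_sub_1728 (z : ℍ) : kleinJ z - 1728 = E₆ z ^ 2 / Δ z := by
  have h := discriminant_eq_E₄_cube_sub_E₆_sq z
  have hΔ := discriminant_ne_zero z
  rw [kleinJ]
  field_simp
  rw [h]
  ring

theorem D_kleinJ (z : ℍ) : D kleinJ z = - (E₄ z ^ 2 * E₆ z) / Δ z := by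
  have hΔ := discriminant_ne_zero z
  have h1 : (kleinJ * Δ) = (⇑E₄) ^ 3 := by
    funext w
    simp [kleinJ, div_mul_cancel₀ _ (discriminant_ne_zero w)]
  have h2 := congrFun (Derivative.normalizedDerivOfComplex_mul kleinJ Δ mdifferentiable_kleinJ
    mdifferentiable_Δ) z
  have h3 := congrFun (Derivative.normalizedDerivOfComplex_pow (⇑E₄) 3 (ModularFormClass.holo E₄)) z
  rw [h1, h3] at h2
  simp only [Pi.mul_apply, Pi.add_apply, Pi.pow_apply, D_E₄, D_Δ] at h2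
  have h4 : ((3 : ℕ) : ℍ → ℂ) z = 3 := rfl
  have h5 : kleinJ z * Δ z = E₄ z ^ 3 := by
    simp [kleinJ, div_mul_cancel₀ _ hΔ]
  rw [h4] at h2
  rw [eq_div_iff hΔ]
  simp only [Nat.add_one_sub_one] at h2
  linear_combination -h2 - E2 z * h5

theorem kleinJ_eq_zero_iff {τ : ℍ} : kleinJ τ = 0 ↔ E₄ τ = 0 := by
  simp [kleinJ, discriminant_ne_zero τ]

theorem kleinJ_eq_1728_iff {τ : ℍ} : kleinJ τ = 1728 ↔ E₆ τ = 0 := by
  rw [← sub_eq_zero, kleinJ_sub_1728]
  simp [discriminant_ne_zero τ]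

/-- Away from `0` and `1728`, `j` is locally injective: `j - j(τ)` has a simple zero at `τ`. -/
theorem analyticOrderAt_kleinJ_sub {τ : ℍ} (h0 : kleinJ τ ≠ 0) (h1 : kleinJ τ ≠ 1728) :
    analyticOrderAt (fun w : ℂ => kleinJ (ofComplex w) - kleinJ τ) (τ : ℂ) = 1 := by
  have han := analyticAt_comp_ofComplex mdifferentiable_kleinJ τ
  have hd : deriv (kleinJ ∘ ofComplex) (τ : ℂ) ≠ 0 := by
    rw [deriv_comp_ofComplex, D_kleinJ]
    have hpi : (2 * π * I : ℂ) ≠ 0 := by simp [Real.pi_ne_zero]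
    have h4 : E₄ τ ≠ 0 := fun h => h0 (kleinJ_eq_zero_iff.mpr h)
    have h6 : E₆ τ ≠ 0 := fun h => h1 (kleinJ_eq_1728_iff.mpr h)
    exact mul_ne_zero hpi (div_ne_zero (neg_ne_zero.mpr (mul_ne_zero (pow_ne_zero 2 h4) h6))
      (discriminant_ne_zero τ))
  have := han.analyticOrderAt_sub_eq_one_of_deriv_ne_zero hd
  simpa using this

theorem analyticAt_inv_Δ (τ : ℍ) : AnalyticAt ℂ (fun w : ℂ => (Δ (ofComplex w))⁻¹) (τ : ℂ) :=
  (analyticAt_comp_ofComplex mdifferentiable_Δ τ).inv (by simpa using discriminant_ne_zero τ)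

theorem analyticOrderAt_inv_Δ (τ : ℍ) :
    analyticOrderAt (fun w : ℂ => (Δ (ofComplex w))⁻¹) (τ : ℂ) = 0 := by
  rw [(analyticAt_inv_Δ τ).analyticOrderAt_eq_zero]
  simpa using discriminant_ne_zero τ

/-- At a zero of `E₄`, `j` vanishes to order exactly `3`. -/
theorem analyticOrderAt_kleinJ_of_E₄_eq_zero {τ : ℍ} (h : E₄ τ = 0) :
    analyticOrderAt (fun w : ℂ => kleinJ (ofComplex w)) (τ : ℂ) = 3 := by
  have h4 := analyticAt_comp_ofComplex (ModularFormClass.holo E₄) τ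
  have heq : (fun w : ℂ => kleinJ (ofComplex w)) =
      (⇑E₄ ∘ ofComplex) ^ 3 * (fun w : ℂ => (Δ (ofComplex w))⁻¹) := by
    funext w
    simp [kleinJ, div_eq_mul_inv]
  rw [heq, analyticOrderAt_mul (h4.pow 3) (analyticAt_inv_Δ τ), analyticOrderAt_pow h4,
    analyticOrderAt_E₄ h, analyticOrderAt_inv_Δ]
  norm_num

/-- At a zero of `E₆`, `j - 1728` vanishes to order exactly `2`. -/
theorem analyticOrderAt_kleinJ_sub_of_E₆_eq_zero {τ : ℍ} (h : E₆ τ = 0) :
    analyticOrderAt (fun w : ℂ => kleinJ (ofComplex w) - 1728) (τ : ℂ) = 2 := by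
  have h6 := analyticAt_comp_ofComplex (ModularFormClass.holo E₆) τ
  have heq : (fun w : ℂ => kleinJ (ofComplex w) - 1728) =
      (⇑E₆ ∘ ofComplex) ^ 2 * (fun w : ℂ => (Δ (ofComplex w))⁻¹) := by
    funext w
    simp [kleinJ_sub_1728, div_eq_mul_inv]
  rw [heq, analyticOrderAt_mul (h6.pow 2) (analyticAt_inv_Δ τ), analyticOrderAt_pow h6,
    analyticOrderAt_E₆ h, analyticOrderAt_inv_Δ]
  norm_num

/-- `j` is invariant under `SL(2, ℤ)`. -/
theorem kleinJ_smul (γ : SL(2, ℤ)) (τ : ℍ) : kleinJ (γ • τ) = kleinJ τ := by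
  have hγ : (γ : GL (Fin 2) ℝ) ∈ 𝒮ℒ := ⟨γ, rfl⟩
  have h4 : (⇑E₄ ∣[(4 : ℤ)] γ) τ = E₄ τ := by
    rw [SL_slash, SlashInvariantFormClass.slash_action_eq E₄ _ hγ]
  have h12 : (Δ ∣[(12 : ℤ)] γ) τ = Δ τ := by
    have := SlashInvariantFormClass.slash_action_eq CuspForm.discriminant _ hγ
    rw [SL_slash]
    exact congrFun this τ
  rw [slash_action_eq'_iff] at h4 h12
  have hd : ((γ 1 0 : ℂ) * τ + (γ 1 1 : ℂ)) ≠ 0 := by
    have := denom_ne_zero (γ : GL (Fin 2) ℝ) τ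
    simpa [denom] using this
  rw [kleinJ, kleinJ, h4, h12]
  have hΔ := discriminant_ne_zero τ
  field_simp

end

end Fermat.Agent.S24.JLocal
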