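import Mathlib
import Fermat.Prelude.Def_ModularCurve_X0
import Fermat.Prelude.Def_ModularCurve_LaurentCoeff
import Fermat.Agent.S24.Taylor
import Fermat.Agent.S24.JBridge
import Fermat.Agent.S24.ConvLaurent
import Fermat.Agent.S24.JLocal

set_option autoImplicit false

open PowerSeries Filter Topology UpperHalfPlane ModularForm EisensteinSeries
open scoped MatrixGroups

noncomputable section

namespace Fermat.Agent.S24

local notation "𝕢" => Function.Periodic.qParam

theorem eulerFn_ne_zero {q : ℂ} (hq : ‖q‖ < 1) : eulerFn q ≠ 0 := by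
  refine tprod_one_add_ne_zero_of_summable (f := fun n : ℕ ↦ -q ^ (n + 1)) (fun i => ?_) ?_
  · rw [← sub_eq_add_neg, sub_ne_zero]
    intro h
    have h1 : ‖q ^ (i + 1)‖ < 1 := by
      rw [norm_pow]; exact pow_lt_one₀ (norm_nonneg _) hq (by omega)
    rw [← h] at h1
    simp at h1
  · simpa using (summable_nat_add_iff 1).mpr (summable_geometric_of_lt_one (norm_nonneg _) hq)

/-- `coeffMap` commutes with `ofPowerSeries`. -/
theorem coeffMap_ofPowerSeries {R S : Type*} [CommRing R] [CommRing S] (f : R →+* S)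
    (p : PowerSeries R) :
    ModularCurve.coeffMap f (HahnSeries.ofPowerSeries ℤ R p) =
      HahnSeries.ofPowerSeries ℤ S (p.map f) := by
  ext n
  rw [ModularCurve.coeffMap_coeff]
  by_cases hn : n < 0
  · rw [ModularCurve.ofPowerSeries_coeff_of_neg _ hn, ModularCurve.ofPowerSeries_coeff_of_neg _ hn,
      map_zero]
  · obtain ⟨m, rfl⟩ := Int.eq_ofNat_of_zero_le (not_lt.mp hn)
    rw [HahnSeries.ofPowerSeries_apply_coeff, HahnSeries.ofPowerSeries_apply_coeff,
      PowerSeries.coeff_map]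

/-- the formal `j`-series with complex coefficients. -/
def jqC : LaurentSeries ℂ := ModularCurve.coeffMap (algebraMap ℚ ℂ) ModularCurve.jq

/-- the holomorphic function `q * j` on the unit disc. -/
def jNumFn (q : ℂ) : ℂ := cuspFunction 1 E₄ q ^ 3 / eulerFn q ^ 24

theorem differentiableOn_cuspFunction_E₄ :
    DifferentiableOn ℂ (cuspFunction 1 E₄) (Metric.ball 0 1) := by
  intro q hq
  exact (ModularFormClass.differentiableAt_cuspFunction E₄ one_pos (by simp)
    (by simpa using hq)).differentiableWithinAt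

theorem differentiableOn_jNumFn : DifferentiableOn ℂ jNumFn (Metric.ball 0 1) :=
  (differentiableOn_cuspFunction_E₄.pow 3).div (differentiableOn_eulerFn.pow 24)
    fun q hq => pow_ne_zero 24 (eulerFn_ne_zero (by simpa using hq))

theorem taylor0_jNumFn : taylor0 jNumFn = ModularCurve.jNum.map (Int.castRingHom ℂ) := by
  have hball : Metric.ball (0 : ℂ) 1 ∈ 𝓝 (0 : ℂ) := Metric.ball_mem_nhds 0 one_pos
  have hJ : AnalyticAt ℂ jNumFn 0 := differentiableOn_jNumFn.analyticAt hball
  have hE : AnalyticAt ℂ (cuspFunction 1 E₄) 0 := differentiableOn_cuspFunction_E₄.analyticAt hball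
  have h1 : jNumFn * eulerFn ^ 24 =ᶠ[𝓝 0] (cuspFunction 1 E₄) ^ 3 := by
    filter_upwards [hball] with q hq
    simp only [Pi.mul_apply, Pi.pow_apply, jNumFn]
    rw [div_mul_cancel₀ _ (pow_ne_zero 24 (eulerFn_ne_zero (by simpa using hq)))]
  have h2 := taylor0_congr h1
  rw [taylor0_mul hJ (analyticAt_eulerFn.pow 24), taylor0_pow analyticAt_eulerFn, taylor0_eulerFn,
    taylor0_pow hE] at h2
  have h3 : taylor0 (cuspFunction 1 E₄) = qExpansion 1 E₄ := rfl
  rw [h3, qExpansion_E₄, ← map_pow, ← map_pow] at h2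
  have h4 : (ModularCurve.dedekindEtaUnit.map (Int.castRingHom ℂ)) *
      (ModularCurve.dedekindEtaUnitInv.map (Int.castRingHom ℂ)) = 1 := by
    rw [← map_mul, ModularCurve.dedekindEtaUnit_mul_inv, map_one]
  rw [ModularCurve.jNum, map_mul, ← h2, ← ModularCurve.dedekindEtaUnit, mul_assoc, h4, mul_one]

theorem jqC_eq : jqC = HahnSeries.single (-1 : ℤ) 1 *
    HahnSeries.ofPowerSeries ℤ ℂ (taylor0 jNumFn) := by
  rw [jqC, ModularCurve.jq, map_mul, ModularCurve.coeffMap_single, map_one,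
    coeffMap_ofPowerSeries, taylor0_jNumFn, ModularCurve.jNumQ]
  congr 2

theorem isConv_jqC : IsConv jqC := by
  rw [jqC_eq]
  exact (isConv_single _ _).mul (isConv_taylor0 differentiableOn_jNumFn)

theorem evalAt_jqC_of_norm_lt {q : ℂ} (hq : q ≠ 0) (hq1 : ‖q‖ < 1) :
    evalAt q jqC = q⁻¹ * jNumFn q := by
  rw [jqC_eq, evalAt_mul (isConv_single _ _) (isConv_taylor0 differentiableOn_jNumFn) hq hq1,
    evalAt_single, evalAt_taylor0 differentiableOn_jNumFn hq1]
  simp

/-- **The formal `j`-series evaluates to Klein's `j`-function.** -/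
theorem evalAt_jqC (τ : ℍ) : evalAt (𝕢 1 τ) jqC = JLocal.kleinJ τ := by
  have hq : 𝕢 1 (τ : ℂ) ≠ 0 := Function.Periodic.qParam_ne_zero _
  have hq1 : ‖𝕢 1 (τ : ℂ)‖ < 1 := Function.Periodic.norm_qParam_lt_one one_pos τ.im_pos
  rw [evalAt_jqC_of_norm_lt hq hq1, JLocal.kleinJ, jNumFn]
  have h1 : cuspFunction 1 E₄ (𝕢 1 τ) = E₄ τ :=
    SlashInvariantFormClass.eq_cuspFunction E₄ τ (by simp) one_ne_zero
  have h2 : ModularForm.discriminant τ = 𝕢 1 τ * eulerFn (𝕢 1 τ) ^ 24 := by
    rw [discriminant_eq_q_prod, eulerFn, (multipliable_one_sub_pow hq1).tprod_pow]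
  rw [h1, h2]
  field_simp

end Fermat.Agent.S24
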