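import Mathlib
import Fermat.Prelude.Thm_ModularCurve_coeffMap_qExpand
import Fermat.Agent.S24.DefsB
import Fermat.Agent.S24.JLaurent

set_option autoImplicit false

open UpperHalfPlane ModularCurve
open scoped MatrixGroups Manifold

noncomputable section

namespace Fermat.Agent.S24

local notation "𝕢" => Function.Periodic.qParam

theorem qParam_ne_zero' (τ : ℍ) : 𝕢 1 (τ : ℂ) ≠ 0 := Function.Periodic.qParam_ne_zero _

theorem norm_qParam_lt_one' (τ : ℍ) : ‖𝕢 1 (τ : ℂ)‖ < 1 :=
  Function.Periodic.norm_qParam_lt_one one_pos τ.im_pos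

/-- every point of the punctured unit disc is `𝕢 1 τ`. -/
theorem exists_qParam_eq {q : ℂ} (hq : q ≠ 0) (hq1 : ‖q‖ < 1) : ∃ τ : ℍ, 𝕢 1 (τ : ℂ) = q :=
  ⟨⟨Function.Periodic.invQParam 1 q,
    Function.Periodic.im_invQParam_pos_of_norm_lt_one one_pos hq1 hq⟩,
    Function.Periodic.qParam_right_inv one_ne_zero hq⟩

theorem coeffMap_iota_algebraMap (c : Kbar) :
    coeffMap iota (algebraMap Kbar (LaurentSeries Kbar) c) =
      algebraMap ℂ (LaurentSeries ℂ) (iota c) := by
  rw [algebraMap_laurentSeries_eq_single, algebraMap_laurentSeries_eq_single, coeffMap_single]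

/-- The `Kbar`-algebra of Laurent series over `Kbar` which converge (via `iota`) on the punctured
unit disc. -/
def convK : Subalgebra Kbar (LaurentSeries Kbar) where
  carrier := {x | IsConv (coeffMap iota x)}
  mul_mem' {x y} hx hy := by
    show IsConv _
    rw [map_mul]; exact IsConv.mul hx hy
  add_mem' {x y} hx hy := by
    show IsConv _
    rw [map_add]; exact IsConv.add hx hy
  algebraMap_mem' c := by
    show IsConv _
    rw [coeffMap_iota_algebraMap]; exact isConv_algebraMap _

theorem mem_convK {x : LaurentSeries Kbar} : x ∈ convK ↔ IsConv (coeffMap iota x) := Iff.rfl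

/-- Realisation of convergent series by functions on the upper half plane. -/
def PsiK : convK →+* (ℍ → ℂ) where
  toFun x τ := evalAt (𝕢 1 τ) (coeffMap iota x)
  map_one' := by
    funext τ
    simp [evalAt_one]
  map_mul' x y := by
    funext τ
    simp only [Subalgebra.coe_mul, map_mul, Pi.mul_apply]
    exact evalAt_mul x.2 y.2 (qParam_ne_zero' τ) (norm_qParam_lt_one' τ)
  map_zero' := by
    funext τ
    simp [evalAt_zero]
  map_add' x y := by
    funext τ
    simp only [Subalgebra.coe_add, map_add, Pi.add_apply]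
    exact evalAt_add x.2 y.2 (qParam_ne_zero' τ) (norm_qParam_lt_one' τ)

theorem PsiK_apply (x : convK) (τ : ℍ) :
    PsiK x τ = evalAt (𝕢 1 τ) (coeffMap iota (x : LaurentSeries Kbar)) := rfl

theorem coeffMap_iota_injective : Function.Injective (coeffMap iota) := by
  intro x y h
  ext n
  have := congrArg (fun z => z.coeff n) h
  simpa using iota.injective this

theorem PsiK_injective : Function.Injective PsiK := by
  intro x y h
  apply Subtype.ext
  apply coeffMap_iota_injective
  refine eq_of_evalAt_eq x.2 y.2 fun q hq hq1 => ?_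
  obtain ⟨τ, rfl⟩ := exists_qParam_eq hq hq1
  exact congrFun h τ

theorem PsiK_algebraMap (c : Kbar) (τ : ℍ) : PsiK (algebraMap Kbar convK c) τ = iota c := by
  rw [PsiK_apply]
  show evalAt _ (coeffMap iota (algebraMap Kbar (LaurentSeries Kbar) c)) = _
  rw [coeffMap_iota_algebraMap, evalAt_algebraMap]

theorem mdifferentiable_PsiK (x : convK) : MDiff (PsiK x) := by
  rw [UpperHalfPlane.mdifferentiable_iff]
  have h1 : DifferentiableOn ℂ
      ((fun q => evalAt q (coeffMap iota (x : LaurentSeries Kbar))) ∘ (𝕢 1)) {z | 0 < z.im} := by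
    refine (IsConv.differentiableOn x.2).comp (by
      intro z _
      exact (Function.Periodic.differentiable_qParam z).differentiableWithinAt) ?_
    intro z hz
    refine ⟨?_, Function.Periodic.qParam_ne_zero _⟩
    simpa using Function.Periodic.norm_qParam_lt_one one_pos hz
  refine h1.congr fun z hz => ?_
  simp only [Function.comp_apply, PsiK_apply, ofComplex_apply_of_im_pos hz]

/-- periodicity -/
theorem PsiK_vadd (x : convK) (τ : ℍ) : PsiK x ((1 : ℝ) +ᵥ τ) = PsiK x τ := by
  rw [PsiK_apply, PsiK_apply]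
  congr 1
  simp only [Function.Periodic.qParam, UpperHalfPlane.coe_vadd, Complex.ofReal_one, div_one]
  rw [mul_add, Complex.exp_add, mul_one, Complex.exp_two_pi_mul_I, one_mul]

/-- The generator `j(q^d)` of the function field. -/
def jd (d : ℕ) [NeZero d] : LaurentSeries Kbar := coeffEmb Kbar (qExpand ℚ d jq)

theorem coeffMap_iota_jd (d : ℕ) [NeZero d] : coeffMap iota (jd d) = qExpand ℂ d jqC := by
  rw [jd, coeffEmb, coeffMap_coeffMap, jqC, ← coeffMap_qExpand]
  refine coeffMap_congr ?_ _
  exact RingHom.ext fun c => by simp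

theorem jd_mem_convK (d : ℕ) [NeZero d] : jd d ∈ convK := by
  rw [mem_convK, coeffMap_iota_jd]
  exact isConv_jqC.qExpand d

/-- `Ψ (j(q^d)) (τ) = J (d τ)`. -/
theorem PsiK_jd (d : ℕ) [NeZero d] {τ τ' : ℍ} (h : (τ' : ℂ) = d * τ) :
    PsiK ⟨jd d, jd_mem_convK d⟩ τ = JLocal.kleinJ τ' := by
  rw [PsiK_apply, coeffMap_iota_jd, evalAt_qExpand, ← evalAt_jqC τ', h]
  congr 1
  simp only [Function.Periodic.qParam]
  rw [← Complex.exp_nat_mul]
  congr 1
  simp only [Complex.ofReal_one, div_one]
  ring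

/-- the generators of the function field of level `N`. -/
def jdSet (N : ℕ) : Set (LaurentSeries Kbar) :=
  {s | ∃ d : ℕ, ∃ _ : NeZero d, d ∣ N ∧ s = jd d}

theorem adjoin_jdSet_le_convK (N : ℕ) : Algebra.adjoin Kbar (jdSet N) ≤ convK := by
  rw [Algebra.adjoin_le_iff]
  rintro s ⟨d, hd, -, rfl⟩
  exact jd_mem_convK d

/-- `d τ` as a point of the upper half plane. -/
def mulH (d : ℕ) [NeZero d] (τ : ℍ) : ℍ :=
  ⟨(d : ℂ) * τ, by
    have hd : (0 : ℝ) < d := by exact_mod_cast Nat.pos_of_ne_zero (NeZero.ne d)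
    simpa using mul_pos hd τ.im_pos⟩

@[simp] theorem coe_mulH (d : ℕ) [NeZero d] (τ : ℍ) : ((mulH d τ : ℍ) : ℂ) = d * τ := rfl

theorem PsiK_jd' (d : ℕ) [NeZero d] (τ : ℍ) :
    PsiK ⟨jd d, jd_mem_convK d⟩ τ = JLocal.kleinJ (mulH d τ) :=
  PsiK_jd d rfl

end Fermat.Agent.S24
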