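import Fermat.Agent.S24.JLocal

set_option autoImplicit false

namespace Fermat.Agent.S24

open UpperHalfPlane Filter Asymptotics
open scoped MatrixGroups Manifold

/-- `τ ↦ J (d τ)`. -/
noncomputable def Jd (d : ℕ) (τ : ℍ) : ℂ := JLocal.kleinJ (ofComplex ((d : ℂ) * (τ : ℂ)))

theorem im_affine_aux (a e : ℕ) (b : ℤ) (z : ℂ) :
    (((a : ℂ) * z + (b : ℂ)) / (e : ℂ)).im = (a : ℝ) * z.im / (e : ℝ) := by
  rw [Complex.div_natCast_im]
  simp

/-- The point `(a τ + b) / e` of the upper half plane (`a, e > 0`). -/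
noncomputable def affPt (a e : ℕ) (b : ℤ) (ha : 0 < a) (he : 0 < e) (τ : ℍ) : ℍ :=
  ⟨((a : ℂ) * (τ : ℂ) + (b : ℂ)) / (e : ℂ), by
    rw [im_affine_aux]
    have := τ.im_pos
    positivity⟩

theorem coe_affPt (a e : ℕ) (b : ℤ) (ha : 0 < a) (he : 0 < e) (τ : ℍ) :
    ((affPt a e b ha he τ : ℍ) : ℂ) = ((a : ℂ) * (τ : ℂ) + (b : ℂ)) / (e : ℂ) := rfl

theorem im_affPt (a e : ℕ) (b : ℤ) (ha : 0 < a) (he : 0 < e) (τ : ℍ) :
    (affPt a e b ha he τ).im = (a : ℝ) * τ.im / (e : ℝ) :=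
  im_affine_aux a e b τ

theorem coe_ofComplex_natCast_mul (d : ℕ) (hd : d ≠ 0) (τ : ℍ) :
    ((ofComplex ((d : ℂ) * (τ : ℂ)) : ℍ) : ℂ) = (d : ℂ) * (τ : ℂ) := by
  have h : 0 < ((d : ℂ) * (τ : ℂ)).im := by
    have h1 : ((d : ℂ) * (τ : ℂ)).im = (d : ℝ) * τ.im := by simp
    rw [h1]
    have := τ.im_pos
    have : 0 < d := Nat.pos_of_ne_zero hd
    positivity
  rw [ofComplex_apply_of_im_pos h]

theorem coe_SL2Z_smul (γ : SL(2, ℤ)) (τ : ℍ) :
    ((γ • τ : ℍ) : ℂ) = ((γ 0 0 : ℂ) * τ + (γ 0 1 : ℂ)) / ((γ 1 0 : ℂ) * τ + (γ 1 1 : ℂ)) := by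
  rw [coe_specialLinearGroup_apply]
  simp

theorem SL2Z_denom_ne_zero (γ : SL(2, ℤ)) (τ : ℍ) :
    ((γ 1 0 : ℂ) * τ + (γ 1 1 : ℂ)) ≠ 0 := by
  have := denom_ne_zero (γ : GL (Fin 2) ℝ) τ
  simpa [denom] using this

/-- Hermite normal form of `[d 0; 0 1] * γ`, in the form of an identity of points of `ℍ`. -/
theorem exists_smul_affPt_eq (d : ℕ) (hd : d ≠ 0) (γ : SL(2, ℤ)) :
    ∃ (γ' : SL(2, ℤ)) (a e : ℕ) (b : ℤ) (ha : 0 < a) (he : 0 < e), a * e = d ∧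
      ∀ τ : ℍ, ofComplex ((d : ℂ) * ((γ • τ : ℍ) : ℂ)) = γ' • affPt a e b ha he τ := by
  set α : ℤ := γ 0 0 with hα
  set β : ℤ := γ 0 1 with hβ
  set c : ℤ := γ 1 0 with hc
  set δ : ℤ := γ 1 1 with hδ
  have hdet : α * δ - β * c = 1 := by
    have := γ.det_coe
    rw [Matrix.det_fin_two] at this
    exact this
  set g : ℕ := Int.gcd ((d : ℤ) * α) c with hgdef
  set u : ℤ := Int.gcdA ((d : ℤ) * α) c
  set v : ℤ := Int.gcdB ((d : ℤ) * α) c
  have hg : (g : ℤ) = (d : ℤ) * α * u + c * v := Int.gcd_eq_gcd_ab _ _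
  obtain ⟨p, hp⟩ : (g : ℤ) ∣ (d : ℤ) * α := Int.gcd_dvd_left _ _
  obtain ⟨q, hq⟩ : (g : ℤ) ∣ c := Int.gcd_dvd_right _ _
  have hgd : (g : ℤ) ∣ (d : ℤ) := by
    have h1 : (d : ℤ) = (d : ℤ) * α * δ - (d : ℤ) * β * c := by linear_combination (-(d : ℤ)) * hdet
    rw [h1]
    exact dvd_sub (Dvd.dvd.mul_right ⟨p, hp⟩ _) (Dvd.dvd.mul_left ⟨q, hq⟩ _)
  have hgd' : g ∣ d := by exact_mod_cast hgd
  obtain ⟨e, he⟩ := hgd'
  have hg0 : 0 < g := Nat.pos_of_ne_zero (by rintro h; rw [h, zero_mul] at he; exact hd he)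
  have he0 : 0 < e := Nat.pos_of_ne_zero (by rintro h; rw [h, mul_zero] at he; exact hd he)
  have heZ : (d : ℤ) = (g : ℤ) * (e : ℤ) := by exact_mod_cast he
  have hgZ : (g : ℤ) ≠ 0 := by exact_mod_cast hg0.ne'
  have hpq : p * u + q * v = 1 := by
    apply mul_left_cancel₀ hgZ
    linear_combination (-1 : ℤ) * hg - u * hp - v * hq
  set b : ℤ := u * d * β + v * δ with hb
  have h1 : q * b + u * e = δ := by
    apply mul_left_cancel₀ hgZ
    linear_combination (-b) * hq - u * heZ - δ * hg - u * d * hdet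
  have h2 : p * b - v * e = d * β := by
    apply mul_left_cancel₀ hgZ
    linear_combination v * d * hdet - b * hp + v * heZ - d * β * hg
  refine ⟨⟨!![p, -v; q, u], by rw [Matrix.det_fin_two_of]; linear_combination hpq⟩,
    g, e, b, hg0, he0, he.symm, fun τ => ?_⟩
  apply UpperHalfPlane.ext
  rw [coe_ofComplex_natCast_mul d hd, coe_SL2Z_smul, coe_SL2Z_smul, coe_affPt]
  have hden := SL2Z_denom_ne_zero γ τ
  have heC : (e : ℂ) ≠ 0 := by exact_mod_cast he0.ne'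
  have h1C : (q : ℂ) * b + u * e = δ := by exact_mod_cast h1
  have h2C : (p : ℂ) * b - v * e = d * β := by exact_mod_cast h2
  have hpC : (d : ℂ) * α = g * p := by exact_mod_cast hp
  have hqC : (c : ℂ) = g * q := by exact_mod_cast hq
  simp only [Matrix.of_apply, Matrix.cons_val_zero,
    Matrix.cons_val_one, Matrix.cons_val', Matrix.cons_val_fin_one]
  have e1 : ((p : ℂ) * (((g : ℂ) * τ + b) / e) + ((-v : ℤ) : ℂ)) =
      (d : ℂ) * ((α : ℂ) * τ + β) / e := by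
    field_simp
    push_cast
    linear_combination (-(τ : ℂ)) * hpC + h2C
  have e2 : ((q : ℂ) * (((g : ℂ) * τ + b) / e) + (u : ℂ)) = ((c : ℂ) * τ + δ) / e := by
    field_simp
    linear_combination (-(τ : ℂ)) * hqC + h1C
  rw [e1, e2, div_div_div_cancel_right₀ heC, mul_div_assoc]

theorem Jd_smul_eq_kleinJ_affPt (d : ℕ) (hd : d ≠ 0) (γ : SL(2, ℤ)) :
    ∃ (a e : ℕ) (b : ℤ) (ha : 0 < a) (he : 0 < e), a * e = d ∧
      ∀ τ : ℍ, Jd d (γ • τ) = JLocal.kleinJ (affPt a e b ha he τ) := by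
  obtain ⟨γ', a, e, b, ha, he, hae, h⟩ := exists_smul_affPt_eq d hd γ
  exact ⟨a, e, b, ha, he, hae, fun τ => by rw [Jd, h, JLocal.kleinJ_smul]⟩

theorem Jd_smul_of_mem_Gamma0 {N d : ℕ} (hd : d ∣ N) (hN : N ≠ 0) (γ : SL(2, ℤ))
    (hγ : γ ∈ CongruenceSubgroup.Gamma0 N) (τ : ℍ) : Jd d (γ • τ) = Jd d τ := by
  have hd0 : d ≠ 0 := by rintro rfl; exact hN (Nat.eq_zero_of_zero_dvd hd)
  rw [CongruenceSubgroup.Gamma0_mem, ZMod.intCast_zmod_eq_zero_iff_dvd] at hγ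
  obtain ⟨q, hq⟩ : (d : ℤ) ∣ γ 1 0 := (Int.natCast_dvd_natCast.mpr hd).trans hγ
  have hdet : γ 0 0 * γ 1 1 - γ 0 1 * γ 1 0 = 1 := by
    have := γ.det_coe
    rw [Matrix.det_fin_two] at this
    exact this
  let γ' : SL(2, ℤ) := ⟨!![γ 0 0, d * γ 0 1; q, γ 1 1], by
    rw [Matrix.det_fin_two_of]; linear_combination hdet + γ 0 1 * hq⟩
  have key : ofComplex ((d : ℂ) * ((γ • τ : ℍ) : ℂ)) = γ' • ofComplex ((d : ℂ) * (τ : ℂ)) := by
    apply UpperHalfPlane.ext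
    rw [coe_ofComplex_natCast_mul d hd0, coe_SL2Z_smul, coe_SL2Z_smul,
      coe_ofComplex_natCast_mul d hd0]
    have hden := SL2Z_denom_ne_zero γ τ
    have hqC : ((γ 1 0 : ℤ) : ℂ) = d * q := by exact_mod_cast hq
    simp only [γ', Matrix.of_apply, Matrix.cons_val_zero,
      Matrix.cons_val_one, Matrix.cons_val', Matrix.cons_val_fin_one]
    have e2 : ((q : ℂ) * ((d : ℂ) * τ) + (γ 1 1 : ℂ)) = ((γ 1 0 : ℂ) * τ + (γ 1 1 : ℂ)) := by
      rw [hqC]; ring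
    rw [e2]
    push_cast
    field_simp
  rw [Jd, key, JLocal.kleinJ_smul, Jd]

theorem mdifferentiable_kleinJ_affPt (a e : ℕ) (b : ℤ) (ha : 0 < a) (he : 0 < e) :
    MDiff (fun τ : ℍ => JLocal.kleinJ (affPt a e b ha he τ)) := by
  have hJ := JLocal.mdifferentiable_kleinJ
  rw [mdifferentiable_iff] at hJ ⊢
  have hmaps : Set.MapsTo (fun z : ℂ => ((a : ℂ) * z + (b : ℂ)) / (e : ℂ))
      {z | 0 < z.im} {z | 0 < z.im} := by
    intro z hz
    change 0 < z.im at hz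
    change 0 < (((a : ℂ) * z + (b : ℂ)) / (e : ℂ)).im
    rw [im_affine_aux]
    positivity
  have hdiff : DifferentiableOn ℂ (fun z : ℂ => ((a : ℂ) * z + (b : ℂ)) / (e : ℂ))
      {z | 0 < z.im} := by fun_prop
  refine (hJ.comp hdiff hmaps).congr fun z hz => ?_
  simp only [Function.comp_apply]
  congr 1
  apply UpperHalfPlane.ext
  rw [coe_affPt, ofComplex_apply_of_im_pos hz, ofComplex_apply_of_im_pos (hmaps hz)]

theorem mdifferentiable_Jd_smul (d : ℕ) (hd : d ≠ 0) (γ : SL(2, ℤ)) :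
    MDiff (fun τ : ℍ => Jd d (γ • τ)) := by
  obtain ⟨a, e, b, ha, he, -, h⟩ := Jd_smul_eq_kleinJ_affPt d hd γ
  have : (fun τ : ℍ => Jd d (γ • τ)) = fun τ : ℍ => JLocal.kleinJ (affPt a e b ha he τ) :=
    funext h
  rw [this]
  exact mdifferentiable_kleinJ_affPt a e b ha he

theorem isBigO_kleinJ :
    JLocal.kleinJ =O[atImInfty] fun τ : ℍ => Real.exp (2 * Real.pi * τ.im) := by
  have h4 : (fun τ : ℍ => (ModularForm.E₄ τ) ^ 3) =O[atImInfty] fun _ : ℍ => (1 : ℝ) := by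
    have := (JLocal.tendsto_E₄.pow 3).isBigO_one ℝ
    exact this
  have hΔ : (fun τ : ℍ => (ModularForm.discriminant τ)⁻¹) =O[atImInfty]
      fun τ : ℍ => (Real.exp (-2 * Real.pi * τ.im))⁻¹ := by
    refine ModularForm.exp_isBigO_discriminant.inv_rev ?_
    exact Eventually.of_forall fun τ h => absurd h (Real.exp_pos _).ne'
  have := h4.mul hΔ
  refine this.congr (fun τ => by simp [JLocal.kleinJ, div_eq_mul_inv]) (fun τ => ?_)
  rw [one_mul, ← Real.exp_neg]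
  congr 1
  ring

theorem tendsto_affPt (a e : ℕ) (b : ℤ) (ha : 0 < a) (he : 0 < e) :
    Tendsto (affPt a e b ha he) atImInfty atImInfty := by
  rw [atImInfty, tendsto_comap_iff]
  have : (im ∘ affPt a e b ha he) = fun τ : ℍ => ((a : ℝ) / (e : ℝ)) * τ.im := by
    funext τ
    simp only [Function.comp_apply, im_affPt]
    ring
  rw [this]
  exact Tendsto.const_mul_atTop (by positivity) tendsto_comap

theorem isBigO_Jd_smul (d : ℕ) (hd : d ≠ 0) (γ : SL(2, ℤ)) :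
    (fun τ : ℍ => Jd d (γ • τ)) =O[atImInfty]
      fun τ : ℍ => Real.exp (2 * Real.pi * d * τ.im) := by
  obtain ⟨a, e, b, ha, he, hae, h⟩ := Jd_smul_eq_kleinJ_affPt d hd γ
  have h1 := isBigO_kleinJ.comp_tendsto (tendsto_affPt a e b ha he)
  refine (h1.congr_left fun τ => (h τ).symm).trans ?_
  refine IsBigO.of_bound 1 (Eventually.of_forall fun τ => ?_)
  simp only [Function.comp_apply, im_affPt, one_mul]
  rw [Real.norm_of_nonneg (Real.exp_pos _).le, Real.norm_of_nonneg (Real.exp_pos _).le]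
  apply Real.exp_le_exp.mpr
  have hτ := τ.im_pos
  have h2 : (a : ℝ) * τ.im / (e : ℝ) ≤ (d : ℝ) * τ.im := by
    have hd' : (d : ℝ) = (a : ℝ) * (e : ℝ) := by exact_mod_cast hae.symm
    have he1 : (1 : ℝ) ≤ (e : ℝ) := by exact_mod_cast he
    have ha0 : (0 : ℝ) < (a : ℝ) := by exact_mod_cast ha
    rw [div_le_iff₀ (by positivity), hd']
    have : (a : ℝ) * τ.im * 1 ≤ (a : ℝ) * τ.im * ((e : ℝ) * (e : ℝ)) := by
      apply mul_le_mul_of_nonneg_left _ (by positivity)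
      nlinarith
    nlinarith
  have hpi := Real.pi_pos
  calc 2 * Real.pi * ((a : ℝ) * τ.im / (e : ℝ)) ≤ 2 * Real.pi * ((d : ℝ) * τ.im) := by
        apply mul_le_mul_of_nonneg_left h2 (by positivity)
    _ = 2 * Real.pi * d * τ.im := by ring

end Fermat.Agent.S24
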