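import Fermat.Agent.S24.JInvariant
import Fermat.Agent.S24.JRational
import Fermat.Agent.S24.Psi
import Fermat.Agent.S24.FNAdjoin
import Fermat.Agent.S24.Translates
import Fermat.Agent.S24.Branch
import Fermat.Agent.S24.DegreeAbs

/-!
# S24 / Degree: `[FN N : Kbar(j)] = [SL₂(ℤ) : Γ₀(N)]`
-/

set_option autoImplicit false
namespace Fermat.Agent.S24.Degree
open UpperHalfPlane Filter Asymptotics ModularCurve Polynomial Function ModularForm EisensteinSeries
open scoped MatrixGroups Manifold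

local notation "𝕢" => Periodic.qParam 1
local notation "Δ" => ModularForm.discriminant

theorem qq_ne_zero (τ : ℍ) : 𝕢 (τ : ℂ) ≠ 0 := Periodic.qParam_ne_zero _

theorem norm_qq_lt_one (τ : ℍ) : ‖𝕢 (τ : ℂ)‖ < 1 := Periodic.norm_qParam_lt_one one_pos τ.im_pos

theorem exists_qq_eq {q : ℂ} (hq : q ≠ 0) (hq1 : ‖q‖ < 1) : ∃ τ : ℍ, 𝕢 (τ : ℂ) = q :=
  ⟨⟨Periodic.invQParam 1 q, Periodic.im_invQParam_pos_of_norm_lt_one one_pos hq1 hq⟩,
    Periodic.qParam_right_inv one_ne_zero hq⟩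

theorem isConv_aeval {x : LaurentSeries ℂ} (hx : IsConv x) (p : ℂ[X]) :
    IsConv (aeval x p) ∧ ∀ q : ℂ, q ≠ 0 → ‖q‖ < 1 → evalAt q (aeval x p) = p.eval (evalAt q x) := by
  induction p using Polynomial.induction_on' with
  | add p₁ p₂ h₁ h₂ =>
    refine ⟨by rw [map_add]; exact h₁.1.add h₂.1, fun q hq hq1 => ?_⟩
    rw [map_add, evalAt_add h₁.1 h₂.1 hq hq1, h₁.2 q hq hq1, h₂.2 q hq hq1, eval_add]
  | monomial n c =>
    rw [aeval_monomial]
    refine ⟨(isConv_algebraMap c).mul (hx.pow n), fun q hq hq1 => ?_⟩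
    rw [evalAt_mul (isConv_algebraMap c) (hx.pow n) hq hq1, evalAt_algebraMap,
      evalAt_pow hx hq hq1, eval_monomial]

theorem isBigO_exp_mono {m m' : ℕ} (h : m ≤ m') :
    (fun τ : ℍ => Real.exp (2 * Real.pi * m * τ.im)) =O[atImInfty]
      fun τ : ℍ => Real.exp (2 * Real.pi * m' * τ.im) := by
  refine IsBigO.of_bound 1 (Eventually.of_forall fun τ => ?_)
  rw [Real.norm_of_nonneg (Real.exp_pos _).le, Real.norm_of_nonneg (Real.exp_pos _).le, one_mul]
  apply Real.exp_le_exp.mpr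
  have h1 : (m : ℝ) ≤ m' := by exact_mod_cast h
  have h2 := τ.im_pos
  have h3 := Real.pi_pos
  gcongr

/-- Holomorphic functions on `ℍ` with at most exponential growth at `i∞`. -/
def niceSubring : Subring (ℍ → ℂ) where
  carrier := {f | MDiff f ∧ ∃ m : ℕ, f =O[atImInfty] fun τ : ℍ => Real.exp (2 * Real.pi * m * τ.im)}
  mul_mem' := by
    rintro f g ⟨hf, m, hm⟩ ⟨hg, m', hm'⟩
    refine ⟨hf.mul hg, m + m', ?_⟩
    refine (hm.mul hm').congr_right fun τ => ?_
    rw [← Real.exp_add]; push_cast; ring_nf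
  one_mem' := by
    refine ⟨mdifferentiable_const, 0, ?_⟩
    simp only [Nat.cast_zero, mul_zero, zero_mul, Real.exp_zero]
    exact isBigO_const_const _ one_ne_zero _
  add_mem' := by
    rintro f g ⟨hf, m, hm⟩ ⟨hg, m', hm'⟩
    exact ⟨hf.add hg, m + m', (hm.trans (isBigO_exp_mono (Nat.le_add_right _ _))).add
      (hm'.trans (isBigO_exp_mono (Nat.le_add_left _ _)))⟩
  zero_mem' := ⟨mdifferentiable_const, 0, isBigO_zero _ _⟩
  neg_mem' := by
    rintro f ⟨hf, m, hm⟩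
    exact ⟨hf.neg, m, hm.neg_left⟩

theorem const_mem_niceSubring (c : ℂ) : (fun _ : ℍ => c) ∈ niceSubring := by
  refine ⟨mdifferentiable_const, 0, ?_⟩
  simp only [Nat.cast_zero, mul_zero, zero_mul, Real.exp_zero]
  exact isBigO_const_const _ one_ne_zero _

/-- The analytic function attached to a formal series with coefficients in `Kbar`. -/
noncomputable def PsiFun (a : LaurentSeries Kbar) (τ : ℍ) : ℂ := evalAt (𝕢 (τ : ℂ)) (coeffMap iota a)

theorem PsiFun_add {a b : LaurentSeries Kbar} (ha : IsConv (coeffMap iota a))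
    (hb : IsConv (coeffMap iota b)) (τ : ℍ) : PsiFun (a + b) τ = PsiFun a τ + PsiFun b τ := by
  rw [PsiFun, map_add, evalAt_add ha hb (qq_ne_zero τ) (norm_qq_lt_one τ)]; rfl

theorem PsiFun_mul {a b : LaurentSeries Kbar} (ha : IsConv (coeffMap iota a))
    (hb : IsConv (coeffMap iota b)) (τ : ℍ) : PsiFun (a * b) τ = PsiFun a τ * PsiFun b τ := by
  rw [PsiFun, map_mul, evalAt_mul ha hb (qq_ne_zero τ) (norm_qq_lt_one τ)]; rfl

theorem PsiFun_algebraMap (c : Kbar) (τ : ℍ) :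
    PsiFun (algebraMap Kbar (LaurentSeries Kbar) c) τ = iota c := by
  rw [PsiFun, JRational.coeffMap_algebraMap', evalAt_algebraMap]

/-- The series which converge, whose sum is `Γ₀(N)`-invariant and all of whose translates are
holomorphic with moderate growth. -/
def goodSub (N : ℕ) : Subalgebra Kbar (LaurentSeries Kbar) where
  carrier := {a | IsConv (coeffMap iota a) ∧
    (∀ γ ∈ CongruenceSubgroup.Gamma0 N, ∀ τ, PsiFun a (γ • τ) = PsiFun a τ) ∧
    ∀ g : SL(2, ℤ), (fun τ => PsiFun a (g • τ)) ∈ niceSubring}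
  mul_mem' := by
    rintro a b ⟨ha, ha2, ha3⟩ ⟨hb, hb2, hb3⟩
    refine ⟨by rw [map_mul]; exact ha.mul hb, fun γ hγ τ => ?_, fun g => ?_⟩
    · rw [PsiFun_mul ha hb, PsiFun_mul ha hb, ha2 γ hγ, hb2 γ hγ]
    · have := niceSubring.mul_mem (ha3 g) (hb3 g)
      convert this using 1
      funext τ
      exact PsiFun_mul ha hb _
  add_mem' := by
    rintro a b ⟨ha, ha2, ha3⟩ ⟨hb, hb2, hb3⟩
    refine ⟨by rw [map_add]; exact ha.add hb, fun γ hγ τ => ?_, fun g => ?_⟩
    · rw [PsiFun_add ha hb, PsiFun_add ha hb, ha2 γ hγ, hb2 γ hγ]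
    · have := niceSubring.add_mem (ha3 g) (hb3 g)
      convert this using 1
      funext τ
      exact PsiFun_add ha hb _
  algebraMap_mem' := by
    intro c
    refine ⟨by rw [JRational.coeffMap_algebraMap']; exact isConv_algebraMap _, fun γ _ τ => ?_,
      fun g => ?_⟩
    · rw [PsiFun_algebraMap, PsiFun_algebraMap]
    · simp only [PsiFun_algebraMap]
      exact const_mem_niceSubring _

/-- Main relation: every good series is a root of a monic polynomial of degree `[SL₂(ℤ) : Γ₀(N)]`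
over `Kbar[j]`. -/
theorem exists_relation_of_mem_goodSub (N : ℕ) [NeZero N] (jK : LaurentSeries Kbar)
    (hj1 : IsConv (coeffMap iota jK)) (hj2 : ∀ τ : ℍ, PsiFun jK τ = E₄ τ ^ 3 / Δ τ)
    (a : LaurentSeries Kbar) (ha : a ∈ goodSub N) :
    ∃ p' : Fin (Nat.card (SL(2, ℤ) ⧸ CongruenceSubgroup.Gamma0 N)) → Kbar[X],
      a ^ (Nat.card (SL(2, ℤ) ⧸ CongruenceSubgroup.Gamma0 N))
        + ∑ i, aeval jK (p' i) * a ^ (i : ℕ) = 0 := by
  obtain ⟨ha1, ha2, ha3⟩ := ha
  have hfin : Finite (SL(2, ℤ) ⧸ CongruenceSubgroup.Gamma0 N) :=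
    Subgroup.finite_quotient_of_finiteIndex
  obtain ⟨r, hr1, hr2, hr3⟩ := exists_norm_relation (CongruenceSubgroup.Gamma0 N) (PsiFun a) ha2
    niceSubring ha3
  have hp : ∀ i, ∃ P : ℂ[X], ∀ τ : ℍ, r i τ = P.eval (E₄ τ ^ 3 / Δ τ) := by
    intro i
    obtain ⟨hmd, m, hm⟩ := hr1 i
    obtain ⟨P, -, hP⟩ := JInvariant.exists_poly_of_invariant (r i) m hmd (hr2 i)
      (JInvariant.isBoundedAtImInfty_mul_discriminant_pow (r i) m hm)
    exact ⟨P, hP⟩
  choose p hp using hp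
  apply descent_relation (ι := iota) jK a p
  have hc : ∀ i : Fin (Nat.card (SL(2, ℤ) ⧸ CongruenceSubgroup.Gamma0 N)),
      IsConv (aeval (coeffMap iota jK) (p i) * coeffMap iota a ^ (i : ℕ)) :=
    fun i => (isConv_aeval hj1 (p i)).1.mul (ha1.pow _)
  have hsum : ∀ s : Finset (Fin (Nat.card (SL(2, ℤ) ⧸ CongruenceSubgroup.Gamma0 N))),
      IsConv (∑ i ∈ s, aeval (coeffMap iota jK) (p i) * coeffMap iota a ^ (i : ℕ)) ∧
      ∀ τ : ℍ, evalAt (𝕢 (τ : ℂ)) (∑ i ∈ s, aeval (coeffMap iota jK) (p i) * coeffMap iota a ^ (i : ℕ))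
        = ∑ i ∈ s, r i τ * PsiFun a τ ^ (i : ℕ) := by
    intro s
    induction s using Finset.induction_on with
    | empty => exact ⟨by simpa using isConv_zero, fun τ => by simp [evalAt_zero]⟩
    | insert i s hi ih =>
      rw [Finset.sum_insert hi]
      refine ⟨(hc i).add ih.1, fun τ => ?_⟩
      rw [evalAt_add (hc i) ih.1 (qq_ne_zero τ) (norm_qq_lt_one τ), ih.2 τ, Finset.sum_insert hi,
        evalAt_mul (isConv_aeval hj1 (p i)).1 (ha1.pow _) (qq_ne_zero τ) (norm_qq_lt_one τ),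
        (isConv_aeval hj1 (p i)).2 _ (qq_ne_zero τ) (norm_qq_lt_one τ),
        evalAt_pow ha1 (qq_ne_zero τ) (norm_qq_lt_one τ), hp i τ, ← hj2 τ]
      rfl
  refine eq_zero_of_evalAt_eq_zero ((ha1.pow _).add (hsum _).1) fun q hq hq1 => ?_
  obtain ⟨τ, rfl⟩ := exists_qq_eq hq hq1
  rw [evalAt_add (ha1.pow _) (hsum _).1 (qq_ne_zero τ) (norm_qq_lt_one τ), (hsum _).2 τ,
    evalAt_pow ha1 (qq_ne_zero τ) (norm_qq_lt_one τ)]
  have := congrFun hr3 τ
  simp only [Pi.add_apply, Pi.pow_apply, Finset.sum_apply, Pi.mul_apply, Pi.zero_apply] at this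
  exact this

/-! ### The generators are good -/

theorem PsiFun_jd (d : ℕ) [NeZero d] (τ : ℍ) : PsiFun (jd d) τ = Jd d τ :=
  PsiK_jd d (coe_ofComplex_natCast_mul d (NeZero.ne d) τ)

theorem jd_mem_goodSub {N d : ℕ} [NeZero N] [NeZero d] (hd : d ∣ N) : jd d ∈ goodSub N := by
  refine ⟨jd_mem_convK d, fun γ hγ τ => ?_, fun g => ?_⟩
  · rw [PsiFun_jd, PsiFun_jd, Jd_smul_of_mem_Gamma0 hd (NeZero.ne N) γ hγ]
  · simp only [PsiFun_jd]
    exact ⟨mdifferentiable_Jd_smul d (NeZero.ne d) g, d, isBigO_Jd_smul d (NeZero.ne d) g⟩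

theorem AL_le_goodSub (N : ℕ) [NeZero N] : FNAdjoin.AL N ≤ goodSub N := by
  rw [FNAdjoin.AL, Algebra.adjoin_le_iff]
  rintro _ ⟨d, hd, hdN, rfl⟩
  exact jd_mem_goodSub hdN

theorem jd_one_eq : jd 1 = coeffEmb Kbar jq := by rw [jd, qExpand_one_apply]

theorem isConv_jK : IsConv (coeffMap iota (coeffEmb Kbar jq)) := by
  rw [← jd_one_eq]; exact jd_mem_convK 1

theorem PsiFun_jK (τ : ℍ) : PsiFun (coeffEmb Kbar jq) τ = E₄ τ ^ 3 / Δ τ := by
  rw [← jd_one_eq]
  exact PsiK_jd 1 (by simp)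

/-! ### Transcendence of `j` -/

theorem coeff_algebraMap_mul {k : Type*} [Field k] (c : k) (y : LaurentSeries k) (e : ℤ) :
    (algebraMap k (LaurentSeries k) c * y).coeff e = c * y.coeff e := by
  rw [algebraMap_laurentSeries_eq_single, HahnSeries.coeff_single_mul, sub_zero]

theorem transcendental_jK : Transcendental Kbar (coeffEmb Kbar jq) := by
  rw [transcendental_iff]
  intro p hp
  by_contra hp0
  have h := congrArg (fun y : LaurentSeries Kbar => y.coeff (-(p.natDegree : ℤ))) hp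
  simp only [HahnSeries.coeff_zero] at h
  rw [aeval_eq_sum_range, HahnSeries.coeff_sum, Finset.sum_range_succ, Finset.sum_eq_zero] at h
  · rw [Algebra.smul_def, coeff_algebraMap_mul, ← map_pow, coeffEmb_coeff,
      coeff_jq_pow_self] at h
    simp at h
    exact hp0 h
  · intro i hi
    rw [Algebra.smul_def, coeff_algebraMap_mul, ← map_pow, coeffEmb_coeff,
      coeff_jq_pow_of_lt (by have := Finset.mem_range.mp hi; omega)]
    simp

end Fermat.Agent.S24.Degree

namespace Fermat.Agent.S24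

open IntermediateField ModularCurve Polynomial Degree
open scoped MatrixGroups

theorem transcendental_jF (N : ℕ) [NeZero N] : Transcendental Kbar (jF N) := by
  intro h
  exact transcendental_jK (h.algebraMap (A := LaurentSeries Kbar))

theorem finite_gensF (N : ℕ) [NeZero N] : Finite (FNAdjoin.gensF N) := by
  classical
  let f : ℕ → FN N := fun d =>
    if h : d ≠ 0 ∧ d ∣ N then @FNAdjoin.jd N d ⟨h.1⟩ h.2 else 0
  have : FNAdjoin.gensF N ⊆ f '' (N.divisors : Set ℕ) := by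
    rintro _ ⟨d, hd, hdN, rfl⟩
    refine ⟨d, by simp [hdN, NeZero.ne N], ?_⟩
    simp only [f]
    rw [dif_pos ⟨NeZero.ne d, hdN⟩]
  exact ((N.divisors.finite_toSet.image f).subset this).to_subtype

theorem relation_lift {k Ω : Type*} [Field k] [Field Ω] [Algebra k Ω] (E : IntermediateField k Ω)
    (x a : E) {n : ℕ} (p' : Fin n → k[X])
    (h : (a : Ω) ^ n + ∑ i, aeval (x : Ω) (p' i) * (a : Ω) ^ (i : ℕ) = 0) :
    a ^ n + ∑ i, aeval x (p' i) * a ^ (i : ℕ) = 0 := by
  have key : E.val (a ^ n + ∑ i, aeval x (p' i) * a ^ (i : ℕ)) = 0 := by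
    rw [← h, map_add, map_sum, map_pow]
    congr 1
    refine Finset.sum_congr rfl fun i _ => ?_
    rw [map_mul, map_pow, ← aeval_algHom_apply]
    rfl
  exact Subtype.ext key

theorem finiteDimensional_and_finrank_le (N : ℕ) [NeZero N] :
    FiniteDimensional Kbar⟮jF N⟯ (FN N) ∧
      Module.finrank Kbar⟮jF N⟯ (FN N) ≤ Nat.card (SL(2, ℤ) ⧸ CongruenceSubgroup.Gamma0 N) := by
  have := finite_gensF N
  refine finrank_le_of_relations (jF N) _ (FNAdjoin.gensF N) (FNAdjoin.jF_mem_A N)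
    (FNAdjoin.exists_div N) fun a ha => ?_
  have ha' : (a : LaurentSeries Kbar) ∈ goodSub N :=
    AL_le_goodSub N (FNAdjoin.mem_A_iff.mp ha)
  obtain ⟨p', hp'⟩ := exists_relation_of_mem_goodSub N (coeffEmb Kbar jq) isConv_jK PsiFun_jK _ ha'
  refine ⟨fun i => ⟨aeval (jF N) (p' i), aeval_mem_adjoin_singleton _ _⟩, ?_⟩
  exact relation_lift (modularFunctionFieldBar N) (jF N) a p' hp'

theorem finiteDimensional_jF (N : ℕ) [NeZero N] : FiniteDimensional Kbar⟮jF N⟯ (FN N) :=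
  (finiteDimensional_and_finrank_le N).1

/-- The degree, given any one of the local families of embeddings. -/
theorem finrank_jF_of_family (N : ℕ) [NeZero N] {c : Kbar} {e₀ : ℕ} {g : SL(2, ℤ)}
    (fam : LocalFamily Kbar (FN N) (SL(2, ℤ) ⧸ CongruenceSubgroup.Gamma0 N) SL(2, ℤ)
      (jF N - algebraMap Kbar (FN N) c) e₀ g) :
    Module.finrank Kbar⟮jF N⟯ (FN N) = Nat.card (SL(2, ℤ) ⧸ CongruenceSubgroup.Gamma0 N) := by
  have := finiteDimensional_jF N
  refine le_antisymm (finiteDimensional_and_finrank_le N).2 ?_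
  refine card_le_finrank_of_ringHoms (k := Kbar) (jF N) fam.σ fam.inj fam.const fun i i' => ?_
  have h := fam.agree i i'
  rw [map_sub, map_sub, fam.const i i' c] at h
  exact sub_left_injective h

end Fermat.Agent.S24
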