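import Mathlib

set_option autoImplicit false

namespace Fermat.Agent.S24.Embed

section Twist

variable {L : Type*} [Field L]

/-- `∑ aₙ wⁿ ↦ ∑ aₙ ζⁿ wⁿ` as a function. -/
noncomputable def twistFun (ζ : L) (s : LaurentSeries L) : LaurentSeries L :=
  ⟨fun n => ζ ^ n * s.coeff n, s.isPWO_support.mono (fun n hn => by
    simp only [Function.mem_support, ne_eq] at hn
    exact fun h => hn (by rw [h, mul_zero]))⟩

@[simp] theorem twistFun_coeff (ζ : L) (s : LaurentSeries L) (n : ℤ) :
    (twistFun ζ s).coeff n = ζ ^ n * s.coeff n := rfl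

theorem twistFun_mul {ζ : L} (hζ : ζ ≠ 0) (s t : LaurentSeries L) :
    twistFun ζ (s * t) = twistFun ζ s * twistFun ζ t := by
  ext n
  rw [twistFun_coeff, HahnSeries.coeff_mul, HahnSeries.coeff_mul, Finset.mul_sum]
  refine Finset.sum_congr ?_ ?_
  · ext ij
    simp [Finset.mem_antidiagonal, zpow_ne_zero _ hζ]
  · intro ij hij
    have h : ij.1 + ij.2 = n := (Finset.mem_antidiagonal.mp hij).2.2
    rw [twistFun_coeff, twistFun_coeff, ← h, zpow_add₀ hζ]
    ring

/-- `∑ aₙ wⁿ ↦ ∑ aₙ ζⁿ wⁿ` as a ring homomorphism (`ζ ≠ 0`). -/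
noncomputable def twist (ζ : L) (hζ : ζ ≠ 0) : LaurentSeries L →+* LaurentSeries L where
  toFun := twistFun ζ
  map_one' := by
    ext n
    rw [twistFun_coeff, HahnSeries.coeff_one]
    split_ifs with h
    · subst h; simp
    · simp
  map_mul' := twistFun_mul hζ
  map_zero' := by ext n; simp
  map_add' s t := by ext n; simp [mul_add]

@[simp] theorem twist_coeff (ζ : L) (hζ : ζ ≠ 0) (s : LaurentSeries L) (n : ℤ) :
    (twist ζ hζ s).coeff n = ζ ^ n * s.coeff n := rfl

end Twist

section Abstract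

variable {A F : Type*} [CommRing A] [Field F] [Algebra A F] [IsFractionRing A F]
variable {G H : Type*} [Group G] [MulAction G H]

/-- `a ↦ Ψ a ∘ (g⁻¹ • ·)`. -/
def translate (Ψ : A →+* (H → ℂ)) (g : G) : A →+* (H → ℂ) :=
  RingHom.pi fun τ => (Pi.evalRingHom (fun _ : H => ℂ) (g⁻¹ • τ)).comp Ψ

@[simp] theorem translate_apply (Ψ : A →+* (H → ℂ)) (g : G) (a : A) (τ : H) :
    translate Ψ g a τ = Ψ a (g⁻¹ • τ) := rfl

theorem translate_injective {Ψ : A →+* (H → ℂ)} (hΨ : Function.Injective Ψ) (g : G) :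
    Function.Injective (translate Ψ g) := by
  intro a b hab
  apply hΨ
  funext τ
  have := congrFun hab (g • τ)
  simpa using this

theorem translate_mul_of_mem {Γ : Subgroup G} {Ψ : A →+* (H → ℂ)}
    (hΓ : ∀ γ ∈ Γ, ∀ a τ, Ψ a (γ • τ) = Ψ a τ) (g : G) {h : G} (hh : h ∈ Γ) :
    translate Ψ (g * h) = translate Ψ g := by
  ext a τ
  rw [translate_apply, translate_apply, mul_inv_rev, mul_smul, hΓ _ (Γ.inv_mem hh)]

/-- The data needed to build the family of embeddings. -/
structure Data (A : Type*) [CommRing A] (G H : Type*) [Group G] [MulAction G H] where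
  /-- the subgroup -/
  Γ : Subgroup G
  /-- realisation by functions -/
  Ψ : A →+* (H → ℂ)
  Ψ_inj : Function.Injective Ψ
  Ψ_inv : ∀ γ ∈ Γ, ∀ a τ, Ψ a (γ • τ) = Ψ a τ
  /-- the ring of functions having an expansion -/
  R : Subring (H → ℂ)
  /-- the expansion -/
  E : R →+* LaurentSeries ℂ
  E_inj : Function.Injective E
  mem_R : ∀ (g : G) (a : A), translate Ψ g a ∈ R

namespace Data

variable (D : Data A G H)

/-- expansion of `Ψ a ∘ g⁻¹`. -/
noncomputable def emb (g : G) : A →+* LaurentSeries ℂ :=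
  D.E.comp ((translate D.Ψ g).codRestrict D.R (D.mem_R g))

theorem emb_apply (g : G) (a : A) : D.emb g a = D.E ⟨translate D.Ψ g a, D.mem_R g a⟩ := rfl

theorem emb_injective (g : G) : Function.Injective (D.emb g) := by
  intro a b hab
  have h1 := D.E_inj hab
  exact translate_injective D.Ψ_inj g (congrArg Subtype.val h1)

theorem emb_mul_of_mem (g : G) {h : G} (hh : h ∈ D.Γ) : D.emb (g * h) = D.emb g := by
  ext1 a
  rw [emb_apply, emb_apply]
  congr 2
  rw [translate_mul_of_mem D.Ψ_inv g hh]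

/-- extension to the fraction field. -/
noncomputable def sigma' (F : Type*) [Field F] [Algebra A F] [IsFractionRing A F] (g : G) :
    F →+* LaurentSeries ℂ :=
  IsFractionRing.lift (D.emb_injective g)

theorem sigma'_algebraMap (g : G) (a : A) : D.sigma' F g (algebraMap A F a) = D.emb g a :=
  IsFractionRing.lift_algebraMap _ _

theorem sigma'_mul_of_mem (g : G) {h : G} (hh : h ∈ D.Γ) : D.sigma' F (g * h) = D.sigma' F g := by
  apply IsLocalization.ringHom_ext (nonZeroDivisors A)
  ext1 a
  simp only [RingHom.comp_apply, sigma'_algebraMap, D.emb_mul_of_mem g hh]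

/-- The family of embeddings indexed by the left cosets. -/
noncomputable def sigma (F : Type*) [Field F] [Algebra A F] [IsFractionRing A F] (x : G ⧸ D.Γ) :
    F →+* LaurentSeries ℂ :=
  D.sigma' F (Quotient.out x)

theorem sigma_mk (g : G) : D.sigma F (g : G ⧸ D.Γ) = D.sigma' F g := by
  obtain ⟨h, hh⟩ := QuotientGroup.mk_out_eq_mul D.Γ g
  rw [sigma, hh, D.sigma'_mul_of_mem g h.2]

theorem sigma_mk_algebraMap (g : G) (a : A) :
    D.sigma F (g : G ⧸ D.Γ) (algebraMap A F a) = D.E ⟨translate D.Ψ g a, D.mem_R g a⟩ := by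
  rw [sigma_mk, sigma'_algebraMap, emb_apply]

/-- (H2) an invariant element has the same image under all embeddings. -/
theorem sigma_algebraMap_of_invariant {a : A} (ha : ∀ (g : G) τ, D.Ψ a (g • τ) = D.Ψ a τ)
    (x y : G ⧸ D.Γ) : D.sigma F x (algebraMap A F a) = D.sigma F y (algebraMap A F a) := by
  induction x using QuotientGroup.induction_on with | H g => ?_
  induction y using QuotientGroup.induction_on with | H g' => ?_
  rw [sigma_mk_algebraMap, sigma_mk_algebraMap]
  congr 2
  funext τ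
  rw [translate_apply, translate_apply, ha, ha]

/-- (H1) the embeddings are pairwise distinct. -/
theorem sigma_injective {a : A} (ha : ∀ g : G, (∀ τ, D.Ψ a (g • τ) = D.Ψ a τ) → g ∈ D.Γ) :
    Function.Injective (D.sigma F) := by
  intro x y hxy
  induction x using QuotientGroup.induction_on with | H g => ?_
  induction y using QuotientGroup.induction_on with | H g' => ?_
  have h1 := congrArg (fun s => s (algebraMap A F a)) hxy
  simp only [sigma_mk_algebraMap] at h1
  have h2 := congrArg Subtype.val (D.E_inj h1)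
  rw [QuotientGroup.eq]
  apply ha
  intro τ
  have h3 := congrFun h2 (g' • τ)
  simp only [translate_apply, inv_smul_smul] at h3
  rw [mul_smul, h3]

/-- (H4) the local monodromy. -/
theorem sigma_smul_coeff {g₀ : G} {ζ : ℂ} (hζ : ζ ≠ 0)
    (h : ∀ (f : D.R) (f' : D.R), (∀ τ, f'.1 τ = f.1 (g₀⁻¹ • τ)) →
      ∀ m : ℤ, (D.E f').coeff m = ζ ^ m * (D.E f).coeff m)
    (x : G ⧸ D.Γ) (f : F) (m : ℤ) :
    (D.sigma F (g₀ • x) f).coeff m = ζ ^ m * (D.sigma F x f).coeff m := by
  induction x using QuotientGroup.induction_on with | H g => ?_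
  have key : D.sigma F (g₀ • (g : G ⧸ D.Γ)) = (twist ζ hζ).comp (D.sigma F (g : G ⧸ D.Γ)) := by
    apply IsLocalization.ringHom_ext (nonZeroDivisors A)
    ext1 a
    have e : g₀ • (g : G ⧸ D.Γ) = ((g₀ * g : G) : G ⧸ D.Γ) := rfl
    simp only [RingHom.comp_apply, e, sigma_mk_algebraMap]
    ext m
    rw [twist_coeff]
    apply h
    intro τ
    simp only [translate_apply, mul_inv_rev, mul_smul]
  rw [key, RingHom.comp_apply, twist_coeff]

end Data

end Abstract

end Fermat.Agent.S24.Embed
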