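import Mathlib
import Fermat.Agent.S24.JBridge
import Fermat.Agent.S24.JLocal
import Fermat.Agent.S24.EmbedAbstract
import Fermat.Prelude.Def_ModularCurve_LaurentCoeff

set_option autoImplicit false

open UpperHalfPlane hiding I
open Complex Filter Topology Function
open scoped Real MatrixGroups Manifold

namespace Fermat.Agent.S24.CuspRing

/-- The local parameter `w = exp (2 π i τ / N)` at the cusp `∞`. -/
noncomputable def wpar (N : ℕ) (τ : ℍ) : ℂ := Periodic.qParam (N : ℝ) (τ : ℂ)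

theorem wpar_ne_zero (N : ℕ) (τ : ℍ) : wpar N τ ≠ 0 := Periodic.qParam_ne_zero _

section
variable (N : ℕ) [NeZero N]

theorem N_pos : (0 : ℝ) < (N : ℝ) := by exact_mod_cast Nat.pos_of_ne_zero (NeZero.ne N)

theorem norm_wpar_lt_one (τ : ℍ) : ‖wpar N τ‖ < 1 :=
  Periodic.norm_qParam_lt_one (N_pos N) τ.im_pos

theorem wpar_mem_ball (τ : ℍ) : wpar N τ ∈ Metric.ball (0 : ℂ) 1 := by
  simpa using norm_wpar_lt_one N τ

theorem exists_wpar_eq {w : ℂ} (h0 : w ≠ 0) (h1 : ‖w‖ < 1) : ∃ τ : ℍ, wpar N τ = w :=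
  ⟨⟨Periodic.invQParam N w, Periodic.im_invQParam_pos_of_norm_lt_one (N_pos N) h1 h0⟩,
    Periodic.qParam_right_inv (N_pos N).ne' h0⟩

end

/-- `f * w ^ m` is the holomorphic function `g` of `w` on the unit disc. -/
structure HasExp (N : ℕ) (f : ℍ → ℂ) (m : ℕ) (g : ℂ → ℂ) : Prop where
  diff : DifferentiableOn ℂ g (Metric.ball 0 1)
  eq : ∀ τ : ℍ, f τ * wpar N τ ^ m = g (wpar N τ)

theorem analyticAt_of_diff {g : ℂ → ℂ} (h : DifferentiableOn ℂ g (Metric.ball 0 1)) :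
    AnalyticAt ℂ g 0 :=
  h.analyticAt (Metric.ball_mem_nhds 0 one_pos)

/-- The Laurent series `w ^ (-m) * (Taylor series of g)`. -/
noncomputable def ser (m : ℕ) (g : ℂ → ℂ) : LaurentSeries ℂ :=
  HahnSeries.single (-(m : ℤ)) 1 * HahnSeries.ofPowerSeries ℤ ℂ (taylor0 g)

theorem ser_shift (m k : ℕ) {g : ℂ → ℂ} (hg : AnalyticAt ℂ g 0) :
    ser (m + k) ((fun w : ℂ => w) ^ k * g) = ser m g := by
  have hid : AnalyticAt ℂ (fun q : ℂ => q) 0 := analyticAt_id
  rw [ser, ser, taylor0_mul (hid.pow k) hg, taylor0_pow hid, taylor0_id, map_mul,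
    HahnSeries.ofPowerSeries_X_pow, ← mul_assoc, HahnSeries.single_mul_single]
  have e : (-((m + k : ℕ) : ℤ)) + (k : ℤ) = -(m : ℤ) := by push_cast; ring
  rw [e, one_mul]

theorem ser_mul (m m' : ℕ) {g g' : ℂ → ℂ} (hg : AnalyticAt ℂ g 0) (hg' : AnalyticAt ℂ g' 0) :
    ser (m + m') (g * g') = ser m g * ser m' g' := by
  rw [ser, ser, ser, taylor0_mul hg hg', map_mul, mul_mul_mul_comm, HahnSeries.single_mul_single]
  have e : (-(m : ℤ)) + (-(m' : ℤ)) = -((m + m' : ℕ) : ℤ) := by push_cast; ring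
  rw [e, one_mul]

theorem ser_add (m : ℕ) {g g' : ℂ → ℂ} (hg : AnalyticAt ℂ g 0) (hg' : AnalyticAt ℂ g' 0) :
    ser m (g + g') = ser m g + ser m g' := by
  rw [ser, ser, ser, taylor0_add hg hg', map_add, mul_add]

theorem ser_congr (m : ℕ) {g g' : ℂ → ℂ} (h : g =ᶠ[𝓝 0] g') : ser m g = ser m g' := by
  rw [ser, ser, taylor0_congr h]

theorem ser_eq_zero_iff (m : ℕ) (g : ℂ → ℂ) : ser m g = 0 ↔ taylor0 g = 0 := by
  rw [ser, mul_eq_zero]
  constructor
  · rintro (h | h)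
    · simp at h
    · exact (HahnSeries.ofPowerSeries_injective (Γ := ℤ) (R := ℂ)) (by simpa using h)
  · intro h
    right
    simp [h]

theorem coeff_ser (m : ℕ) (g : ℂ → ℂ) (n : ℕ) :
    (ser m g).coeff ((n : ℤ) - m) = (taylor0 g).coeff n := by
  rw [ser]
  have : ((n : ℤ) - m) = (n : ℤ) + (-(m : ℤ)) := by ring
  rw [this, HahnSeries.coeff_single_mul_add, one_mul, HahnSeries.ofPowerSeries_apply_coeff]

theorem coeff_ser_of_lt (m : ℕ) (g : ℂ → ℂ) {k : ℤ} (hk : k < -(m : ℤ)) :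
    (ser m g).coeff k = 0 := by
  rw [ser]
  have : k = (k + m) + (-(m : ℤ)) := by ring
  rw [this, HahnSeries.coeff_single_mul_add, one_mul]
  exact ModularCurve.ofPowerSeries_coeff_of_neg _ (by omega)

section
variable {N : ℕ} [NeZero N]

theorem HasExp.eventuallyEq {f : ℍ → ℂ} {m m' : ℕ} {g g' : ℂ → ℂ}
    (h : HasExp N f m g) (h' : HasExp N f m' g') :
    ((fun w : ℂ => w) ^ m' * g) =ᶠ[𝓝 0] ((fun w : ℂ => w) ^ m * g') := by
  have hid : AnalyticAt ℂ (fun q : ℂ => q) 0 := analyticAt_id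
  have h1 : AnalyticAt ℂ ((fun w : ℂ => w) ^ m' * g) 0 :=
    (hid.pow m').mul (analyticAt_of_diff h.diff)
  have h2 : AnalyticAt ℂ ((fun w : ℂ => w) ^ m * g') 0 :=
    (hid.pow m).mul (analyticAt_of_diff h'.diff)
  rw [EventuallyEq, ← h1.frequently_eq_iff_eventually_eq h2]
  apply Eventually.frequently
  rw [eventually_nhdsWithin_iff]
  filter_upwards [Metric.ball_mem_nhds (0 : ℂ) one_pos] with w hw hw0
  obtain ⟨τ, rfl⟩ := exists_wpar_eq N hw0 (by simpa using hw)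
  simp only [Pi.mul_apply, Pi.pow_apply]
  rw [← h.eq, ← h'.eq]
  ring

theorem HasExp.ser_unique {f : ℍ → ℂ} {m m' : ℕ} {g g' : ℂ → ℂ}
    (h : HasExp N f m g) (h' : HasExp N f m' g') : ser m g = ser m' g' := by
  rw [← ser_shift m m' (analyticAt_of_diff h.diff), ← ser_shift m' m (analyticAt_of_diff h'.diff),
    add_comm m' m]
  exact ser_congr _ (h.eventuallyEq h')

end

theorem HasExp.mul {N : ℕ} {f f' : ℍ → ℂ} {m m' : ℕ} {g g' : ℂ → ℂ}
    (h : HasExp N f m g) (h' : HasExp N f' m' g') : HasExp N (f * f') (m + m') (g * g') :=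
  ⟨h.diff.mul h'.diff, fun τ => by
    simp only [Pi.mul_apply]
    rw [← h.eq, ← h'.eq]; ring⟩

theorem HasExp.shift {N : ℕ} {f : ℍ → ℂ} {m : ℕ} {g : ℂ → ℂ}
    (h : HasExp N f m g) (k : ℕ) : HasExp N f (m + k) ((fun w : ℂ => w) ^ k * g) :=
  ⟨(differentiableOn_id.pow k).mul h.diff, fun τ => by
    simp only [Pi.mul_apply, Pi.pow_apply]
    rw [← h.eq]; ring⟩

theorem HasExp.add_same {N : ℕ} {f f' : ℍ → ℂ} {m : ℕ} {g g' : ℂ → ℂ}
    (h : HasExp N f m g) (h' : HasExp N f' m g') : HasExp N (f + f') m (g + g') :=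
  ⟨h.diff.add h'.diff, fun τ => by
    simp only [Pi.add_apply]
    rw [← h.eq, ← h'.eq]; ring⟩

theorem HasExp.neg {N : ℕ} {f : ℍ → ℂ} {m : ℕ} {g : ℂ → ℂ}
    (h : HasExp N f m g) : HasExp N (-f) m (-g) :=
  ⟨h.diff.neg, fun τ => by
    simp only [Pi.neg_apply]
    rw [← h.eq]; ring⟩

theorem HasExp.const (N : ℕ) (c : ℂ) : HasExp N (fun _ => c) 0 (fun _ => c) :=
  ⟨differentiableOn_const c, fun τ => by simp⟩

theorem HasExp.add {N : ℕ} {f f' : ℍ → ℂ} {m m' : ℕ} {g g' : ℂ → ℂ}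
    (h : HasExp N f m g) (h' : HasExp N f' m' g') :
    HasExp N (f + f') (m + m') ((fun w : ℂ => w) ^ m' * g + (fun w : ℂ => w) ^ m * g') := by
  have h2 := h'.shift m
  rw [add_comm m' m] at h2
  exact (h.shift m').add_same h2

/-- The ring of functions on `ℍ` which are meromorphic functions of `w = exp (2 π i τ / N)` on the
unit disc, holomorphic outside `0`. -/
def Rcusp (N : ℕ) : Subring (ℍ → ℂ) where
  carrier := {f | ∃ m g, HasExp N f m g}
  mul_mem' := by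
    rintro f f' ⟨m, g, h⟩ ⟨m', g', h'⟩
    exact ⟨_, _, h.mul h'⟩
  one_mem' := ⟨0, _, HasExp.const N 1⟩
  add_mem' := by
    rintro f f' ⟨m, g, h⟩ ⟨m', g', h'⟩
    exact ⟨_, _, h.add h'⟩
  zero_mem' := ⟨0, _, HasExp.const N 0⟩
  neg_mem' := by
    rintro f ⟨m, g, h⟩
    exact ⟨_, _, h.neg⟩

theorem mem_Rcusp {N : ℕ} {f : ℍ → ℂ} : f ∈ Rcusp N ↔ ∃ m g, HasExp N f m g := Iff.rfl

theorem HasExp.mem {N : ℕ} {f : ℍ → ℂ} {m : ℕ} {g : ℂ → ℂ} (h : HasExp N f m g) : f ∈ Rcusp N :=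
  ⟨m, g, h⟩

section
variable (N : ℕ) [NeZero N]

/-- The expansion, as a function. -/
noncomputable def Efun (f : Rcusp N) : LaurentSeries ℂ :=
  ser f.2.choose f.2.choose_spec.choose

variable {N}

theorem Efun_eq {f : Rcusp N} {m : ℕ} {g : ℂ → ℂ} (h : HasExp N f.1 m g) : Efun N f = ser m g :=
  f.2.choose_spec.choose_spec.ser_unique h

variable (N)

/-- The expansion in `w = exp (2 π i τ / N)`, as a ring homomorphism. -/
noncomputable def Ecusp : Rcusp N →+* LaurentSeries ℂ where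
  toFun := Efun N
  map_one' := by
    rw [Efun_eq (f := 1) (HasExp.const N 1), ser, taylor0_const]
    simp
  map_mul' := by
    intro f f'
    obtain ⟨m, g, h⟩ := mem_Rcusp.mp f.2
    obtain ⟨m', g', h'⟩ := mem_Rcusp.mp f'.2
    rw [Efun_eq h, Efun_eq h', Efun_eq (f := f * f') (h.mul h'),
      ser_mul _ _ (analyticAt_of_diff h.diff) (analyticAt_of_diff h'.diff)]
  map_zero' := by
    rw [Efun_eq (f := 0) (HasExp.const N 0), ser, taylor0_const]
    simp
  map_add' := by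
    intro f f'
    obtain ⟨m, g, h⟩ := mem_Rcusp.mp f.2
    obtain ⟨m', g', h'⟩ := mem_Rcusp.mp f'.2
    have h2 := h'.shift m
    rw [add_comm m' m] at h2
    rw [Efun_eq (h.shift m'), Efun_eq h2, Efun_eq (f := f + f') (h.add h'),
      ser_add _ (analyticAt_of_diff (h.shift m').diff) (analyticAt_of_diff h2.diff)]

variable {N}

theorem Ecusp_eq {f : Rcusp N} {m : ℕ} {g : ℂ → ℂ} (h : HasExp N f.1 m g) :
    Ecusp N f = ser m g := Efun_eq h

theorem Ecusp_mk {f : ℍ → ℂ} {m : ℕ} {g : ℂ → ℂ} (h : HasExp N f m g) :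
    Ecusp N ⟨f, h.mem⟩ = ser m g := Efun_eq (f := ⟨f, h.mem⟩) h

end

/-! ### Taylor series and substitution -/


theorem hasSum_taylor0 {g : ℂ → ℂ} (hg : DifferentiableOn ℂ g (Metric.ball 0 1)) {z : ℂ}
    (hz : ‖z‖ < 1) : HasSum (fun n : ℕ => (taylor0 g).coeff n * z ^ n) (g z) := by
  have := Complex.hasSum_taylorSeries_on_ball (r := 1) (c := 0) (f := g) (by simpa using hg)
    (z := z) (by simpa using hz)
  have e : (fun n : ℕ => (taylor0 g).coeff n * z ^ n) =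
      fun n : ℕ => ((n.factorial : ℂ))⁻¹ • (z - 0) ^ n • iteratedDeriv n g 0 := by
    funext n
    rw [coeff_taylor0]
    simp only [sub_zero, smul_eq_mul]
    ring
  rw [e]
  exact this

theorem taylor0_eq_of_hasSum {g : ℂ → ℂ} {c : ℕ → ℂ}
    (h : ∀ z : ℂ, ‖z‖ < 1 → HasSum (fun n : ℕ => c n * z ^ n) (g z)) :
    taylor0 g = PowerSeries.mk c := by
  have hps : HasFPowerSeriesOnBall g (FormalMultilinearSeries.ofScalars ℂ c) 0 1 := by
    constructor
    · refine le_of_forall_lt_imp_le_of_dense fun r hr ↦ ?_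
      lift r to NNReal using hr.ne_top
      apply FormalMultilinearSeries.le_radius_of_summable
      have := (h (r : ℂ) (by simpa using hr)).summable.norm
      simpa [FormalMultilinearSeries.ofScalars_norm] using this
    · simp
    · intro y hy
      rw [← ENNReal.coe_one, Metric.eball_coe, NNReal.coe_one, mem_ball_zero_iff] at hy
      simpa [mul_comm] using h y hy
  have h1 := hps.hasFPowerSeriesAt
  have h2 := (hps.analyticAt).hasFPowerSeriesAt
  have h3 := h1.eq_formalMultilinearSeries h2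
  ext n
  have := congrArg (fun p => p.coeff n) h3
  simp only [FormalMultilinearSeries.coeff_ofScalars] at this
  rw [coeff_taylor0, PowerSeries.coeff_mk, this]
  field_simp

theorem coeff_taylor0_comp {g : ℂ → ℂ} (hg : DifferentiableOn ℂ g (Metric.ball 0 1)) {ξ : ℂ}
    (hξ : ‖ξ‖ ≤ 1) {e : ℕ} (he : e ≠ 0) :
    taylor0 (fun w => g (ξ * w ^ e)) =
      PowerSeries.mk fun k => if e ∣ k then ξ ^ (k / e) * (taylor0 g).coeff (k / e) else 0 := by
  apply taylor0_eq_of_hasSum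
  intro z hz
  have hz' : ‖ξ * z ^ e‖ < 1 := by
    rw [norm_mul, norm_pow]
    calc ‖ξ‖ * ‖z‖ ^ e ≤ 1 * ‖z‖ ^ e := by gcongr
      _ = ‖z‖ ^ e := one_mul _
      _ < 1 := pow_lt_one₀ (norm_nonneg _) hz he
  have h1 := hasSum_taylor0 hg hz'
  have hinj : Function.Injective (fun n : ℕ => e * n) := fun a b hab =>
    Nat.eq_of_mul_eq_mul_left (Nat.pos_of_ne_zero he) hab
  rw [← hinj.hasSum_iff]
  · convert h1 using 2 with n
    simp only [Function.comp_apply, dvd_mul_right, if_true, Nat.mul_div_cancel_left _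
      (Nat.pos_of_ne_zero he)]
    rw [mul_pow, ← pow_mul]
    ring
  · intro k hk
    have : ¬ e ∣ k := fun ⟨n, hn⟩ => hk ⟨n, hn.symm⟩
    simp [this]



theorem differentiableOn_comp {g : ℂ → ℂ} (hg : DifferentiableOn ℂ g (Metric.ball 0 1)) {ξ : ℂ}
    (hξ : ‖ξ‖ ≤ 1) {e : ℕ} (he : e ≠ 0) :
    DifferentiableOn ℂ (fun w => g (ξ * w ^ e)) (Metric.ball 0 1) := by
  refine hg.comp (by fun_prop) ?_
  intro z hz
  have hz1 : ‖z‖ < 1 := by simpa using hz
  rw [mem_ball_zero_iff, norm_mul, norm_pow]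
  calc ‖ξ‖ * ‖z‖ ^ e ≤ 1 * ‖z‖ ^ e := by gcongr
    _ = ‖z‖ ^ e := one_mul _
    _ < 1 := pow_lt_one₀ (norm_nonneg _) hz1 he

theorem taylor0_const_mul (c : ℂ) {g : ℂ → ℂ} (hg : AnalyticAt ℂ g 0) :
    taylor0 (fun w => c * g w) = PowerSeries.C c * taylor0 g := by
  have : (fun w => c * g w) = (fun _ => c) * g := rfl
  rw [this, taylor0_mul analyticAt_const hg, taylor0_const]

theorem ser_subst (m : ℕ) {g : ℂ → ℂ} (hg : DifferentiableOn ℂ g (Metric.ball 0 1)) {ξ : ℂ}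
    (hξ : ‖ξ‖ = 1) (hξ0 : ξ ≠ 0) (e : ℕ) [NeZero e] :
    ser (e * m) (fun w => (ξ ^ m)⁻¹ * g (ξ * w ^ e)) =
      ModularCurve.qExpand ℂ e (Embed.twist ξ hξ0 (ser m g)) := by
  have he : e ≠ 0 := NeZero.ne e
  have he' : (0 : ℤ) < e := by exact_mod_cast Nat.pos_of_ne_zero he
  have hT : taylor0 (fun w => (ξ ^ m)⁻¹ * g (ξ * w ^ e)) = PowerSeries.C (ξ ^ m)⁻¹ *
      PowerSeries.mk fun k => if e ∣ k then ξ ^ (k / e) * (taylor0 g).coeff (k / e) else 0 := by
    rw [taylor0_const_mul _ (analyticAt_of_diff (differentiableOn_comp hg hξ.le he)),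
      coeff_taylor0_comp hg hξ.le he]
  ext k
  by_cases hk : (e : ℤ) ∣ k
  · obtain ⟨k', rfl⟩ := hk
    rw [ModularCurve.qExpand_coeff_mul, Embed.twist_coeff]
    by_cases hlt : k' < -(m : ℤ)
    · rw [coeff_ser_of_lt _ _ hlt, mul_zero]
      apply coeff_ser_of_lt
      push_cast
      nlinarith
    · obtain ⟨n, hn⟩ : ∃ n : ℕ, k' = (n : ℤ) - m := ⟨(k' + m).toNat, by omega⟩
      subst hn
      have e1 : (e : ℤ) * ((n : ℤ) - m) = ((e * n : ℕ) : ℤ) - ((e * m : ℕ) : ℤ) := by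
        push_cast; ring
      rw [e1, coeff_ser, coeff_ser, hT, PowerSeries.coeff_C_mul, PowerSeries.coeff_mk,
        if_pos (dvd_mul_right e n), Nat.mul_div_cancel_left _ (Nat.pos_of_ne_zero he),
        zpow_sub₀ hξ0, zpow_natCast, zpow_natCast]
      field_simp
  · rw [ModularCurve.qExpand_coeff_of_not_dvd _ _ hk]
    by_cases hlt : k < -((e * m : ℕ) : ℤ)
    · exact coeff_ser_of_lt _ _ hlt
    · obtain ⟨n, hn⟩ : ∃ n : ℕ, k = (n : ℤ) - ((e * m : ℕ) : ℤ) :=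
        ⟨(k + ((e * m : ℕ) : ℤ)).toNat, by omega⟩
      subst hn
      have hn' : ¬ e ∣ n := by
        intro ⟨t, ht⟩
        apply hk
        refine ⟨(t : ℤ) - m, ?_⟩
        rw [ht]; push_cast; ring
      rw [coeff_ser, hT, PowerSeries.coeff_C_mul, PowerSeries.coeff_mk, if_neg hn', mul_zero]


/-! ### Affine substitutions -/


theorem wpar_affine {M N a d e : ℕ} {b : ℤ} (hM : M ≠ 0) (hN : N ≠ 0) (hd : d ≠ 0)
    (he : e * (d * M) = a * N) {τ τ' : ℍ} (h : (τ' : ℂ) = ((a : ℂ) * τ + b) / d) :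
    wpar M τ' = Complex.exp (2 * π * I * b / (d * M)) * wpar N τ ^ e := by
  have he' : (e : ℂ) * (d * M) = a * N := by exact_mod_cast he
  have hM' : (M : ℂ) ≠ 0 := by exact_mod_cast hM
  have hN' : (N : ℂ) ≠ 0 := by exact_mod_cast hN
  have hd' : (d : ℂ) ≠ 0 := by exact_mod_cast hd
  unfold wpar Periodic.qParam
  rw [← Complex.exp_nat_mul, ← Complex.exp_add, h]
  congr 1
  push_cast
  field_simp
  linear_combination (-(τ : ℂ)) * he'



/-- The root of unity `exp (2 π i b / D)`. -/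
noncomputable def xi (b : ℤ) (D : ℕ) : ℂ := Complex.exp (2 * π * I * b / D)

theorem xi_ne_zero (b : ℤ) (D : ℕ) : xi b D ≠ 0 := Complex.exp_ne_zero _

theorem norm_xi (b : ℤ) (D : ℕ) : ‖xi b D‖ = 1 := by
  have : (2 * π * I * b / D : ℂ) = ((2 * π * b / D : ℝ) : ℂ) * I := by
    push_cast; ring
  rw [xi, this, Complex.norm_exp_ofReal_mul_I]

theorem xi_pow (b : ℤ) {D : ℕ} (hD : D ≠ 0) : xi b D ^ D = 1 := by
  have hD' : (D : ℂ) ≠ 0 := by exact_mod_cast hD
  rw [xi, ← Complex.exp_nat_mul]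
  have : (D : ℂ) * (2 * π * I * b / D) = b * (2 * π * I) := by field_simp
  rw [this, Complex.exp_int_mul_two_pi_mul_I]

theorem isPrimitiveRoot_xi_neg_one {N : ℕ} (hN : N ≠ 0) : IsPrimitiveRoot (xi (-1) N) N := by
  have h := (Complex.isPrimitiveRoot_exp N hN).inv
  have : xi (-1) N = (Complex.exp (2 * π * I / N))⁻¹ := by
    rw [xi, ← Complex.exp_neg]
    congr 1
    push_cast
    ring
  rwa [this]

theorem wpar_affine' {M N a d e : ℕ} {b : ℤ} (hM : M ≠ 0) (hN : N ≠ 0) (hd : d ≠ 0)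
    (he : e * (d * M) = a * N) {τ τ' : ℍ} (h : (τ' : ℂ) = ((a : ℂ) * τ + b) / d) :
    wpar M τ' = xi b (d * M) * wpar N τ ^ e := by
  rw [wpar_affine hM hN hd he h, xi]
  push_cast
  rfl

theorem HasExp.comp_affine {M N a d e : ℕ} {b : ℤ} (hM : M ≠ 0) (hN : N ≠ 0) (hd : d ≠ 0)
    (he0 : e ≠ 0) (he : e * (d * M) = a * N) {f : ℍ → ℂ} {m : ℕ} {g : ℂ → ℂ} (h : HasExp M f m g)
    {φ : ℍ → ℍ} (hφ : ∀ τ, (φ τ : ℂ) = ((a : ℂ) * τ + b) / d) :
    HasExp N (f ∘ φ) (e * m)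
      (fun w => (xi b (d * M) ^ m)⁻¹ * g (xi b (d * M) * w ^ e)) := by
  refine ⟨(differentiableOn_comp h.diff (norm_xi _ _).le he0).const_mul _, fun τ => ?_⟩
  have h1 := h.eq (φ τ)
  rw [wpar_affine' hM hN hd he (hφ τ)] at h1
  rw [← h1, Function.comp_apply, mul_pow, ← pow_mul]
  have := pow_ne_zero m (xi_ne_zero b (d * M))
  field_simp

theorem Ecusp_comp_affine {M N a d e : ℕ} {b : ℤ} [NeZero M] [NeZero N] [NeZero e] (hd : d ≠ 0)
    (he : e * (d * M) = a * N) (f : Rcusp M)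
    {φ : ℍ → ℍ} (hφ : ∀ τ, (φ τ : ℂ) = ((a : ℂ) * τ + b) / d) (hmem : f.1 ∘ φ ∈ Rcusp N) :
    Ecusp N ⟨f.1 ∘ φ, hmem⟩ =
      ModularCurve.qExpand ℂ e (Embed.twist (xi b (d * M)) (xi_ne_zero _ _) (Ecusp M f)) := by
  obtain ⟨m, g, h⟩ := mem_Rcusp.mp f.2
  have h2 := h.comp_affine (NeZero.ne M) (NeZero.ne N) hd (NeZero.ne e) he hφ
  rw [Ecusp_eq h, Ecusp_eq (f := ⟨f.1 ∘ φ, hmem⟩) h2, ser_subst m h.diff (norm_xi _ _)]

theorem comp_affine_mem {M N a d e : ℕ} {b : ℤ} (hM : M ≠ 0) (hN : N ≠ 0) (hd : d ≠ 0)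
    (he0 : e ≠ 0) (he : e * (d * M) = a * N) {f : ℍ → ℂ} (hf : f ∈ Rcusp M)
    {φ : ℍ → ℍ} (hφ : ∀ τ, (φ τ : ℂ) = ((a : ℂ) * τ + b) / d) : f ∘ φ ∈ Rcusp N := by
  obtain ⟨m, g, h⟩ := hf
  exact (h.comp_affine hM hN hd he0 he hφ).mem

section
variable {N : ℕ} [NeZero N]

/-- **Rotation**: the effect of `τ ↦ τ - 1`. -/
theorem Ecusp_rotation (f f' : Rcusp N) (h : ∀ τ, f'.1 τ = f.1 ((ModularGroup.T)⁻¹ • τ)) (m : ℤ) :
    (Ecusp N f').coeff m = xi (-1) N ^ m * (Ecusp N f).coeff m := by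
  have hφ : ∀ τ : ℍ, (((ModularGroup.T)⁻¹ • τ : ℍ) : ℂ) = (((1 : ℕ) : ℂ) * τ + ((-1 : ℤ) : ℂ)) / (1 : ℕ) := by
    intro τ
    rw [← zpow_neg_one, ModularGroup.coe_T_zpow_smul_eq]
    push_cast
    ring
  have hf' : f' = ⟨f.1 ∘ (fun τ => (ModularGroup.T)⁻¹ • τ), by
      have : f.1 ∘ (fun τ => (ModularGroup.T)⁻¹ • τ) = f'.1 := by funext τ; exact (h τ).symm
      rw [this]; exact f'.2⟩ := by
    apply Subtype.ext
    funext τ
    exact h τ
  rw [hf', Ecusp_comp_affine (M := N) (N := N) (a := 1) (d := 1) (e := 1) (b := -1) one_ne_zero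
    (by ring) f hφ, ModularCurve.qExpand_one_apply, Embed.twist_coeff, one_mul]

theorem Ecusp_const (c : ℂ) (h : (fun _ : ℍ => c) ∈ Rcusp N) :
    Ecusp N ⟨fun _ => c, h⟩ = HahnSeries.C c := by
  rw [Ecusp_eq (f := ⟨fun _ => c, h⟩) (HasExp.const N c), ser, taylor0_const]
  simp

theorem const_mem (N : ℕ) (c : ℂ) : (fun _ : ℍ => c) ∈ Rcusp N := (HasExp.const N c).mem

theorem Ecusp_injective : Function.Injective (Ecusp N) := by
  rw [injective_iff_map_eq_zero]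
  intro f hf
  obtain ⟨m, g, h⟩ := mem_Rcusp.mp f.2
  rw [Ecusp_eq h, ser_eq_zero_iff] at hf
  apply Subtype.ext
  funext τ
  have h1 := hasSum_taylor0 h.diff (norm_wpar_lt_one N τ)
  simp only [hf, map_zero, zero_mul] at h1
  have h2 : g (wpar N τ) = 0 := h1.unique hasSum_zero
  have h3 := h.eq τ
  rw [h2] at h3
  exact (mul_eq_zero.mp h3).resolve_right (pow_ne_zero _ (wpar_ne_zero N τ))

theorem isBigO_of_mem {f : ℍ → ℂ} (hf : f ∈ Rcusp N) :
    ∃ m : ℕ, f =O[atImInfty] fun τ : ℍ => Real.exp (2 * π * m * τ.im) := by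
  obtain ⟨m, g, h⟩ := hf
  refine ⟨m, ?_⟩
  have hw : Tendsto (fun τ : ℍ => wpar N τ) atImInfty (𝓝 0) :=
    qParam_tendsto_atImInfty (N_pos N)
  have hg : Tendsto (fun τ : ℍ => g (wpar N τ)) atImInfty (𝓝 (g 0)) :=
    ((analyticAt_of_diff h.diff).continuousAt.tendsto).comp hw
  have h1 : (fun τ : ℍ => g (wpar N τ)) =O[atImInfty] fun _ : ℍ => (1 : ℝ) := hg.isBigO_one ℝ
  have h2 : (fun τ : ℍ => (wpar N τ ^ m)⁻¹) =O[atImInfty]
      fun τ : ℍ => Real.exp (2 * π * m * τ.im) := by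
    refine Asymptotics.IsBigO.of_bound 1 (Eventually.of_forall fun τ => ?_)
    rw [norm_inv, norm_pow, wpar, Periodic.norm_qParam, ← Real.exp_nat_mul, ← Real.exp_neg,
      Real.norm_eq_abs, Real.abs_exp, one_mul, Real.exp_le_exp]
    have hN1 : (1 : ℝ) ≤ N := by exact_mod_cast Nat.one_le_iff_ne_zero.mpr (NeZero.ne N)
    have him : 0 < τ.im := τ.im_pos
    have : (τ : ℂ).im = τ.im := rfl
    rw [this]
    have h3 : τ.im / N ≤ τ.im := div_le_self him.le hN1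
    have h4 : -(m * (-2 * π * τ.im / N)) = 2 * π * m * (τ.im / N) := by ring
    rw [h4]
    gcongr
  have h3 := h1.mul h2
  simp only [one_mul] at h3
  refine Asymptotics.IsBigO.congr_left h3 fun τ => ?_
  rw [← h.eq]
  field_simp [pow_ne_zero m (wpar_ne_zero N τ)]

theorem mdifferentiable_of_mem {f : ℍ → ℂ} (hf : f ∈ Rcusp N) : MDiff f := by
  obtain ⟨m, g, h⟩ := hf
  rw [UpperHalfPlane.mdifferentiable_iff]
  have h1 : DifferentiableOn ℂ (fun z : ℂ => g (Periodic.qParam N z) / Periodic.qParam N z ^ m)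
      {z | 0 < z.im} := by
    refine DifferentiableOn.div ?_ ?_ ?_
    · refine h.diff.comp (by unfold Periodic.qParam; fun_prop) ?_
      intro z hz
      simpa using Periodic.norm_qParam_lt_one (N_pos N) hz
    · unfold Periodic.qParam; fun_prop
    · intro z _
      exact pow_ne_zero _ (Periodic.qParam_ne_zero _)
  refine h1.congr fun z hz => ?_
  have h2 := h.eq ⟨z, hz⟩
  simp only [Function.comp_apply, ofComplex_apply_of_im_pos hz]
  rw [eq_div_iff (pow_ne_zero _ (Periodic.qParam_ne_zero _))]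
  exact h2

end


/-! ### The `j`-function -/

section J
open ModularForm EisensteinSeries


local notation "Δ" => ModularForm.discriminant

theorem eulerFn_ne_zero {q : ℂ} (hq : ‖q‖ < 1) : eulerFn q ≠ 0 := by
  unfold eulerFn
  have := tprod_one_add_ne_zero_of_summable (f := fun n : ℕ => -q ^ (n + 1)) ?_ ?_
  · simpa [sub_eq_add_neg] using this
  · intro i h
    have h1 : q ^ (i + 1) = 1 := by linear_combination -h
    have h2 : ‖q‖ ^ (i + 1) = 1 := by rw [← norm_pow, h1, norm_one]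
    have h3 : ‖q‖ ^ (i + 1) < 1 := pow_lt_one₀ (norm_nonneg _) hq (Nat.succ_ne_zero i)
    linarith
  · simpa using (summable_nat_add_iff 1).mpr (summable_geometric_of_lt_one (norm_nonneg _) hq)

/-- `q * j` as a function of `q`. -/
noncomputable def hJ (q : ℂ) : ℂ := cuspFunction 1 E₄ q ^ 3 / eulerFn q ^ 24

theorem differentiableOn_cuspFunction_E₄ :
    DifferentiableOn ℂ (cuspFunction 1 E₄) (Metric.ball 0 1) := by
  intro q hq
  exact (ModularFormClass.differentiableAt_cuspFunction E₄ one_pos one_mem_strictPeriods_SL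
    (by simpa using hq)).differentiableWithinAt

theorem differentiableOn_hJ : DifferentiableOn ℂ hJ (Metric.ball 0 1) := by
  refine DifferentiableOn.div (differentiableOn_cuspFunction_E₄.pow 3)
    (differentiableOn_eulerFn.pow 24) ?_
  intro q hq
  exact pow_ne_zero _ (eulerFn_ne_zero (by simpa using hq))

theorem hasExp_kleinJ : HasExp 1 JLocal.kleinJ 1 hJ := by
  refine ⟨differentiableOn_hJ, fun τ => ?_⟩
  have hq : ‖wpar 1 τ‖ < 1 := norm_wpar_lt_one 1 τ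
  have h4 : cuspFunction 1 E₄ (wpar 1 τ) = E₄ τ := by
    have := SlashInvariantFormClass.eq_cuspFunction E₄ τ one_mem_strictPeriods_SL one_ne_zero
    simpa [wpar] using this
  have hΔ : Δ τ = wpar 1 τ * eulerFn (wpar 1 τ) ^ 24 := by
    rw [discriminant_eq_q_prod, eulerFn, ← (multipliable_one_sub_pow hq).tprod_pow]
    simp [wpar, eta_q]
  have he := eulerFn_ne_zero hq
  have hw := wpar_ne_zero 1 τ
  rw [hJ, h4, JLocal.kleinJ, hΔ]
  field_simp

theorem taylor0_hJ : taylor0 hJ = ModularCurve.jNum.map (Int.castRingHom ℂ) := by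
  have hA : AnalyticAt ℂ hJ 0 := analyticAt_of_diff differentiableOn_hJ
  have h4 : AnalyticAt ℂ (cuspFunction 1 E₄) 0 := analyticAt_of_diff differentiableOn_cuspFunction_E₄
  have h1 : (hJ * eulerFn ^ 24 : ℂ → ℂ) =ᶠ[𝓝 0] (cuspFunction 1 E₄) ^ 3 := by
    filter_upwards [Metric.ball_mem_nhds (0 : ℂ) one_pos] with q hq
    have he := eulerFn_ne_zero (q := q) (by simpa using hq)
    simp only [Pi.mul_apply, Pi.pow_apply, hJ]
    field_simp
  have h2 := taylor0_congr h1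
  rw [taylor0_mul hA (analyticAt_eulerFn.pow 24), taylor0_pow analyticAt_eulerFn, taylor0_eulerFn,
    taylor0_pow h4] at h2
  have h3 : taylor0 (cuspFunction 1 E₄) = qExpansion 1 E₄ := rfl
  rw [h3, qExpansion_E₄] at h2
  have h5 : (ModularCurve.etaProd.map (Int.castRingHom ℂ)) ^ 24 *
      ModularCurve.dedekindEtaUnitInv.map (Int.castRingHom ℂ) = 1 := by
    rw [← map_pow, ← map_mul]
    have := ModularCurve.dedekindEtaUnit_mul_inv
    rw [ModularCurve.dedekindEtaUnit] at this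
    rw [this, map_one]
  calc taylor0 hJ = taylor0 hJ * ((ModularCurve.etaProd.map (Int.castRingHom ℂ)) ^ 24 *
      ModularCurve.dedekindEtaUnitInv.map (Int.castRingHom ℂ)) := by rw [h5, mul_one]
    _ = (ModularCurve.eisenstein4.map (Int.castRingHom ℂ)) ^ 3 *
      ModularCurve.dedekindEtaUnitInv.map (Int.castRingHom ℂ) := by rw [← mul_assoc, h2]
    _ = ModularCurve.jNum.map (Int.castRingHom ℂ) := by
      rw [ModularCurve.jNum, map_mul, map_pow]

/-- The formal `j`-series with complex coefficients. -/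
noncomputable def jqC : LaurentSeries ℂ := ModularCurve.coeffMap (algebraMap ℚ ℂ) ModularCurve.jq

theorem ser_hJ : ser 1 hJ = jqC := by
  rw [ser, jqC, ModularCurve.jq, map_mul, ModularCurve.coeffMap_single, taylor0_hJ]
  congr 1
  · simp
  · ext k
    rw [ModularCurve.coeffMap_coeff]
    rcases lt_or_ge k 0 with hk | hk
    · rw [ModularCurve.ofPowerSeries_coeff_of_neg _ hk, ModularCurve.ofPowerSeries_coeff_of_neg _ hk,
        map_zero]
    · obtain ⟨n, rfl⟩ := Int.eq_ofNat_of_zero_le hk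
      rw [HahnSeries.ofPowerSeries_apply_coeff, HahnSeries.ofPowerSeries_apply_coeff,
        ModularCurve.jNumQ, PowerSeries.coeff_map, PowerSeries.coeff_map]
      simp

theorem kleinJ_mem_one : JLocal.kleinJ ∈ Rcusp 1 := hasExp_kleinJ.mem

theorem Ecusp_kleinJ_one : Ecusp 1 ⟨JLocal.kleinJ, kleinJ_mem_one⟩ = jqC := by
  rw [Ecusp_eq (f := ⟨JLocal.kleinJ, kleinJ_mem_one⟩) hasExp_kleinJ, ser_hJ]


end J

/-! ### The generators -/


theorem coeff_jqC_neg_one : jqC.coeff (-1) = 1 := by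
  rw [jqC, ModularCurve.coeffMap_coeff, ModularCurve.coeff_jq_neg_one, map_one]

theorem coeff_jqC_of_lt {k : ℤ} (hk : k < -1) : jqC.coeff k = 0 := by
  rw [jqC, ModularCurve.coeffMap_coeff, ModularCurve.coeff_jq_of_lt hk, map_zero]

/-- The expansion of `τ ↦ j ((a τ + b) / d)` in `w = exp (2 π i τ / N)`; `e = a N / d`. -/
noncomputable def cuspSer (e : ℕ) [NeZero e] (b : ℤ) (d : ℕ) : LaurentSeries ℂ :=
  ModularCurve.qExpand ℂ e (Embed.twist (xi b d) (xi_ne_zero _ _) jqC)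

theorem order_eq_of_coeff {s : LaurentSeries ℂ} {n : ℤ} (h1 : s.coeff n ≠ 0)
    (h2 : ∀ k < n, s.coeff k = 0) : s.order = n := by
  have hs : s ≠ 0 := by rintro rfl; simp at h1
  apply le_antisymm (HahnSeries.order_le_of_coeff_ne_zero h1)
  by_contra hlt
  exact (HahnSeries.coeff_order_eq_zero.not.mpr hs) (h2 _ (not_le.mp hlt))

theorem order_cuspSer (e : ℕ) [NeZero e] (b : ℤ) (d : ℕ) : (cuspSer e b d).order = -(e : ℤ) := by
  have he' : (0 : ℤ) < e := by exact_mod_cast Nat.pos_of_ne_zero (NeZero.ne e)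
  apply order_eq_of_coeff
  · have : -(e : ℤ) = (e : ℤ) * (-1) := by ring
    rw [this, cuspSer, ModularCurve.qExpand_coeff_mul, Embed.twist_coeff, coeff_jqC_neg_one, mul_one]
    exact zpow_ne_zero _ (xi_ne_zero _ _)
  · intro k hk
    by_cases hdvd : (e : ℤ) ∣ k
    · obtain ⟨k', rfl⟩ := hdvd
      rw [cuspSer, ModularCurve.qExpand_coeff_mul, Embed.twist_coeff, coeff_jqC_of_lt, mul_zero]
      nlinarith
    · exact ModularCurve.qExpand_coeff_of_not_dvd _ _ hdvd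

section
variable {N : ℕ} [NeZero N]

/-- Membership of the generators `τ ↦ j ((a τ + b) / d)`, `d ∣ a N`. -/
theorem kleinJ_comp_mem {a d e : ℕ} {b : ℤ} (hd : d ≠ 0) (he0 : e ≠ 0) (he : e * d = a * N)
    {φ : ℍ → ℍ} (hφ : ∀ τ, (φ τ : ℂ) = ((a : ℂ) * τ + b) / d) :
    JLocal.kleinJ ∘ φ ∈ Rcusp N :=
  comp_affine_mem (M := 1) one_ne_zero (NeZero.ne N) hd he0 (by rw [mul_one]; exact he)
    kleinJ_mem_one hφ

theorem Ecusp_kleinJ_comp {a d e : ℕ} {b : ℤ} [NeZero e] (hd : d ≠ 0) (he : e * d = a * N)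
    {φ : ℍ → ℍ} (hφ : ∀ τ, (φ τ : ℂ) = ((a : ℂ) * τ + b) / d)
    (hmem : JLocal.kleinJ ∘ φ ∈ Rcusp N) :
    Ecusp N ⟨JLocal.kleinJ ∘ φ, hmem⟩ = cuspSer e b d := by
  have := Ecusp_comp_affine (M := 1) (N := N) (a := a) (d := d) (e := e) (b := b) hd
    (by rw [mul_one]; exact he) ⟨JLocal.kleinJ, kleinJ_mem_one⟩ hφ hmem
  rw [this, Ecusp_kleinJ_one, cuspSer]
  simp only [mul_one]

theorem kleinJ_mem : JLocal.kleinJ ∈ Rcusp N :=
  kleinJ_comp_mem (a := 1) (d := 1) (e := N) (b := 0) (φ := id) one_ne_zero (NeZero.ne N)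
    (by ring) (fun τ => by simp)

theorem Ecusp_kleinJ : Ecusp N ⟨JLocal.kleinJ, kleinJ_mem⟩ = cuspSer N 0 1 :=
  Ecusp_kleinJ_comp (a := 1) (d := 1) (e := N) (b := 0) (φ := id) one_ne_zero
    (by ring) (fun τ => by simp) kleinJ_mem

theorem cuspSer_zero_one : cuspSer N 0 1 = ModularCurve.qExpand ℂ N jqC := by
  rw [cuspSer]
  congr 1
  ext k
  simp [xi]

/-- **Order** of `j` at the cusp. -/
theorem order_Ecusp_kleinJ : (Ecusp N ⟨JLocal.kleinJ, kleinJ_mem⟩).order = -(N : ℤ) := by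
  rw [Ecusp_kleinJ, order_cuspSer]

end


end Fermat.Agent.S24.CuspRing
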