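import Mathlib

/-!
# Analytic facts on `J = E₄³/Δ` (part 1)

* `exists_E₄_cube_eq` : surjectivity of `J`, stated as `∀ c, ∃ τ, E₄ τ ^ 3 = c * Δ τ`;
* `E₆_eq_zero_of_S_smul`, `E₄_eq_zero_of_ST_smul`, `E₆_I`, `E₄_ρ` : values at elliptic points;
* `E₄_cube_eq` : `E₄³ = 1728 Δ + E₆²`;
* `tendsto_E₄`, `tendsto_E₆`, `tendsto_atImInfty_coeff_zero`, `div_const_of_ne_zero`.
-/

open UpperHalfPlane ModularForm SlashInvariantForm SlashInvariantFormClass ModularFormClass
  CuspFormClass MatrixGroups OnePoint Filter EisensteinSeries Asymptotics ModularGroup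

open scoped Topology Manifold

namespace Fermat.Agent.S24.JOrder

local notation "Δ" => ModularForm.discriminant

/-- A level one modular form tends to its constant `q`-coefficient at `i∞`. -/
theorem tendsto_atImInfty_coeff_zero {k : ℤ} (f : ModularForm 𝒮ℒ k) :
    Tendsto f atImInfty (𝓝 ((qExpansion 1 f).coeff 0)) := by
  have hanal := ModularFormClass.analyticAt_cuspFunction_zero f one_pos one_mem_strictPeriods_SL
  have h0 : (qExpansion 1 f).coeff 0 = cuspFunction 1 f 0 := by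
    simp [qExpansion_coeff]
  rw [h0]
  refine (hanal.continuousAt.tendsto.comp (qParam_tendsto_atImInfty one_pos)).congr ?_
  intro τ
  exact SlashInvariantFormClass.eq_cuspFunction f τ one_mem_strictPeriods_SL one_ne_zero

theorem tendsto_E₄ : Tendsto E₄ atImInfty (𝓝 1) := by
  have := tendsto_atImInfty_coeff_zero E₄
  rwa [E_qExpansion_coeff_zero _ ⟨2, rfl⟩] at this

theorem tendsto_E₆ : Tendsto E₆ atImInfty (𝓝 1) := by
  have := tendsto_atImInfty_coeff_zero E₆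
  rwa [E_qExpansion_coeff_zero _ ⟨3, rfl⟩] at this

theorem tendsto_discriminant : Tendsto Δ atImInfty (𝓝 0) := discriminant_isZeroAtImInfty

/-- The weight 12 form `E₄³ - c Δ`. -/
noncomputable def pencil (c : ℂ) : ModularForm 𝒮ℒ 12 :=
  ModularForm.mcast (by decide) (E₄.pow 3) - c • (CuspForm.discriminant : ModularForm 𝒮ℒ 12)

theorem pencil_apply (c : ℂ) (z : ℍ) : pencil c z = E₄ z ^ 3 - c * Δ z := by
  have h : (E₄.pow 3) z = E₄ z ^ 3 := by rw [ModularForm.coe_pow]; rfl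
  simp [pencil, h]

theorem tendsto_pencil (c : ℂ) : Tendsto (pencil c) atImInfty (𝓝 1) := by
  have h := (tendsto_E₄.pow 3).sub (tendsto_discriminant.const_mul c)
  simp only [one_pow, mul_zero, sub_zero] at h
  exact h.congr fun z => (pencil_apply c z).symm

/-- A quotient of two level one forms of the same weight, with non-vanishing denominator which
does not tend to zero at `i∞`, is constant. -/
theorem div_const_of_ne_zero {k : ℤ} (f g : ModularForm 𝒮ℒ k) (hg : ∀ z, g z ≠ 0)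
    {a b : ℂ} (hb : b ≠ 0) (hfa : Tendsto f atImInfty (𝓝 a)) (hgb : Tendsto g atImInfty (𝓝 b)) :
    ∀ z, f z = a / b * g z := by
  have hslash : ∀ γ : SL(2, ℤ), (fun z ↦ f z / g z) ∣[(0 : ℤ)] γ = fun z ↦ f z / g z := by
    intro γ
    have hγ : (γ : GL (Fin 2) ℝ) ∈ 𝒮ℒ := ⟨γ, rfl⟩
    have : (⇑f / ⇑g) ∣[k - k] γ = ⇑f / ⇑g := by
      simp_rw [div_slash_SL2, SL_slash, slash_action_eqn _ _ hγ]
    rw [sub_self] at this
    exact this
  have hlim : Tendsto (fun z ↦ f z / g z) atImInfty (𝓝 (a / b)) := hfa.div hgb hb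
  let q : ModularForm 𝒮ℒ 0 :=
    { toFun z := f z / g z
      slash_action_eq' := fun _ ⟨γ, hγ⟩ ↦ hγ ▸ hslash γ
      holo' := f.holo'.div g.holo' hg
      bdd_at_cusps' {c} hc := by
        rw [Subgroup.IsArithmetic.isCusp_iff_isCusp_SL2Z] at hc
        rw [isBoundedAt_iff_forall_SL2Z hc]
        intro γ _
        rw [hslash γ, IsBoundedAtImInfty, BoundedAtFilter]
        exact hlim.isBigO_one ℝ }
  obtain ⟨c, hc⟩ := levelOne_weight_zero_const q
  have hq : ∀ z, f z / g z = c := fun z => congrFun hc z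
  have hca : c = a / b := by
    have h1 : Tendsto (fun z ↦ f z / g z) atImInfty (𝓝 c) := by
      simp only [hq]; exact tendsto_const_nhds
    exact tendsto_nhds_unique h1 hlim
  intro z
  rw [← hca, ← hq z, div_mul_cancel₀ _ (hg z)]

/-- **Surjectivity of `j`**: every value `c` is taken by `E₄³/Δ`. -/
theorem exists_E₄_cube_eq (c : ℂ) : ∃ τ : ℍ, E₄ τ ^ 3 = c * Δ τ := by
  by_contra! hne
  have hg : ∀ z, pencil c z ≠ 0 := fun z => by
    rw [pencil_apply]; exact sub_ne_zero.mpr (hne z)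
  have h := div_const_of_ne_zero (CuspForm.discriminant : ModularForm 𝒮ℒ 12) (pencil c) hg
    one_ne_zero tendsto_discriminant (tendsto_pencil c) I
  simp at h
  exact discriminant_ne_zero I h

/-- transformation rule for level one forms, in terms of `SL(2,ℤ)`. -/
theorem levelOne_smul_eq {k : ℤ} (f : ModularForm 𝒮ℒ k) (γ : SL(2, ℤ)) (z : ℍ) :
    f (γ • z) = denom γ z ^ k * f z := by
  have hγ : (γ : GL (Fin 2) ℝ) ∈ 𝒮ℒ := ⟨γ, rfl⟩
  exact SlashInvariantForm.slash_action_eqn'' f hγ z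

theorem coe_sq_of_S_smul {τ : ℍ} (h : S • τ = τ) : (τ : ℂ) ^ 2 = -1 := by
  have h1 : ((S • τ : ℍ) : ℂ) = τ := congrArg _ h
  rw [modular_S_smul, UpperHalfPlane.coe_mk] at h1
  have h0 : (τ : ℂ) ≠ 0 := τ.ne_zero
  field_simp at h1
  linear_combination -h1

theorem coe_sq_of_ST_smul {τ : ℍ} (h : (S * T) • τ = τ) : (τ : ℂ) ^ 2 + τ + 1 = 0 := by
  have h1 : (((S * T) • τ : ℍ) : ℂ) = τ := congrArg _ h
  rw [mul_smul, modular_S_smul, modular_T_smul, UpperHalfPlane.coe_mk, coe_vadd] at h1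
  have h0 : ((1:ℝ) : ℂ) + (τ : ℂ) ≠ 0 := by
    have := ((1 : ℝ) +ᵥ τ).ne_zero
    rwa [coe_vadd] at this
  field_simp at h1
  push_cast at h1
  linear_combination -h1

/-- `E₆` vanishes at every fixed point of `S`. -/
theorem E₆_eq_zero_of_S_smul {τ : ℍ} (h : S • τ = τ) : E₆ τ = 0 := by
  have h1 := levelOne_smul_eq E₆ S τ
  rw [h, denom_S] at h1
  have h2 : (τ : ℂ) ^ (6 : ℤ) = -1 := by
    have := coe_sq_of_S_smul h
    calc (τ : ℂ) ^ (6 : ℤ) = ((τ : ℂ) ^ 2) ^ 3 := by norm_cast; ring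
      _ = -1 := by rw [this]; norm_num
  rw [h2] at h1
  linear_combination h1 / 2

/-- `E₄` vanishes at every fixed point of `S * T`. -/
theorem E₄_eq_zero_of_ST_smul {τ : ℍ} (h : (S * T) • τ = τ) : E₄ τ = 0 := by
  have h1 := levelOne_smul_eq E₄ (S * T) τ
  have hd : denom (S * T : SL(2, ℤ)) τ = (τ : ℂ) + 1 := by
    simp [denom, Matrix.mul_apply, Fin.sum_univ_two]
  rw [h, hd] at h1
  have h3 := coe_sq_of_ST_smul h
  have h2 : ((τ : ℂ) + 1) ^ (4 : ℤ) = -τ - 1 := by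
    calc ((τ : ℂ) + 1) ^ (4 : ℤ) = ((τ : ℂ) + 1) ^ 4 := by norm_cast
      _ = -τ - 1 := by linear_combination ((τ : ℂ) ^ 2 + 3 * τ + 2) * h3
  rw [h2] at h1
  have h4 : ((τ : ℂ) + 2) * E₄ τ = 0 := by linear_combination h1
  rcases mul_eq_zero.mp h4 with h5 | h5
  · exfalso
    have : (τ : ℂ) = -2 := by linear_combination h5
    rw [this] at h3
    norm_num at h3
  · exact h5

theorem S_smul_I : S • (I : ℍ) = I := stabilizer_I.mpr (by simp)

theorem ST_smul_ρ : (S * T) • ρ = ρ := stabilizer_ρ.mpr (by simp)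

theorem E₆_I : E₆ I = 0 := E₆_eq_zero_of_S_smul S_smul_I

theorem E₄_ρ : E₄ ρ = 0 := E₄_eq_zero_of_ST_smul ST_smul_ρ

theorem E₄_cube_eq (z : ℍ) : E₄ z ^ 3 = 1728 * Δ z + E₆ z ^ 2 := by
  rw [discriminant_eq_E₄_cube_sub_E₆_sq z]; ring

theorem E₄_ne_zero_of_E₆_eq_zero {z : ℍ} (h : E₆ z = 0) : E₄ z ≠ 0 := by
  intro h4
  have := E₄_cube_eq z
  rw [h, h4] at this
  have hΔ := discriminant_ne_zero z
  apply hΔ
  linear_combination -this / 1728

theorem E₆_ne_zero_of_E₄_eq_zero {z : ℍ} (h : E₄ z = 0) : E₆ z ≠ 0 := by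
  intro h6
  exact E₄_ne_zero_of_E₆_eq_zero h6 h

end Fermat.Agent.S24.JOrder
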