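import Mathlib
import Fermat.Agent.S24.Taylor

set_option autoImplicit false

open UpperHalfPlane Complex Metric
open scoped Manifold ComplexConjugate MatrixGroups

namespace Fermat.Agent.S24.PointExp

/-- inverse Cayley transform: unit disc → upper half plane, `0 ↦ τ₀`. -/
noncomputable def phi (τ₀ : ℍ) (w : ℂ) : ℂ := ((τ₀ : ℂ) - conj (τ₀ : ℂ) * w) / (1 - w)

/-- Cayley transform. -/
noncomputable def cay (τ₀ : ℍ) (τ : ℂ) : ℂ := (τ - τ₀) / (τ - conj (τ₀ : ℂ))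

variable (τ₀ : ℍ)

theorem one_sub_ne_zero {w : ℂ} (hw : ‖w‖ < 1) : 1 - w ≠ 0 := by
  intro h
  have : w = 1 := by linear_combination -h
  rw [this] at hw
  simp at hw

theorem phi_im {w : ℂ} (hw : ‖w‖ < 1) :
    (phi τ₀ w).im = τ₀.im * (1 - normSq w) / normSq (1 - w) := by
  have h1 : normSq (1 - w) ≠ 0 := by
    simpa [normSq_eq_zero] using one_sub_ne_zero hw
  rw [phi, div_im]
  field_simp
  simp [normSq_apply]
  ring

theorem phi_im_pos {w : ℂ} (hw : ‖w‖ < 1) : 0 < (phi τ₀ w).im := by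
  rw [phi_im τ₀ hw]
  have h1 : 0 < normSq (1 - w) := normSq_pos.mpr (one_sub_ne_zero hw)
  have h2 : normSq w < 1 := by
    rw [normSq_eq_norm_sq]
    nlinarith [norm_nonneg w]
  have := τ₀.im_pos
  exact div_pos (mul_pos this (by linarith)) h1


@[simp] theorem phi_zero : phi τ₀ 0 = τ₀ := by simp [phi]

theorem sub_conj_ne_zero (τ : ℍ) : (τ : ℂ) - conj (τ₀ : ℂ) ≠ 0 := by
  intro h
  have h1 := congrArg Complex.im h
  simp only [sub_im, conj_im, zero_im, sub_neg_eq_add] at h1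
  have h2 := τ.im_pos
  have h3 := τ₀.im_pos
  simp only [UpperHalfPlane.coe_im] at h1
  linarith

theorem norm_cay_lt_one (τ : ℍ) : ‖cay τ₀ τ‖ < 1 := by
  rw [cay, norm_div, div_lt_one (norm_pos_iff.mpr (sub_conj_ne_zero τ₀ τ))]
  rw [← sq_lt_sq₀ (norm_nonneg _) (norm_nonneg _), ← normSq_eq_norm_sq, ← normSq_eq_norm_sq]
  simp only [normSq_apply, sub_re, sub_im, conj_re, conj_im, UpperHalfPlane.coe_im,
    UpperHalfPlane.coe_re]
  nlinarith [mul_pos τ.im_pos τ₀.im_pos]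

theorem phi_cay (τ : ℍ) : phi τ₀ (cay τ₀ τ) = τ := by
  have h1 := sub_conj_ne_zero τ₀ τ
  have h2 := sub_conj_ne_zero τ₀ τ₀
  have h3 : 1 - cay τ₀ τ = ((τ₀ : ℂ) - conj (τ₀ : ℂ)) / ((τ : ℂ) - conj (τ₀ : ℂ)) := by
    rw [cay]; field_simp; ring
  rw [phi, h3, cay]
  field_simp
  ring

theorem cay_phi {w : ℂ} (hw : ‖w‖ < 1) : cay τ₀ (phi τ₀ w) = w := by
  have h1 := one_sub_ne_zero hw
  have h2 := sub_conj_ne_zero τ₀ τ₀
  have h3 : phi τ₀ w - conj (τ₀ : ℂ) = ((τ₀ : ℂ) - conj (τ₀ : ℂ)) / (1 - w) := by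
    rw [phi]; field_simp; ring
  have h4 : phi τ₀ w - τ₀ = w * ((τ₀ : ℂ) - conj (τ₀ : ℂ)) / (1 - w) := by
    rw [phi]; field_simp; ring
  rw [cay, h3, h4]
  field_simp

theorem differentiableOn_phi : DifferentiableOn ℂ (phi τ₀) (ball 0 1) := by
  intro w hw
  have h1 : 1 - w ≠ 0 := one_sub_ne_zero (by simpa using hw)
  unfold phi
  exact (DifferentiableAt.div (by fun_prop) (by fun_prop) h1).differentiableWithinAt

/-- pull back of a function on `ℍ` to the unit disc. -/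
noncomputable def pull (G : ℍ → ℂ) (w : ℂ) : ℂ := G (ofComplex (phi τ₀ w))

theorem pull_cay (G : ℍ → ℂ) (τ : ℍ) : pull τ₀ G (cay τ₀ τ) = G τ := by
  rw [pull, phi_cay, ofComplex_apply]

theorem differentiableOn_pull {G : ℍ → ℂ} (hG : MDiff G) :
    DifferentiableOn ℂ (pull τ₀ G) (ball 0 1) := by
  have h1 := UpperHalfPlane.mdifferentiable_iff.mp hG
  exact h1.comp (differentiableOn_phi τ₀) fun w hw => phi_im_pos τ₀ (by simpa using hw)

theorem analyticAt_pull {G : ℍ → ℂ} (hG : MDiff G) : AnalyticAt ℂ (pull τ₀ G) 0 :=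
  (differentiableOn_pull τ₀ hG).analyticAt (ball_mem_nhds 0 one_pos)

/-- holomorphic functions on the upper half plane. -/
def holo : Subring (ℍ → ℂ) where
  carrier := {G | MDiff G}
  mul_mem' := fun ha hb => MDifferentiable.mul ha hb
  one_mem' := mdifferentiable_const
  add_mem' := fun ha hb => MDifferentiable.add ha hb
  zero_mem' := mdifferentiable_const
  neg_mem' := fun ha => MDifferentiable.neg ha

theorem mem_holo {G : ℍ → ℂ} : G ∈ holo ↔ MDiff G := Iff.rfl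

/-- Taylor expansion in the Cayley coordinate at `τ₀`. -/
noncomputable def expand : holo →+* PowerSeries ℂ where
  toFun G := taylor0 (pull τ₀ G.1)
  map_one' := taylor0_one
  map_mul' G G' := taylor0_mul (analyticAt_pull τ₀ G.2) (analyticAt_pull τ₀ G'.2)
  map_zero' := by
    have := taylor0_const 0
    rw [map_zero] at this
    exact this
  map_add' G G' := taylor0_add (analyticAt_pull τ₀ G.2) (analyticAt_pull τ₀ G'.2)

theorem expand_apply (G : holo) : expand τ₀ G = taylor0 (pull τ₀ G.1) := rfl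

theorem expand_injective : Function.Injective (expand τ₀) := by
  rw [injective_iff_map_eq_zero]
  intro G hG
  ext τ
  have h1 := Complex.hasSum_taylorSeries_on_ball (differentiableOn_pull τ₀ G.2)
    (z := cay τ₀ τ) (by simpa using norm_cay_lt_one τ₀ τ)
  have h2 : ∀ n : ℕ, ((n.factorial : ℂ))⁻¹ * iteratedDeriv n (pull τ₀ G.1) 0 = 0 := by
    intro n
    have := congrArg (PowerSeries.coeff n) hG
    rwa [expand_apply, coeff_taylor0, map_zero] at this
  have h3 : pull τ₀ G.1 (cay τ₀ τ) = 0 := by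
    refine h1.unique ?_
    convert hasSum_zero using 2 with n
    rw [smul_smul, smul_eq_mul, mul_comm _ ((cay τ₀ τ - 0) ^ n), mul_assoc, h2, mul_zero]
  rw [pull_cay] at h3
  exact h3


theorem constantCoeff_taylor0 (f : ℂ → ℂ) : PowerSeries.constantCoeff (taylor0 f) = f 0 := by
  rw [← PowerSeries.coeff_zero_eq_constantCoeff_apply, coeff_taylor0]
  simp

theorem analyticAt_phi : AnalyticAt ℂ (phi τ₀) 0 :=
  (differentiableOn_phi τ₀).analyticAt (ball_mem_nhds 0 one_pos)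

theorem analyticAt_comp_ofComplex {G : ℍ → ℂ} (hG : MDiff G) (τ : ℍ) :
    AnalyticAt ℂ (G ∘ ofComplex) (τ : ℂ) :=
  (UpperHalfPlane.mdifferentiable_iff.mp hG).analyticAt
    (isOpen_upperHalfPlaneSet.mem_nhds τ.im_pos)

/-- The order of the expansion is the analytic order at `τ₀`. -/
theorem order_expand {G : holo} {n : ℕ}
    (h : analyticOrderAt (G.1 ∘ ofComplex) (τ₀ : ℂ) = n) : (expand τ₀ G).order = n := by
  have hA : AnalyticAt ℂ (G.1 ∘ ofComplex) τ₀ := analyticAt_comp_ofComplex G.2 τ₀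
  obtain ⟨g, hg, hg0, hev⟩ := (hA.analyticOrderAt_eq_natCast).mp h
  let u : ℂ → ℂ := fun w => ((τ₀ : ℂ) - conj (τ₀ : ℂ)) / (1 - w)
  have hu : AnalyticAt ℂ u 0 := by
    have : DifferentiableOn ℂ u (ball 0 1) := by
      intro w hw
      have h1 : 1 - w ≠ 0 := one_sub_ne_zero (by simpa using hw)
      exact (DifferentiableAt.div (by fun_prop) (by fun_prop) h1).differentiableWithinAt
    exact this.analyticAt (ball_mem_nhds 0 one_pos)
  have hphi := analyticAt_phi τ₀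
  have hgphi : AnalyticAt ℂ (g ∘ phi τ₀) 0 := by
    apply AnalyticAt.comp _ hphi
    rwa [phi_zero]
  have hid : AnalyticAt ℂ (fun q : ℂ => q) 0 := analyticAt_id
  have htend : Filter.Tendsto (phi τ₀) (nhds 0) (nhds (τ₀ : ℂ)) := by
    have := hphi.continuousAt.tendsto
    rwa [phi_zero] at this
  have hcongr : pull τ₀ G.1 =ᶠ[nhds 0] ((fun w => w) ^ n * (u ^ n * (g ∘ phi τ₀)) : ℂ → ℂ) := by
    filter_upwards [htend.eventually hev, ball_mem_nhds (0 : ℂ) one_pos] with w hw hw1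
    have h1 : 1 - w ≠ 0 := one_sub_ne_zero (by simpa using hw1)
    have h4 : phi τ₀ w - τ₀ = w * u w := by
      simp only [phi, u]; field_simp; ring
    simp only [Function.comp_apply, smul_eq_mul] at hw
    simp only [pull, Pi.mul_apply, Pi.pow_apply, Function.comp_apply]
    rw [hw, h4, mul_pow]
    ring
  rw [expand_apply, taylor0_congr hcongr, taylor0_mul (hid.pow n) ((hu.pow n).mul hgphi),
    taylor0_pow hid, taylor0_id, PowerSeries.order_mul, PowerSeries.order_X_pow]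
  rw [PowerSeries.order_zero_of_unit, add_zero]
  rw [PowerSeries.isUnit_iff_constantCoeff, constantCoeff_taylor0, isUnit_iff_ne_zero]
  simp only [Pi.mul_apply, Pi.pow_apply, Function.comp_apply, phi_zero]
  refine mul_ne_zero (pow_ne_zero _ ?_) hg0
  simp only [u, sub_zero, div_one]
  exact sub_conj_ne_zero τ₀ τ₀

/-- the multiplier of an element of the stabiliser of `τ₀`. -/
noncomputable def lam (g : SL(2, ℤ)) : ℂ := conj (denom g τ₀) / denom g τ₀

theorem norm_lam (g : SL(2, ℤ)) : ‖lam τ₀ g‖ = 1 := by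
  rw [lam, norm_div, Complex.norm_conj, div_self]
  exact norm_ne_zero_iff.mpr (denom_ne_zero g τ₀)

theorem moebius_sub_aux {a b c d t s : ℂ} (hdet : a * d - b * c = 1) (ht : c * t + d ≠ 0)
    (hs : c * s + d ≠ 0) (h0 : s * (c * s + d) = a * s + b) :
    (a * t + b) / (c * t + d) - s = (t - s) / ((c * t + d) * (c * s + d)) := by
  obtain ⟨X, hX⟩ : ∃ X, X = (a * t + b) / (c * t + d) := ⟨_, rfl⟩
  have hX' : X * (c * t + d) = a * t + b := by rw [hX, div_mul_cancel₀ _ ht]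
  rw [← hX, eq_div_iff (mul_ne_zero ht hs)]
  linear_combination (c * s + d) * hX' - (c * t + d) * h0 + (t - s) * hdet

theorem div_div_aux {U V P Q Q' : ℂ} (hV : V ≠ 0) (hP : P ≠ 0) (hQ : Q ≠ 0) (hQ' : Q' ≠ 0) :
    (U / (P * Q)) / (V / (P * Q')) = (Q' / Q) * (U / V) := by
  field_simp

theorem cay_smul {g : SL(2, ℤ)} (hg : g • τ₀ = τ₀) (τ : ℍ) :
    cay τ₀ ((g • τ : ℍ) : ℂ) = lam τ₀ g * cay τ₀ τ := by
  have hdet : ((g 0 0 : ℤ) : ℂ) * (g 1 1 : ℤ) - (g 0 1 : ℤ) * (g 1 0 : ℤ) = 1 := by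
    have := g.det_coe
    rw [Matrix.det_fin_two] at this
    exact_mod_cast this
  have hd : ∀ z : ℍ, ((g 1 0 : ℤ) : ℂ) * z + (g 1 1 : ℤ) ≠ 0 := fun z => by
    have := denom_ne_zero g z
    rwa [ModularGroup.denom_apply] at this
  have hcoe : ∀ z : ℍ, ((g • z : ℍ) : ℂ) =
      (((g 0 0 : ℤ) : ℂ) * z + (g 0 1 : ℤ)) / (((g 1 0 : ℤ) : ℂ) * z + (g 1 1 : ℤ)) := fun z => by
    rw [coe_specialLinearGroup_apply]
    simp only [algebraMap_int_eq, eq_intCast, ofReal_intCast]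
  have h0 : (τ₀ : ℂ) * (((g 1 0 : ℤ) : ℂ) * τ₀ + (g 1 1 : ℤ)) =
      ((g 0 0 : ℤ) : ℂ) * τ₀ + (g 0 1 : ℤ) := by
    have h1 : ((g • τ₀ : ℍ) : ℂ) = τ₀ := congrArg _ hg
    rw [hcoe, div_eq_iff (hd τ₀)] at h1
    exact h1.symm
  have h0' : conj (τ₀ : ℂ) * (((g 1 0 : ℤ) : ℂ) * conj (τ₀ : ℂ) + (g 1 1 : ℤ)) =
      ((g 0 0 : ℤ) : ℂ) * conj (τ₀ : ℂ) + (g 0 1 : ℤ) := by
    have := congrArg conj h0
    simpa only [map_mul, map_add, map_intCast] using this
  have hd' : ((g 1 0 : ℤ) : ℂ) * conj (τ₀ : ℂ) + (g 1 1 : ℤ) ≠ 0 := by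
    have := (map_ne_zero (starRingEnd ℂ)).mpr (hd τ₀)
    simpa only [map_mul, map_add, map_intCast] using this
  have e3 : lam τ₀ g = (((g 1 0 : ℤ) : ℂ) * conj (τ₀ : ℂ) + (g 1 1 : ℤ)) /
      (((g 1 0 : ℤ) : ℂ) * τ₀ + (g 1 1 : ℤ)) := by
    rw [lam, ModularGroup.denom_apply]
    simp only [map_mul, map_add, map_intCast]
  rw [cay, hcoe, moebius_sub_aux hdet (hd τ) (hd τ₀) h0, moebius_sub_aux hdet (hd τ) hd' h0', e3,
    cay, div_div_aux (sub_conj_ne_zero τ₀ τ) (hd τ) (hd τ₀) hd']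

theorem pull_comp_smul {g : SL(2, ℤ)} (hg : g • τ₀ = τ₀) (G : ℍ → ℂ) {w : ℂ} (hw : ‖w‖ < 1) :
    pull τ₀ (fun τ => G (g • τ)) w = pull τ₀ G (lam τ₀ g * w) := by
  obtain ⟨τ, hτ⟩ : ∃ τ : ℍ, (τ : ℂ) = phi τ₀ w := ⟨⟨_, phi_im_pos τ₀ hw⟩, rfl⟩
  have h1 : cay τ₀ τ = w := by rw [hτ, cay_phi τ₀ hw]
  rw [pull, ← hτ, ofComplex_apply, ← h1, ← cay_smul τ₀ hg, pull_cay]

/-- Taylor coefficients of `w ↦ h (μ w)`. -/
theorem coeff_taylor0_comp_mul {h : ℂ → ℂ} (hh : DifferentiableOn ℂ h (ball 0 1)) {μ : ℂ}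
    (hμ : ‖μ‖ = 1) (m : ℕ) :
    (taylor0 (fun w => h (μ * w))).coeff m = μ ^ m * (taylor0 h).coeff m := by
  have hmaps : Set.MapsTo (μ * ·) (ball (0 : ℂ) 1) (ball (0 : ℂ) 1) := by
    intro w hw
    simpa [hμ] using hw
  have h0 : (0 : ℂ) ∈ ball (0 : ℂ) 1 := mem_ball_self one_pos
  have hc : ContDiffOn ℂ m h (ball 0 1) := (hh.contDiffOn isOpen_ball).of_le le_top
  have key := iteratedDerivWithin_comp_const_smul h0 isOpen_ball.uniqueDiffOn hc μ hmaps
  rw [iteratedDerivWithin_of_isOpen isOpen_ball h0, mul_zero,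
    iteratedDerivWithin_of_isOpen isOpen_ball h0] at key
  rw [coeff_taylor0, coeff_taylor0, key, smul_eq_mul]
  ring

/-- **Rotation**: the expansion of `G ∘ g` for `g` in the stabiliser of `τ₀`. -/
theorem coeff_expand_comp_smul {g : SL(2, ℤ)} (hg : g • τ₀ = τ₀) (G G' : holo)
    (h : ∀ τ, G'.1 τ = G.1 (g • τ)) (m : ℕ) :
    (expand τ₀ G').coeff m = lam τ₀ g ^ m * (expand τ₀ G).coeff m := by
  have h1 : G'.1 = fun τ => G.1 (g • τ) := funext h
  have h2 : pull τ₀ G'.1 =ᶠ[nhds 0] fun w => pull τ₀ G.1 (lam τ₀ g * w) := by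
    filter_upwards [ball_mem_nhds (0 : ℂ) one_pos] with w hw
    rw [h1, pull_comp_smul τ₀ hg G.1 (by simpa using hw)]
  rw [expand_apply, taylor0_congr h2,
    coeff_taylor0_comp_mul (differentiableOn_pull τ₀ G.2) (norm_lam τ₀ g), expand_apply]

end Fermat.Agent.S24.PointExp
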