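import Mathlib
import Fermat.Agent.S24.Branch
import Fermat.Agent.S24.EmbedAbstract
import Fermat.Agent.S24.PointExp
import Fermat.Agent.S24.JLocal
import Fermat.Agent.S24.JOrder

set_option autoImplicit false

open UpperHalfPlane Complex
open scoped Manifold ComplexConjugate MatrixGroups

namespace Fermat.Agent.S24.EmbedPoint

open Fermat.Agent.S24.PointExp Fermat.Agent.S24.Embed Fermat.Agent.S24.JLocal

/-- expansion at `τ₀` as a Laurent series. -/
noncomputable def pointE (τ₀ : ℍ) : holo →+* LaurentSeries ℂ :=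
  (HahnSeries.ofPowerSeries ℤ ℂ).comp (expand τ₀)

theorem pointE_injective (τ₀ : ℍ) : Function.Injective (pointE τ₀) :=
  HahnSeries.ofPowerSeries_injective.comp (expand_injective τ₀)

theorem pointE_coeff_nat (τ₀ : ℍ) (G : holo) (n : ℕ) :
    (pointE τ₀ G).coeff (n : ℤ) = (expand τ₀ G).coeff n := by
  simp [pointE, HahnSeries.ofPowerSeries_apply_coeff]

theorem pointE_coeff_neg (τ₀ : ℍ) (G : holo) {m : ℤ} (hm : m < 0) :
    (pointE τ₀ G).coeff m = 0 := by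
  simp only [pointE, RingHom.comp_apply]
  rw [HahnSeries.ofPowerSeries_apply]
  refine HahnSeries.embDomain_of_notMem_range ?_
  rintro ⟨k, rfl⟩
  exact absurd hm (not_lt.mpr (Int.natCast_nonneg k))

theorem order_eq_of_coeff {s : LaurentSeries ℂ} {n : ℤ} (h1 : s.coeff n ≠ 0)
    (h2 : ∀ m < n, s.coeff m = 0) : s.order = n := by
  have hs : s ≠ 0 := fun h => h1 (by rw [h]; rfl)
  refine le_antisymm (HahnSeries.order_le_of_coeff_ne_zero h1) ?_
  by_contra hlt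
  exact hs (HahnSeries.coeff_order_eq_zero.mp (h2 _ (not_le.mp hlt)))

theorem order_pointE (τ₀ : ℍ) {G : holo} {n : ℕ}
    (h : analyticOrderAt (G.1 ∘ ofComplex) (τ₀ : ℂ) = n) : (pointE τ₀ G).order = n := by
  obtain ⟨h1, h2⟩ := PowerSeries.order_eq_nat.mp (order_expand τ₀ h)
  refine order_eq_of_coeff ?_ ?_
  · rwa [pointE_coeff_nat]
  · intro m hm
    rcases lt_or_ge m 0 with hneg | hpos
    · exact pointE_coeff_neg τ₀ G hneg
    · lift m to ℕ using hpos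
      rw [pointE_coeff_nat]
      exact h2 m (by exact_mod_cast hm)

theorem mdiff_comp_smul {G : ℍ → ℂ} (hG : MDiff G) (g : SL(2, ℤ)) :
    MDiff (fun τ => G (g • τ)) := by
  have h1 : MDiff (fun τ : ℍ => (g : GL (Fin 2) ℝ) • τ) := mdifferentiable_smul (by simp)
  exact hG.comp h1

theorem pointE_rot (τ₀ : ℍ) {g : SL(2, ℤ)} (hg : g • τ₀ = τ₀) (f f' : holo)
    (h : ∀ τ, f'.1 τ = f.1 (g⁻¹ • τ)) (m : ℤ) :
    (pointE τ₀ f').coeff m = lam τ₀ g⁻¹ ^ m * (pointE τ₀ f).coeff m := by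
  have hg' : g⁻¹ • τ₀ = τ₀ := by rw [inv_smul_eq_iff, hg]
  rcases lt_or_ge m 0 with hneg | hpos
  · rw [pointE_coeff_neg τ₀ _ hneg, pointE_coeff_neg τ₀ _ hneg, mul_zero]
  · lift m to ℕ using hpos
    rw [pointE_coeff_nat, pointE_coeff_nat, zpow_natCast,
      coeff_expand_comp_smul τ₀ hg' f f' h]

section Family

variable {k A F : Type*} [Field k] [CommRing A] [Field F] [Algebra k A] [Algebra A F]
  [Algebra k F] [IsScalarTower k A F] [IsFractionRing A F]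

/-- The data at the point `τ₀`. -/
noncomputable abbrev pointData (Γ : Subgroup SL(2, ℤ)) (Ψ : A →+* (ℍ → ℂ))
    (hinj : Function.Injective Ψ) (hinv : ∀ γ ∈ Γ, ∀ a τ, Ψ a (γ • τ) = Ψ a τ)
    (hhol : ∀ a, MDiff (Ψ a)) (τ₀ : ℍ) : Data A SL(2, ℤ) ℍ where
  Γ := Γ
  Ψ := Ψ
  Ψ_inj := hinj
  Ψ_inv := hinv
  R := holo
  E := pointE τ₀
  E_inj := pointE_injective τ₀
  mem_R g a := mdiff_comp_smul (hhol a) g⁻¹

/-- The local family at a point `τ₀` of the upper half plane. -/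
theorem nonempty_localFamily (Γ : Subgroup SL(2, ℤ)) (Ψ : A →+* (ℍ → ℂ))
    (hinj : Function.Injective Ψ) (hinv : ∀ γ ∈ Γ, ∀ a τ, Ψ a (γ • τ) = Ψ a τ)
    (hhol : ∀ a, MDiff (Ψ a)) (ι : k →+* ℂ) (hconst : ∀ c τ, Ψ (algebraMap k A c) τ = ι c)
    (jA : A) (hjA : ∀ τ, Ψ jA τ = kleinJ τ)
    (aN : A) (haN : ∀ g : SL(2, ℤ), (∀ τ, Ψ aN (g • τ) = Ψ aN τ) → g ∈ Γ)
    (c : k) (τ₀ : ℍ) (e₀ : ℕ)
    (hord : analyticOrderAt (fun w : ℂ => kleinJ (ofComplex w) - ι c) (τ₀ : ℂ) = e₀)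
    (g₀ : SL(2, ℤ)) (hg₀ : g₀ • τ₀ = τ₀) (hprim : IsPrimitiveRoot (lam τ₀ g₀⁻¹) e₀) :
    Nonempty (LocalFamily k F (SL(2, ℤ) ⧸ Γ) SL(2, ℤ)
      (algebraMap A F jA - algebraMap k F c) e₀ g₀) := by
  have hx : algebraMap A F jA - algebraMap k F c = algebraMap A F (jA - algebraMap k A c) := by
    rw [map_sub, ← IsScalarTower.algebraMap_apply]
  have hinvx : ∀ (g : SL(2, ℤ)) τ, Ψ (jA - algebraMap k A c) (g • τ) =
      Ψ (jA - algebraMap k A c) τ := by
    intro g τ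
    simp only [map_sub, Pi.sub_apply, hjA, hconst, kleinJ_smul]
  refine ⟨{
    σ := (pointData Γ Ψ hinj hinv hhol τ₀).sigma F
    inj := (pointData Γ Ψ hinj hinv hhol τ₀).sigma_injective haN
    const := ?_
    agree := ?_
    order := ?_
    ζ := lam τ₀ g₀⁻¹
    prim := hprim
    rot := ?_ }⟩
  · intro i i' a
    rw [IsScalarTower.algebraMap_apply k A F]
    exact (pointData Γ Ψ hinj hinv hhol τ₀).sigma_algebraMap_of_invariant (fun g τ => by
      show Ψ _ _ = Ψ _ _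
      rw [hconst, hconst]) i i'
  · intro i i'
    rw [hx]
    exact (pointData Γ Ψ hinj hinv hhol τ₀).sigma_algebraMap_of_invariant hinvx i i'
  · intro i
    induction i using QuotientGroup.induction_on with | H g => ?_
    rw [hx, (pointData Γ Ψ hinj hinv hhol τ₀).sigma_mk_algebraMap]
    apply order_pointE
    rw [← hord]
    congr 1
    funext w
    simp only [Function.comp_apply, Embed.translate_apply]
    show Ψ _ _ = _
    rw [hinvx]
    simp only [map_sub, Pi.sub_apply, hjA, hconst]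
  · intro i f m
    have hne : lam τ₀ g₀⁻¹ ≠ 0 := by
      intro h
      have := norm_lam τ₀ g₀⁻¹
      rw [h, norm_zero] at this
      exact zero_ne_one this
    exact (pointData Γ Ψ hinj hinv hhol τ₀).sigma_smul_coeff hne (fun f f' h m => pointE_rot τ₀ hg₀ f f' h m) i f m

/-- hypotheses on the realisation `Ψ` of `A` by holomorphic functions, bundled. -/
structure Realisation (k A : Type*) [Field k] [CommRing A] [Algebra k A]
    (Γ : Subgroup SL(2, ℤ)) where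
  Ψ : A →+* (ℍ → ℂ)
  inj : Function.Injective Ψ
  inv : ∀ γ ∈ Γ, ∀ a τ, Ψ a (γ • τ) = Ψ a τ
  hol : ∀ a, MDiff (Ψ a)
  ι : k →+* ℂ
  const : ∀ c τ, Ψ (algebraMap k A c) τ = ι c
  jA : A
  hjA : ∀ τ, Ψ jA τ = kleinJ τ
  aN : A
  haN : ∀ g : SL(2, ℤ), (∀ τ, Ψ aN (g • τ) = Ψ aN τ) → g ∈ Γ

theorem lam_one (τ₀ : ℍ) : lam τ₀ 1 = 1 := by
  simp [lam]

theorem lam_S_inv : lam I ModularGroup.S⁻¹ = -1 := by
  have h : denom (ModularGroup.S⁻¹ : SL(2, ℤ)) (I : ℍ) = -Complex.I := by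
    rw [ModularGroup.denom_apply]
    have e10 : (ModularGroup.S⁻¹ : SL(2, ℤ)) 1 0 = -1 := by decide
    have e11 : (ModularGroup.S⁻¹ : SL(2, ℤ)) 1 1 = 0 := by decide
    rw [e10, e11]
    simp
  rw [lam, h]
  simp

theorem conj_ρ : conj (ρ : ℂ) = -1 - ρ := by
  apply Complex.ext
  · simp [ρ]; ring
  · simp [ρ]

theorem lam_ST_inv : lam ρ (ModularGroup.S * ModularGroup.T)⁻¹ = ρ := by
  have h : denom ((ModularGroup.S * ModularGroup.T)⁻¹ : SL(2, ℤ)) (ρ : ℍ) = -(ρ : ℂ) := by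
    rw [ModularGroup.denom_apply]
    have e10 : ((ModularGroup.S * ModularGroup.T)⁻¹ : SL(2, ℤ)) 1 0 = -1 := by decide
    have e11 : ((ModularGroup.S * ModularGroup.T)⁻¹ : SL(2, ℤ)) 1 1 = 0 := by decide
    rw [e10, e11]
    simp
  have h0 : (ρ : ℂ) ≠ 0 := ρ.ne_zero
  rw [lam, h, map_neg, conj_ρ, neg_div_neg_eq, div_eq_iff h0]
  linear_combination -ρ_sq

theorem isPrimitiveRoot_ρ : IsPrimitiveRoot (ρ : ℂ) 3 := by
  have h2 := ρ_sq
  refine IsPrimitiveRoot.mk_of_lt _ (by norm_num) ?_ ?_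
  · linear_combination ((ρ : ℂ) - 1) * h2
  · intro l hl hl3 h
    have him : (ρ : ℂ).im ≠ 0 := ρ.im_ne_zero
    interval_cases l
    · rw [pow_one] at h
      rw [h] at him
      simp at him
    · rw [h2] at h
      have : (ρ : ℂ) = -2 := by linear_combination -h
      rw [this] at him
      simp at him

variable {Γ : Subgroup SL(2, ℤ)} (P : Realisation k A Γ)

include P in
theorem nonempty_localFamily_generic (c : k) (h0 : c ≠ 0) (h1 : c ≠ 1728) :
    Nonempty (LocalFamily k F (SL(2, ℤ) ⧸ Γ) SL(2, ℤ)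
      (algebraMap A F P.jA - algebraMap k F c) 1 1) := by
  obtain ⟨τ₀, hτ₀⟩ := kleinJ_surjective (P.ι c)
  have h0' : kleinJ τ₀ ≠ 0 := by
    rw [hτ₀]; exact (map_ne_zero P.ι).mpr h0
  have h1' : kleinJ τ₀ ≠ 1728 := by
    rw [hτ₀]
    intro h
    apply h1
    apply P.ι.injective
    rw [h, map_ofNat]
  have hord := analyticOrderAt_kleinJ_sub h0' h1'
  rw [hτ₀] at hord
  refine nonempty_localFamily Γ P.Ψ P.inj P.inv P.hol P.ι P.const P.jA P.hjA P.aN P.haN c τ₀ 1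
    (by exact_mod_cast hord) 1 (one_smul _ _) ?_
  rw [inv_one, lam_one]
  exact IsPrimitiveRoot.one

include P in
theorem nonempty_localFamily_zero :
    Nonempty (LocalFamily k F (SL(2, ℤ) ⧸ Γ) SL(2, ℤ)
      (algebraMap A F P.jA - algebraMap k F 0) 3 (ModularGroup.S * ModularGroup.T)) := by
  have hord := analyticOrderAt_kleinJ_of_E₄_eq_zero JOrder.E₄_ρ
  refine nonempty_localFamily Γ P.Ψ P.inj P.inv P.hol P.ι P.const P.jA P.hjA P.aN P.haN 0 ρ 3
    (by simpa using hord) _ JOrder.ST_smul_ρ ?_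
  rw [lam_ST_inv]
  exact isPrimitiveRoot_ρ

include P in
theorem nonempty_localFamily_1728 :
    Nonempty (LocalFamily k F (SL(2, ℤ) ⧸ Γ) SL(2, ℤ)
      (algebraMap A F P.jA - algebraMap k F 1728) 2 ModularGroup.S) := by
  have hord := analyticOrderAt_kleinJ_sub_of_E₆_eq_zero JOrder.E₆_I
  refine nonempty_localFamily Γ P.Ψ P.inj P.inv P.hol P.ι P.const P.jA P.hjA P.aN P.haN 1728 I 2
    (by rw [map_ofNat P.ι 1728]; exact_mod_cast hord) _ JOrder.S_smul_I ?_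
  rw [lam_S_inv]
  exact IsPrimitiveRoot.neg_one 0 (by norm_num)

end Family

end Fermat.Agent.S24.EmbedPoint
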