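import Mathlib
import Fermat.Agent.S24.EmbedPoint
import Fermat.Agent.S24.CuspRing

set_option autoImplicit false

open UpperHalfPlane Complex
open scoped Manifold MatrixGroups

namespace Fermat.Agent.S24.EmbedCusp

open Fermat.Agent.S24.Embed Fermat.Agent.S24.JLocal Fermat.Agent.S24.CuspRing
  Fermat.Agent.S24.EmbedPoint

section Family

variable {k A F : Type*} [Field k] [CommRing A] [Field F] [Algebra k A] [Algebra A F]
  [Algebra k F] [IsScalarTower k A F] [IsFractionRing A F]

/-- The data at the cusp `∞`. -/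
noncomputable abbrev cuspData {Γ : Subgroup SL(2, ℤ)} (P : Realisation k A Γ) (N : ℕ) [NeZero N]
    (hcusp : ∀ (g : SL(2, ℤ)) (a : A), translate P.Ψ g a ∈ Rcusp N) : Data A SL(2, ℤ) ℍ where
  Γ := Γ
  Ψ := P.Ψ
  Ψ_inj := P.inj
  Ψ_inv := P.inv
  R := Rcusp N
  E := Ecusp N
  E_inj := Ecusp_injective
  mem_R := hcusp

/-- The local family at the cusp `∞`. -/
theorem nonempty_localFamily_cusp {Γ : Subgroup SL(2, ℤ)} (P : Realisation k A Γ) (N : ℕ)
    [NeZero N] (hcusp : ∀ (g : SL(2, ℤ)) (a : A), translate P.Ψ g a ∈ Rcusp N) :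
    Nonempty (LocalFamily k F (SL(2, ℤ) ⧸ Γ) SL(2, ℤ) (algebraMap A F P.jA)⁻¹ N
      ModularGroup.T) := by
  have hinvx : ∀ (g : SL(2, ℤ)) τ, P.Ψ P.jA (g • τ) = P.Ψ P.jA τ := by
    intro g τ
    rw [P.hjA, P.hjA, kleinJ_smul]
  refine ⟨{
    σ := (cuspData P N hcusp).sigma F
    inj := (cuspData P N hcusp).sigma_injective P.haN
    const := ?_
    agree := ?_
    order := ?_
    ζ := xi (-1) N
    prim := isPrimitiveRoot_xi_neg_one (NeZero.ne N)
    rot := ?_ }⟩
  · intro i i' a
    rw [IsScalarTower.algebraMap_apply k A F]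
    exact (cuspData P N hcusp).sigma_algebraMap_of_invariant (fun g τ => by
      show P.Ψ _ _ = P.Ψ _ _
      rw [P.const, P.const]) i i'
  · intro i i'
    have := (cuspData P N hcusp).sigma_algebraMap_of_invariant (F := F) (a := P.jA) hinvx i i'
    rw [map_inv₀, map_inv₀, this]
  · intro i
    induction i using QuotientGroup.induction_on with | H g => ?_
    rw [map_inv₀, (cuspData P N hcusp).sigma_mk_algebraMap]
    have e : (⟨translate P.Ψ g P.jA, hcusp g P.jA⟩ : Rcusp N) = ⟨kleinJ, kleinJ_mem⟩ := by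
      apply Subtype.ext
      funext τ
      show Embed.translate P.Ψ g P.jA τ = kleinJ τ
      rw [Embed.translate_apply, hinvx, P.hjA]
    have e2 : (cuspData P N hcusp).E ⟨translate (cuspData P N hcusp).Ψ g P.jA,
        (cuspData P N hcusp).mem_R g P.jA⟩ = Ecusp N ⟨kleinJ, kleinJ_mem⟩ := by
      show Ecusp N ⟨translate P.Ψ g P.jA, hcusp g P.jA⟩ = _
      rw [e]
    rw [e2]
    have hne : Ecusp N ⟨kleinJ, kleinJ_mem⟩ ≠ 0 := by
      intro h
      have := order_Ecusp_kleinJ (N := N)
      rw [h, HahnSeries.order_zero] at this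
      have hN : (N : ℤ) ≠ 0 := by exact_mod_cast NeZero.ne N
      omega
    rw [laurent_order_inv hne, order_Ecusp_kleinJ, neg_neg]
  · intro i f m
    exact (cuspData P N hcusp).sigma_smul_coeff (xi_ne_zero _ _)
      (fun f f' h m => Ecusp_rotation f f' h m) i f m

end Family

end Fermat.Agent.S24.EmbedCusp
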