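import Mathlib
import Fermat.Agent.S24.EmbedPoint
import Fermat.Agent.S24.Psi
import Fermat.Agent.S24.FNAdjoin

set_option autoImplicit false

open UpperHalfPlane Complex ModularCurve CongruenceSubgroup
open scoped Manifold MatrixGroups

namespace Fermat.Agent.S24.EmbedFN

open Fermat.Agent.S24.FNAdjoin Fermat.Agent.S24.JLocal Fermat.Agent.S24.EmbedPoint

theorem AL_le_convK (N : ℕ) : AL N ≤ convK := adjoin_jdSet_le_convK N

/-- the inclusion of `A N` in the algebra of convergent series. -/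
noncomputable def toConvK (N : ℕ) : A N →ₐ[Kbar] convK :=
  ((modularFunctionFieldBar N).val.comp (A N).val).codRestrict convK
    fun x => AL_le_convK N (mem_A_iff.mp x.2)

theorem coe_toConvK (N : ℕ) (x : A N) :
    ((toConvK N x : convK) : LaurentSeries Kbar) = ((x : FN N) : LaurentSeries Kbar) := rfl

theorem toConvK_injective (N : ℕ) : Function.Injective (toConvK N) := by
  intro x y h
  have := congrArg (Subtype.val) h
  exact Subtype.ext (Subtype.ext this)

/-- Realisation of `A N` by holomorphic functions. -/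
noncomputable def PsiA (N : ℕ) : A N →+* (ℍ → ℂ) := PsiK.comp (toConvK N : A N →+* convK)

theorem PsiA_apply (N : ℕ) (x : A N) : PsiA N x = PsiK (toConvK N x) := rfl

theorem PsiA_injective (N : ℕ) : Function.Injective (PsiA N) :=
  PsiK_injective.comp (toConvK_injective N)

theorem PsiA_jd (N d : ℕ) [NeZero d] (hd : d ∣ N) (τ : ℍ) :
    PsiA N ⟨FNAdjoin.jd N d hd, jd_mem_A N d hd⟩ τ = kleinJ (mulH d τ) :=
  PsiK_jd' d τ

theorem PsiA_algebraMap (N : ℕ) (c : Kbar) (τ : ℍ) : PsiA N (algebraMap Kbar (A N) c) τ = iota c := by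
  rw [PsiA_apply]
  have : toConvK N (algebraMap Kbar (A N) c) = algebraMap Kbar convK c := (toConvK N).commutes c
  rw [this, PsiK_algebraMap]

theorem mulH_one (τ : ℍ) : mulH 1 τ = τ := by
  ext; simp

theorem PsiA_jF (N : ℕ) (τ : ℍ) : PsiA N ⟨jF N, jF_mem_A N⟩ τ = kleinJ τ := by
  have h := PsiA_jd N 1 (one_dvd N) τ
  rw [mulH_one] at h
  rw [← h]
  have e : (⟨jF N, jF_mem_A N⟩ : A N) = ⟨FNAdjoin.jd N 1 (one_dvd N), jd_mem_A N 1 (one_dvd N)⟩ :=
    Subtype.ext (jd_one N).symm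
  rw [e]

/-- a property of all elements of `A N` follows from generators. -/
theorem PsiA_induction {N : ℕ} {P : (ℍ → ℂ) → Prop}
    (hj : ∀ (d : ℕ) [NeZero d] (_ : d ∣ N), P (fun τ => kleinJ (mulH d τ)))
    (hc : ∀ c : ℂ, P (fun _ => c))
    (hadd : ∀ f g, P f → P g → P (f + g)) (hmul : ∀ f g, P f → P g → P (f * g)) (x : A N) :
    P (PsiA N x) := by
  have htop : x ∈ Algebra.adjoin Kbar ((↑) ⁻¹' gensF N : Set (A N)) := by
    have h : Algebra.adjoin Kbar ((↑) ⁻¹' gensF N : Set (A N)) = ⊤ :=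
      Algebra.adjoin_adjoin_coe_preimage (R := Kbar) (s := gensF N)
    rw [h]
    trivial
  induction htop using Algebra.adjoin_induction with
  | mem y hy =>
      obtain ⟨d, hd, hdN, hy'⟩ := hy
      have e : y = ⟨FNAdjoin.jd N d hdN, jd_mem_A N d hdN⟩ := Subtype.ext hy'
      have : PsiA N y = fun τ => kleinJ (mulH d τ) := by
        rw [e]; exact funext fun τ => PsiA_jd N d hdN τ
      rw [this]
      exact hj d hdN
  | algebraMap c =>
      have : PsiA N (algebraMap Kbar (A N) c) = fun _ => iota c :=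
        funext fun τ => PsiA_algebraMap N c τ
      rw [this]
      exact hc _
  | add x y _ _ hx' hy' =>
      rw [map_add]
      exact hadd _ _ hx' hy'
  | mul x y _ _ hx' hy' =>
      rw [map_mul]
      exact hmul _ _ hx' hy'

/-- `Γ₀(N)`-invariance of `τ ↦ J (d τ)` for `d ∣ N`. -/
theorem kleinJ_mulH_smul_of_mem_Gamma0 {N : ℕ} (d : ℕ) [NeZero d] (hd : d ∣ N)
    (γ : SL(2, ℤ)) (hγ : γ ∈ Gamma0 N) (τ : ℍ) :
    kleinJ (mulH d (γ • τ)) = kleinJ (mulH d τ) := by
  have h1 : (N : ℤ) ∣ γ 1 0 := by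
    rw [Gamma0_mem] at hγ
    exact (ZMod.intCast_zmod_eq_zero_iff_dvd _ _).mp hγ
  obtain ⟨c', hc'⟩ : (d : ℤ) ∣ γ 1 0 := (Int.natCast_dvd_natCast.mpr hd).trans h1
  have hdet : γ 0 0 * γ 1 1 - γ 0 1 * γ 1 0 = 1 := by
    have := γ.det_coe
    rwa [Matrix.det_fin_two] at this
  let γ' : SL(2, ℤ) := ⟨!![γ 0 0, γ 0 1 * d; c', γ 1 1], by
    rw [Matrix.det_fin_two_of]; linear_combination hdet + γ 0 1 * hc'⟩
  have key : mulH d (γ • τ) = γ' • mulH d τ := by
    ext
    rw [coe_mulH, coe_specialLinearGroup_apply, coe_specialLinearGroup_apply, coe_mulH]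
    simp only [algebraMap_int_eq, eq_intCast, ofReal_intCast]
    have e00 : γ' 0 0 = γ 0 0 := rfl
    have e01 : γ' 0 1 = γ 0 1 * d := rfl
    have e10 : γ' 1 0 = c' := rfl
    have e11 : γ' 1 1 = γ 1 1 := rfl
    rw [e00, e01, e10, e11, hc']
    push_cast
    rw [mul_div_assoc']
    congr 1 <;> ring
  rw [key, kleinJ_smul]

/-- The realisation of `A N`, given the computation of the stabiliser of `J (N τ)`. -/
noncomputable def realisation (N : ℕ) [NeZero N]
    (Hc : ∀ g : SL(2, ℤ), (∀ τ : ℍ, kleinJ (mulH N (g • τ)) = kleinJ (mulH N τ)) → g ∈ Gamma0 N) :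
    Realisation Kbar (A N) (Gamma0 N) where
  Ψ := PsiA N
  inj := PsiA_injective N
  inv γ hγ a τ := by
    refine PsiA_induction (P := fun f => f (γ • τ) = f τ) ?_ ?_ ?_ ?_ a
    · intro d _ hd
      exact kleinJ_mulH_smul_of_mem_Gamma0 d hd γ hγ τ
    · intro c; rfl
    · intro f g hf hg
      rw [Pi.add_apply, Pi.add_apply, hf, hg]
    · intro f g hf hg
      rw [Pi.mul_apply, Pi.mul_apply, hf, hg]
  hol a := mdifferentiable_PsiK _
  ι := iota
  const := PsiA_algebraMap N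
  jA := ⟨jF N, jF_mem_A N⟩
  hjA := PsiA_jF N
  aN := ⟨FNAdjoin.jd N N dvd_rfl, jd_mem_A N N dvd_rfl⟩
  haN g hg := Hc g fun τ => by
    rw [← PsiA_jd N N dvd_rfl, ← PsiA_jd N N dvd_rfl]
    exact hg τ

section Families

variable (N : ℕ) [NeZero N]
  (Hc : ∀ g : SL(2, ℤ), (∀ τ : ℍ, kleinJ (mulH N (g • τ)) = kleinJ (mulH N τ)) → g ∈ Gamma0 N)

include Hc

theorem fgen (c : Kbar) (h0 : c ≠ 0) (h1 : c ≠ 1728) :
    Nonempty (LocalFamily Kbar (FN N) (SL(2, ℤ) ⧸ Gamma0 N) SL(2, ℤ)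
      (jF N - algebraMap Kbar (FN N) c) 1 1) :=
  nonempty_localFamily_generic (F := FN N) (realisation N Hc) c h0 h1

theorem f0 :
    Nonempty (LocalFamily Kbar (FN N) (SL(2, ℤ) ⧸ Gamma0 N) SL(2, ℤ)
      (jF N - algebraMap Kbar (FN N) 0) 3 (ModularGroup.S * ModularGroup.T)) :=
  nonempty_localFamily_zero (F := FN N) (realisation N Hc)

theorem f1728 :
    Nonempty (LocalFamily Kbar (FN N) (SL(2, ℤ) ⧸ Gamma0 N) SL(2, ℤ)
      (jF N - algebraMap Kbar (FN N) 1728) 2 ModularGroup.S) :=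
  nonempty_localFamily_1728 (F := FN N) (realisation N Hc)

end Families

end Fermat.Agent.S24.EmbedFN
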