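import Mathlib

open UpperHalfPlane Complex Filter Topology Function
open scoped ComplexConjugate Nat Manifold

namespace Fermat.Agent.S24

noncomputable section

/-- The disc coordinate centred at `τ₀`. -/
def cay (τ₀ τ : ℍ) : ℂ := ((τ : ℂ) - τ₀) / ((τ : ℂ) - conj (τ₀ : ℂ))

/-- The inverse of the disc coordinate, as a function on `ℂ`. -/
def cayInv (τ₀ : ℍ) (w : ℂ) : ℂ := ((τ₀ : ℂ) - conj (τ₀ : ℂ) * w) / (1 - w)

lemma sub_conj_ne_zero (τ₀ τ : ℍ) : (τ : ℂ) - conj (τ₀ : ℂ) ≠ 0 := by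
  intro h
  have h1 := congrArg Complex.im h
  simp only [sub_im, conj_im, zero_im, coe_im] at h1
  have := τ.im_pos
  have := τ₀.im_pos
  linarith

lemma cay_self (τ₀ : ℍ) : cay τ₀ τ₀ = 0 := by simp [cay]

lemma cay_eq_zero_iff {τ₀ τ : ℍ} : cay τ₀ τ = 0 ↔ τ = τ₀ := by
  rw [cay, div_eq_zero_iff, sub_eq_zero]
  constructor
  · rintro (h | h)
    · exact UpperHalfPlane.ext h
    · exact absurd h (sub_conj_ne_zero τ₀ τ)
  · rintro rfl
    exact Or.inl rfl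

lemma norm_cay_lt_one (τ₀ τ : ℍ) : ‖cay τ₀ τ‖ < 1 := by
  rw [cay, norm_div, div_lt_one (norm_pos_iff.mpr (sub_conj_ne_zero τ₀ τ))]
  rw [← sq_lt_sq₀ (norm_nonneg _) (norm_nonneg _), ← Complex.normSq_eq_norm_sq,
    ← Complex.normSq_eq_norm_sq, Complex.normSq_apply, Complex.normSq_apply]
  simp only [sub_re, sub_im, conj_re, conj_im, coe_re, coe_im]
  have h1 := τ.im_pos
  have h2 := τ₀.im_pos
  nlinarith [mul_pos h1 h2]

lemma one_sub_ne_zero_of_norm_lt {w : ℂ} (hw : ‖w‖ < 1) : 1 - w ≠ 0 := by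
  intro h
  have : w = 1 := (sub_eq_zero.mp h).symm
  rw [this] at hw
  simp at hw

lemma cayInv_im (τ₀ : ℍ) {w : ℂ} (hw : ‖w‖ < 1) :
    (cayInv τ₀ w).im = τ₀.im * (1 - ‖w‖ ^ 2) / ‖1 - w‖ ^ 2 := by
  have h1 : 1 - w ≠ 0 := one_sub_ne_zero_of_norm_lt hw
  have h2 : Complex.normSq (1 - w) ≠ 0 := by simpa using h1
  rw [cayInv, Complex.div_im, ← Complex.normSq_eq_norm_sq, ← Complex.normSq_eq_norm_sq]
  simp only [sub_re, sub_im, mul_re, mul_im, conj_re, conj_im, coe_re, coe_im, one_re, one_im]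
  rw [Complex.normSq_apply w]
  field_simp
  ring

lemma cayInv_im_pos (τ₀ : ℍ) {w : ℂ} (hw : ‖w‖ < 1) : 0 < (cayInv τ₀ w).im := by
  rw [cayInv_im τ₀ hw]
  have h1 : 1 - w ≠ 0 := one_sub_ne_zero_of_norm_lt hw
  have h3 : 0 < 1 - ‖w‖ ^ 2 := by nlinarith [norm_nonneg w]
  have h4 : 0 < ‖1 - w‖ ^ 2 := by positivity
  exact div_pos (mul_pos τ₀.im_pos h3) h4

lemma conj_sub_self_ne_zero (τ₀ : ℍ) : (τ₀ : ℂ) - conj (τ₀ : ℂ) ≠ 0 := sub_conj_ne_zero τ₀ τ₀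

lemma cayInv_cay (τ₀ τ : ℍ) : cayInv τ₀ (cay τ₀ τ) = τ := by
  have h1 := sub_conj_ne_zero τ₀ τ
  have h2 := conj_sub_self_ne_zero τ₀
  have h3 : (1 : ℂ) - cay τ₀ τ = ((τ₀ : ℂ) - conj (τ₀ : ℂ)) / ((τ : ℂ) - conj (τ₀ : ℂ)) := by
    rw [cay]; field_simp; ring
  rw [cayInv, h3, cay]
  field_simp
  ring

lemma cay_mk_cayInv (τ₀ : ℍ) {w : ℂ} (hw : ‖w‖ < 1) :
    cay τ₀ ⟨cayInv τ₀ w, cayInv_im_pos τ₀ hw⟩ = w := by
  have h1 : 1 - w ≠ 0 := one_sub_ne_zero_of_norm_lt hw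
  have h2 := conj_sub_self_ne_zero τ₀
  have h3 : cayInv τ₀ w - conj (τ₀ : ℂ) = ((τ₀ : ℂ) - conj (τ₀ : ℂ)) / (1 - w) := by
    rw [cayInv]; field_simp; ring
  have h4 : cayInv τ₀ w - (τ₀ : ℂ) = ((τ₀ : ℂ) - conj (τ₀ : ℂ)) * w / (1 - w) := by
    rw [cayInv]; field_simp; ring
  show (cayInv τ₀ w - (τ₀ : ℂ)) / (cayInv τ₀ w - conj (τ₀ : ℂ)) = w
  rw [h3, h4]
  field_simp

lemma exists_cay_eq (τ₀ : ℍ) {w : ℂ} (hw : ‖w‖ < 1) : ∃ τ : ℍ, cay τ₀ τ = w :=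
  ⟨_, cay_mk_cayInv τ₀ hw⟩

lemma cay_injective (τ₀ : ℍ) : Injective (cay τ₀) := by
  intro τ τ' h
  apply UpperHalfPlane.ext
  rw [← cayInv_cay τ₀ τ, ← cayInv_cay τ₀ τ', h]

/-! ### Uniqueness of power series expansions on the unit disc -/

lemma hasFPowerSeriesOnBall_of_hasSum {c : ℕ → ℂ} {f : ℂ → ℂ}
    (h : ∀ w : ℂ, ‖w‖ < 1 → HasSum (fun n => c n * w ^ n) (f w)) :
    HasFPowerSeriesOnBall f (.ofScalars ℂ c) 0 1 := by
  constructor
  · refine le_of_forall_lt_imp_le_of_dense fun r hr ↦ ?_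
    lift r to NNReal using hr.ne_top
    apply FormalMultilinearSeries.le_radius_of_summable
    have h1 := (h (r : ℂ) (by simpa using hr)).summable.norm
    simpa [norm_mul, mul_comm, mul_left_comm, mul_assoc] using h1
  · simp
  · intro y hy
    rw [← ENNReal.coe_one, Metric.eball_coe, NNReal.coe_one, mem_ball_zero_iff] at hy
    simpa [mul_comm] using h y hy

lemma coeff_unique_of_hasSum {c c' : ℕ → ℂ} {f : ℂ → ℂ}
    (h : ∀ w : ℂ, ‖w‖ < 1 → HasSum (fun n => c n * w ^ n) (f w))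
    (h' : ∀ w : ℂ, ‖w‖ < 1 → HasSum (fun n => c' n * w ^ n) (f w)) : c = c' := by
  have h1 := (hasFPowerSeriesOnBall_of_hasSum h).hasFPowerSeriesAt
  have h2 := (hasFPowerSeriesOnBall_of_hasSum h').hasFPowerSeriesAt
  funext m
  simpa [FormalMultilinearSeries.coeff_ofScalars] using
    congr_arg (FormalMultilinearSeries.coeff · m) (h1.eq_formalMultilinearSeries h2)

/-! ### Expansion of holomorphic functions on `ℍ` in the disc coordinate -/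

/-- `G` transported to the unit disc. -/
def cayFun (τ₀ : ℍ) (G : ℍ → ℂ) (w : ℂ) : ℂ := G (ofComplex (cayInv τ₀ w))

/-- The Taylor expansion of `G` in the disc coordinate at `τ₀`. -/
def cayExp (τ₀ : ℍ) (G : ℍ → ℂ) : PowerSeries ℂ :=
  .mk fun n => ((n ! : ℕ) : ℂ)⁻¹ * iteratedDeriv n (cayFun τ₀ G) 0

lemma coeff_cayExp (τ₀ : ℍ) (G : ℍ → ℂ) (n : ℕ) :
    (cayExp τ₀ G).coeff n = ((n ! : ℕ) : ℂ)⁻¹ * iteratedDeriv n (cayFun τ₀ G) 0 := by
  simp [cayExp]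

lemma cayFun_cay (τ₀ : ℍ) (G : ℍ → ℂ) (τ : ℍ) : cayFun τ₀ G (cay τ₀ τ) = G τ := by
  rw [cayFun, cayInv_cay, ofComplex_apply]

lemma differentiableAt_cayInv (τ₀ : ℍ) {w : ℂ} (hw : ‖w‖ < 1) :
    DifferentiableAt ℂ (cayInv τ₀) w := by
  have h1 : 1 - w ≠ 0 := one_sub_ne_zero_of_norm_lt hw
  unfold cayInv
  fun_prop (disch := exact h1)

lemma differentiableOn_cayFun (τ₀ : ℍ) {G : ℍ → ℂ} (hG : MDiff G) :
    DifferentiableOn ℂ (cayFun τ₀ G) (Metric.ball 0 1) := by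
  intro w hw
  rw [mem_ball_zero_iff] at hw
  have h1 : DifferentiableAt ℂ (G ∘ ofComplex) (cayInv τ₀ w) :=
    (UpperHalfPlane.mdifferentiable_iff.mp hG).differentiableAt
      (isOpen_upperHalfPlaneSet.mem_nhds (cayInv_im_pos τ₀ hw))
  exact (h1.comp w (differentiableAt_cayInv τ₀ hw)).differentiableWithinAt

lemma hasSum_cayExp_of_norm_lt (τ₀ : ℍ) {G : ℍ → ℂ} (hG : MDiff G) {w : ℂ} (hw : ‖w‖ < 1) :
    HasSum (fun n : ℕ => (cayExp τ₀ G).coeff n * w ^ n) (cayFun τ₀ G w) := by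
  have h := Complex.hasSum_taylorSeries_on_ball (differentiableOn_cayFun τ₀ hG)
    (z := w) (by simpa using hw)
  have e : (fun n : ℕ => (cayExp τ₀ G).coeff n * w ^ n) =
      fun n : ℕ ↦ ((n ! : ℕ) : ℂ)⁻¹ • (w - 0) ^ n • iteratedDeriv n (cayFun τ₀ G) 0 := by
    funext n
    rw [coeff_cayExp]
    simp only [sub_zero, smul_eq_mul]
    ring
  rw [e]
  exact h

/-- The expansion converges on all of `ℍ`. -/
theorem hasSum_cayExp (τ₀ : ℍ) {G : ℍ → ℂ} (hG : MDiff G) (τ : ℍ) :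
    HasSum (fun n : ℕ => (cayExp τ₀ G).coeff n * (cay τ₀ τ) ^ n) (G τ) := by
  have h := hasSum_cayExp_of_norm_lt τ₀ hG (norm_cay_lt_one τ₀ τ)
  rwa [cayFun_cay] at h

/-- Uniqueness of the expansion. -/
theorem eq_of_hasSum_cay (τ₀ : ℍ) {G : ℍ → ℂ} {p p' : PowerSeries ℂ}
    (h : ∀ τ : ℍ, HasSum (fun n : ℕ => p.coeff n * (cay τ₀ τ) ^ n) (G τ))
    (h' : ∀ τ : ℍ, HasSum (fun n : ℕ => p'.coeff n * (cay τ₀ τ) ^ n) (G τ)) : p = p' := by
  have key : ∀ q : PowerSeries ℂ, (∀ τ : ℍ, HasSum (fun n : ℕ => q.coeff n * (cay τ₀ τ) ^ n) (G τ)) →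
      ∀ w : ℂ, ‖w‖ < 1 → HasSum (fun n => q.coeff n * w ^ n) (cayFun τ₀ G w) := by
    intro q hq w hw
    obtain ⟨τ, rfl⟩ := exists_cay_eq τ₀ hw
    rw [cayFun_cay]
    exact hq τ
  ext n
  exact congrFun (coeff_unique_of_hasSum (key p h) (key p' h')) n

theorem eq_cayExp_of_hasSum (τ₀ : ℍ) {G : ℍ → ℂ} (hG : MDiff G) {p : PowerSeries ℂ}
    (h : ∀ τ : ℍ, HasSum (fun n : ℕ => p.coeff n * (cay τ₀ τ) ^ n) (G τ)) : p = cayExp τ₀ G :=
  eq_of_hasSum_cay τ₀ h (hasSum_cayExp τ₀ hG)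

/-! ### Ring structure -/

theorem cayExp_add (τ₀ : ℍ) {G H : ℍ → ℂ} (hG : MDiff G) (hH : MDiff H) :
    cayExp τ₀ (G + H) = cayExp τ₀ G + cayExp τ₀ H := by
  symm
  apply eq_cayExp_of_hasSum τ₀ (hG.add hH)
  intro τ
  have h := (hasSum_cayExp τ₀ hG τ).add (hasSum_cayExp τ₀ hH τ)
  simpa [add_mul] using h

theorem cayExp_mul (τ₀ : ℍ) {G H : ℍ → ℂ} (hG : MDiff G) (hH : MDiff H) :
    cayExp τ₀ (G * H) = cayExp τ₀ G * cayExp τ₀ H := by
  symm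
  apply eq_cayExp_of_hasSum τ₀ (hG.mul hH)
  intro τ
  have h1 := hasSum_cayExp τ₀ hG τ
  have h2 := hasSum_cayExp τ₀ hH τ
  have h3 := summable_norm_sum_mul_antidiagonal_of_summable_norm h1.summable.norm h2.summable.norm
  have h4 := tsum_mul_tsum_eq_tsum_sum_antidiagonal_of_summable_norm h1.summable.norm
    h2.summable.norm
  rw [h1.tsum_eq, h2.tsum_eq] at h4
  have e : (fun n : ℕ => (cayExp τ₀ G * cayExp τ₀ H).coeff n * (cay τ₀ τ) ^ n) =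
      fun n : ℕ => ∑ kl ∈ Finset.HasAntidiagonal.antidiagonal n,
        ((cayExp τ₀ G).coeff kl.1 * (cay τ₀ τ) ^ kl.1) *
          ((cayExp τ₀ H).coeff kl.2 * (cay τ₀ τ) ^ kl.2) := by
    funext n
    rw [PowerSeries.coeff_mul, Finset.sum_mul]
    refine Finset.sum_congr rfl fun kl hkl => ?_
    rw [← Finset.HasAntidiagonal.mem_antidiagonal.mp hkl, pow_add]
    ring
  rw [e, Pi.mul_apply, h4]
  exact h3.of_norm.hasSum

theorem cayExp_const (τ₀ : ℍ) (c : ℂ) : cayExp τ₀ (fun _ => c) = PowerSeries.C c := by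
  symm
  apply eq_cayExp_of_hasSum τ₀ mdifferentiable_const
  intro τ
  have h := hasSum_single (f := fun n : ℕ => (PowerSeries.C c).coeff n * (cay τ₀ τ) ^ n) 0 (by
    intro n hn
    simp [PowerSeries.coeff_C, hn])
  simpa using h

theorem cayExp_injective (τ₀ : ℍ) {G H : ℍ → ℂ} (hG : MDiff G) (hH : MDiff H)
    (h : cayExp τ₀ G = cayExp τ₀ H) : G = H := by
  funext τ
  have h1 := hasSum_cayExp τ₀ hG τ
  rw [h] at h1
  exact h1.unique (hasSum_cayExp τ₀ hH τ)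

theorem cayExp_zero (τ₀ : ℍ) : cayExp τ₀ 0 = 0 := by
  have h := cayExp_const τ₀ 0
  rw [map_zero] at h
  exact h

theorem cayExp_one (τ₀ : ℍ) : cayExp τ₀ 1 = 1 := by
  have h := cayExp_const τ₀ 1
  rw [map_one] at h
  exact h

theorem cayExp_eq_zero_iff (τ₀ : ℍ) {G : ℍ → ℂ} (hG : MDiff G) : cayExp τ₀ G = 0 ↔ G = 0 := by
  constructor
  · intro h
    apply cayExp_injective τ₀ hG (mdifferentiable_const (c := (0:ℂ)))
    rw [h]
    exact (cayExp_zero τ₀).symm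
  · rintro rfl
    exact cayExp_zero τ₀

/-- The subring of holomorphic functions on `ℍ`. -/
def holoSubring : Subring (ℍ → ℂ) where
  carrier := {G | MDiff G}
  mul_mem' := fun ha hb => MDifferentiable.mul ha hb
  one_mem' := mdifferentiable_const
  add_mem' := fun ha hb => MDifferentiable.add ha hb
  zero_mem' := mdifferentiable_const
  neg_mem' := fun ha => MDifferentiable.neg ha

lemma mem_holoSubring {G : ℍ → ℂ} : G ∈ holoSubring ↔ MDiff G := Iff.rfl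

/-- Expansion in the disc coordinate as a ring homomorphism. -/
def cayHom (τ₀ : ℍ) : holoSubring →+* PowerSeries ℂ where
  toFun G := cayExp τ₀ G.1
  map_one' := cayExp_one τ₀
  map_mul' := fun G H => cayExp_mul τ₀ G.2 H.2
  map_zero' := cayExp_zero τ₀
  map_add' := fun G H => cayExp_add τ₀ G.2 H.2

lemma cayHom_apply (τ₀ : ℍ) (G : holoSubring) : cayHom τ₀ G = cayExp τ₀ G.1 := rfl

theorem cayHom_injective (τ₀ : ℍ) : Injective (cayHom τ₀) := by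
  intro G H h
  exact Subtype.ext (cayExp_injective τ₀ G.2 H.2 h)

/-! ### Order -/

lemma cayInv_zero (τ₀ : ℍ) : cayInv τ₀ 0 = τ₀ := by simp [cayInv]

lemma hasDerivAt_cayInv_zero (τ₀ : ℍ) :
    HasDerivAt (cayInv τ₀) ((τ₀ : ℂ) - conj (τ₀ : ℂ)) 0 := by
  have h1 : HasDerivAt (fun w : ℂ => (τ₀ : ℂ) - conj (τ₀ : ℂ) * w) (-(conj (τ₀ : ℂ))) 0 := by
    have := ((hasDerivAt_id (0:ℂ)).const_mul (conj (τ₀ : ℂ))).const_sub (τ₀ : ℂ)
    simpa using this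
  have h2 : HasDerivAt (fun w : ℂ => 1 - w) (-1) 0 := by
    have := (hasDerivAt_id (0:ℂ)).const_sub (1 : ℂ)
    simpa using this
  have h3 := h1.div h2 (by simp)
  have e : (-(conj (τ₀ : ℂ)) * (1 - 0) - ((τ₀ : ℂ) - conj (τ₀ : ℂ) * 0) * -1) / (1 - 0) ^ 2
      = (τ₀ : ℂ) - conj (τ₀ : ℂ) := by ring
  rw [e] at h3
  exact h3

lemma analyticAt_cayInv_zero (τ₀ : ℍ) : AnalyticAt ℂ (cayInv τ₀) 0 := by
  have h : DifferentiableOn ℂ (cayInv τ₀) (Metric.ball 0 1) := fun w hw =>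
    (differentiableAt_cayInv τ₀ (by simpa using hw)).differentiableWithinAt
  exact h.analyticAt (Metric.ball_mem_nhds 0 one_pos)

lemma analyticAt_cayFun_zero (τ₀ : ℍ) {G : ℍ → ℂ} (hG : MDiff G) :
    AnalyticAt ℂ (cayFun τ₀ G) 0 :=
  (differentiableOn_cayFun τ₀ hG).analyticAt (Metric.ball_mem_nhds 0 one_pos)

theorem order_cayExp (τ₀ : ℍ) {G : ℍ → ℂ} (hG : MDiff G) :
    (cayExp τ₀ G).order = analyticOrderAt (G ∘ ofComplex) (τ₀ : ℂ) := by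
  have h1 : analyticOrderAt ((G ∘ ofComplex) ∘ cayInv τ₀) 0
      = analyticOrderAt (G ∘ ofComplex) (cayInv τ₀ 0) :=
    analyticOrderAt_comp_of_deriv_ne_zero (analyticAt_cayInv_zero τ₀)
      (by rw [(hasDerivAt_cayInv_zero τ₀).deriv]; exact conj_sub_self_ne_zero τ₀)
  rw [cayInv_zero] at h1
  rw [← h1]
  have e : (G ∘ ofComplex) ∘ cayInv τ₀ = cayFun τ₀ G := rfl
  rw [e]
  apply ENat.eq_of_forall_natCast_le_iff
  intro a
  rw [natCast_le_analyticOrderAt_iff_iteratedDeriv_eq_zero (analyticAt_cayFun_zero τ₀ hG)]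
  constructor
  · intro h i hi
    have h2 : (cayExp τ₀ G).coeff i = 0 := PowerSeries.coeff_of_lt_order i
      (lt_of_lt_of_le (by exact_mod_cast hi) h)
    rw [coeff_cayExp] at h2
    have h3 : ((i ! : ℕ) : ℂ)⁻¹ ≠ 0 := inv_ne_zero (by exact_mod_cast (Nat.factorial_ne_zero i))
    exact (mul_eq_zero.mp h2).resolve_left h3
  · intro h
    apply PowerSeries.nat_le_order
    intro i hi
    rw [coeff_cayExp, h i hi, mul_zero]

/-! ### Rotation -/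

/-- The multiplier of an element of the stabiliser of `τ₀` in the disc coordinate. -/
def rotFactor (g : Matrix.SpecialLinearGroup (Fin 2) ℤ) (τ₀ : ℍ) : ℂ :=
  ((g 1 0 : ℤ) * conj (τ₀ : ℂ) + (g 1 1 : ℤ)) / ((g 1 0 : ℤ) * (τ₀ : ℂ) + (g 1 1 : ℤ))

lemma coe_sl_smul (g : Matrix.SpecialLinearGroup (Fin 2) ℤ) (τ : ℍ) :
    ((g • τ : ℍ) : ℂ) = ((g 0 0 : ℤ) * (τ : ℂ) + (g 0 1 : ℤ)) / ((g 1 0 : ℤ) * (τ : ℂ) + (g 1 1 : ℤ)) := by
  rw [UpperHalfPlane.coe_specialLinearGroup_apply]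
  simp

lemma sl_denom_ne_zero (g : Matrix.SpecialLinearGroup (Fin 2) ℤ) (τ : ℍ) :
    ((g 1 0 : ℤ) : ℂ) * (τ : ℂ) + (g 1 1 : ℤ) ≠ 0 := by
  rw [← ModularGroup.denom_apply]
  exact UpperHalfPlane.denom_ne_zero _ τ

lemma sl_det_complex (g : Matrix.SpecialLinearGroup (Fin 2) ℤ) :
    ((g 0 0 : ℤ) : ℂ) * (g 1 1 : ℤ) - (g 0 1 : ℤ) * (g 1 0 : ℤ) = 1 := by
  have h := g.det_coe
  rw [Matrix.det_fin_two] at h
  exact_mod_cast h

theorem cay_smul (g : Matrix.SpecialLinearGroup (Fin 2) ℤ) {τ₀ : ℍ} (h : g • τ₀ = τ₀) (τ : ℍ) :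
    cay τ₀ (g • τ) = rotFactor g τ₀ * cay τ₀ τ := by
  have hd := sl_det_complex g
  have h0 : ((g 0 0 : ℤ) * (τ₀ : ℂ) + (g 0 1 : ℤ)) / ((g 1 0 : ℤ) * (τ₀ : ℂ) + (g 1 1 : ℤ))
      = (τ₀ : ℂ) := by
    rw [← coe_sl_smul, h]
  have n0 := sl_denom_ne_zero g τ₀
  have n1 := sl_denom_ne_zero g τ
  have nb : ((g 1 0 : ℤ) : ℂ) * conj (τ₀ : ℂ) + (g 1 1 : ℤ) ≠ 0 := by
    intro hh
    apply n0
    have := congrArg conj hh
    simpa using this
  have hb : ((g 0 0 : ℤ) * conj (τ₀ : ℂ) + (g 0 1 : ℤ)) / ((g 1 0 : ℤ) * conj (τ₀ : ℂ) + (g 1 1 : ℤ))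
      = conj (τ₀ : ℂ) := by
    have := congrArg conj h0
    simpa using this
  have n2 := sub_conj_ne_zero τ₀ τ
  have E1 : ((g • τ : ℍ) : ℂ) - τ₀ = ((τ : ℂ) - τ₀) /
      (((g 1 0 : ℤ) * (τ : ℂ) + (g 1 1 : ℤ)) * ((g 1 0 : ℤ) * (τ₀ : ℂ) + (g 1 1 : ℤ))) := by
    rw [coe_sl_smul]
    nth_rewrite 1 [← h0]
    rw [div_sub_div _ _ n1 n0]
    congr 1
    linear_combination ((τ : ℂ) - τ₀) * hd
  have E2 : ((g • τ : ℍ) : ℂ) - conj (τ₀ : ℂ) = ((τ : ℂ) - conj (τ₀ : ℂ)) /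
      (((g 1 0 : ℤ) * (τ : ℂ) + (g 1 1 : ℤ)) * ((g 1 0 : ℤ) * conj (τ₀ : ℂ) + (g 1 1 : ℤ))) := by
    rw [coe_sl_smul]
    nth_rewrite 1 [← hb]
    rw [div_sub_div _ _ n1 nb]
    congr 1
    linear_combination ((τ : ℂ) - conj (τ₀ : ℂ)) * hd
  rw [cay, E1, E2, rotFactor, cay]
  generalize ((g 1 0 : ℤ) : ℂ) * (τ : ℂ) + (g 1 1 : ℤ) = A at n1 ⊢
  generalize ((g 1 0 : ℤ) : ℂ) * (τ₀ : ℂ) + (g 1 1 : ℤ) = B at n0 ⊢
  generalize ((g 1 0 : ℤ) : ℂ) * conj (τ₀ : ℂ) + (g 1 1 : ℤ) = C at nb ⊢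
  field_simp

theorem mdiff_comp_smul (g : Matrix.SpecialLinearGroup (Fin 2) ℤ) {G : ℍ → ℂ} (hG : MDiff G) :
    MDiff (fun τ : ℍ => G (g • τ)) := by
  have h : MDiff (fun τ : ℍ => g • τ) := by
    apply UpperHalfPlane.mdifferentiable_smul
      (g := Matrix.SpecialLinearGroup.toGL ((Matrix.SpecialLinearGroup.map (Int.castRingHom ℝ)) g))
    simp
  exact hG.comp h

theorem coeff_cayExp_comp_smul (g : Matrix.SpecialLinearGroup (Fin 2) ℤ) {τ₀ : ℍ}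
    (h : g • τ₀ = τ₀) {G : ℍ → ℂ} (hG : MDiff G) (n : ℕ) :
    (cayExp τ₀ (fun τ : ℍ => G (g • τ))).coeff n = rotFactor g τ₀ ^ n * (cayExp τ₀ G).coeff n := by
  have key : (PowerSeries.mk fun n => rotFactor g τ₀ ^ n * (cayExp τ₀ G).coeff n)
      = cayExp τ₀ (fun τ : ℍ => G (g • τ)) := by
    apply eq_cayExp_of_hasSum τ₀ (mdiff_comp_smul g hG)
    intro τ
    have h1 := hasSum_cayExp τ₀ hG (g • τ)
    rw [cay_smul g h] at h1
    convert h1 using 2 with n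
    rw [PowerSeries.coeff_mk, mul_pow]
    ring
  rw [← key, PowerSeries.coeff_mk]

lemma cay_pow_smul (g : Matrix.SpecialLinearGroup (Fin 2) ℤ) {τ₀ : ℍ} (h : g • τ₀ = τ₀) (τ : ℍ)
    (k : ℕ) : cay τ₀ ((g ^ k) • τ) = rotFactor g τ₀ ^ k * cay τ₀ τ := by
  induction k with
  | zero => simp
  | succ k ih => rw [pow_succ', mul_smul, cay_smul g h, ih, pow_succ']; ring

theorem isPrimitiveRoot_rotFactor_of_prime {p : ℕ} [Fact p.Prime]
    (g : Matrix.SpecialLinearGroup (Fin 2) ℤ) {τ₀ : ℍ} (h : g • τ₀ = τ₀)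
    (hp : ∀ τ : ℍ, (g ^ p) • τ = τ) (hne : ∃ τ : ℍ, g • τ ≠ τ) :
    IsPrimitiveRoot (rotFactor g τ₀) p := by
  have h1 : rotFactor g τ₀ ^ p = 1 := by
    obtain ⟨τ, hτ⟩ := exists_cay_eq τ₀ (w := 1 / 2) (by norm_num)
    have h2 := cay_pow_smul g h τ p
    rw [hp τ, hτ] at h2
    have h3 : (1 / 2 : ℂ) ≠ 0 := by norm_num
    exact (mul_right_cancel₀ h3 (by rw [one_mul]; exact h2)).symm
  have h2 : rotFactor g τ₀ ≠ 1 := by
    intro h3
    obtain ⟨τ, hτ⟩ := hne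
    apply hτ
    apply cay_injective τ₀
    rw [cay_smul g h, h3, one_mul]
  have h3 := orderOf_eq_prime h1 h2
  have h4 := IsPrimitiveRoot.orderOf (rotFactor g τ₀)
  rwa [h3] at h4

lemma S_pow_two : ModularGroup.S ^ 2 = -1 := by
  decide

lemma ST_pow_three : (ModularGroup.S * ModularGroup.T) ^ 3 = -1 := by
  decide

theorem isPrimitiveRoot_rotFactor_S {τ₀ : ℍ} (h : ModularGroup.S • τ₀ = τ₀) :
    IsPrimitiveRoot (rotFactor ModularGroup.S τ₀) 2 := by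
  have : Fact (Nat.Prime 2) := ⟨Nat.prime_two⟩
  apply isPrimitiveRoot_rotFactor_of_prime _ h
  · intro τ
    rw [S_pow_two, ModularGroup.SL_neg_smul, one_smul]
  · refine ⟨⟨2 * Complex.I, by simp⟩, ?_⟩
    intro h1
    have h2 := congrArg (fun z : ℍ => (z : ℂ)) h1
    simp only [coe_sl_smul, ModularGroup.coe_S] at h2
    have h3 : (2 * Complex.I : ℂ) ≠ 0 := by simp
    have h4 : ((-1 : ℂ)) / (2 * Complex.I) = 2 * Complex.I := by simpa using h2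
    rw [div_eq_iff h3] at h4
    have h5 : (2 * Complex.I) * (2 * Complex.I) = (-4 : ℂ) := by
      linear_combination 4 * Complex.I_mul_I
    rw [h5] at h4
    norm_num at h4

theorem isPrimitiveRoot_rotFactor_ST {τ₀ : ℍ} (h : (ModularGroup.S * ModularGroup.T) • τ₀ = τ₀) :
    IsPrimitiveRoot (rotFactor (ModularGroup.S * ModularGroup.T) τ₀) 3 := by
  have : Fact (Nat.Prime 3) := ⟨Nat.prime_three⟩
  apply isPrimitiveRoot_rotFactor_of_prime _ h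
  · intro τ
    rw [ST_pow_three, ModularGroup.SL_neg_smul, one_smul]
  · refine ⟨UpperHalfPlane.I, ?_⟩
    intro h1
    have h2 := congrArg (fun z : ℍ => (z : ℂ)) h1
    simp only [coe_sl_smul] at h2
    have e00 : (ModularGroup.S * ModularGroup.T) 0 0 = 0 := by decide
    have e01 : (ModularGroup.S * ModularGroup.T) 0 1 = -1 := by decide
    have e10 : (ModularGroup.S * ModularGroup.T) 1 0 = 1 := by decide
    have e11 : (ModularGroup.S * ModularGroup.T) 1 1 = 1 := by decide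
    rw [e00, e01, e10, e11, UpperHalfPlane.coe_I] at h2
    have h3 : (((1 : ℤ) : ℂ) * Complex.I + ((1 : ℤ) : ℂ)) ≠ 0 := by
      intro h4
      have := congrArg Complex.im h4
      simp at this
    rw [div_eq_iff h3] at h2
    have h4 : Complex.I = 0 := by
      push_cast at h2
      linear_combination -h2 - Complex.I_mul_I
    exact Complex.I_ne_zero h4

end

end Fermat.Agent.S24
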