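import Mathlib
import Fermat.Agent.S24.Cayley
import Fermat.Agent.S24.Psi

set_option autoImplicit false

open UpperHalfPlane ModularCurve
open scoped MatrixGroups Manifold

noncomputable section

namespace Fermat.Agent.S24

local notation "𝕢" => Function.Periodic.qParam

/-- Integer form of the Hermite normal form `[d 0; 0 1] [p q; r s] = [x z; y w] [a b; 0 e]`. -/
theorem hermite_int (d : ℤ) (hd : 0 < d) (p q r s : ℤ) (h : p * s - q * r = 1) :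
    ∃ x z y w a b e : ℤ, x * w - z * y = 1 ∧ 0 < a ∧ 0 ≤ b ∧ b < e ∧ a * e = d ∧
      d * p = x * a ∧ d * q = x * b + z * e ∧ r = y * a ∧ s = y * b + w * e := by
  have hne : ¬ (d * p = 0 ∧ r = 0) := by
    rintro ⟨h1, h2⟩
    rcases mul_eq_zero.mp h1 with h3 | h3
    · omega
    · rw [h3, h2] at h
      simp at h
  have hg : 0 < Int.gcd (d * p) r := by
    rw [Int.gcd_pos_iff]
    by_contra hc
    apply hne
    constructor
    · by_contra h1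
      exact hc (Or.inl h1)
    · by_contra h1
      exact hc (Or.inr h1)
  set a : ℤ := (Int.gcd (d * p) r : ℤ) with ha
  have ha0 : 0 < a := by rw [ha]; exact_mod_cast hg
  obtain ⟨x, hx⟩ : a ∣ d * p := Int.gcd_dvd_left _ _
  obtain ⟨y, hy⟩ : a ∣ r := Int.gcd_dvd_right _ _
  have hbez := Int.gcd_eq_gcd_ab (d * p) r
  set u := Int.gcdA (d * p) r
  set v := Int.gcdB (d * p) r
  have huv : u * x + v * y = 1 := by
    have h1 : a * (u * x + v * y) = a * 1 := by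
      rw [mul_one]
      calc a * (u * x + v * y) = (a * x) * u + (a * y) * v := by ring
        _ = (d * p) * u + r * v := by rw [← hx, ← hy]
        _ = a := hbez.symm
    exact mul_left_cancel₀ ha0.ne' h1
  set e : ℤ := x * s - y * (d * q) with he
  have hae : a * e = d := by
    calc a * e = (a * x) * s - (a * y) * (d * q) := by rw [he]; ring
      _ = (d * p) * s - r * (d * q) := by rw [← hx, ← hy]
      _ = d * (p * s - q * r) := by ring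
      _ = d := by rw [h, mul_one]
  have he0 : 0 < e := by
    by_contra hc
    rw [not_lt] at hc
    have : a * e ≤ 0 := mul_nonpos_of_nonneg_of_nonpos ha0.le hc
    omega
  set b0 : ℤ := u * (d * q) + v * s with hb0
  refine ⟨x, x * (b0 / e) - v, y, y * (b0 / e) + u, a, b0 % e, e, ?_, ha0,
    Int.emod_nonneg _ he0.ne', Int.emod_lt_of_pos _ he0, hae, ?_, ?_, ?_, ?_⟩
  · linear_combination huv
  · rw [hx]; ring
  · have h1 : b0 % e + e * (b0 / e) = b0 := Int.emod_add_mul_ediv b0 e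
    have h2 : x * (b0 % e) + (x * (b0 / e) - v) * e = x * b0 - v * e := by
      linear_combination x * h1
    rw [h2, hb0, he]
    linear_combination (-(d * q)) * huv
  · rw [hy]; ring
  · have h1 : b0 % e + e * (b0 / e) = b0 := Int.emod_add_mul_ediv b0 e
    have h2 : y * (b0 % e) + (y * (b0 / e) + u) * e = y * b0 + u * e := by
      linear_combination y * h1
    rw [h2, hb0, he]
    linear_combination (-s) * huv

/-- The point `(a τ + b) / e` of the upper half plane (junk unless `0 < a`, `0 < e`). -/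
def affH (a b e : ℕ) (τ : ℍ) : ℍ := ofComplex (((a : ℂ) * (τ : ℂ) + (b : ℂ)) / (e : ℂ))

theorem coe_affH {a e : ℕ} (ha : 0 < a) (he : 0 < e) (b : ℕ) (τ : ℍ) :
    ((affH a b e τ : ℍ) : ℂ) = ((a : ℂ) * (τ : ℂ) + (b : ℂ)) / (e : ℂ) := by
  rw [affH, ofComplex_apply_of_im_pos]
  have h1 : (((a : ℂ) * (τ : ℂ) + (b : ℂ)) / (e : ℂ)).im = (a : ℝ) * τ.im / (e : ℝ) := by
    rw [Complex.div_natCast_im]
    simp
  rw [h1]
  have := τ.im_pos
  positivity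

theorem exists_sl_of_det {x z y w : ℤ} (h : x * w - z * y = 1) :
    ∃ g : SL(2, ℤ), g 0 0 = x ∧ g 0 1 = z ∧ g 1 0 = y ∧ g 1 1 = w :=
  ⟨⟨!![x, z; y, w], by rw [Matrix.det_fin_two_of]; exact h⟩, rfl, rfl, rfl, rfl⟩

/-- **Hermite normal form** for `[d 0; 0 1] γ`, as an identity of points of `ℍ`. -/
theorem exists_hermite (d : ℕ) (hd : 0 < d) (γ : SL(2, ℤ)) :
    ∃ (γ' : SL(2, ℤ)) (a b e : ℕ), 0 < a ∧ b < e ∧ a * e = d ∧ ((a : ℤ) ∣ γ 1 0) ∧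
      ∀ τ τ' : ℍ, (τ' : ℂ) = (d : ℂ) * ((γ • τ : ℍ) : ℂ) → τ' = γ' • affH a b e τ := by
  have hdet : γ 0 0 * γ 1 1 - γ 0 1 * γ 1 0 = 1 := by
    have h := γ.det_coe
    rwa [Matrix.det_fin_two] at h
  obtain ⟨x, z, y, w, a, b, e, h1, ha, hb, hbe, hae, e1, e2, e3, e4⟩ :=
    hermite_int (d : ℤ) (by exact_mod_cast hd) _ _ _ _ hdet
  have he : 0 < e := lt_of_le_of_lt hb hbe
  lift a to ℕ using ha.le
  lift b to ℕ using hb
  lift e to ℕ using he.le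
  obtain ⟨γ', g00, g01, g10, g11⟩ := exists_sl_of_det h1
  refine ⟨γ', a, b, e, by exact_mod_cast ha,
    by exact_mod_cast hbe, by exact_mod_cast hae, ⟨y, by rw [e3]; ring⟩, ?_⟩
  intro τ τ' hτ'
  have ha' : 0 < a := by exact_mod_cast ha
  have he' : 0 < e := by exact_mod_cast he
  apply UpperHalfPlane.ext
  rw [hτ', coe_sl_smul, coe_sl_smul, coe_affH ha' he', g00, g01, g10, g11]
  have n1 := sl_denom_ne_zero γ τ
  have hec : (e : ℂ) ≠ 0 := by exact_mod_cast he'.ne'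
  have c1 : (d : ℂ) * (γ 0 0 : ℤ) = (x : ℂ) * a := by exact_mod_cast e1
  have c2 : (d : ℂ) * (γ 0 1 : ℤ) = (x : ℂ) * b + z * e := by exact_mod_cast e2
  have c3 : ((γ 1 0 : ℤ) : ℂ) = (y : ℂ) * a := by exact_mod_cast e3
  have c4 : ((γ 1 1 : ℤ) : ℂ) = (y : ℂ) * b + w * e := by exact_mod_cast e4
  have k1 : (x : ℂ) * (((a : ℂ) * (τ : ℂ) + (b : ℂ)) / (e : ℂ)) + (z : ℂ) =
      ((d : ℂ) * ((γ 0 0 : ℤ) * (τ : ℂ) + (γ 0 1 : ℤ))) / e := by
    field_simp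
    linear_combination (-(τ : ℂ)) * c1 - c2
  have k2 : (y : ℂ) * (((a : ℂ) * (τ : ℂ) + (b : ℂ)) / (e : ℂ)) + (w : ℂ) =
      ((γ 1 0 : ℤ) * (τ : ℂ) + (γ 1 1 : ℤ)) / e := by
    field_simp
    linear_combination (-(τ : ℂ)) * c3 - c4
  rw [k1, k2, div_div_div_cancel_right₀ hec, mul_div_assoc]

/-- (a) `J (d · γ τ) = J ((a τ + b) / e)`. -/
theorem exists_kleinJ_mul_smul (d : ℕ) (hd : 0 < d) (γ : SL(2, ℤ)) :
    ∃ a b e : ℕ, 0 < a ∧ b < e ∧ a * e = d ∧ ((a : ℤ) ∣ γ 1 0) ∧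
      ∀ τ τ' : ℍ, (τ' : ℂ) = (d : ℂ) * ((γ • τ : ℍ) : ℂ) →
        JLocal.kleinJ τ' = JLocal.kleinJ (affH a b e τ) := by
  obtain ⟨γ', a, b, e, ha, hb, hae, hdvd, h⟩ := exists_hermite d hd γ
  refine ⟨a, b, e, ha, hb, hae, hdvd, fun τ τ' hτ' => ?_⟩
  rw [h τ τ' hτ', JLocal.kleinJ_smul]

/-- (b) `J (d · γ τ) = J (d τ)` for `γ ∈ Γ₀(N)`, `d ∣ N`. -/
theorem kleinJ_mul_smul_of_mem_Gamma0 {N d : ℕ} (hd : d ∣ N) (hN : N ≠ 0) (γ : SL(2, ℤ))
    (hγ : γ ∈ CongruenceSubgroup.Gamma0 N) {τ τ₁ τ₂ : ℍ}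
    (h₁ : (τ₁ : ℂ) = (d : ℂ) * ((γ • τ : ℍ) : ℂ)) (h₂ : (τ₂ : ℂ) = (d : ℂ) * (τ : ℂ)) :
    JLocal.kleinJ τ₁ = JLocal.kleinJ τ₂ := by
  have hd0 : d ≠ 0 := fun h => hN (by rw [h] at hd; exact Nat.eq_zero_of_zero_dvd hd)
  rw [CongruenceSubgroup.Gamma0_mem, ZMod.intCast_zmod_eq_zero_iff_dvd] at hγ
  obtain ⟨y, hy⟩ : (d : ℤ) ∣ γ 1 0 := dvd_trans (by exact_mod_cast hd) hγ
  have hdet : γ 0 0 * γ 1 1 - γ 0 1 * γ 1 0 = 1 := by
    have h := γ.det_coe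
    rwa [Matrix.det_fin_two] at h
  obtain ⟨γ', g00, g01, g10, g11⟩ := exists_sl_of_det
    (x := γ 0 0) (z := d * γ 0 1) (y := y) (w := γ 1 1) (by
      rw [hy] at hdet
      linear_combination hdet)
  have key : τ₁ = γ' • τ₂ := by
    apply UpperHalfPlane.ext
    rw [h₁, coe_sl_smul, coe_sl_smul, h₂, g00, g01, g10, g11]
    have c3 : ((γ 1 0 : ℤ) : ℂ) = (d : ℂ) * y := by exact_mod_cast hy
    rw [c3, mul_div_assoc']
    congr 1
    · push_cast; ring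
    · ring
  rw [key, JLocal.kleinJ_smul]

/-! ### Expansions at the cusp -/

theorem jqC_coeff_neg_one : jqC.coeff (-1 : ℤ) = 1 := by
  rw [jqC, coeffMap_coeff, coeff_jq_neg_one, map_one]

theorem jqC_coeff_of_lt {k : ℤ} (hk : k < -1) : jqC.coeff k = 0 := by
  rw [jqC, coeffMap_coeff, coeff_jq_of_lt hk, map_zero]

theorem qParam_nat_ne_zero (N : ℕ) (τ : ℍ) : 𝕢 (N : ℝ) (τ : ℂ) ≠ 0 :=
  Function.Periodic.qParam_ne_zero _

theorem norm_qParam_nat_lt_one {N : ℕ} (hN : 0 < N) (τ : ℍ) : ‖𝕢 (N : ℝ) (τ : ℂ)‖ < 1 :=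
  Function.Periodic.norm_qParam_lt_one (by exact_mod_cast hN) τ.im_pos

theorem exists_qParam_nat_eq {N : ℕ} (hN : 0 < N) {q : ℂ} (hq : q ≠ 0) (hq1 : ‖q‖ < 1) :
    ∃ τ : ℍ, 𝕢 (N : ℝ) (τ : ℂ) = q :=
  ⟨⟨Function.Periodic.invQParam N q,
    Function.Periodic.im_invQParam_pos_of_norm_lt_one (by exact_mod_cast hN) hq1 hq⟩,
    Function.Periodic.qParam_right_inv (by exact_mod_cast hN.ne') hq⟩

/-- (d) the expansion of `J ((a τ + b) / e)` in `w = exp (2 π i τ / N)`, `e ∣ N`. -/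
theorem exists_cuspSeries {N a e : ℕ} (hN : 0 < N) (ha : 0 < a) (he : e ∣ N) (b : ℕ) :
    ∃ s : LaurentSeries ℂ, IsConv s ∧
      (∀ τ : ℍ, JLocal.kleinJ (affH a b e τ) = evalAt (𝕢 (N : ℝ) (τ : ℂ)) s) ∧
      s.coeff (-((N / e * a : ℕ) : ℤ)) ≠ 0 ∧ ∀ k : ℤ, k < -((N / e * a : ℕ) : ℤ) → s.coeff k = 0 := by
  obtain ⟨f, rfl⟩ := he
  have he0 : 0 < e := Nat.pos_of_mul_pos_right hN
  have hf0 : 0 < f := Nat.pos_of_mul_pos_left hN
  rw [Nat.mul_div_cancel_left f he0]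
  have : NeZero (f * a) := ⟨(Nat.mul_pos hf0 ha).ne'⟩
  set ζ : ℂ := Complex.exp (2 * Real.pi * Complex.I * b / e) with hζdef
  have hζ : ζ ≠ 0 := Complex.exp_ne_zero _
  have hζ1 : ‖ζ‖ ≤ 1 := by
    rw [hζdef, Complex.norm_exp]
    have : (2 * (Real.pi : ℂ) * Complex.I * b / e).re = 0 := by
      rw [Complex.div_natCast_re]
      simp
    rw [this, Real.exp_zero]
  refine ⟨qExpand ℂ (f * a) (twist ζ hζ jqC), (isConv_jqC.twist hζ hζ1).qExpand _, ?_, ?_, ?_⟩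
  · intro τ
    rw [evalAt_qExpand, evalAt_twist, ← evalAt_jqC]
    congr 1
    rw [coe_affH ha he0, hζdef]
    simp only [Function.Periodic.qParam]
    rw [← Complex.exp_nat_mul, ← Complex.exp_add]
    congr 1
    have h1 : (e : ℂ) ≠ 0 := by exact_mod_cast he0.ne'
    have h2 : (f : ℂ) ≠ 0 := by exact_mod_cast hf0.ne'
    push_cast
    field_simp
    ring
  · have h1 : (-((f * a : ℕ) : ℤ)) = ((f * a : ℕ) : ℤ) * (-1) := by ring
    rw [h1, qExpand_coeff_mul, twist_coeff, jqC_coeff_neg_one, mul_one]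
    exact zpow_ne_zero _ hζ
  · intro k hk
    by_cases hdvd : ((f * a : ℕ) : ℤ) ∣ k
    · obtain ⟨m, rfl⟩ := hdvd
      rw [qExpand_coeff_mul, twist_coeff, jqC_coeff_of_lt, mul_zero]
      have hpos : (0 : ℤ) < ((f * a : ℕ) : ℤ) := by exact_mod_cast Nat.mul_pos hf0 ha
      by_contra hc
      rw [not_lt] at hc
      have : ((f * a : ℕ) : ℤ) * (-1) ≤ ((f * a : ℕ) : ℤ) * m := mul_le_mul_of_nonneg_left hc hpos.le
      omega
    · exact qExpand_coeff_of_not_dvd _ _ hdvd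

/-- every translate of `J (d τ)`, `d ∣ N`, has a convergent expansion in `exp (2 π i τ / N)`. -/
theorem exists_isConv_kleinJ_mul_smul {N d : ℕ} (hN : 0 < N) (hd : d ∣ N) (γ : SL(2, ℤ)) :
    ∃ s : LaurentSeries ℂ, IsConv s ∧ ∀ τ τ' : ℍ, (τ' : ℂ) = (d : ℂ) * ((γ • τ : ℍ) : ℂ) →
      JLocal.kleinJ τ' = evalAt (𝕢 (N : ℝ) (τ : ℂ)) s := by
  have hd0 : 0 < d := Nat.pos_of_dvd_of_pos hd hN
  obtain ⟨a, b, e, ha, hb, hae, -, h⟩ := exists_kleinJ_mul_smul d hd0 γ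
  obtain ⟨s, hs, hs1, -, -⟩ := exists_cuspSeries hN ha
    (dvd_trans (Dvd.intro_left a hae) hd : e ∣ N) b
  exact ⟨s, hs, fun τ τ' hτ' => by rw [h τ τ' hτ', hs1]⟩

/-- (c) the stabiliser of `J (N τ)` is `Γ₀(N)`. -/
theorem mem_Gamma0_of_kleinJ_mul_smul_eq {N : ℕ} (hN : 0 < N) (γ : SL(2, ℤ))
    (h : ∀ τ τ₁ τ₂ : ℍ, (τ₁ : ℂ) = (N : ℂ) * ((γ • τ : ℍ) : ℂ) → (τ₂ : ℂ) = (N : ℂ) * (τ : ℂ) →
      JLocal.kleinJ τ₁ = JLocal.kleinJ τ₂) : γ ∈ CongruenceSubgroup.Gamma0 N := by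
  have : NeZero N := ⟨hN.ne'⟩
  obtain ⟨a, b, e, ha, hb, hae, hdvd, h1⟩ := exists_kleinJ_mul_smul N hN γ
  have he0 : 0 < e := lt_of_le_of_lt (Nat.zero_le b) hb
  obtain ⟨s, hs, hs1, hs2, hs3⟩ := exists_cuspSeries hN ha (Dvd.intro_left a hae : e ∣ N) b
  obtain ⟨t, ht, ht1, ht2, ht3⟩ := exists_cuspSeries (a := N) (e := 1) hN hN (one_dvd N) 0
  have hst : s = t := by
    apply eq_of_evalAt_eq hs ht
    intro q hq hq1
    obtain ⟨τ, rfl⟩ := exists_qParam_nat_eq hN hq hq1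
    rw [← hs1, ← ht1, ← h1 τ (mulH N (γ • τ)) rfl]
    apply h τ _ _ rfl
    rw [coe_affH hN one_pos]
    simp
  have hNe : N / e = a := by
    rw [← hae, Nat.mul_div_cancel _ he0]
  rw [hNe] at hs2 hs3
  rw [Nat.div_one] at ht2 ht3
  have hle : ¬ (-((N * N : ℕ) : ℤ) < -((a * a : ℕ) : ℤ)) := by
    intro hlt
    apply ht2
    rw [← hst]
    exact hs3 _ hlt
  have haN : a ≤ N := by
    rw [← hae]
    exact Nat.le_mul_of_pos_right a he0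
  have haN' : a = N := by
    by_contra hne
    have hlt : a < N := lt_of_le_of_ne haN hne
    apply hle
    have : a * a < N * N := Nat.mul_lt_mul'' hlt hlt
    omega
  rw [CongruenceSubgroup.Gamma0_mem, ZMod.intCast_zmod_eq_zero_iff_dvd, ← haN']
  exact hdvd

/-! ### Versions with `mulH` -/

theorem kleinJ_mulH_smul_eq_of_mem_Gamma0 {N d : ℕ} [NeZero d] (hd : d ∣ N) (hN : N ≠ 0)
    (γ : SL(2, ℤ)) (hγ : γ ∈ CongruenceSubgroup.Gamma0 N) (τ : ℍ) :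
    JLocal.kleinJ (mulH d (γ • τ)) = JLocal.kleinJ (mulH d τ) :=
  kleinJ_mul_smul_of_mem_Gamma0 hd hN γ hγ rfl rfl

theorem exists_isConv_kleinJ_mulH_smul {N d : ℕ} [NeZero d] (hN : 0 < N) (hd : d ∣ N)
    (γ : SL(2, ℤ)) :
    ∃ s : LaurentSeries ℂ, IsConv s ∧ ∀ τ : ℍ,
      JLocal.kleinJ (mulH d (γ • τ)) = evalAt (𝕢 (N : ℝ) (τ : ℂ)) s := by
  obtain ⟨s, hs, h⟩ := exists_isConv_kleinJ_mul_smul hN hd γ
  exact ⟨s, hs, fun τ => h τ _ rfl⟩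

theorem mem_Gamma0_of_kleinJ_mulH_smul_eq {N : ℕ} [NeZero N] (γ : SL(2, ℤ))
    (h : ∀ τ : ℍ, JLocal.kleinJ (mulH N (γ • τ)) = JLocal.kleinJ (mulH N τ)) :
    γ ∈ CongruenceSubgroup.Gamma0 N := by
  apply mem_Gamma0_of_kleinJ_mul_smul_eq (Nat.pos_of_ne_zero (NeZero.ne N))
  intro τ τ₁ τ₂ h₁ h₂
  have e₁ : τ₁ = mulH N (γ • τ) := UpperHalfPlane.ext h₁
  have e₂ : τ₂ = mulH N τ := UpperHalfPlane.ext h₂
  rw [e₁, e₂, h]

end Fermat.Agent.S24
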