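import Mathlib
import Fermat.Statements.S24

set_option autoImplicit false

namespace Fermat.Agent.S24

open AlgebraicCurve

/-- A `ℤ`-valued order function on a field `L` over `K` (value at `0` is junk). -/
structure OrdFun (K L : Type*) [Field K] [Field L] [Algebra K L] where
  ord : L → ℤ
  ord_mul : ∀ {f g : L}, f ≠ 0 → g ≠ 0 → ord (f * g) = ord f + ord g
  ord_add : ∀ {f g : L}, f ≠ 0 → g ≠ 0 → f + g ≠ 0 → min (ord f) (ord g) ≤ ord (f + g)
  ord_algebraMap : ∀ a : K, a ≠ 0 → ord (algebraMap K L a) = 0

/-- `F/K` is a function field in one variable. -/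
def IsFF (K F : Type*) [Field K] [Field F] [Algebra K F] : Prop :=
  ∃ x : F, Transcendental K x ∧ FiniteDimensional (IntermediateField.adjoin K {x}) F

end Fermat.Agent.S24
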