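import Mathlib
import Fermat.Agent.S24.EmbedCusp
import Fermat.Agent.S24.EmbedFN
import Fermat.Agent.S24.Hermite

set_option autoImplicit false

open UpperHalfPlane Complex ModularCurve CongruenceSubgroup
open scoped Manifold MatrixGroups

namespace Fermat.Agent.S24.EmbedCuspFN

open Fermat.Agent.S24.FNAdjoin Fermat.Agent.S24.JLocal Fermat.Agent.S24.EmbedPoint
  Fermat.Agent.S24.EmbedFN Fermat.Agent.S24.CuspRing

/-- The translates of the generators are meromorphic at the cusp. -/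
theorem kleinJ_mulH_smul_mem (N : ℕ) [NeZero N] (d : ℕ) [NeZero d] (hd : d ∣ N) (γ : SL(2, ℤ)) :
    (fun τ : ℍ => kleinJ (mulH d (γ • τ))) ∈ Rcusp N := by
  obtain ⟨a, b, e, ha, hb, hae, -, h⟩ :=
    exists_kleinJ_mul_smul d (Nat.pos_of_ne_zero (NeZero.ne d)) γ
  have he : 0 < e := lt_of_le_of_lt (Nat.zero_le b) hb
  have heN : e ∣ N := (Dvd.intro_left a hae).trans hd
  obtain ⟨t, ht⟩ := heN
  have ht0 : t ≠ 0 := by
    rintro rfl
    exact NeZero.ne N (by rw [ht, mul_zero])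
  have h1 : (fun τ : ℍ => kleinJ (mulH d (γ • τ))) = kleinJ ∘ affH a b e := by
    funext τ
    exact h τ _ (coe_mulH d _)
  rw [h1]
  refine kleinJ_comp_mem (a := a) (d := e) (e := a * t) (b := (b : ℤ)) he.ne'
    (Nat.mul_ne_zero ha.ne' ht0) (by rw [ht]; ring) (fun τ => ?_)
  rw [coe_affH ha he]
  push_cast
  rfl

theorem translate_PsiA_mem (N : ℕ) [NeZero N] (g : SL(2, ℤ)) (x : A N) :
    Embed.translate (PsiA N) g x ∈ Rcusp N := by
  have : Embed.translate (PsiA N) g x = fun τ => PsiA N x (g⁻¹ • τ) := rfl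
  rw [this]
  refine PsiA_induction (P := fun f => (fun τ : ℍ => f (g⁻¹ • τ)) ∈ Rcusp N) ?_ ?_ ?_ ?_ x
  · intro d _ hd
    exact kleinJ_mulH_smul_mem N d hd g⁻¹
  · intro c
    exact const_mem N c
  · intro f f' hf hf'
    exact (Rcusp N).add_mem hf hf'
  · intro f f' hf hf'
    exact (Rcusp N).mul_mem hf hf'

/-- The local family at the cusp for the function field of `X₀(N)`. -/
theorem fcusp (N : ℕ) [NeZero N] :
    Nonempty (LocalFamily Kbar (FN N) (SL(2, ℤ) ⧸ Gamma0 N) SL(2, ℤ) (jF N)⁻¹ N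
      ModularGroup.T) :=
  EmbedCusp.nonempty_localFamily_cusp (F := FN N)
    (realisation N fun g hg => mem_Gamma0_of_kleinJ_mulH_smul_eq g hg) N (translate_PsiA_mem N)

end Fermat.Agent.S24.EmbedCuspFN
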