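import Mathlib

/-!
# S24 / JInvariant

Holomorphic `SL(2,ℤ)`-invariant functions on the upper half plane with a pole of finite order
at `i∞` are polynomials in `J = E₄³/Δ`.
-/

namespace Fermat.Agent.S24.JInvariant

open UpperHalfPlane ModularForm EisensteinSeries MatrixGroups ModularFormClass Filter
open scoped Topology Manifold CongruenceSubgroup

local notation "Δ" => ModularForm.discriminant

/-- Every level one modular form of weight `12 m` is `Δ^m * P(E₄³/Δ)` with `deg P ≤ m`. -/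
theorem exists_poly_of_modularForm (m : ℕ) {k : ℤ} (hk : k = 12 * m) (g : ModularForm 𝒮ℒ k) :
    ∃ P : Polynomial ℂ, P.natDegree ≤ m ∧
      ∀ τ : ℍ, g τ = Δ τ ^ m * P.eval (E₄ τ ^ 3 / Δ τ) := by
  induction m generalizing k with
  | zero =>
    have hk0 : k = 0 := by simpa using hk
    subst hk0
    obtain ⟨c, hc⟩ := levelOne_weight_zero_const g
    refine ⟨Polynomial.C c, by simp, fun τ => ?_⟩
    simp [hc]
  | succ m ih =>
    -- the Eisenstein power of weight `k`
    let G : ModularForm 𝒮ℒ k := ModularForm.mcast (by rw [hk]; push_cast; ring) (E₄.pow (3 * (m + 1)))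
    have hG0 : (qExpansion 1 G).coeff 0 = 1 := by
      have : qExpansion 1 G = (qExpansion 1 E₄) ^ (3 * (m + 1)) := by
        simp only [G, ModularForm.qExpansion_mcast]
        exact ModularForm.qExpansion_pow one_pos one_mem_strictPeriods_SL E₄ _
      rw [this]
      have h4 : (qExpansion 1 E₄).coeff 0 = 1 := E_qExpansion_coeff_zero _ ⟨2, rfl⟩
      simp only [PowerSeries.coeff_zero_eq_constantCoeff, map_pow] at h4 ⊢
      rw [h4, one_pow]
    set c : ℂ := (qExpansion 1 g).coeff 0 with hc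
    obtain ⟨f, hf⟩ := ModularForm.sub_smul_isCuspForm g G hG0
    have hfz : ∀ τ : ℍ, f τ = g τ - c * E₄ τ ^ (3 * (m + 1)) := by
      intro τ
      have := DFunLike.congr_fun hf τ
      have hp : (E₄.pow (3 * (m + 1))) τ = E₄ τ ^ (3 * (m + 1)) := by
        rw [ModularForm.coe_pow]; rfl
      rw [← hp]
      simpa [G, hc] using this
    obtain ⟨Q, hQd, hQ⟩ := ih (k := k - 12) (by rw [hk]; push_cast; ring)
      (CuspForm.discriminantEquiv f)
    refine ⟨Polynomial.C c * Polynomial.X ^ (m + 1) + Q, ?_, fun τ => ?_⟩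
    · refine (Polynomial.natDegree_add_le _ _).trans (max_le ?_ (hQd.trans (Nat.le_succ m)))
      exact Polynomial.natDegree_C_mul_X_pow_le _ _
    · have hΔ := discriminant_ne_zero τ
      have h1 := hQ τ
      rw [CuspForm.discriminantEquiv_apply, hfz] at h1
      simp only [Polynomial.eval_add, Polynomial.eval_mul, Polynomial.eval_C, Polynomial.eval_pow,
        Polynomial.eval_X]
      have h2 : g τ = c * E₄ τ ^ (3 * (m + 1)) + Δ τ * (Δ τ ^ m * Q.eval (E₄ τ ^ 3 / Δ τ)) := by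
        rw [← h1]; field_simp; ring
      rw [h2, div_pow, ← pow_mul]
      field_simp
      ring

/-- transformation of `Δ` under `SL(2,ℤ)`. -/
theorem discriminant_smul (γ : SL(2, ℤ)) (τ : ℍ) :
    Δ (γ • τ) = denom γ τ ^ (12 : ℤ) * Δ τ := by
  have : SlashInvariantFormClass (CuspForm 𝒮ℒ 12) Γ(1) 12 :=
    CongruenceSubgroup.Gamma_one_coe_eq_SL ▸ inferInstance
  exact SlashInvariantForm.slash_action_eqn_SL'' CuspForm.discriminant
    (CongruenceSubgroup.mem_Gamma_one γ) τ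

theorem mulDeltaPow_slash (f : ℍ → ℂ) (m : ℕ)
    (hinv : ∀ (γ : SL(2, ℤ)) (τ : ℍ), f (γ • τ) = f τ) (γ : SL(2, ℤ)) :
    (fun τ => f τ * Δ τ ^ m) ∣[(12 * m : ℤ)] γ = fun τ => f τ * Δ τ ^ m := by
  ext τ
  rw [SL_slash_apply, hinv, discriminant_smul]
  have hd : denom γ τ ≠ 0 := denom_ne_zero _ _
  rw [mul_pow, ← zpow_natCast (denom γ τ ^ (12 : ℤ)) m, ← zpow_mul, zpow_neg]
  field_simp

/-- The weight `12 m` modular form `f * Δ^m` attached to an invariant holomorphic function with a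
pole of order at most `m` at `i∞`. -/
noncomputable def mulDeltaPow (f : ℍ → ℂ) (m : ℕ) (hf : MDiff f)
    (hinv : ∀ (γ : SL(2, ℤ)) (τ : ℍ), f (γ • τ) = f τ)
    (hbd : IsBoundedAtImInfty (fun τ => f τ * Δ τ ^ m)) : ModularForm 𝒮ℒ (12 * m) where
  toFun := fun τ => f τ * Δ τ ^ m
  slash_action_eq' := by
    rintro _ ⟨γ, rfl⟩
    exact mulDeltaPow_slash f m hinv γ
  holo' := hf.mul (CuspForm.discriminant.holo'.pow m)
  bdd_at_cusps' {c} hc := by
    rw [Subgroup.IsArithmetic.isCusp_iff_isCusp_SL2Z] at hc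
    rw [OnePoint.isBoundedAt_iff_forall_SL2Z hc]
    intro γ _
    rw [mulDeltaPow_slash f m hinv γ]
    exact hbd

/-- **Invariant functions are polynomials in `J`.** -/
theorem exists_poly_of_invariant (f : ℍ → ℂ) (m : ℕ) (hf : MDiff f)
    (hinv : ∀ (γ : SL(2, ℤ)) (τ : ℍ), f (γ • τ) = f τ)
    (hbd : IsBoundedAtImInfty (fun τ => f τ * Δ τ ^ m)) :
    ∃ P : Polynomial ℂ, P.natDegree ≤ m ∧ ∀ τ : ℍ, f τ = P.eval (E₄ τ ^ 3 / Δ τ) := by
  obtain ⟨P, hPd, hP⟩ := exists_poly_of_modularForm m rfl (mulDeltaPow f m hf hinv hbd)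
  refine ⟨P, hPd, fun τ => ?_⟩
  have h := hP τ
  have hΔ : Δ τ ^ m ≠ 0 := pow_ne_zero _ (discriminant_ne_zero τ)
  have h' : f τ * Δ τ ^ m = Δ τ ^ m * P.eval (E₄ τ ^ 3 / Δ τ) := h
  rw [mul_comm] at h'
  exact mul_left_cancel₀ hΔ h'

/-- a level one modular form tends to its constant coefficient at `i∞`. -/
theorem tendsto_coeff_zero {k : ℤ} (f : ModularForm 𝒮ℒ k) :
    Tendsto f atImInfty (𝓝 ((qExpansion 1 f).coeff 0)) := by
  have hanal := ModularFormClass.analyticAt_cuspFunction_zero f one_pos one_mem_strictPeriods_SL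
  have h0 : (qExpansion 1 f).coeff 0 = cuspFunction 1 f 0 := by
    simp [qExpansion_coeff]
  rw [h0]
  exact (hanal.continuousAt.tendsto.comp (qParam_tendsto_atImInfty one_pos)).congr
    (fun τ ↦ SlashInvariantFormClass.eq_cuspFunction f τ one_mem_strictPeriods_SL one_ne_zero)

/-- `‖J‖ → ∞` at `i∞`. -/
theorem tendsto_norm_J_atTop :
    Tendsto (fun τ : ℍ => ‖E₄ τ ^ 3 / Δ τ‖) atImInfty atTop := by
  have h4 : Tendsto (fun τ : ℍ => E₄ τ ^ 3) atImInfty (𝓝 1) := by
    have := (tendsto_coeff_zero E₄).pow 3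
    rwa [E_qExpansion_coeff_zero _ ⟨2, rfl⟩, one_pow] at this
  have hΔ : Tendsto (fun τ : ℍ => Δ τ) atImInfty (𝓝 0) := discriminant_isZeroAtImInfty
  have h1 : Tendsto (fun τ : ℍ => ‖E₄ τ ^ 3‖) atImInfty (𝓝 1) := by
    simpa using h4.norm
  have h2 : Tendsto (fun τ : ℍ => ‖Δ τ‖) atImInfty (𝓝[>] 0) := by
    rw [tendsto_nhdsWithin_iff]
    refine ⟨by simpa using hΔ.norm, Eventually.of_forall fun τ => ?_⟩
    simpa using discriminant_ne_zero τ
  have := Filter.Tendsto.pos_mul_atTop one_pos h1 (h2.inv_tendsto_nhdsGT_zero)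
  refine this.congr fun τ => ?_
  simp [div_eq_mul_inv]

/-- A polynomial vanishing on all values of `J` is zero. -/
theorem poly_eq_zero_of_eval_J (P : Polynomial ℂ)
    (h : ∀ τ : ℍ, P.eval (E₄ τ ^ 3 / Δ τ) = 0) : P = 0 := by
  by_contra hP
  -- the roots of `P` are bounded
  obtain ⟨B, hB⟩ : ∃ B : ℝ, ∀ z ∈ P.roots.toFinset, ‖z‖ ≤ B := by
    obtain ⟨B, hB⟩ := (P.roots.toFinset.finite_toSet.image (fun z => ‖z‖)).bddAbove
    exact ⟨B, fun z hz => hB ⟨z, hz, rfl⟩⟩
  have hev := tendsto_norm_J_atTop.eventually (eventually_gt_atTop B)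
  obtain ⟨τ, hτ⟩ := hev.exists
  have : E₄ τ ^ 3 / Δ τ ∈ P.roots.toFinset := by
    simp [Polynomial.mem_roots hP, h τ]
  exact absurd (hB _ this) (not_le.mpr hτ)

/-- uniqueness of the polynomial. -/
theorem poly_ext_of_eval_J (P Q : Polynomial ℂ)
    (h : ∀ τ : ℍ, P.eval (E₄ τ ^ 3 / Δ τ) = Q.eval (E₄ τ ^ 3 / Δ τ)) : P = Q :=
  sub_eq_zero.mp (poly_eq_zero_of_eval_J _ fun τ => by simp [h τ])

/-- invariance under `S` and `T` implies invariance under `SL(2,ℤ)`. -/
theorem invariant_of_S_T (f : ℍ → ℂ) (hS : ∀ τ : ℍ, f (ModularGroup.S • τ) = f τ)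
    (hT : ∀ τ : ℍ, f (ModularGroup.T • τ) = f τ) (γ : SL(2, ℤ)) (τ : ℍ) : f (γ • τ) = f τ := by
  have hmem : γ ∈ Subgroup.closure ({ModularGroup.S, ModularGroup.T} : Set SL(2, ℤ)) := by
    rw [SpecialLinearGroup.SL2Z_generators]; trivial
  induction hmem using Subgroup.closure_induction generalizing τ with
  | mem x hx =>
    rcases hx with rfl | rfl
    · exact hS τ
    · exact hT τ
  | one => simp
  | mul x y _ _ hx hy => rw [mul_smul, hx, hy]
  | inv x _ hx =>
    have := hx (x⁻¹ • τ)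
    rw [smul_inv_smul] at this
    exact this.symm

/-- a growth bound `f = O(exp(2π m Im τ))` gives boundedness of `f Δ^m`. -/
theorem isBoundedAtImInfty_mul_discriminant_pow (f : ℍ → ℂ) (m : ℕ)
    (hO : f =O[atImInfty] fun τ : ℍ => Real.exp (2 * Real.pi * m * τ.im)) :
    IsBoundedAtImInfty (fun τ => f τ * Δ τ ^ m) := by
  have hΔ : (fun τ : ℍ => Δ τ) =O[atImInfty] fun τ : ℍ => Real.exp (-2 * Real.pi * τ.im / 1) :=
    CuspFormClass.exp_decay_atImInfty (h := 1) CuspForm.discriminant one_pos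
      one_mem_strictPeriods_SL
  have h1 := hO.mul (hΔ.pow m)
  rw [IsBoundedAtImInfty, BoundedAtFilter]
  refine h1.trans (Asymptotics.IsBigO.of_bound 1 (Eventually.of_forall fun τ => ?_))
  rw [← Real.exp_nat_mul, ← Real.exp_add]
  have : 2 * Real.pi * m * τ.im + m * (-2 * Real.pi * τ.im / 1) = 0 := by ring
  rw [this]
  simp

/-- Version of `exists_poly_of_invariant` with generators and an explicit growth bound. -/
theorem exists_poly_of_invariant' (f : ℍ → ℂ) (m : ℕ) (hf : MDiff f)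
    (hS : ∀ τ : ℍ, f (ModularGroup.S • τ) = f τ) (hT : ∀ τ : ℍ, f (ModularGroup.T • τ) = f τ)
    (hO : f =O[atImInfty] fun τ : ℍ => Real.exp (2 * Real.pi * m * τ.im)) :
    ∃ P : Polynomial ℂ, P.natDegree ≤ m ∧ ∀ τ : ℍ, f τ = P.eval (E₄ τ ^ 3 / Δ τ) :=
  exists_poly_of_invariant f m hf (invariant_of_S_T f hS hT)
    (isBoundedAtImInfty_mul_discriminant_pow f m hO)

end Fermat.Agent.S24.JInvariant
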