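import Mathlib
import Fermat.Agent.S24.ConvLaurent
import Fermat.Agent.S24.JLaurent

set_option autoImplicit false

open UpperHalfPlane ModularCurve Filter Topology
open scoped MatrixGroups Manifold Real

noncomputable section

namespace Fermat.Agent.S24

local notation "𝕢" => Function.Periodic.qParam

/-! ### generalities on the order -/

theorem order_eq_of_coeff {R : Type*} [Zero R] {x : LaurentSeries R} {k : ℤ} (hk : x.coeff k ≠ 0)
    (hlt : ∀ n < k, x.coeff n = 0) : x.order = k := by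
  have hx : x ≠ 0 := fun h => hk (by simp [h])
  refine le_antisymm (HahnSeries.order_le_of_coeff_ne_zero hk) ?_
  by_contra h
  exact hx (HahnSeries.coeff_order_eq_zero.mp (hlt _ (not_le.mp h)))

/-! ### the parameter `𝕢 h` -/

theorem exists_qParam_eq_of_pos {h : ℝ} (hh : 0 < h) {q : ℂ} (hq : q ≠ 0) (hq1 : ‖q‖ < 1) :
    ∃ τ : ℍ, 𝕢 h (τ : ℂ) = q :=
  ⟨⟨Function.Periodic.invQParam h q,
    Function.Periodic.im_invQParam_pos_of_norm_lt_one hh hq1 hq⟩,
    Function.Periodic.qParam_right_inv hh.ne' hq⟩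

/-- Two convergent series with the same values at all `𝕢 h τ` are equal. -/
theorem eq_of_evalAt_qParam_eq {h : ℝ} (hh : 0 < h) {x y : LaurentSeries ℂ} (hx : IsConv x)
    (hy : IsConv y) (hxy : ∀ τ : ℍ, evalAt (𝕢 h τ) x = evalAt (𝕢 h τ) y) : x = y := by
  refine eq_of_evalAt_eq hx hy fun q hq hq1 => ?_
  obtain ⟨τ, rfl⟩ := exists_qParam_eq_of_pos hh hq hq1
  exact hxy τ

/-- `𝕢 1 ((a τ + b) / e) = exp (2 π i b / e) * (𝕢 N τ) ^ M` if `M e = a N`. -/
theorem qParam_affine {N a b e M : ℕ} (hN : N ≠ 0) (he : e ≠ 0) (hM : M * e = a * N) {z z' : ℂ}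
    (h : z' = (a * z + b) / e) :
    𝕢 1 z' = Complex.exp (2 * π * Complex.I * b / e) * (𝕢 N z) ^ M := by
  simp only [Function.Periodic.qParam]
  rw [← Complex.exp_nat_mul, ← Complex.exp_add, h]
  congr 1
  have hN' : (N : ℂ) ≠ 0 := by exact_mod_cast hN
  have he' : (e : ℂ) ≠ 0 := by exact_mod_cast he
  have hM' : (M : ℂ) * e = a * N := by exact_mod_cast hM
  have hM'' : (M : ℂ) = a * N / e := by rw [← hM', mul_div_cancel_right₀ _ he']
  rw [hM'']
  simp only [Complex.ofReal_one, div_one, Complex.ofReal_natCast]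
  field_simp
  ring

/-! ### the series -/

/-- The series `j (c * w ^ M)`. -/
def cuspSer (M : ℕ) [NeZero M] (c : ℂ) (hc : c ≠ 0) : LaurentSeries ℂ :=
  qExpand ℂ M (twist c hc jqC)

theorem isConv_cuspSer (M : ℕ) [NeZero M] {c : ℂ} (hc : c ≠ 0) (hc1 : ‖c‖ ≤ 1) :
    IsConv (cuspSer M c hc) :=
  (isConv_jqC.twist hc hc1).qExpand M

theorem evalAt_cuspSer (M : ℕ) [NeZero M] {c : ℂ} (hc : c ≠ 0) {w : ℂ} {τ' : ℍ}
    (h : 𝕢 1 (τ' : ℂ) = c * w ^ M) : evalAt w (cuspSer M c hc) = JLocal.kleinJ τ' := by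
  rw [cuspSer, evalAt_qExpand, evalAt_twist, ← h, evalAt_jqC]

theorem coeff_jqC_neg_one : jqC.coeff (-1) = 1 := by
  simp [jqC]

theorem coeff_jqC_of_lt {n : ℤ} (hn : n < -1) : jqC.coeff n = 0 := by
  simp [jqC, coeff_jq_of_lt hn]

theorem coeff_cuspSer_neg (M : ℕ) [NeZero M] {c : ℂ} (hc : c ≠ 0) :
    (cuspSer M c hc).coeff (-(M : ℤ)) = c⁻¹ := by
  rw [cuspSer, show -(M : ℤ) = (M : ℤ) * (-1) by ring, qExpand_coeff_mul, twist_coeff,
    coeff_jqC_neg_one]
  simp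

theorem coeff_cuspSer_of_lt (M : ℕ) [NeZero M] {c : ℂ} (hc : c ≠ 0) {n : ℤ} (hn : n < -(M : ℤ)) :
    (cuspSer M c hc).coeff n = 0 := by
  by_cases hd : (M : ℤ) ∣ n
  · obtain ⟨m, rfl⟩ := hd
    have hM : (0 : ℤ) < M := by exact_mod_cast Nat.pos_of_ne_zero (NeZero.ne M)
    have hm : m < -1 := by
      by_contra hm
      push Not at hm
      nlinarith
    rw [cuspSer, qExpand_coeff_mul, twist_coeff, coeff_jqC_of_lt hm, mul_zero]
  · exact qExpand_coeff_of_not_dvd M _ hd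

theorem order_cuspSer (M : ℕ) [NeZero M] {c : ℂ} (hc : c ≠ 0) :
    (cuspSer M c hc).order = -(M : ℤ) :=
  order_eq_of_coeff (by rw [coeff_cuspSer_neg]; exact inv_ne_zero hc)
    fun _ hn => coeff_cuspSer_of_lt M hc hn

/-- the root of unity `exp (2 π i b / e)`. -/
def rootU (b e : ℕ) : ℂ := Complex.exp (2 * π * Complex.I * b / e)

theorem rootU_ne_zero (b e : ℕ) : rootU b e ≠ 0 := Complex.exp_ne_zero _

theorem norm_rootU (b e : ℕ) : ‖rootU b e‖ = 1 := by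
  rw [rootU, show 2 * (π : ℂ) * Complex.I * b / e = ((2 * π * b / e : ℝ) : ℂ) * Complex.I by
    push_cast; ring]
  exact Complex.norm_exp_ofReal_mul_I _

/-- **Cusp expansion** of `τ ↦ J ((a τ + b) / e)` in the parameter `w = exp (2 π i τ / N)`. -/
theorem evalAt_cuspSer_affine {N a b e M : ℕ} [NeZero M] (hN : N ≠ 0) (he : e ≠ 0)
    (hM : M * e = a * N) {τ τ' : ℍ} (h : (τ' : ℂ) = (a * τ + b) / e) :
    evalAt (𝕢 N τ) (cuspSer M (rootU b e) (rootU_ne_zero b e)) = JLocal.kleinJ τ' :=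
  evalAt_cuspSer M _ (qParam_affine hN he hM h)

theorem isConv_cuspSer_rootU (M : ℕ) [NeZero M] (b e : ℕ) :
    IsConv (cuspSer M (rootU b e) (rootU_ne_zero b e)) :=
  isConv_cuspSer M _ (norm_rootU b e).le

/-- If `J ((a τ + b) / e) = J ((a' τ + b') / e')` for all `τ`, then `a / e = a' / e'`. -/
theorem mul_eq_mul_of_kleinJ_affine_eq {a b e a' b' e' : ℕ} (ha : a ≠ 0) (he : e ≠ 0)
    (ha' : a' ≠ 0) (he' : e' ≠ 0)
    (h : ∀ τ τ₁ τ₂ : ℍ, (τ₁ : ℂ) = (a * τ + b) / e → (τ₂ : ℂ) = (a' * τ + b') / e' →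
      JLocal.kleinJ τ₁ = JLocal.kleinJ τ₂) : a * e' = a' * e := by
  have hN : e * e' ≠ 0 := mul_ne_zero he he'
  have : NeZero (a * e') := ⟨mul_ne_zero ha he'⟩
  have : NeZero (a' * e) := ⟨mul_ne_zero ha' he⟩
  have hpos : (0 : ℝ) < ((e * e' : ℕ) : ℝ) := by exact_mod_cast Nat.pos_of_ne_zero hN
  have key : cuspSer (a * e') (rootU b e) (rootU_ne_zero b e) =
      cuspSer (a' * e) (rootU b' e') (rootU_ne_zero b' e') := by
    refine eq_of_evalAt_qParam_eq hpos (isConv_cuspSer_rootU _ _ _) (isConv_cuspSer_rootU _ _ _)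
      fun τ => ?_
    have him : ∀ (a b e : ℕ), a ≠ 0 → e ≠ 0 → 0 < (((a : ℂ) * τ + b) / e).im := by
      intro a b e ha he
      have ha0 : (0 : ℝ) < a := by exact_mod_cast Nat.pos_of_ne_zero ha
      have he0 : (0 : ℝ) < e := by exact_mod_cast Nat.pos_of_ne_zero he
      have : (((a : ℂ) * τ + b) / e).im = a * τ.im / e := by
        rw [Complex.div_natCast_im]
        simp
      rw [this]
      exact div_pos (mul_pos ha0 τ.im_pos) he0
    rw [evalAt_cuspSer_affine (τ' := ⟨_, him a b e ha he⟩) hN he (by ring) rfl,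
      evalAt_cuspSer_affine (τ' := ⟨_, him a' b' e' ha' he'⟩) hN he' (by ring) rfl]
    exact h τ _ _ rfl rfl
  have h2 := congrArg HahnSeries.order key
  rw [order_cuspSer, order_cuspSer] at h2
  exact_mod_cast neg_injective h2

/-- The analytic half of "the stabiliser of `J (N τ)` is `Γ₀(N)`". -/
theorem eq_one_of_kleinJ_affine_eq {N a b e : ℕ} (hN : N ≠ 0) (hae : a * e = N)
    (h : ∀ τ τ₁ τ₂ : ℍ, (τ₁ : ℂ) = (a * τ + b) / e → (τ₂ : ℂ) = N * τ →
      JLocal.kleinJ τ₁ = JLocal.kleinJ τ₂) : e = 1 ∧ a = N := by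
  have ha : a ≠ 0 := fun h0 => hN (by rw [← hae, h0, zero_mul])
  have he : e ≠ 0 := fun h0 => hN (by rw [← hae, h0, mul_zero])
  have h1 := mul_eq_mul_of_kleinJ_affine_eq (a' := N) (b' := 0) (e' := 1) ha he hN one_ne_zero
    (fun τ τ₁ τ₂ h₁ h₂ => h τ τ₁ τ₂ h₁ (by rw [h₂]; simp))
  rw [mul_one, ← hae] at h1
  have h2 : e * e = 1 := by
    have : a * (e * e) = a * 1 := by rw [mul_one]; nlinarith
    exact Nat.eq_of_mul_eq_mul_left (Nat.pos_of_ne_zero ha) this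
  have h3 : e = 1 := by
    exact Nat.eq_one_of_mul_eq_one_right h2
  exact ⟨h3, by rw [← hae, h3, mul_one]⟩

/-! ### growth at `i∞` -/

theorem IsConv.isBigO_atImInfty {x : LaurentSeries ℂ} (hx : IsConv x) {k : ℤ}
    (hk : ∀ n < k, x.coeff n = 0) {h : ℝ} (hh : 0 < h) :
    (fun τ : ℍ => evalAt (𝕢 h τ) x) =O[atImInfty]
      fun τ : ℍ => Real.exp (-2 * π * k * τ.im / h) := by
  obtain ⟨g, hg, -, hev⟩ := hx.exists_analytic hk
  have hgc : ContinuousAt g 0 := hg.hasFPowerSeriesAt.continuousAt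
  have ht : Tendsto (fun τ : ℍ => 𝕢 h (τ : ℂ)) atImInfty (𝓝 0) :=
    qParam_tendsto_atImInfty hh
  have h1 : (fun τ : ℍ => g (𝕢 h τ)) =O[atImInfty] fun _ : ℍ => (1 : ℝ) :=
    (hgc.tendsto.comp ht).isBigO_one ℝ
  have h2 : (fun τ : ℍ => (𝕢 h (τ : ℂ)) ^ k) =O[atImInfty]
      fun τ : ℍ => Real.exp (-2 * π * k * τ.im / h) := by
    refine Asymptotics.IsBigO.of_bound 1 (Eventually.of_forall fun τ => ?_)
    rw [norm_zpow, Function.Periodic.norm_qParam, ← Real.rpow_intCast, ← Real.exp_mul, one_mul,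
      Real.norm_of_nonneg (Real.exp_pos _).le]
    apply le_of_eq
    congr 1
    simp only [UpperHalfPlane.coe_im]
    ring
  have h3 := h2.mul h1
  simp only [mul_one] at h3
  refine h3.congr_left fun τ => ?_
  exact (hev _ (Function.Periodic.qParam_ne_zero _)
    (Function.Periodic.norm_qParam_lt_one hh τ.im_pos)).symm

end Fermat.Agent.S24
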