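import Mathlib
import Fermat.Agent.S24.Cayley
import Fermat.Agent.S24.JLocal
import Fermat.Agent.S24.JOrder

set_option autoImplicit false

open UpperHalfPlane Complex Filter Topology Function
open scoped ComplexConjugate Nat Manifold MatrixGroups

namespace Fermat.Agent.S24.TauRing

noncomputable section

/-- The ring of holomorphic functions on `ℍ`. -/
abbrev Rhol : Subring (ℍ → ℂ) := holoSubring

/-- Expansion of a holomorphic function on `ℍ` in the disc coordinate at `τ₀`, as a Laurent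
series. -/
def Etau (τ₀ : ℍ) : Rhol →+* LaurentSeries ℂ :=
  (HahnSeries.ofPowerSeries ℤ ℂ).comp (cayHom τ₀)

theorem Etau_apply (τ₀ : ℍ) (f : Rhol) :
    Etau τ₀ f = HahnSeries.ofPowerSeries ℤ ℂ (cayExp τ₀ f.1) := rfl

theorem Etau_injective (τ₀ : ℍ) : Injective (Etau τ₀) :=
  HahnSeries.ofPowerSeries_injective.comp (cayHom_injective τ₀)

theorem Etau_coeff_natCast (τ₀ : ℍ) (f : Rhol) (n : ℕ) :
    (Etau τ₀ f).coeff (n : ℤ) = (cayExp τ₀ f.1).coeff n := by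
  rw [Etau_apply]
  exact LaurentSeries.coeff_coe_powerSeries _ n

theorem Etau_coeff_of_neg (τ₀ : ℍ) (f : Rhol) {m : ℤ} (hm : m < 0) :
    (Etau τ₀ f).coeff m = 0 := by
  rw [Etau_apply]
  have := PowerSeries.coeff_coe (cayExp τ₀ f.1) m
  rw [if_pos hm] at this
  exact this

theorem const_mem (c : ℂ) : (fun _ : ℍ => c) ∈ Rhol :=
  mem_holoSubring.mpr mdifferentiable_const

theorem Etau_const (τ₀ : ℍ) (c : ℂ) : Etau τ₀ ⟨fun _ => c, const_mem c⟩ = HahnSeries.C c := by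
  rw [Etau_apply, cayExp_const]
  exact HahnSeries.ofPowerSeries_C c

/-- ORDER. -/
theorem Etau_order (τ₀ : ℍ) (f : Rhol) {n : ℕ}
    (h : analyticOrderAt (f.1 ∘ ofComplex) (τ₀ : ℂ) = n) : (Etau τ₀ f).order = n := by
  have h1 : (cayExp τ₀ f.1).order = n := by
    rw [order_cayExp τ₀ (mem_holoSubring.mp f.2), h]
  have hn : (Etau τ₀ f).coeff (n : ℤ) ≠ 0 := by
    rw [Etau_coeff_natCast]
    have hne0 : cayExp τ₀ f.1 ≠ 0 := by
      intro h0
      rw [h0, PowerSeries.order_zero] at h1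
      exact ENat.top_ne_natCast n h1
    have := PowerSeries.coeff_order hne0
    rwa [h1, ENat.toNat_natCast] at this
  have hne : Etau τ₀ f ≠ 0 := by
    intro h0
    rw [h0] at hn
    exact hn rfl
  refine le_antisymm (HahnSeries.order_le_of_coeff_ne_zero hn) ?_
  by_contra hlt
  rw [not_le] at hlt
  apply hne
  apply HahnSeries.coeff_order_eq_zero.mp
  rcases lt_or_ge (Etau τ₀ f).order 0 with hm | hm
  · exact Etau_coeff_of_neg _ _ hm
  · obtain ⟨i, hi⟩ := Int.eq_ofNat_of_zero_le hm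
    rw [hi, Etau_coeff_natCast]
    apply PowerSeries.coeff_of_lt_order
    rw [h1]
    rw [hi] at hlt
    exact_mod_cast hlt

/-- multiplier of the inverse. -/
theorem rotFactor_inv (g : SL(2, ℤ)) {τ₀ : ℍ} (h : g • τ₀ = τ₀) :
    rotFactor g⁻¹ τ₀ = (rotFactor g τ₀)⁻¹ := by
  have h' : g⁻¹ • τ₀ = τ₀ := by
    conv_lhs => rw [← h]
    rw [inv_smul_smul]
  obtain ⟨τ, hτ⟩ := exists_cay_eq τ₀ (w := 1 / 2) (by norm_num)
  have h1 := cay_smul g⁻¹ h' (g • τ)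
  rw [inv_smul_smul, cay_smul g h, hτ] at h1
  have h2 : rotFactor g⁻¹ τ₀ * rotFactor g τ₀ = 1 := by
    have : (1 / 2 : ℂ) ≠ 0 := by norm_num
    apply mul_right_cancel₀ this
    rw [one_mul, mul_assoc, ← h1]
  exact eq_inv_of_mul_eq_one_left h2

/-- ROTATION, in the shape of the hypothesis `h` of `Embed.Data.sigma_smul_coeff`. -/
theorem Etau_rotation {g₀ : SL(2, ℤ)} {τ₀ : ℍ} (h : g₀ • τ₀ = τ₀) (f f' : Rhol)
    (hf : ∀ τ, f'.1 τ = f.1 (g₀⁻¹ • τ)) (m : ℤ) :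
    (Etau τ₀ f').coeff m = ((rotFactor g₀ τ₀)⁻¹) ^ m * (Etau τ₀ f).coeff m := by
  have h' : g₀⁻¹ • τ₀ = τ₀ := by
    conv_lhs => rw [← h]
    rw [inv_smul_smul]
  rcases lt_or_ge m 0 with hm | hm
  · rw [Etau_coeff_of_neg _ _ hm, Etau_coeff_of_neg _ _ hm, mul_zero]
  · obtain ⟨n, rfl⟩ := Int.eq_ofNat_of_zero_le hm
    rw [Etau_coeff_natCast, Etau_coeff_natCast, zpow_natCast, ← rotFactor_inv g₀ h]
    have e : f'.1 = fun τ : ℍ => f.1 (g₀⁻¹ • τ) := funext hf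
    rw [e]
    exact coeff_cayExp_comp_smul g₀⁻¹ h' (mem_holoSubring.mp f.2) n

theorem isPrimitiveRoot_S {τ₀ : ℍ} (h : ModularGroup.S • τ₀ = τ₀) :
    IsPrimitiveRoot (rotFactor ModularGroup.S τ₀)⁻¹ 2 :=
  (isPrimitiveRoot_rotFactor_S h).inv

theorem isPrimitiveRoot_ST {τ₀ : ℍ} (h : (ModularGroup.S * ModularGroup.T) • τ₀ = τ₀) :
    IsPrimitiveRoot (rotFactor (ModularGroup.S * ModularGroup.T) τ₀)⁻¹ 3 :=
  (isPrimitiveRoot_rotFactor_ST h).inv

theorem rotFactor_one (τ₀ : ℍ) : rotFactor 1 τ₀ = 1 := by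
  simp [rotFactor]

/-! ### The function `J - c` -/

open JLocal in
theorem kleinJ_sub_mem (c : ℂ) : (fun τ : ℍ => kleinJ τ - c) ∈ Rhol :=
  mem_holoSubring.mpr (mdifferentiable_kleinJ.sub mdifferentiable_const)

open JLocal in
/-- the element `J - c` of `Rhol`. -/
def Jsub (c : ℂ) : Rhol := ⟨fun τ : ℍ => kleinJ τ - c, kleinJ_sub_mem c⟩

open JLocal in
theorem Etau_order_Jsub_generic {τ₀ : ℍ} (h0 : kleinJ τ₀ ≠ 0) (h1 : kleinJ τ₀ ≠ 1728) :
    (Etau τ₀ (Jsub (kleinJ τ₀))).order = 1 := by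
  have := Etau_order τ₀ (Jsub (kleinJ τ₀)) (n := 1) (analyticOrderAt_kleinJ_sub h0 h1)
  exact_mod_cast this

open JLocal in
theorem Etau_order_Jsub_1728 {τ₀ : ℍ} (h : ModularGroup.S • τ₀ = τ₀) :
    (Etau τ₀ (Jsub 1728)).order = 2 := by
  have := Etau_order τ₀ (Jsub 1728) (n := 2)
    (analyticOrderAt_kleinJ_sub_of_E₆_eq_zero (JOrder.E₆_eq_zero_of_S_smul h))
  exact_mod_cast this

open JLocal in
theorem Etau_order_Jsub_zero {τ₀ : ℍ} (h : (ModularGroup.S * ModularGroup.T) • τ₀ = τ₀) :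
    (Etau τ₀ (Jsub 0)).order = 3 := by
  have h3 : analyticOrderAt ((Jsub 0).1 ∘ ofComplex) (τ₀ : ℂ) = (3 : ℕ) := by
    have := analyticOrderAt_kleinJ_of_E₄_eq_zero (JOrder.E₄_eq_zero_of_ST_smul h)
    have e : (Jsub 0).1 ∘ ofComplex = fun w : ℂ => kleinJ (ofComplex w) := by
      funext w
      simp [Jsub]
    rw [e, this]
    rfl
  have := Etau_order τ₀ (Jsub 0) (n := 3) h3
  exact_mod_cast this

end

end Fermat.Agent.S24.TauRing
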